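import Fermat.Agent.Corollaries.RayG.FormCone
import Fermat.Agent.Corollaries.Ray.FormDensity

/-!
# The angles of the primes `x² + n y²`
-/

set_option autoImplicit false
set_option linter.unusedSectionVars false

noncomputable section

open NumberField NumberField.InfinitePlace NumberField.Units nonZeroDivisors Filter Topology Module
open QuadraticAlgebra

open scoped Classical

namespace Fermat.Agent.Cor.RayG

open Fermat.Agent.ClassL Fermat.Agent.Cor.Ray Fermat.Agent.Cor.RayN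

/-! ### Arithmetic -/

/-- the representation of a prime by `x² + n y²`, `x, y > 0`, is unique -/
theorem repr_unique {n : ℤ} (hn : 1 < n) {p : ℕ} (hp : p.Prime) {u v u' v' : ℤ} (hu : 0 < u)
    (hv : 0 < v) (hu' : 0 < u') (hv' : 0 < v') (h : u ^ 2 + n * v ^ 2 = p)
    (h' : u' ^ 2 + n * v' ^ 2 = p) : u = u' ∧ v = v' := by
  have hp0 : (0 : ℤ) < p := by exact_mod_cast hp.pos
  have hlarge : ∀ S X : ℤ, (p : ℤ) ∣ S → (p : ℤ) ^ 2 = X ^ 2 + n * S ^ 2 → S = 0 := by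
    intro S X hS hX
    by_contra hS0
    obtain ⟨k, hk⟩ := hS
    have hk0 : k ≠ 0 := by
      rintro rfl
      exact hS0 (by rw [hk, mul_zero])
    have h1 : 1 ≤ k ^ 2 := by
      have := sq_pos_of_pos (abs_pos.mpr hk0)
      rw [sq_abs] at this
      linarith
    have h2 : (p : ℤ) ^ 2 ≤ S ^ 2 := by
      rw [hk, mul_pow]
      nlinarith [sq_nonneg (p : ℤ)]
    have h3 : 0 < (p : ℤ) ^ 2 := by positivity
    nlinarith [sq_nonneg X]
  have hdvd : (p : ℤ) ∣ (u * v' - u' * v) * (u * v' + u' * v) := by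
    refine ⟨v' ^ 2 - v ^ 2, ?_⟩
    linear_combination v' ^ 2 * h - v ^ 2 * h'
  have hΔ : u * v' - u' * v = 0 := by
    rcases (Nat.prime_iff_prime_int.mp hp).dvd_or_dvd hdvd with h1 | h1
    · refine hlarge _ (u * u' + n * v * v') h1 ?_
      linear_combination (-(p : ℤ)) * h' - (u' ^ 2 + n * v' ^ 2) * h
    · exfalso
      have h2 := hlarge _ (u * u' - n * v * v') h1 (by
        linear_combination (-(p : ℤ)) * h' - (u' ^ 2 + n * v' ^ 2) * h)
      have h3 := mul_pos hu hv'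
      have h4 := mul_pos hu' hv
      linarith
  have h1 : (p : ℤ) * (u ^ 2 - u' ^ 2) = 0 := by
    linear_combination (-(u ^ 2)) * h' + u' ^ 2 * h + n * (u * v' + u' * v) * hΔ
  have h2 : u ^ 2 = u' ^ 2 := by
    have := (mul_eq_zero.mp h1).resolve_left hp0.ne'
    linarith
  have h3 : u = u' := by
    have := abs_eq_abs.mpr (sq_eq_sq_iff_eq_or_eq_neg.mp h2)
    rwa [abs_of_pos hu, abs_of_pos hu'] at this
  refine ⟨h3, ?_⟩
  have h4 : u' * (v' - v) = 0 := by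
    rw [h3] at hΔ
    linear_combination hΔ
  have := (mul_eq_zero.mp h4).resolve_left hu'.ne'
  linarith

/-- the direction of a complex number in the first quadrant -/
theorem exists_e2_iff {ζ : ℂ} (hζ : ζ ≠ 0) {α β : ℝ} (h0 : 0 ≤ α) (h1 : β ≤ 1 / 4) :
    (∃ t ∈ Set.Ioo α β, ζ / ((‖ζ‖ : ℝ) : ℂ) = e2 t) ↔
      2 * Real.pi * α < ζ.arg ∧ ζ.arg < 2 * Real.pi * β := by
  have hpi := Real.pi_pos
  have hn : 0 < ‖ζ‖ := norm_pos_iff.mpr hζ
  have hn' : ((‖ζ‖ : ℝ) : ℂ) ≠ 0 := by exact_mod_cast hn.ne'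
  constructor
  · rintro ⟨t, ht, h⟩
    have h2 : ζ = ((‖ζ‖ : ℝ) : ℂ) * (Complex.cos ((2 * Real.pi * t : ℝ) : ℂ) +
        Complex.sin ((2 * Real.pi * t : ℝ) : ℂ) * Complex.I) := by
      rw [← Complex.exp_mul_I]
      have h3 : Complex.exp (((2 * Real.pi * t : ℝ) : ℂ) * Complex.I) = e2 t := by
        rw [e2]
        congr 1
        push_cast
        ring
      rw [h3, ← h]
      exact eq_norm_mul hζ
    have h3 : ζ.arg = 2 * Real.pi * t := by
      conv_lhs => rw [h2]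
      refine Complex.arg_mul_cos_add_sin_mul_I hn ⟨?_, ?_⟩
      · nlinarith [ht.1]
      · nlinarith [ht.2]
    rw [h3]
    exact ⟨mul_lt_mul_of_pos_left ht.1 (by positivity),
      mul_lt_mul_of_pos_left ht.2 (by positivity)⟩
  · rintro ⟨h2, h3⟩
    refine ⟨ζ.arg / (2 * Real.pi), ⟨?_, ?_⟩, ?_⟩
    · rw [lt_div_iff₀ (by positivity)]
      linarith
    · rw [div_lt_iff₀ (by positivity)]
      linarith
    · have h4 : e2 (ζ.arg / (2 * Real.pi)) = Complex.exp (ζ.arg * Complex.I) := by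
        rw [e2]
        congr 1
        push_cast
        have : (Real.pi : ℂ) ≠ 0 := by exact_mod_cast hpi.ne'
        field_simp
      rw [h4, div_eq_iff hn', mul_comm]
      exact (Complex.norm_mul_exp_arg_mul_I ζ).symm

theorem pos_of_e2 {ζ : ℂ} (hζ : ζ ≠ 0) {t : ℝ} (h0 : 0 < t) (h1 : t < 1 / 4)
    (h : ζ / ((‖ζ‖ : ℝ) : ℂ) = e2 t) : 0 < ζ.re ∧ 0 < ζ.im := by
  have hpi := Real.pi_pos
  have hn : 0 < ‖ζ‖ := norm_pos_iff.mpr hζ
  have h2 : ζ = ((‖ζ‖ : ℝ) : ℂ) * Complex.exp (((2 * Real.pi * t : ℝ) : ℂ) * Complex.I) := by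
    have h3 : Complex.exp (((2 * Real.pi * t : ℝ) : ℂ) * Complex.I) = e2 t := by
      rw [e2]
      congr 1
      push_cast
      ring
    rw [h3, ← h]
    exact eq_norm_mul hζ
  have h3 : ζ.re = ‖ζ‖ * Real.cos (2 * Real.pi * t) := by
    conv_lhs => rw [h2]
    rw [Complex.re_ofReal_mul, Complex.exp_ofReal_mul_I_re]
  have h4 : ζ.im = ‖ζ‖ * Real.sin (2 * Real.pi * t) := by
    conv_lhs => rw [h2]
    rw [Complex.im_ofReal_mul, Complex.exp_ofReal_mul_I_im]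
  rw [h3, h4]
  have h5 : 0 < 2 * Real.pi * t := by positivity
  have h6 : 2 * Real.pi * t < Real.pi / 2 := by nlinarith
  exact ⟨mul_pos hn (Real.cos_pos_of_mem_Ioo ⟨by linarith, h6⟩),
    mul_pos hn (Real.sin_pos_of_pos_of_lt_pi h5 (by linarith))⟩

section Count

variable {n : ℤ} [hF : Fact (∀ r : ℚ, r ^ 2 ≠ -(((1 : ℤ) : ℚ) * n) + -((0 : ℤ) : ℚ) * r)]

variable (n) in
/-- the modulus `2 D` -/
def mT : Ideal (𝓞 (QF 1 0 n)) :=
  Ideal.span {((2 * ((0 : ℤ) ^ 2 - 4 * 1 * n) * 1 : ℤ) : 𝓞 (QF 1 0 n))}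

variable (n) in
/-- `x + s y θ` -/
def cm (s : ℤ) (z : ℤ × ℤ) : 𝓞 (QF 1 0 n) :=
  ((z.1 : ℤ) : 𝓞 (QF 1 0 n)) + ((s * z.2 : ℤ) : 𝓞 (QF 1 0 n)) * thetaQ 1 0 n

theorem norm_cm {s : ℤ} (hs : s * s = 1) (z : ℤ × ℤ) :
    Algebra.norm ℤ (cm n s z) = z.1 ^ 2 + n * z.2 ^ 2 := by
  have h := norm_comb (a := 1) (b := 0) (c := n) z.1 (s * z.2)
  have e : cm n s z = (((z.1 * 1 : ℤ)) : 𝓞 (QF 1 0 n)) +
      ((s * z.2 : ℤ) : 𝓞 (QF 1 0 n)) * thetaQ 1 0 n := by rw [cm, mul_one]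
  rw [e, h]
  linear_combination (n * z.2 ^ 2) * hs

theorem absNorm_cm {s : ℤ} (hs : s * s = 1) (z : ℤ × ℤ) :
    Ideal.absNorm (Ideal.span {cm n s z}) = (z.1 ^ 2 + n * z.2 ^ 2).natAbs := by
  rw [Ideal.absNorm_span_singleton, norm_cm hs]

theorem cm_inj {s : ℤ} (hs : s * s = 1) {z z' : ℤ × ℤ} (h : cm n s z = cm n s z') : z = z' := by
  obtain ⟨h1, h2⟩ := comb_inj h
  have hs0 : s ≠ 0 := by
    rintro rfl
    norm_num at hs
  exact Prod.ext h1 (mul_left_cancel₀ hs0 h2)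

theorem exists_cm {s : ℤ} (hs : s * s = 1) {z₀ : ℤ × ℤ} {ξ : 𝓞 (QF 1 0 n)}
    (h : ξ - cm n s z₀ ∈ mT n) : ∃ z, ξ = cm n s z := by
  obtain ⟨k, hk⟩ := Ideal.mem_span_singleton'.mp h
  obtain ⟨x', y', hxy⟩ := exists_comb_mul k
  refine ⟨(z₀.1 + x', z₀.2 + s * y'), ?_⟩
  have h1 : s * (z₀.2 + s * y') = s * z₀.2 + y' := by linear_combination y' * hs
  rw [cm, h1]
  rw [cm] at hk
  push_cast
  push_cast at hk hxy
  linear_combination -hk + hxy

/-- the points to be counted -/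
def Gp (s : ℤ) (α β : ℝ) (x : ℕ) (z : ℤ × ℤ) : Prop :=
  Ideal.absNorm (Ideal.span {cm n s z}) ≤ x ∧ (Ideal.absNorm (Ideal.span {cm n s z})).Prime ∧
    IsCoprime (Ideal.span {cm n s z}) (mT n) ∧
    ∃ t ∈ Set.Ioo α β, chi (fun _ => 1) (0 : InfinitePlace (QF 1 0 n) → ℝ)
      (cm n s z : QF 1 0 n) = e2 t

theorem finite_Gp (hn : 0 < n) {s : ℤ} (hs : s * s = 1) (α β : ℝ) (x : ℕ) :
    {z : ℤ × ℤ | Gp (n := n) s α β x z}.Finite := by
  refine ((Set.finite_Icc (-(x : ℤ)) x).prod (Set.finite_Icc (-(x : ℤ)) x)).subset ?_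
  rintro z ⟨h, -⟩
  rw [absNorm_cm hs] at h
  have h1 : z.1 ^ 2 + n * z.2 ^ 2 ≤ x := by
    have h2 : (0 : ℤ) ≤ z.1 ^ 2 + n * z.2 ^ 2 := by positivity
    omega
  have h2 : ∀ a : ℤ, a ^ 2 ≤ x → a ∈ Set.Icc (-(x : ℤ)) x := by
    intro a ha
    have h3 : |a| ≤ a ^ 2 := by
      rcases eq_or_ne a 0 with rfl | h0
      · simp
      · have h4 := Int.one_le_abs h0
        rw [← sq_abs]
        nlinarith
    exact Set.mem_Icc.mpr (abs_le.mp (h3.trans ha))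
  refine Set.mem_prod.mpr ⟨h2 _ ?_, h2 _ ?_⟩
  · nlinarith [sq_nonneg z.2, mul_nonneg hn.le (sq_nonneg z.2)]
  · nlinarith [sq_nonneg z.1, sq_nonneg z.2]

theorem disc_neg (hn : 0 < n) : (0 : ℤ) ^ 2 - 4 * 1 * n < 0 := by linarith

theorem mT_ne_bot (hn : 0 < n) : mT n ≠ ⊥ := by
  rw [mT, Ne, Ideal.span_singleton_eq_bot]
  have h1 : (2 * ((0 : ℤ) ^ 2 - 4 * 1 * n) * 1 : ℤ) ≠ 0 := by
    intro h
    linarith
  exact_mod_cast h1

theorem eq_of_span_eq (hn : 0 < n) {s : ℤ} (hs : s * s = 1) {z z' : ℤ × ℤ}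
    (hco : IsCoprime (Ideal.span {cm n s z}) (mT n)) (hmem : cm n s z' - cm n s z ∈ mT n)
    (h : Ideal.span {cm n s z} = Ideal.span {cm n s z'}) : z = z' := by
  obtain ⟨v, hv⟩ := Ideal.span_singleton_eq_span_singleton.mp h
  obtain ⟨b, hb⟩ := isCoprime_span_iff.mp hco
  have h1 : (v : 𝓞 (QF 1 0 n)) - 1 ∈ mT n := by
    have h2 : (v : 𝓞 (QF 1 0 n)) - 1 = b * (cm n s z' - cm n s z) -
        (b * cm n s z - 1) * ((v : 𝓞 (QF 1 0 n)) - 1) := by
      linear_combination b * hv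
    rw [h2]
    exact (mT n).sub_mem ((mT n).mul_mem_left _ hmem) ((mT n).mul_mem_right _ hb)
  have h2 := unit_eq_one (disc_neg hn) (M := 1) one_ne_zero h1
  rw [h2, mul_one] at hv
  exact cm_inj hs hv

theorem card_class (hn : 0 < n) {s : ℤ} (hs : s * s = 1) (α β : ℝ) (x : ℕ) {z₀ : ℤ × ℤ}
    (hz₀ : IsCoprime (Ideal.span {cm n s z₀}) (mT n)) :
    Nat.card {z : ℤ × ℤ // Gp (n := n) s α β x z ∧ cm n s z - cm n s z₀ ∈ mT n} =
    Nat.card {P : Pr (QF 1 0 n) //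
      Ideal.absNorm ((P.1 : (Ideal (𝓞 (QF 1 0 n)))⁰) : Ideal (𝓞 (QF 1 0 n))) ≤ x ∧
      (Ideal.absNorm ((P.1 : (Ideal (𝓞 (QF 1 0 n)))⁰) : Ideal (𝓞 (QF 1 0 n)))).Prime ∧
      ∃ ξ : 𝓞 (QF 1 0 n), ((1 : (Ideal (𝓞 (QF 1 0 n)))⁰) : Ideal (𝓞 (QF 1 0 n))) *
          ((P.1 : (Ideal (𝓞 (QF 1 0 n)))⁰) : Ideal (𝓞 (QF 1 0 n))) = Ideal.span {ξ} ∧
        ξ - cm n s z₀ ∈ mT n ∧
        (∀ w : RP (QF 1 0 n), 0 < em w (ξ : QF 1 0 n) * em w (cm n s z₀ : QF 1 0 n)) ∧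
        ∃ t ∈ Set.Ioo α β, chi (fun _ => 1) (0 : InfinitePlace (QF 1 0 n) → ℝ)
          (ξ : QF 1 0 n) = e2 t} := by
  have hne : ∀ z, (Ideal.absNorm (Ideal.span {cm n s z})).Prime → Ideal.span {cm n s z} ≠ ⊥ := by
    intro z hz h0
    rw [h0, Ideal.absNorm_bot] at hz
    exact Nat.not_prime_zero hz
  refine Nat.card_congr (Equiv.ofBijective (fun z => ⟨⟨⟨Ideal.span {cm n s z.1},
    mem_nonZeroDivisors_of_ne_zero (hne z.1 z.2.1.2.1)⟩,
    Ideal.prime_of_isPrime (hne z.1 z.2.1.2.1)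
      (Ideal.isPrime_of_irreducible_absNorm z.2.1.2.1)⟩, z.2.1.1, z.2.1.2.1,
    cm n s z.1, by rw [OneMemClass.coe_one, one_mul], z.2.2,
    fun w => absurd (isComplex_of_neg (disc_neg hn) w.1) (not_isComplex_iff_isReal.mpr w.2),
    z.2.1.2.2.2⟩) ⟨?_, ?_⟩)
  · intro z z' h
    have h1 : Ideal.span {cm n s z.1} = Ideal.span {cm n s z'.1} :=
      congrArg (fun q => ((q.1.1 : (Ideal (𝓞 (QF 1 0 n)))⁰) : Ideal (𝓞 (QF 1 0 n)))) h
    refine Subtype.ext (eq_of_span_eq hn hs z.2.1.2.2.1 ?_ h1)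
    have h2 := (mT n).sub_mem z'.2.2 z.2.2
    rwa [sub_sub_sub_cancel_right] at h2
  · rintro ⟨P, hPx, hPp, ξ, hspan, hξ, -, hχ⟩
    obtain ⟨z, rfl⟩ := exists_cm hs hξ
    rw [OneMemClass.coe_one, one_mul] at hspan
    have hco : IsCoprime (Ideal.span {cm n s z}) (mT n) := by
      obtain ⟨b, hb⟩ := isCoprime_span_iff.mp hz₀
      refine isCoprime_span_iff.mpr ⟨b, ?_⟩
      have h1 : b * cm n s z - 1 = (b * cm n s z₀ - 1) + b * (cm n s z - cm n s z₀) := by ring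
      rw [h1]
      exact (mT n).add_mem hb ((mT n).mul_mem_left _ hξ)
    refine ⟨⟨z, ⟨by rw [← hspan]; exact hPx, by rw [← hspan]; exact hPp, hco, hχ⟩, hξ⟩, ?_⟩
    refine Subtype.ext (Subtype.ext (Subtype.ext ?_))
    exact hspan.symm

/-- **The number of points of prime value in a sector.** -/
theorem tendsto_Gp (hn : 0 < n) {s : ℤ} (hs : s * s = 1) : ∃ c₀ : ℝ, ∀ α β : ℝ, α ≤ β →
    β ≤ α + 1 → Tendsto (fun x : ℕ =>
      (Nat.card {z : ℤ × ℤ // Gp (n := n) s α β x z} : ℝ) * Real.log x / x) atTop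
      (𝓝 (c₀ * (β - α))) := by
  have hfq : Finite (𝓞 (QF 1 0 n) ⧸ mT n) := Ideal.finiteQuotientOfFreeOfNeBot _ (mT_ne_bot hn)
  let Rt := {q : 𝓞 (QF 1 0 n) ⧸ mT n // ∃ z : ℤ × ℤ, IsCoprime (Ideal.span {cm n s z}) (mT n) ∧
    Ideal.Quotient.mk (mT n) (cm n s z) = q}
  have : Fintype Rt := Fintype.ofFinite Rt
  refine ⟨(Fintype.card Rt : ℝ) / nRayNumber (mT n), fun α β h1 h2 => ?_⟩
  obtain ⟨w⟩ : Nonempty (InfinitePlace (QF 1 0 n)) := inferInstance
  have hclass : ∀ q : Rt, Tendsto (fun x : ℕ => (Nat.card {z : ℤ × ℤ //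
      Gp (n := n) s α β x z ∧ Ideal.Quotient.mk (mT n) (cm n s z) = q.1} : ℝ) *
        Real.log x / x) atTop (𝓝 ((β - α) / nRayNumber (mT n))) := by
    rintro ⟨q, z₀, hz₀, rfl⟩
    have hξ₀ : cm n s z₀ ≠ 0 := by
      intro h0
      have h3 := isCoprime_span_iff.mp hz₀
      rw [h0] at h3
      obtain ⟨b, hb⟩ := h3
      rw [mul_zero, zero_sub] at hb
      have htop : mT n = ⊤ := by
        rw [Ideal.eq_top_iff_one]
        have := (mT n).neg_mem hb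
        rwa [neg_neg] at this
      have h4 := unit_eq_one (disc_neg hn) (M := 1) one_ne_zero (v := -1)
        (by change _ ∈ mT n; rw [htop]; trivial)
      have h5 : (2 : 𝓞 (QF 1 0 n)) = 0 := by
        rw [Units.val_neg, Units.val_one] at h4
        linear_combination -h4
      exact two_ne_zero h5
    have hAB : ((1 : (Ideal (𝓞 (QF 1 0 n)))⁰) : Ideal (𝓞 (QF 1 0 n))) *
        ((sp (cm n s z₀) hξ₀ : (Ideal (𝓞 (QF 1 0 n)))⁰) : Ideal (𝓞 (QF 1 0 n))) =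
        Ideal.span {cm n s z₀} := by
      rw [OneMemClass.coe_one, one_mul]
      rfl
    have key := hecke_arc_ideal_deg_one (n := fun _ => 1) (κ := 0) (mT_ne_bot hn)
      ⟨fun _ _ => le_rfl, by simp⟩
      (Or.inr ⟨w, isComplex_of_neg (disc_neg hn) w, one_ne_zero⟩)
      (fun v hv => by
        rw [unit_eq_one (disc_neg hn) (M := 1) one_ne_zero hv]
        exact chi_one _ _) hξ₀ (by rw [OneMemClass.coe_one]; exact isCoprime_one_left)
      (B := sp (cm n s z₀) hξ₀) hz₀ hAB h1 h2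
    refine key.congr fun x => ?_
    rw [← card_class hn hs α β x hz₀]
    simp only [Ideal.Quotient.eq]
  have hsum := tendsto_finsetSum Finset.univ fun q (_ : q ∈ (Finset.univ : Finset Rt)) => hclass q
  rw [Finset.sum_const, Finset.card_univ, nsmul_eq_mul] at hsum
  have e1 : (Fintype.card Rt : ℝ) / nRayNumber (mT n) * (β - α) =
      (Fintype.card Rt : ℝ) * ((β - α) / nRayNumber (mT n)) := by ring
  rw [e1]
  refine hsum.congr fun x => ?_
  have hfin : Finite {z : ℤ × ℤ // Gp (n := n) s α β x z} := (finite_Gp hn hs α β x).to_subtype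
  let f : {z : ℤ × ℤ // Gp (n := n) s α β x z} → Rt := fun z =>
    ⟨Ideal.Quotient.mk (mT n) (cm n s z.1), z.1, z.2.2.2.1, rfl⟩
  have e2' : Nat.card {z : ℤ × ℤ // Gp (n := n) s α β x z} =
      ∑ q : Rt, Nat.card {z : ℤ × ℤ //
        Gp (n := n) s α β x z ∧ Ideal.Quotient.mk (mT n) (cm n s z) = q.1} := by
    rw [← Nat.card_congr (Equiv.sigmaFiberEquiv f), Nat.card_sigma]
    refine Finset.sum_congr rfl fun q _ => Nat.card_congr ?_
    exact
      { toFun := fun y => ⟨y.1.1, y.1.2, congrArg Subtype.val y.2⟩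
        invFun := fun y => ⟨⟨y.1, y.2.1⟩, Subtype.ext y.2.2⟩
        left_inv := fun _ => rfl
        right_inv := fun _ => rfl }
  rw [e2', Nat.cast_sum, Finset.sum_mul, Finset.sum_div]

theorem exists_emb_cm (hn : 0 < n) : ∃ (w : InfinitePlace (QF 1 0 n)) (s : ℤ), s * s = 1 ∧
    ∀ z : ℤ × ℤ, w.embedding (cm n s z : QF 1 0 n) =
      (z.1 : ℂ) + z.2 * ((√(n : ℝ) : ℝ) : ℂ) * Complex.I := by
  obtain ⟨w⟩ : Nonempty (InfinitePlace (QF 1 0 n)) := inferInstance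
  have hτ := im_theta_ne_zero (disc_neg hn) w.embedding
  have h1 := emb_theta_sq w.embedding
  set τ := w.embedding (thetaQ 1 0 n : QF 1 0 n) with hτdef
  have him := congrArg Complex.im h1
  have hre := congrArg Complex.re h1
  simp only [Complex.mul_im, Complex.mul_re, Complex.neg_im, Complex.neg_re, Complex.intCast_re,
    Complex.intCast_im, Int.cast_one, Int.cast_zero, zero_mul, one_mul, sub_zero,
    neg_zero] at him hre
  have hre0 : τ.re = 0 := by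
    have h2 : τ.re * τ.im = 0 := by linarith
    exact (mul_eq_zero.mp h2).resolve_right hτ
  have hsq : τ.im ^ 2 = n := by
    rw [hre0] at hre
    linarith
  have habs : |τ.im| = √(n : ℝ) := by rw [← hsq, Real.sqrt_sq_eq_abs]
  have hemb : ∀ (s : ℤ) (z : ℤ × ℤ), w.embedding (cm n s z : QF 1 0 n) =
      (z.1 : ℂ) + (s * z.2 : ℤ) * τ := by
    intro s z
    have e1 : (cm n s z : QF 1 0 n) = ((z.1 : ℤ) : QF 1 0 n) +
        ((s * z.2 : ℤ) : QF 1 0 n) * (thetaQ 1 0 n : QF 1 0 n) := by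
      rw [cm, RingOfIntegers.coe_eq_algebraMap, map_add, map_mul, map_intCast, map_intCast]
    rw [e1, map_add, map_mul, map_intCast, map_intCast]
  have hτI : τ = ((τ.im : ℝ) : ℂ) * Complex.I := by
    apply Complex.ext
    · simp [hre0]
    · simp
  rcases abs_choice τ.im with h | h
  · refine ⟨w, 1, by norm_num, fun z => ?_⟩
    rw [hemb, hτI, ← habs, h]
    push_cast
    ring
  · refine ⟨w, -1, by norm_num, fun z => ?_⟩
    rw [hemb, hτI, ← habs, h]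
    push_cast
    ring

end Count

/-! ### The theorem -/

/-- the angle of `u + i v √n` -/
def angN (n u v : ℕ) : ℝ := Complex.arg ((u : ℂ) + v * ((√(n : ℝ) : ℝ) : ℂ) * Complex.I)

theorem zeta_re_im (n u v : ℕ) :
    ((u : ℂ) + v * ((√(n : ℝ) : ℝ) : ℂ) * Complex.I).re = u ∧
    ((u : ℂ) + v * ((√(n : ℝ) : ℝ) : ℂ) * Complex.I).im = v * √(n : ℝ) := by
  constructor <;> simp

theorem angN_mem {n u v : ℕ} (hn : 0 < n) (hu : 0 < u) (hv : 0 < v) :
    0 < angN n u v ∧ angN n u v < Real.pi / 2 := by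
  obtain ⟨h1, h2⟩ := zeta_re_im n u v
  have hu' : (0 : ℝ) < u := by exact_mod_cast hu
  have hv' : (0 : ℝ) < v := by exact_mod_cast hv
  have hn' : (0 : ℝ) < √(n : ℝ) := Real.sqrt_pos.mpr (by exact_mod_cast hn)
  have h3 : |angN n u v| < Real.pi / 2 := by
    rw [angN, Complex.abs_arg_lt_pi_div_two_iff]
    left
    rw [h1]
    exact hu'
  have h4 : 0 ≤ angN n u v := by
    rw [angN, Complex.arg_nonneg_iff, h2]
    positivity
  have h5 : angN n u v ≠ 0 := by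
    intro h0
    rw [angN, Complex.arg_eq_zero_iff, h2] at h0
    exact (mul_pos hv' hn').ne' h0.2
  exact ⟨lt_of_le_of_ne h4 h5.symm, (abs_lt.mp h3).2⟩

/-- the primes `u² + n v²` with the angle between `α π / 2` and `β π / 2` -/
def Sang (n : ℕ) (α β : ℝ) (x : ℕ) : Set ℕ :=
  {p | p ≤ x ∧ p.Prime ∧ ∃ u v : ℕ, p = u ^ 2 + n * v ^ 2 ∧ α * (Real.pi / 2) < angN n u v ∧
    angN n u v < β * (Real.pi / 2)}

theorem finite_Sang (n : ℕ) (α β : ℝ) (x : ℕ) : (Sang n α β x).Finite :=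
  (Set.finite_Iic x).subset fun _ hp => hp.1

theorem ncard_Iic (T : ℕ) : (Set.Iic T).ncard = T + 1 := by
  rw [← Finset.coe_Iic, Set.ncard_coe_finset, Nat.card_Iic]

theorem exists_const {n : ℕ} (hn : 1 < n) : ∃ c₀ : ℝ, ∀ α β : ℝ, 0 ≤ α → α ≤ β → β ≤ 1 →
    Tendsto (fun x : ℕ => ((Sang n α β x).ncard : ℝ) * Real.log x / x) atTop
      (𝓝 (c₀ * (β / 4 - α / 4))) := by
  have hn0 : (0 : ℤ) < (n : ℤ) := by exact_mod_cast (by omega : 0 < n)
  have hn1 : (1 : ℤ) < (n : ℤ) := by exact_mod_cast hn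
  have hsq : ¬ IsSquare ((0 : ℤ) ^ 2 - 4 * 1 * (n : ℤ)) := by
    rintro ⟨t, ht⟩
    have := mul_self_nonneg t
    linarith
  have : Fact (∀ r : ℚ, r ^ 2 ≠ -(((1 : ℤ) : ℚ) * (n : ℤ)) + -((0 : ℤ) : ℚ) * r) :=
    fact_of_not_isSquare hsq
  obtain ⟨w, s, hs, hemb⟩ := exists_emb_cm (n := (n : ℤ)) hn0
  obtain ⟨c₀, hc₀⟩ := tendsto_Gp (n := (n : ℤ)) hn0 hs
  refine ⟨c₀, fun α β h0 h1 h2 => ?_⟩
  set T : ℕ := (2 * ((0 : ℤ) ^ 2 - 4 * 1 * (n : ℤ)) * 1 : ℤ).natAbs with hT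
  have key := hc₀ (α / 4) (β / 4) (by linarith) (by linarith)
  refine qd_tendsto_of_bounded (A := 0) (B := T + 1) (fun x => ?_) key
  rw [zero_mul, zero_add]
  set Z : Set (ℤ × ℤ) := {z | Gp (n := (n : ℤ)) s (α / 4) (β / 4) x z} with hZ
  have hZf : Z.Finite := finite_Gp hn0 hs _ _ x
  have hZc : Nat.card {z : ℤ × ℤ // Gp (n := (n : ℤ)) s (α / 4) (β / 4) x z} = Z.ncard :=
    Nat.card_coe_set_eq Z
  rw [hZc]
  let F : ℤ × ℤ → ℕ := fun z => (z.1 ^ 2 + (n : ℤ) * z.2 ^ 2).natAbs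
  have hchi : ∀ z : ℤ × ℤ, chi (fun _ => 1) (0 : InfinitePlace (QF 1 0 (n : ℤ)) → ℝ)
      (cm (n : ℤ) s z : QF 1 0 (n : ℤ)) =
      ((z.1 : ℂ) + z.2 * ((√(n : ℝ) : ℝ) : ℂ) * Complex.I) /
        ((‖(z.1 : ℂ) + z.2 * ((√(n : ℝ) : ℝ) : ℂ) * Complex.I‖ : ℝ) : ℂ) := by
    intro z
    rw [chi_place (disc_neg hn0) w, hemb z, Int.cast_natCast]
  have hpi := Real.pi_pos
  -- the points in `Z`
  have hZS : ∀ z ∈ Z, 0 < z.1 ∧ 0 < z.2 ∧ F z ∈ Sang n α β x := by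
    rintro z ⟨hzx, hzp, -, t, ht, hzχ⟩
    rw [hchi] at hzχ
    set ζ : ℂ := (z.1 : ℂ) + z.2 * ((√(n : ℝ) : ℝ) : ℂ) * Complex.I with hζ
    have hζ0 : ζ ≠ 0 := by
      intro hz0
      rw [hz0, zero_div] at hzχ
      have h3 := norm_e2 t
      rw [← hzχ, _root_.norm_zero] at h3
      exact zero_ne_one h3
    have hre : ζ.re = z.1 := by simp [hζ]
    have him : ζ.im = z.2 * √(n : ℝ) := by simp [hζ]
    obtain ⟨h3, h4⟩ := pos_of_e2 hζ0 (by linarith [ht.1]) (by linarith [ht.2]) hzχ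
    rw [hre] at h3
    rw [him] at h4
    have hu : 0 < z.1 := by exact_mod_cast h3
    have hsqrt : (0 : ℝ) ≤ √(n : ℝ) := Real.sqrt_nonneg _
    have hv' : (0 : ℝ) < (z.2 : ℝ) := (pos_iff_pos_of_mul_pos h4).mpr
      (lt_of_le_of_ne hsqrt fun h5 => by rw [← h5, mul_zero] at h4; exact lt_irrefl _ h4)
    have hv : 0 < z.2 := by exact_mod_cast hv'
    refine ⟨hu, hv, ?_⟩
    rw [absNorm_cm hs] at hzx hzp
    obtain ⟨u, hu'⟩ := Int.eq_ofNat_of_zero_le hu.le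
    obtain ⟨v, hv''⟩ := Int.eq_ofNat_of_zero_le hv.le
    have h5 := (exists_e2_iff hζ0 (α := α / 4) (β := β / 4) (by linarith) (by linarith)).mp
      ⟨t, ht, hzχ⟩
    have h6 : ζ.arg = angN n u v := by
      rw [angN, hζ, hu', hv'']
      simp
    rw [h6] at h5
    refine ⟨hzx, hzp, u, v, ?_, by linarith [h5.1], by linarith [h5.2]⟩
    change (z.1 ^ 2 + (n : ℤ) * z.2 ^ 2).natAbs = _
    rw [hu', hv'']
    have h7 : ((u : ℤ) ^ 2 + (n : ℤ) * (v : ℤ) ^ 2) = ((u ^ 2 + n * v ^ 2 : ℕ) : ℤ) := by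
      push_cast
      ring
    rw [h7, Int.natAbs_natCast]
  have hFval : ∀ z : ℤ × ℤ, ((F z : ℕ) : ℤ) = z.1 ^ 2 + (n : ℤ) * z.2 ^ 2 := by
    intro z
    exact Int.natAbs_of_nonneg (by positivity)
  have hinj : Set.InjOn F Z := by
    intro z hz z' hz' h
    obtain ⟨h3, h4, h5⟩ := hZS z hz
    obtain ⟨h3', h4', -⟩ := hZS z' hz'
    have h6 := repr_unique hn1 h5.2.1 h3 h4 h3' h4' (hFval z).symm (by rw [h]; exact (hFval z').symm)
    exact Prod.ext h6.1 h6.2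
  have hle1 : Z.ncard ≤ (Sang n α β x).ncard :=
    Set.ncard_le_ncard_of_injOn F (fun z hz => (hZS z hz).2.2) hinj (finite_Sang n α β x)
  have hsub : Sang n α β x ⊆ F '' Z ∪ Set.Iic T := by
    rintro p ⟨hpx, hp, u, v, hpuv, h3, h4⟩
    by_cases hpT : p ≤ T
    · exact Or.inr hpT
    · left
      have hT0 : 0 < T := by
        rw [hT]
        omega
      have hcop : IsCoprime ((p : ℕ) : ℤ) (2 * ((0 : ℤ) ^ 2 - 4 * 1 * (n : ℤ)) * 1) := by
        rw [Int.isCoprime_iff_gcd_eq_one]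
        change Nat.gcd p T = 1
        exact (Nat.Prime.coprime_iff_not_dvd hp).mpr fun hd => hpT (Nat.le_of_dvd hT0 hd)
      have hFz : F ((u : ℤ), (v : ℤ)) = p := by
        change ((u : ℤ) ^ 2 + (n : ℤ) * (v : ℤ) ^ 2).natAbs = p
        have h7 : ((u : ℤ) ^ 2 + (n : ℤ) * (v : ℤ) ^ 2) = ((u ^ 2 + n * v ^ 2 : ℕ) : ℤ) := by
          push_cast
          ring
        rw [h7, Int.natAbs_natCast, ← hpuv]
      have hnorm : Ideal.absNorm (Ideal.span {cm (n : ℤ) s ((u : ℤ), (v : ℤ))}) = p := by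
        rw [absNorm_cm hs]
        exact hFz
      refine ⟨((u : ℤ), (v : ℤ)), ⟨by rw [hnorm]; exact hpx, by rw [hnorm]; exact hp, ?_, ?_⟩, hFz⟩
      · have h5 := isCoprime_span_intCast (a := 1) (b := 0) (c := (n : ℤ)) hcop
        rw [Ideal.isCoprime_iff_sup_eq] at h5 ⊢
        refine top_le_iff.mp (h5.symm.le.trans (sup_le_sup_right ?_ _))
        rw [Ideal.span_singleton_le_iff_mem]
        have h6 := Ideal.absNorm_mem (Ideal.span {cm (n : ℤ) s ((u : ℤ), (v : ℤ))})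
        rw [hnorm] at h6
        exact_mod_cast h6
      · rw [hchi]
        have hζ0 : ((((u : ℤ), (v : ℤ)).1 : ℂ) +
            (((u : ℤ), (v : ℤ)).2 : ℂ) * ((√(n : ℝ) : ℝ) : ℂ) * Complex.I) ≠ 0 := by
          intro h0
          have h5 : angN n u v = 0 := by
            rw [angN]
            have h6 : (u : ℂ) + v * ((√(n : ℝ) : ℝ) : ℂ) * Complex.I = 0 := by
              simpa using h0
            rw [h6, Complex.arg_zero]
          rw [h5] at h3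
          nlinarith
        rw [exists_e2_iff hζ0 (by linarith) (by linarith)]
        have h6 : ((((u : ℤ), (v : ℤ)).1 : ℂ) +
            (((u : ℤ), (v : ℤ)).2 : ℂ) * ((√(n : ℝ) : ℝ) : ℂ) * Complex.I).arg = angN n u v := by
          rw [angN]
          simp
        rw [h6]
        constructor <;> linarith
  have hle2 : (Sang n α β x).ncard ≤ Z.ncard + (T + 1) := by
    calc (Sang n α β x).ncard ≤ (F '' Z ∪ Set.Iic T).ncard :=
          Set.ncard_le_ncard hsub ((hZf.image F).union (Set.finite_Iic T))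
      _ ≤ (F '' Z).ncard + (Set.Iic T).ncard := Set.ncard_union_le _ _
      _ ≤ Z.ncard + (T + 1) := by
          rw [ncard_Iic]
          exact Nat.add_le_add_right (Set.ncard_image_le hZf) _
  rw [abs_le]
  have h3 : (Z.ncard : ℝ) ≤ (Sang n α β x).ncard := by exact_mod_cast hle1
  have h4 : ((Sang n α β x).ncard : ℝ) ≤ Z.ncard + (T + 1) := by exact_mod_cast hle2
  have hTn : (0 : ℝ) ≤ T := Nat.cast_nonneg _
  constructor <;> linarith

/-- **The angles of the primes `x² + n y²`** (Hecke 1920), `n > 1`: the number of the primes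
`p = u² + n v² ≤ x` with `u, v ≥ 0` and the angle of `u + i v √n` between `α π / 2` and `β π / 2`
is asymptotic to `(β - α) / (2 h(-4n)) * x / log x`. -/
theorem angle_sq_add_mul {n : ℕ} (hn : 1 < n) {α β : ℝ} (h0 : 0 ≤ α) (h1 : α ≤ β) (h2 : β ≤ 1) :
    Tendsto (fun x : ℕ => (Nat.card {p : ℕ // p ≤ x ∧ p.Prime ∧
      ∃ u v : ℕ, p = u ^ 2 + n * v ^ 2 ∧
        α * (Real.pi / 2) < Complex.arg ((u : ℂ) + v * ((√(n : ℝ) : ℝ) : ℂ) * Complex.I) ∧
        Complex.arg ((u : ℂ) + v * ((√(n : ℝ) : ℝ) : ℂ) * Complex.I) < β * (Real.pi / 2)} : ℝ) *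
      Real.log x / x) atTop (𝓝 ((β - α) / (2 * formClassNumber (-4 * n)))) := by
  obtain ⟨c₀, hc₀⟩ := exists_const hn
  have hpi := Real.pi_pos
  -- all angles
  have htot : Tendsto (fun x : ℕ => ((Sang n 0 1 x).ncard : ℝ) * Real.log x / x) atTop
      (𝓝 (1 / (2 * formClassNumber (-4 * n)))) := by
    refine qd_tendsto_of_bounded (A := 0) (B := 8 * n + 1) (fun x => ?_)
      (density_sq_add_mul (n := n) (by omega))
    rw [zero_mul, zero_add]
    set S₀ : Set ℕ := {p | p ≤ x ∧ p.Prime ∧ ∃ u v : ℕ, p = u ^ 2 + n * v ^ 2} with hS₀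
    have hc : Nat.card {p : ℕ // p ≤ x ∧ p.Prime ∧ ∃ u v : ℕ, p = u ^ 2 + n * v ^ 2} =
        S₀.ncard := Nat.card_coe_set_eq S₀
    rw [hc]
    have hf₀ : S₀.Finite := (Set.finite_Iic x).subset fun _ hp => hp.1
    have hle1 : (Sang n 0 1 x).ncard ≤ S₀.ncard := Set.ncard_le_ncard
      (fun p ⟨hpx, hp, u, v, huv, _, _⟩ => ⟨hpx, hp, u, v, huv⟩) hf₀
    have hsub : S₀ ⊆ Sang n 0 1 x ∪ Set.Iic (8 * n) := by
      rintro p ⟨hpx, hp, u, v, huv⟩
      by_cases hpn : p ≤ 8 * n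
      · exact Or.inr hpn
      · left
        have hv : v ≠ 0 := by
          rintro rfl
          rw [zero_pow two_ne_zero, mul_zero, add_zero] at huv
          rw [huv] at hp
          exact Irreducible.not_isSquare (show Irreducible (u ^ 2) from hp) ⟨u, sq u⟩
        have hu : u ≠ 0 := by
          rintro rfl
          rw [zero_pow two_ne_zero, zero_add] at huv
          have h3 : n ∣ p := ⟨v ^ 2, huv⟩
          rcases (Nat.dvd_prime hp).mp h3 with h4 | h4 <;> omega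
        obtain ⟨h3, h4⟩ := angN_mem (n := n) (by omega) (Nat.pos_of_ne_zero hu)
          (Nat.pos_of_ne_zero hv)
        exact ⟨hpx, hp, u, v, huv, by linarith, by linarith⟩
    have hle2 : S₀.ncard ≤ (Sang n 0 1 x).ncard + (8 * n + 1) := by
      calc S₀.ncard ≤ (Sang n 0 1 x ∪ Set.Iic (8 * n)).ncard :=
            Set.ncard_le_ncard hsub ((finite_Sang n 0 1 x).union (Set.finite_Iic _))
        _ ≤ (Sang n 0 1 x).ncard + (Set.Iic (8 * n)).ncard := Set.ncard_union_le _ _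
        _ = _ := by rw [ncard_Iic]
    rw [abs_le]
    have h3 : ((Sang n 0 1 x).ncard : ℝ) ≤ S₀.ncard := by exact_mod_cast hle1
    have h4 : (S₀.ncard : ℝ) ≤ (Sang n 0 1 x).ncard + (8 * n + 1) := by exact_mod_cast hle2
    have h5 : (0 : ℝ) ≤ n := Nat.cast_nonneg _
    constructor <;> linarith
  have hc : c₀ * (1 / 4 - 0 / 4) = 1 / (2 * formClassNumber (-4 * n)) :=
    tendsto_nhds_unique (hc₀ 0 1 le_rfl zero_le_one le_rfl) htot
  have hlim : c₀ * (β / 4 - α / 4) = (β - α) / (2 * formClassNumber (-4 * n)) := by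
    have h3 : c₀ * (β / 4 - α / 4) = (β - α) * (c₀ * (1 / 4 - 0 / 4)) := by ring
    rw [h3, hc]
    ring
  have key := hc₀ α β h0 h1 h2
  rw [hlim] at key
  refine key.congr fun x => ?_
  congr 3

end Fermat.Agent.Cor.RayG

end
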