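import Fermat.Agent.Corollaries.RayG.PrimeSumG
import Fermat.Agent.Corollaries.Ray.Density
import Fermat.Agent.Corollaries.Gauss.Weyl

/-!
# Equidistribution of the values of a Groessencharakter at the prime ideals of a ray class
-/

set_option autoImplicit false
set_option linter.unusedSectionVars false

noncomputable section

open NumberField NumberField.InfinitePlace nonZeroDivisors Complex Filter Topology

open scoped Classical ComplexConjugate

namespace Fermat.Agent.Cor.RayG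

open Fermat.Agent.ClassL Fermat.Agent.Classic.Zeta Fermat.Agent.Cor.Ray

universe u

variable {K : Type u} [Field K] [NumberField K] {𝔪 : Ideal (𝓞 K)}
  {n : InfinitePlace K → ℤ} {κ : InfinitePlace K → ℝ}

/-! ### Powers of the type -/

/-- the angular part of the power -/
def powN (m : ℕ) (n : InfinitePlace K → ℤ) (w : InfinitePlace K) : ℤ :=
  if IsReal w then (if Even m then 0 else n w) else m * n w

theorem hz_pow (k : ℤ) (z : ℂ) (m : ℕ) : hz k z ^ m = hz (m * k) z := by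
  rcases Nat.eq_zero_or_pos m with rfl | hm
  · rw [pow_zero, Nat.cast_zero, zero_mul, hz_zero_left]
  · have h1 : ((m : ℤ) * k).natAbs = k.natAbs * m := by
      rw [Int.natAbs_mul, Int.natAbs_natCast, mul_comm]
    have hm' : (0 : ℤ) < m := by exact_mod_cast hm
    unfold hz
    by_cases h : 0 ≤ k
    · rw [if_pos h, if_pos (mul_nonneg hm'.le h), h1, pow_mul]
    · rw [if_neg h, if_neg (by nlinarith), h1, pow_mul]

theorem aG_pow (n : InfinitePlace K → ℤ) (m : ℕ) {x : K} (hx : x ≠ 0) :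
    aG n x ^ m = aG (powN m n) x := by
  rw [aG_eq_prod, aG_eq_prod, ← Finset.prod_pow]
  refine Finset.prod_congr rfl fun w _ => ?_
  by_cases hw : IsReal w
  · rw [powN, if_pos hw]
    have h1 : conj (w.embedding x) = w.embedding x := by
      have h2 := (isReal_iff.mp hw)
      exact RingHom.congr_fun h2 x
    have h0 : w.embedding x ≠ 0 := (map_ne_zero _).mpr hx
    have h3 : conj (hz (n w) (w.embedding x)) = hz (n w) (w.embedding x) := by
      unfold hz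
      split_ifs
      · rw [map_pow, h1]
      · rw [map_pow, h1, h1]
    have h4 : hz (n w) (w.embedding x) ≠ 0 := by
      rw [← norm_ne_zero_iff, norm_hz]
      exact pow_ne_zero _ (norm_ne_zero_iff.mpr h0)
    have h5 : hz (n w) (w.embedding x) ^ 2 = ((‖hz (n w) (w.embedding x) ^ 2‖ : ℝ) : ℂ) := by
      rw [norm_pow, ← Complex.normSq_eq_norm_sq, Complex.normSq_eq_conj_mul_self, h3, sq]
    have h6 : (hz (n w) (w.embedding x) / ((‖hz (n w) (w.embedding x)‖ : ℝ) : ℂ)) ^ 2 = 1 := by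
      rw [div_pow, ← Complex.ofReal_pow, ← norm_pow, ← h5, div_self (pow_ne_zero 2 h4)]
    rcases Nat.even_or_odd m with he | ho
    · rw [if_pos he, hz_zero_left, norm_one, Complex.ofReal_one, div_one]
      obtain ⟨j, rfl⟩ := he
      rw [← two_mul, pow_mul, h6, one_pow]
    · rw [if_neg (Nat.not_even_iff_odd.mpr ho)]
      obtain ⟨j, rfl⟩ := ho
      rw [pow_add, pow_mul, h6, one_pow, one_mul, pow_one]
  · rw [powN, if_neg hw, div_pow, ← Complex.ofReal_pow, ← norm_pow, hz_pow]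

theorem eI_natCast_mul (m : ℕ) (r : ℝ) : eI (m * r) = eI r ^ m := by
  rw [eI, eI, ← Complex.exp_nat_mul]
  congr 1
  push_cast
  ring

theorem chi_pow (m : ℕ) {x : K} (hx : x ≠ 0) : chi n κ x ^ m = chi (powN m n) (m • κ) x := by
  have h1 : lK (m • κ) x = m * lK κ x := by
    unfold lK
    rw [Finset.mul_sum]
    refine Finset.sum_congr rfl fun w _ => ?_
    rw [Pi.smul_apply, nsmul_eq_mul]
    ring
  rw [chi, chi, mul_pow, aG_pow n m hx, h1, eI_natCast_mul]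

theorem IsTy.pow (h : IsTy n κ) (m : ℕ) : IsTy (powN m n) (m • κ) where
  real w hw := by
    rw [powN, if_pos hw]
    split_ifs
    · norm_num
    · exact h.real w hw
  sum := by
    have h1 : ∀ w : InfinitePlace K, (m • κ) w = m * κ w := fun w => by
      rw [Pi.smul_apply, nsmul_eq_mul]
    simp only [h1]
    rw [← Finset.mul_sum, h.sum, mul_zero]

theorem IsInf.pow (h : IsInf n κ) {m : ℕ} (hm : m ≠ 0) : IsInf (powN m n) (m • κ) := by
  have hm' : (m : ℝ) ≠ 0 := by exact_mod_cast hm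
  rcases h with h | ⟨w, hw, hn⟩
  · refine Or.inl fun h0 => h (funext fun w => ?_)
    have h1 : (m • κ) w = 0 := congrFun h0 w
    rw [Pi.smul_apply, nsmul_eq_mul] at h1
    exact (mul_eq_zero.mp h1).resolve_left hm'
  · refine Or.inr ⟨w, hw, ?_⟩
    rw [powN, if_neg (not_isReal_iff_isComplex.mpr hw)]
    exact mul_ne_zero (by exact_mod_cast hm) hn

/-- powers of a Groessencharakter times ray class characters -/
theorem GChar.pow_mul {ψ χ : (Ideal (𝓞 K))⁰ →* ℂ} (hψ : GChar n κ 𝔪 ψ) (hχ : RayChar 𝔪 χ)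
    {m : ℕ} (hm : m ≠ 0) : GChar (powN m n) (m • κ) 𝔪 (ψ ^ m * χ) where
  norm_le I := by
    rw [MonoidHom.mul_apply, MonoidHom.pow_apply, norm_mul, norm_pow]
    exact mul_le_one₀ (pow_le_one₀ (norm_nonneg _) (hψ.norm_le I)) (norm_nonneg _) (hχ.norm_le I)
  eq_zero I hI := by
    rw [MonoidHom.mul_apply, MonoidHom.pow_apply, hψ.eq_zero I hI, zero_pow hm, zero_mul]
  cong a ha ha1 := by
    rw [MonoidHom.mul_apply, MonoidHom.pow_apply, hψ.cong a ha ha1, hχ.cong' ha ha1, mul_one]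
    exact chi_pow m (by exact_mod_cast ha)

/-! ### Weyl's criterion in every universe -/

theorem weyl_countable {ι : Type u} [Countable ι] (θ : ι → ℝ) (F : ℕ → Finset ι) (c : ℕ → ℝ)
    (h0 : ∀ i, 0 ≤ θ i) (h1 : ∀ i, θ i < 1) (hc : ∀ n, 0 ≤ c n)
    (hF : Tendsto (fun n => c n * ((F n).card : ℝ)) atTop (𝓝 1))
    (hW : ∀ k : ℤ, k ≠ 0 → Tendsto (fun n => (c n : ℂ) *
      ∑ i ∈ F n, Complex.exp (2 * Real.pi * Complex.I * k * θ i)) atTop (𝓝 0))
    {α β : ℝ} (hα : 0 ≤ α) (hαβ : α ≤ β) (hβ : β ≤ 1) :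
    Tendsto (fun n => c n * (Nat.card {i // i ∈ F n ∧ α < θ i ∧ θ i < β} : ℝ)) atTop
      (𝓝 (β - α)) ∧
    Tendsto (fun n => c n * (Nat.card {i // i ∈ F n ∧ α ≤ θ i ∧ θ i ≤ β} : ℝ)) atTop
      (𝓝 (β - α)) := by
  by_cases hne : Nonempty ι
  · obtain ⟨f, hf⟩ := exists_injective_nat ι
    have hl : ∀ i, Function.invFun f (f i) = i := Function.leftInverse_invFun hf
    let e : ι ↪ ℕ := ⟨f, hf⟩
    have hcard : ∀ (p : ℝ → Prop) (n : ℕ),
        Nat.card {i // i ∈ (F n).map e ∧ p (θ (Function.invFun f i))} =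
        Nat.card {i // i ∈ F n ∧ p (θ i)} := by
      intro p n
      refine (Nat.card_congr (Equiv.ofBijective (fun i : {i // i ∈ F n ∧ p (θ i)} =>
        (⟨f i.1, Finset.mem_map_of_mem e i.2.1, by rw [hl]; exact i.2.2⟩ :
          {i // i ∈ (F n).map e ∧ p (θ (Function.invFun f i))})) ⟨?_, ?_⟩)).symm
      · intro i j hij
        exact Subtype.ext (hf (congrArg Subtype.val hij))
      · rintro ⟨i, hi, hp⟩
        obtain ⟨j, hj, rfl⟩ := Finset.mem_map.mp hi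
        refine ⟨⟨j, hj, ?_⟩, rfl⟩
        have h2 : Function.invFun f (e j) = j := hl j
        rwa [h2] at hp
    have key := Gauss.weylStmt ℕ (fun i => θ (Function.invFun f i)) (fun n => (F n).map e) c
      (fun i => h0 _) (fun i => h1 _) hc (by simpa only [Finset.card_map] using hF)
      (fun k hk => by
        refine (hW k hk).congr fun n => ?_
        rw [Finset.sum_map]
        congr 1
        refine Finset.sum_congr rfl fun i _ => ?_
        have h2 : Function.invFun f (e i) = i := hl i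
        rw [h2]) α β hα hαβ hβ
    have e1 : ∀ n, Nat.card {i // i ∈ (F n).map e ∧ α < θ (Function.invFun f i) ∧
        θ (Function.invFun f i) < β} = Nat.card {i // i ∈ F n ∧ α < θ i ∧ θ i < β} :=
      hcard fun t => α < t ∧ t < β
    have e2 : ∀ n, Nat.card {i // i ∈ (F n).map e ∧ α ≤ θ (Function.invFun f i) ∧
        θ (Function.invFun f i) ≤ β} = Nat.card {i // i ∈ F n ∧ α ≤ θ i ∧ θ i ≤ β} :=
      hcard fun t => α ≤ t ∧ t ≤ β
    simpa only [e1, e2] using key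
  · exfalso
    rw [not_nonempty_iff] at hne
    have h2 : (fun n => c n * ((F n).card : ℝ)) = fun _ => 0 := by
      funext n
      rw [Finset.eq_empty_of_isEmpty (F n), Finset.card_empty, Nat.cast_zero, mul_zero]
    rw [h2] at hF
    exact zero_ne_one (tendsto_nhds_unique tendsto_const_nhds hF)

/-! ### The argument -/

/-- the argument of `z ≠ 0` divided by `2 π`, in `[0, 1)` -/
def ang (z : ℂ) : ℝ := Int.fract (Complex.arg z / (2 * Real.pi))

theorem exp_ang {z : ℂ} (hz : ‖z‖ = 1) : Complex.exp (2 * Real.pi * Complex.I * ang z) = z := by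
  have h1 : ((ang z : ℝ) : ℂ) = ((Complex.arg z / (2 * Real.pi) : ℝ) : ℂ) -
      ((⌊Complex.arg z / (2 * Real.pi)⌋ : ℤ) : ℂ) := by
    rw [ang, Int.fract, Complex.ofReal_sub, Complex.ofReal_intCast]
  have h2 : 2 * Real.pi * Complex.I * ang z = Complex.arg z * Complex.I -
      (⌊Complex.arg z / (2 * Real.pi)⌋ : ℤ) * (2 * Real.pi * Complex.I) := by
    rw [h1]
    push_cast
    have h3 : (Real.pi : ℂ) ≠ 0 := by exact_mod_cast Real.pi_ne_zero
    field_simp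
  rw [h2, Complex.exp_sub, Complex.exp_int_mul_two_pi_mul_I, div_one]
  have h3 := Complex.norm_mul_exp_arg_mul_I z
  rwa [hz, Complex.ofReal_one, one_mul] at h3

theorem exp_ang_pow {z : ℂ} (hz : ‖z‖ = 1) (m : ℕ) :
    Complex.exp (2 * Real.pi * Complex.I * m * ang z) = z ^ m := by
  have h1 : 2 * Real.pi * Complex.I * m * ang z = m * (2 * Real.pi * Complex.I * ang z) := by ring
  rw [h1, Complex.exp_nat_mul, exp_ang hz]

/-! ### The prime ideals of a ray class -/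

theorem norm_psi_eq_one (h𝔪 : 𝔪 ≠ ⊥) {ψ : (Ideal (𝓞 K))⁰ →* ℂ} (hψ : GChar n κ 𝔪 ψ)
    {I : (Ideal (𝓞 K))⁰} (hI : IsCoprime (I : Ideal (𝓞 K)) 𝔪) : ‖ψ I‖ = 1 := by
  obtain ⟨m, hm, a, ha, ha1⟩ := exists_pow_eq_span h𝔪 hI
  have ha0 : a ≠ 0 := by
    rintro rfl
    rw [Ideal.span_singleton_eq_bot.mpr rfl] at ha
    exact nonZeroDivisors.coe_ne_zero _ ha
  have h1 : I ^ m = sp a ha0 := Subtype.ext ha
  have h2 : ‖ψ I‖ ^ m = 1 := by
    rw [← norm_pow, ← map_pow, h1, hψ.cong a ha0 ha1]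
    exact norm_chi n κ (by exact_mod_cast ha0)
  exact (pow_eq_one_iff_of_nonneg (norm_nonneg _) hm).mp h2

variable (hN : NonVanGStmt K) (hE : EntireStmt K) (hG : GroupStmt K) (h𝔪 : 𝔪 ≠ ⊥)
  (hT : IsTy n κ) (hinf : IsInf n κ)

include hN hG h𝔪 hT hinf

/-- the sums of the powers of `ψ` over the primes of a ray class -/
theorem tendsto_class_sum {ψ : (Ideal (𝓞 K))⁰ →* ℂ} (hψ : GChar n κ 𝔪 ψ) {D : ℝ}
    (hD : IsCount (nP (K := K)) D) {J : (Ideal (𝓞 K))⁰} (hJ : IsCoprime (J : Ideal (𝓞 K)) 𝔪)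
    {m : ℕ} (hm : m ≠ 0) :
    Tendsto (fun x : ℕ => ((Real.log x / x : ℝ) : ℂ) *
      ∑ P ∈ (hD.F x).filter fun P => RayEq 𝔪 P.1 J, ψ P.1 ^ m) atTop (𝓝 0) := by
  obtain ⟨G, _, _, cl, hsurj, hcl⟩ := hG 𝔪 h𝔪
  have : Fintype (G →* ℂˣ) := Fintype.ofFinite _
  set g : G := cl ⟨J, hJ⟩ with hg
  have hGc : (Nat.card G : ℂ) ≠ 0 := by exact_mod_cast Nat.card_pos.ne'
  have hχ : ∀ χ : G →* ℂˣ, Tendsto (fun x : ℕ => ((Real.log x / x : ℝ) : ℂ) *
      ∑ P ∈ hD.F x, ψ P.1 ^ m * Psi.psi (cl0 cl) χ P.1) atTop (𝓝 0) := by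
    intro χ
    have hg2 := hψ.pow_mul (rayChar_psi cl hcl χ) hm
    obtain ⟨L, hd, hL, h0⟩ := hN _ _ (hT.pow m) (hinf.pow hm) 𝔪 h𝔪 _ hg2
    have h1 := Psi.tendsto_sum_primes (hg2.isUnitary h𝔪) hd hL h0
    refine h1.congr fun x => ?_
    congr 1
    have h5 : {P : Pr K | Ideal.absNorm ((P.1 : (Ideal (𝓞 K))⁰) : Ideal (𝓞 K)) ≤ x} =
        (hD.F x : Set (Pr K)) := Set.ext fun P => hD.mem_F.symm
    refine (tsum_congr_set_coe (fun P : Pr K => (ψ ^ m * Psi.psi (cl0 cl) χ) P.1) h5).trans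
      ((Finset.tsum_subtype' (hD.F x) fun P : Pr K => (ψ ^ m * Psi.psi (cl0 cl) χ) P.1).trans ?_)
    exact Finset.sum_congr rfl fun P _ => rfl
  have hsum := tendsto_finsetSum (Finset.univ : Finset (G →* ℂˣ)) fun χ _ =>
    (hχ χ).const_mul ((Nat.card G : ℂ)⁻¹ * ((χ g : ℂˣ) : ℂ)⁻¹)
  simp only [mul_zero, Finset.sum_const_zero] at hsum
  refine hsum.congr fun x => ?_
  have h3 : ∀ P : Pr K, (if RayEq 𝔪 P.1 J then ψ P.1 ^ m else 0) =
      (Nat.card G : ℂ)⁻¹ * ∑ χ : G →* ℂˣ, ((χ g : ℂˣ) : ℂ)⁻¹ *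
        (ψ P.1 ^ m * Psi.psi (cl0 cl) χ P.1) := by
    intro P
    have h4 := Psi.orth0 g (cl0 cl P.1)
    have h5 : (cl0 cl P.1 = (g : WithZero G)) ↔ RayEq 𝔪 P.1 J := by
      rw [hg, cl0_eq_iff cl hcl hJ]
      exact ⟨fun h => h.2, fun h => ⟨h.coprime hJ, h⟩⟩
    have h6 : ∑ χ : G →* ℂˣ, ((χ g : ℂˣ) : ℂ)⁻¹ * (ψ P.1 ^ m * Psi.psi (cl0 cl) χ P.1) =
        ψ P.1 ^ m * ∑ χ : G →* ℂˣ, ((χ g : ℂˣ) : ℂ)⁻¹ * Psi.chi0 χ (cl0 cl P.1) := by
      rw [Finset.mul_sum]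
      refine Finset.sum_congr rfl fun χ _ => ?_
      have h7 : Psi.psi (cl0 cl) χ P.1 = Psi.chi0 χ (cl0 cl P.1) := rfl
      rw [h7]
      ring
    rw [h6, h4]
    by_cases h8 : RayEq 𝔪 P.1 J
    · rw [if_pos h8, if_pos (h5.mpr h8)]
      field_simp
    · rw [if_neg h8, if_neg (fun h => h8 (h5.mp h)), mul_zero, mul_zero]
  rw [Finset.sum_filter, Finset.sum_congr rfl fun P _ => h3 P, ← Finset.mul_sum, Finset.sum_comm,
    Finset.mul_sum, Finset.mul_sum]
  refine Finset.sum_congr rfl fun χ _ => ?_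
  rw [← Finset.mul_sum]
  ring

include hE

/-- **Equidistribution of the values of a Groessencharakter** of infinite order at the prime ideals
of a ray class: for `|c| = 1` and every arc of the circle of length `2 π (β - α)`, the number of the
prime ideals `P` of norm at most `N` in the ray class of `J` with `c ψ(P)` in the arc is
`~ (β - α) / h_𝔪 * N / log N`. -/
theorem tendsto_card_arc_mul_of {ψ : (Ideal (𝓞 K))⁰ →* ℂ} (hψ : GChar n κ 𝔪 ψ) {c : ℂ}
    (hc : ‖c‖ = 1)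
    {J : (Ideal (𝓞 K))⁰} (hJ : IsCoprime (J : Ideal (𝓞 K)) 𝔪)
    {α β : ℝ} (hα : 0 ≤ α) (hαβ : α ≤ β) (hβ : β ≤ 1) :
    Tendsto (fun x : ℕ => (Nat.card {P : Pr K // nP P ≤ x ∧ RayEq 𝔪 P.1 J ∧
      α < ang (c * ψ P.1) ∧ ang (c * ψ P.1) < β} : ℝ) * Real.log x / x) atTop
      (𝓝 ((β - α) / rayNumber 𝔪)) ∧
    Tendsto (fun x : ℕ => (Nat.card {P : Pr K // nP P ≤ x ∧ RayEq 𝔪 P.1 J ∧
      α ≤ ang (c * ψ P.1) ∧ ang (c * ψ P.1) ≤ β} : ℝ) * Real.log x / x) atTop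
      (𝓝 ((β - α) / rayNumber 𝔪)) := by
  obtain ⟨D, hD⟩ := exists_isCount K
  have hr : (0 : ℝ) < rayNumber 𝔪 := by exact_mod_cast rayNumber_pos hE hG h𝔪
  have hrc : ((rayNumber 𝔪 : ℝ) : ℂ) ≠ 0 := by exact_mod_cast hr.ne'
  have : Countable (Pr K) := by
    have h1 : (Set.univ : Set (Pr K)) = ⋃ x : ℕ, (hD.F x : Set (Pr K)) := by
      ext P
      simp only [Set.mem_univ, Set.mem_iUnion, Finset.mem_coe, true_iff]
      exact ⟨nP P, hD.mem_F.mpr le_rfl⟩
    rw [← Set.countable_univ_iff, h1]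
    exact Set.countable_iUnion fun x => (Finset.countable_toSet _)
  have hmem : ∀ (x : ℕ) (P : Pr K), P ∈ (hD.F x).filter (fun P => RayEq 𝔪 P.1 J) ↔
      nP P ≤ x ∧ RayEq 𝔪 P.1 J := fun x P => by
    rw [Finset.mem_filter, hD.mem_F]
  have hcard : ∀ x : ℕ, ((hD.F x).filter fun P => RayEq 𝔪 P.1 J).card =
      Nat.card {P : Pr K // nP P ≤ x ∧ RayEq 𝔪 P.1 J} := fun x =>
    (Nat.subtype_card _ (hmem x)).symm
  have hone : ∀ (x : ℕ), ∀ P ∈ (hD.F x).filter (fun P => RayEq 𝔪 P.1 J), ‖c * ψ P.1‖ = 1 :=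
    fun x P hP => by
      rw [norm_mul, hc, norm_psi_eq_one h𝔪 hψ (((hmem x P).mp hP).2.coprime hJ), one_mul]
  have hc0 : ∀ x : ℕ, 0 ≤ (rayNumber 𝔪 : ℝ) * (Real.log x / x) := fun x =>
    mul_nonneg hr.le (div_nonneg (Real.log_natCast_nonneg x) (Nat.cast_nonneg _))
  have hF : Tendsto (fun x : ℕ => ((rayNumber 𝔪 : ℝ) * (Real.log x / x)) *
      ((((hD.F x).filter fun P => RayEq 𝔪 P.1 J).card : ℕ) : ℝ)) atTop (𝓝 1) := by
    have h1 := (tendsto_card_ray hE hG h𝔪 hJ).const_mul (rayNumber 𝔪 : ℝ)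
    rw [mul_inv_cancel₀ hr.ne'] at h1
    refine h1.congr fun x => ?_
    rw [hcard]
    ring
  have hpos : ∀ m : ℕ, m ≠ 0 → Tendsto (fun x : ℕ =>
      (((rayNumber 𝔪 : ℝ) * (Real.log x / x) : ℝ) : ℂ) *
      ∑ P ∈ (hD.F x).filter (fun P => RayEq 𝔪 P.1 J), (c * ψ P.1) ^ m) atTop (𝓝 0) := by
    intro m hm
    have h1 := (tendsto_class_sum hN hG h𝔪 hT hinf hψ hD hJ hm).const_mul
      (((rayNumber 𝔪 : ℝ) : ℂ) * c ^ m)
    rw [mul_zero] at h1
    refine h1.congr fun x => ?_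
    simp only [mul_pow]
    rw [Complex.ofReal_mul, ← Finset.mul_sum]
    ring
  have hW : ∀ k : ℤ, k ≠ 0 → Tendsto (fun x : ℕ =>
      (((rayNumber 𝔪 : ℝ) * (Real.log x / x) : ℝ) : ℂ) *
      ∑ P ∈ (hD.F x).filter (fun P => RayEq 𝔪 P.1 J),
        Complex.exp (2 * Real.pi * Complex.I * k * ang (c * ψ P.1))) atTop (𝓝 0) := by
    intro k hk
    obtain ⟨m, rfl | rfl⟩ := Int.eq_nat_or_neg k
    · refine (hpos m (by exact_mod_cast hk)).congr fun x => ?_
      congr 1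
      refine Finset.sum_congr rfl fun P hP => ?_
      rw [Int.cast_natCast, exp_ang_pow (hone x P hP)]
    · have hm : m ≠ 0 := by
        rintro rfl
        exact hk (by simp)
      have h1 := (Complex.continuous_conj.tendsto 0).comp (hpos m hm)
      rw [map_zero] at h1
      refine h1.congr fun x => ?_
      rw [Function.comp_apply, map_mul, Complex.conj_ofReal, map_sum]
      congr 1
      refine Finset.sum_congr rfl fun P hP => ?_
      rw [← exp_ang_pow (hone x P hP), ← Complex.exp_conj]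
      congr 1
      simp only [map_mul, Complex.conj_I, Complex.conj_ofReal, map_natCast, map_ofNat]
      push_cast
      ring
  have key := weyl_countable (fun P : Pr K => ang (c * ψ P.1))
    (fun x => (hD.F x).filter fun P => RayEq 𝔪 P.1 J)
    (fun x => (rayNumber 𝔪 : ℝ) * (Real.log x / x)) (fun P => Int.fract_nonneg _)
    (fun P => Int.fract_lt_one _) hc0 hF hW hα hαβ hβ
  have hfin : ∀ (p : ℝ → Prop) (x : ℕ),
      Nat.card {P : Pr K // P ∈ (hD.F x).filter (fun P => RayEq 𝔪 P.1 J) ∧ p (ang (c * ψ P.1))} =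
      Nat.card {P : Pr K // nP P ≤ x ∧ RayEq 𝔪 P.1 J ∧ p (ang (c * ψ P.1))} := fun p x =>
    Nat.card_congr (Equiv.subtypeEquivRight fun P => by rw [hmem, and_assoc])
  have h2 := fun x => hfin (fun t => α < t ∧ t < β) x
  have h3 := fun x => hfin (fun t => α ≤ t ∧ t ≤ β) x
  simp only [h2, h3] at key
  constructor
  · have h4 := key.1.const_mul (rayNumber 𝔪 : ℝ)⁻¹
    rw [← div_eq_inv_mul] at h4
    refine h4.congr fun x => ?_
    field_simp
  · have h4 := key.2.const_mul (rayNumber 𝔪 : ℝ)⁻¹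
    rw [← div_eq_inv_mul] at h4
    refine h4.congr fun x => ?_
    field_simp

/-- the case `c = 1` -/
theorem tendsto_card_arc_of {ψ : (Ideal (𝓞 K))⁰ →* ℂ} (hψ : GChar n κ 𝔪 ψ)
    {J : (Ideal (𝓞 K))⁰} (hJ : IsCoprime (J : Ideal (𝓞 K)) 𝔪)
    {α β : ℝ} (hα : 0 ≤ α) (hαβ : α ≤ β) (hβ : β ≤ 1) :
    Tendsto (fun x : ℕ => (Nat.card {P : Pr K // nP P ≤ x ∧ RayEq 𝔪 P.1 J ∧
      α < ang (ψ P.1) ∧ ang (ψ P.1) < β} : ℝ) * Real.log x / x) atTop
      (𝓝 ((β - α) / rayNumber 𝔪)) ∧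
    Tendsto (fun x : ℕ => (Nat.card {P : Pr K // nP P ≤ x ∧ RayEq 𝔪 P.1 J ∧
      α ≤ ang (ψ P.1) ∧ ang (ψ P.1) ≤ β} : ℝ) * Real.log x / x) atTop
      (𝓝 ((β - α) / rayNumber 𝔪)) := by
  have h := tendsto_card_arc_mul_of hN hE hG h𝔪 hT hinf hψ (c := 1) norm_one hJ hα hαβ hβ
  simpa only [one_mul] using h

end Fermat.Agent.Cor.RayG

end
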