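import Fermat.Agent.Corollaries.RayG.Final
import Fermat.Agent.Corollaries.RayG.Circle
import Fermat.Agent.Corollaries.Ray.Final

/-!
# Hecke's equidistribution theorems for the prime ideals and prime elements of a number field

No hypotheses.
-/

set_option autoImplicit false
set_option linter.unusedSectionVars false

noncomputable section

open NumberField NumberField.InfinitePlace nonZeroDivisors Complex Filter Topology

open scoped Classical ComplexConjugate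

namespace Fermat.Agent.Cor.RayG

open Fermat.Agent.ClassL Fermat.Agent.Classic.Zeta Fermat.Agent.Cor.Ray

universe u

variable {K : Type u} [Field K] [NumberField K] {𝔪 : Ideal (𝓞 K)}
  {n : InfinitePlace K → ℤ} {κ : InfinitePlace K → ℝ}

/-- **Hecke (1920): equidistribution of the values of a Groessencharakter of infinite order** at
the prime ideals of a ray class: for every arc of the unit circle of length `2 π (b - a)`, the number
of the prime ideals `P` of norm at most `x` in the ray class of `J` modulo `𝔪` with `ψ(P)` in the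
arc is `~ (b - a) / h_𝔪 * x / log x`. -/
theorem hecke_equidistribution (hT : IsTy n κ) (hinf : IsInf n κ) (h𝔪 : 𝔪 ≠ ⊥)
    {ψ : (Ideal (𝓞 K))⁰ →* ℂ} (hψ : GChar n κ 𝔪 ψ) {J : (Ideal (𝓞 K))⁰}
    (hJ : IsCoprime (J : Ideal (𝓞 K)) 𝔪) {a b : ℝ} (ha : 0 ≤ a) (hab : a ≤ b) (hb : b ≤ 1) :
    Tendsto (fun x : ℕ => (Nat.card {P : Pr K // nP P ≤ x ∧ RayEq 𝔪 P.1 J ∧
      a < ang (ψ P.1) ∧ ang (ψ P.1) < b} : ℝ) * Real.log x / x) atTop
      (𝓝 ((b - a) / rayNumber 𝔪)) ∧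
    Tendsto (fun x : ℕ => (Nat.card {P : Pr K // nP P ≤ x ∧ RayEq 𝔪 P.1 J ∧
      a ≤ ang (ψ P.1) ∧ ang (ψ P.1) ≤ b} : ℝ) * Real.log x / x) atTop
      (𝓝 ((b - a) / rayNumber 𝔪)) :=
  tendsto_card_arc_of (nonVanGStmt K) (entireStmt K) (groupStmt K) h𝔪 hT hinf hψ hJ ha hab hb

/-- the character at infinity at a generator `π ≡ β` of `P` -/
theorem chi_eq_of_gen (h𝔪 : 𝔪 ≠ ⊥) {ψ : (Ideal (𝓞 K))⁰ →* ℂ} (hψ : GChar n κ 𝔪 ψ) {β π : 𝓞 K}
    (hπ : π - β ∈ 𝔪) (hπ0 : π ≠ 0) (hco : IsCoprime (Ideal.span {π}) 𝔪) :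
    chi n κ (π : K) = conj (elG n κ 𝔪 ψ β) * ψ (sp π hπ0) := by
  have h1 : elG n κ 𝔪 ψ π = elG n κ 𝔪 ψ β := by
    have h2 := elG_add hψ β hπ
    rwa [add_sub_cancel] at h2
  have h3 : ‖ψ (sp π hπ0)‖ = 1 := norm_psi_eq_one h𝔪 hψ hco
  have h4 := conj_mul_self_of_norm h3
  rw [← h1, elG_of_ne hπ0, map_mul, Complex.conj_conj]
  linear_combination (-(chi n κ (π : K))) * h4

/-- **Hecke (1920): equidistribution of the prime elements of a number field.** `K` a number field,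
`(n, κ)` a type of infinite order which is trivial on the units `≡ 1` modulo `𝔪`, `α` prime to `𝔪`.
The prime ideals `P = (π)` generated by an element `π ≡ α` modulo `𝔪` are equidistributed with
respect to `chi n κ π = ∏_w (π_w / |π_w|) ^ n_w * |π_w| ^ (i κ_w)`: for every arc of the circle of
length `2 π (b - a)` the number of those with norm at most `x` and `chi n κ π` in the arc is
`~ (b - a) / h_𝔪 * x / log x`. -/
theorem hecke_equidistribution_elements (hT : IsTy n κ) (hinf : IsInf n κ) (h𝔪 : 𝔪 ≠ ⊥)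
    (hu : ∀ v : (𝓞 K)ˣ, (v : 𝓞 K) - 1 ∈ 𝔪 → chi n κ ((v : 𝓞 K) : K) = 1)
    {α : 𝓞 K} (hα : IsCoprime (Ideal.span {α}) 𝔪) {a b : ℝ} (ha : 0 ≤ a) (hab : a ≤ b)
    (hb : b ≤ 1) :
    Tendsto (fun x : ℕ => (Nat.card {P : Pr K // nP P ≤ x ∧ ∃ π : 𝓞 K, π - α ∈ 𝔪 ∧
      ((P.1 : (Ideal (𝓞 K))⁰) : Ideal (𝓞 K)) = Ideal.span {π} ∧
      a < ang (chi n κ (π : K)) ∧ ang (chi n κ (π : K)) < b} : ℝ) * Real.log x / x) atTop
      (𝓝 ((b - a) / rayNumber 𝔪)) ∧
    Tendsto (fun x : ℕ => (Nat.card {P : Pr K // nP P ≤ x ∧ ∃ π : 𝓞 K, π - α ∈ 𝔪 ∧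
      ((P.1 : (Ideal (𝓞 K))⁰) : Ideal (𝓞 K)) = Ideal.span {π} ∧
      a ≤ ang (chi n κ (π : K)) ∧ ang (chi n κ (π : K)) ≤ b} : ℝ) * Real.log x / x) atTop
      (𝓝 ((b - a) / rayNumber 𝔪)) := by
  obtain ⟨ψ, hψ⟩ := existG K n κ 𝔪 h𝔪 hu
  obtain ⟨β, hβ0, hβ, hβα⟩ : ∃ β : 𝓞 K, β ≠ 0 ∧ IsCoprime (Ideal.span {β}) 𝔪 ∧ β - α ∈ 𝔪 := by
    by_cases h : α = 0
    · refine ⟨1, one_ne_zero, ?_, ?_⟩
      · rw [Ideal.span_singleton_one, ← Ideal.one_eq_top]
        exact isCoprime_one_left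
      · obtain ⟨b, hb⟩ := isCoprime_span_iff.mp hα
        rw [h, mul_zero, zero_sub] at hb
        rw [h, sub_zero]
        have := 𝔪.neg_mem hb
        rwa [neg_neg] at this
    · exact ⟨α, h, hα, by rw [sub_self]; exact 𝔪.zero_mem⟩
  have hc : ‖conj (elG n κ 𝔪 ψ β)‖ = 1 := by
    rw [Complex.norm_conj, elG_of_ne hβ0, norm_mul, Complex.norm_conj,
      norm_chi n κ (coe_ne_zeroG hβ0), mul_one]
    exact norm_psi_eq_one h𝔪 hψ hβ
  have key := tendsto_card_arc_mul_of (nonVanGStmt K) (entireStmt K) (groupStmt K) h𝔪 hT hinf hψ hc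
    (J := sp β hβ0) hβ ha hab hb
  have h1 : ∀ (p : ℝ → Prop) (x : ℕ), Nat.card {P : Pr K // nP P ≤ x ∧ RayEq 𝔪 P.1 (sp β hβ0) ∧
      p (ang (conj (elG n κ 𝔪 ψ β) * ψ P.1))} =
      Nat.card {P : Pr K // nP P ≤ x ∧ ∃ π : 𝓞 K, π - α ∈ 𝔪 ∧
        ((P.1 : (Ideal (𝓞 K))⁰) : Ideal (𝓞 K)) = Ideal.span {π} ∧ p (ang (chi n κ (π : K)))} := by
    intro p x
    refine Nat.card_congr (Equiv.subtypeEquivRight fun P => and_congr_right fun _ => ?_)
    rw [rayEq_span_iff hβ hβ0 rfl]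
    have hgen : ∀ π : 𝓞 K, π - β ∈ 𝔪 →
        ((P.1 : (Ideal (𝓞 K))⁰) : Ideal (𝓞 K)) = Ideal.span {π} →
        chi n κ (π : K) = conj (elG n κ 𝔪 ψ β) * ψ P.1 := by
      intro π hπ hP
      have hπ0 : π ≠ 0 := by
        rintro rfl
        rw [Ideal.span_singleton_eq_bot.mpr rfl] at hP
        exact nonZeroDivisors.coe_ne_zero _ hP
      have hPs : P.1 = sp π hπ0 := Subtype.ext hP
      have hco : IsCoprime (Ideal.span {π}) 𝔪 := by
        obtain ⟨c, hc⟩ := isCoprime_span_iff.mp hβ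
        refine isCoprime_span_iff.mpr ⟨c, ?_⟩
        have h1 : c * π - 1 = (c * β - 1) + c * (π - β) := by ring
        rw [h1]
        exact 𝔪.add_mem hc (𝔪.mul_mem_left c hπ)
      rw [hPs]
      exact chi_eq_of_gen h𝔪 hψ hπ hπ0 hco
    constructor
    · rintro ⟨⟨π, hπ, hP⟩, hp⟩
      refine ⟨π, ?_, hP, ?_⟩
      · have := 𝔪.add_mem hπ hβα
        rwa [sub_add_sub_cancel] at this
      · rw [hgen π hπ hP]
        exact hp
    · rintro ⟨π, hπ, hP, hp⟩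
      have hπβ : π - β ∈ 𝔪 := by
        have := 𝔪.sub_mem hπ hβα
        rwa [sub_sub_sub_cancel_right] at this
      refine ⟨⟨π, hπβ, hP⟩, ?_⟩
      rw [← hgen π hπβ hP]
      exact hp
  have h2 := fun x => h1 (fun t => a < t ∧ t < b) x
  have h3 := fun x => h1 (fun t => a ≤ t ∧ t ≤ b) x
  simp only [h2, h3] at key
  exact key

end Fermat.Agent.Cor.RayG

end
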