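import Fermat.Agent.Corollaries.RayG.PowG
import Fermat.Agent.Corollaries.ZetaK.PsiSum
import Fermat.Agent.Corollaries.Gauss.Weyl
import Fermat.Agent.Corollaries.RayN.Final
import Fermat.Agent.Corollaries.ZetaK.Landau

/-!
# The values of a Groessencharakter of infinite order at the prime ideals are equidistributed

`K` any number field, `ψ` a Groessencharakter modulo `𝔪` of infinite order (type `(n, κ)` with
`IsInf n κ`).  From the non-vanishing of the `L`-functions on `Re s ≥ 1` (`NonVanGStmt K`):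

* `tendsto_arc_nray`: for every narrow ray class modulo `𝔪` and every arc of the unit circle of
  length `2 π (β - α) ≤ 2 π` the number of prime ideals `P` in the class with `N P ≤ x` and `ψ(P)` in
  the arc is asymptotic to `((β - α) / h) x / log x`, `h` the number of narrow ray classes;
* `tendsto_arc_class`: the same for the ideal classes (`𝔪 = 1`);
* `tendsto_arc`: all prime ideals prime to `𝔪`.
-/

set_option autoImplicit false
set_option linter.unusedSectionVars false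

noncomputable section

open NumberField NumberField.InfinitePlace nonZeroDivisors Complex Filter Topology

open scoped Classical ComplexConjugate

namespace Fermat.Agent.Cor.RayG

open Fermat.Agent.ClassL Fermat.Agent.Classic.Zeta Fermat.Agent.Cor.Ray Fermat.Agent.Cor.RayN

/-! ### The normalised argument -/

/-- the argument divided by `2 π`, in `[0, 1)` -/
def th (z : ℂ) : ℝ := if z.arg < 0 then z.arg / (2 * Real.pi) + 1 else z.arg / (2 * Real.pi)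

theorem th_nonneg (z : ℂ) : 0 ≤ th z := by
  have hpi := Real.pi_pos
  unfold th
  split_ifs with h
  · have h1 := neg_pi_lt_arg z
    have h2 : -(1 / 2) ≤ z.arg / (2 * Real.pi) := by
      rw [le_div_iff₀ (by positivity)]
      linarith
    linarith
  · exact div_nonneg (not_lt.mp h) (by positivity)

theorem th_lt_one (z : ℂ) : th z < 1 := by
  have hpi := Real.pi_pos
  unfold th
  split_ifs with h
  · have h2 : z.arg / (2 * Real.pi) < 0 := div_neg_of_neg_of_pos h (by positivity)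
    linarith
  · have h1 := arg_le_pi z
    rw [div_lt_one (by positivity)]
    linarith

/-- `e ^ (2 π i t)` -/
def e2 (t : ℝ) : ℂ := Complex.exp (2 * Real.pi * Complex.I * t)

theorem e2_add (s t : ℝ) : e2 (s + t) = e2 s * e2 t := by
  rw [e2, e2, e2, ← Complex.exp_add]
  congr 1
  push_cast
  ring

theorem e2_one : e2 1 = 1 := by
  rw [e2, Complex.ofReal_one, mul_one, Complex.exp_two_pi_mul_I]

theorem e2_zero : e2 0 = 1 := by rw [e2, Complex.ofReal_zero, mul_zero, Complex.exp_zero]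

theorem norm_e2 (t : ℝ) : ‖e2 t‖ = 1 := by
  have h : (2 * Real.pi * Complex.I * t : ℂ) = ((2 * Real.pi * t : ℝ) : ℂ) * Complex.I := by
    push_cast
    ring
  rw [e2, h, Complex.norm_exp_ofReal_mul_I]

theorem e2_int (k : ℤ) : e2 k = 1 := by
  rw [e2]
  have h : (2 * Real.pi * Complex.I * ((k : ℝ) : ℂ) : ℂ) = k * (2 * Real.pi * Complex.I) := by
    push_cast
    ring
  rw [h, Complex.exp_int_mul_two_pi_mul_I]

theorem e2_eq_iff {s t : ℝ} : e2 s = e2 t ↔ ∃ k : ℤ, s = t + k := by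
  constructor
  · intro h
    rw [e2, e2, Complex.exp_eq_exp_iff_exists_int] at h
    obtain ⟨k, hk⟩ := h
    refine ⟨k, ?_⟩
    have h1 : (2 * Real.pi * Complex.I : ℂ) ≠ 0 := Complex.two_pi_I_ne_zero
    have h2 : (2 * Real.pi * Complex.I : ℂ) * s = (2 * Real.pi * Complex.I) * (t + k) := by
      rw [hk]
      ring
    have h3 := mul_left_cancel₀ h1 h2
    exact_mod_cast h3
  · rintro ⟨k, rfl⟩
    rw [e2_add, e2_int, mul_one]

theorem e2_th {z : ℂ} (hz : ‖z‖ = 1) : e2 (th z) = z := by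
  have hpi : (Real.pi : ℂ) ≠ 0 := by exact_mod_cast Real.pi_ne_zero
  have h1 : e2 (z.arg / (2 * Real.pi)) = z := by
    have h2 : (2 * Real.pi * Complex.I * ((z.arg / (2 * Real.pi) : ℝ) : ℂ) : ℂ) =
        z.arg * Complex.I := by
      push_cast
      field_simp
    rw [e2, h2]
    conv_rhs => rw [← Complex.norm_mul_exp_arg_mul_I z, hz, Complex.ofReal_one, one_mul]
  unfold th
  split_ifs
  · rw [e2_add, e2_one, mul_one, h1]
  · exact h1

theorem th_e2 {s : ℝ} (h0 : 0 ≤ s) (h1 : s < 1) : th (e2 s) = s := by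
  obtain ⟨k, hk⟩ := e2_eq_iff.mp (e2_th (norm_e2 s))
  have h2 := th_nonneg (e2 s)
  have h3 := th_lt_one (e2 s)
  have h4 : k = 0 := by
    have h5 : (k : ℝ) < 1 := by linarith
    have h6 : (-1 : ℝ) < k := by linarith
    have h7 : k < 1 := by exact_mod_cast h5
    have h8 : -1 < k := by exact_mod_cast h6
    omega
  rw [hk, h4, Int.cast_zero, add_zero]

theorem e2_zpow (t : ℝ) (k : ℤ) : Complex.exp (2 * Real.pi * Complex.I * k * t) = e2 t ^ k := by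
  rw [e2, ← Complex.exp_int_mul]
  congr 1
  ring

/-- the points of an arc -/
theorem mem_arc_iff {z : ℂ} (hz : ‖z‖ = 1) {α β : ℝ} (h2 : β ≤ α + 1) :
    (∃ t ∈ Set.Ioo α β, z = e2 t) ↔ 0 < th (z * e2 (-α)) ∧ th (z * e2 (-α)) < β - α := by
  constructor
  · rintro ⟨t, ⟨ht1, ht2⟩, rfl⟩
    rw [← e2_add, th_e2 (by linarith) (by linarith)]
    constructor <;> linarith
  · rintro ⟨h3, h4⟩
    refine ⟨th (z * e2 (-α)) + α, ⟨by linarith, by linarith⟩, ?_⟩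
    rw [e2_add, e2_th (by rw [norm_mul, hz, norm_e2, one_mul]), mul_assoc, ← e2_add, neg_add_cancel,
      e2_zero, mul_one]

/-! ### Sums over the primes in a class -/

section Univ

universe u v

variable {K : Type u} [Field K] [NumberField K] {𝔪 : Ideal (𝓞 K)}
  {n : InfinitePlace K → ℤ} {κ : InfinitePlace K → ℝ} {ψ : (Ideal (𝓞 K))⁰ →* ℂ}
  {G : Type v} [CommGroup G] [Finite G] {cl : (Ideal (𝓞 K))⁰ →* WithZero G}

theorem GChar.norm_eq_one (h𝔪 : 𝔪 ≠ ⊥) (hψ : GChar n κ 𝔪 ψ) {I : (Ideal (𝓞 K))⁰}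
    (hI : IsCoprime (I : Ideal (𝓞 K)) 𝔪) : ‖ψ I‖ = 1 := by
  obtain ⟨m, hm, a, ha, ha1⟩ := exists_pow_eq_span h𝔪 hI
  have ha0 : a ≠ 0 := by
    rintro rfl
    rw [Ideal.span_singleton_eq_bot.mpr rfl] at ha
    exact nonZeroDivisors.coe_ne_zero _ ha
  have h1 : I ^ m = sp a ha0 := Subtype.ext ha
  have h2 : ‖ψ I‖ ^ m = 1 := by
    rw [← norm_pow, ← map_pow, h1, hψ.cong a ha0 ha1]
    exact norm_chi n κ (coe_ne_zeroF ha0)
  exact (pow_eq_one_iff_of_nonneg (norm_nonneg _) hm).mp h2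

theorem tendsto_sum_char (hN : NonVanGStmt K) (h𝔪 : 𝔪 ≠ ⊥) (hty : IsTy n κ) (hinf : IsInf n κ)
    (hψ : GChar n κ 𝔪 ψ) {χ : (Ideal (𝓞 K))⁰ →* ℂ} (hχ : NRayChar 𝔪 χ) {j : ℕ} (hj : j ≠ 0)
    {D : ℝ} (hD : IsCount (nP (K := K)) D) :
    Tendsto (fun x : ℕ => (((Real.log x / x : ℝ)) : ℂ) *
      ∑ P ∈ hD.F x, ψ P.1 ^ j * χ P.1) atTop (𝓝 0) := by
  obtain ⟨n', κ', hty', hinf', hg⟩ := GChar.exists_pow_mul h𝔪 hty hinf hψ hχ hj
  obtain ⟨L, hd, hL, h0⟩ := hN n' κ' hty' hinf' 𝔪 h𝔪 _ hg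
  refine (Psi.tendsto_sum_primes (hg.isUnitary h𝔪) hd hL h0).congr fun x => ?_
  congr 1
  have h1 : ∀ P : Pr K, P ∈ hD.F x ↔
      Ideal.absNorm ((P.1 : (Ideal (𝓞 K))⁰) : Ideal (𝓞 K)) ≤ x := fun P => hD.mem_F
  rw [← Finset.tsum_subtype (hD.F x) fun P => ψ P.1 ^ j * χ P.1]
  exact (Equiv.tsum_eq (Equiv.subtypeEquivRight h1) fun P :
    {P : Pr K // Ideal.absNorm ((P.1 : (Ideal (𝓞 K))⁰) : Ideal (𝓞 K)) ≤ x} =>
      (ψ ^ j * χ) P.1.1).symm

theorem tendsto_sum_class (hN : NonVanGStmt K) (h𝔪 : 𝔪 ≠ ⊥) (hty : IsTy n κ) (hinf : IsInf n κ)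
    (hψ : GChar n κ 𝔪 ψ) (hcl : ∀ χ : G →* ℂˣ, NRayChar 𝔪 (Psi.psi cl χ)) {j : ℕ} (hj : j ≠ 0)
    {D : ℝ} (hD : IsCount (nP (K := K)) D) (g : G) :
    Tendsto (fun x : ℕ => (((Real.log x / x : ℝ)) : ℂ) *
      ∑ P ∈ (hD.F x).filter (fun P => cl P.1 = (g : WithZero G)), ψ P.1 ^ j) atTop (𝓝 0) := by
  have : Fintype (G →* ℂˣ) := Fintype.ofFinite _
  have hG0 : (Nat.card G : ℂ) ≠ 0 := by exact_mod_cast Nat.card_pos.ne'
  have h1 : ∀ x : ℕ, (((Real.log x / x : ℝ)) : ℂ) *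
      ∑ P ∈ (hD.F x).filter (fun P => cl P.1 = (g : WithZero G)), ψ P.1 ^ j =
      (Nat.card G : ℂ)⁻¹ * ∑ χ : G →* ℂˣ, ((χ g : ℂˣ) : ℂ)⁻¹ * ((((Real.log x / x : ℝ)) : ℂ) *
        ∑ P ∈ hD.F x, ψ P.1 ^ j * Psi.psi cl χ P.1) := by
    intro x
    have h2 : ∀ P : Pr K, (if cl P.1 = (g : WithZero G) then ψ P.1 ^ j else 0) =
        (Nat.card G : ℂ)⁻¹ * ∑ χ : G →* ℂˣ, ((χ g : ℂˣ) : ℂ)⁻¹ *
          (ψ P.1 ^ j * Psi.psi cl χ P.1) := by
      intro P
      have h3 := Psi.orth0 g (cl P.1)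
      have h4 : ∑ χ : G →* ℂˣ, ((χ g : ℂˣ) : ℂ)⁻¹ * (ψ P.1 ^ j * Psi.psi cl χ P.1) =
          ψ P.1 ^ j * ∑ χ : G →* ℂˣ, ((χ g : ℂˣ) : ℂ)⁻¹ * Psi.chi0 χ (cl P.1) := by
        rw [Finset.mul_sum]
        refine Finset.sum_congr rfl fun χ _ => ?_
        change _ * (_ * Psi.chi0 χ (cl P.1)) = _
        ring
      rw [h4, h3]
      split_ifs
      · field_simp
      · rw [mul_zero, mul_zero]
    rw [Finset.sum_filter, Finset.sum_congr rfl fun P _ => h2 P, ← Finset.mul_sum,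
      Finset.sum_comm]
    simp only [Finset.mul_sum]
    refine Finset.sum_congr rfl fun χ _ => Finset.sum_congr rfl fun P _ => ?_
    ring
  simp only [h1]
  have h5 : (0 : ℂ) = (Nat.card G : ℂ)⁻¹ * ∑ χ : G →* ℂˣ, ((χ g : ℂˣ) : ℂ)⁻¹ * 0 := by simp
  rw [h5]
  exact (tendsto_finsetSum _ fun χ _ =>
    (tendsto_sum_char hN h𝔪 hty hinf hψ (hcl χ) hj hD).const_mul _).const_mul _

end Univ

variable {K : Type} [Field K] [NumberField K] {𝔪 : Ideal (𝓞 K)}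
  {n : InfinitePlace K → ℤ} {κ : InfinitePlace K → ℝ} {ψ : (Ideal (𝓞 K))⁰ →* ℂ}
  {G : Type} [CommGroup G] [Finite G] {cl : (Ideal (𝓞 K))⁰ →* WithZero G}

/-- **Equidistribution of the values in a class**, general form. -/
theorem tendsto_arc_group (hN : NonVanGStmt K) (h𝔪 : 𝔪 ≠ ⊥) (hty : IsTy n κ) (hinf : IsInf n κ)
    (hψ : GChar n κ 𝔪 ψ) (hcl : ∀ χ : G →* ℂˣ, NRayChar 𝔪 (Psi.psi cl χ)) (g : G)
    (hcard : Tendsto (fun x : ℕ => (Nat.card {P : Pr K // nP P ≤ x ∧ cl P.1 = (g : WithZero G)} : ℝ) *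
      Real.log x / x) atTop (𝓝 (Nat.card G : ℝ)⁻¹)) {α β : ℝ} (h1 : α ≤ β) (h2 : β ≤ α + 1) :
    Tendsto (fun x : ℕ => (Nat.card {P : Pr K // nP P ≤ x ∧ cl P.1 = (g : WithZero G) ∧
      ∃ t ∈ Set.Ioo α β, ψ P.1 = e2 t} : ℝ) * Real.log x / x) atTop
      (𝓝 ((β - α) / Nat.card G)) := by
  obtain ⟨D, hD⟩ := exists_isCount K
  have hG0 : (Nat.card G : ℝ) ≠ 0 := by exact_mod_cast Nat.card_pos.ne'
  have hnorm : ∀ P : Pr K, cl P.1 = (g : WithZero G) → ‖ψ P.1‖ = 1 := by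
    intro P hP
    refine hψ.norm_eq_one h𝔪 ?_
    by_contra hI
    have h3 := (hcl 1).eq_zero P.1 hI
    have h4 : Psi.psi cl (1 : G →* ℂˣ) P.1 = 1 := by
      change Psi.chi0 1 (cl P.1) = 1
      rw [hP, Psi.chi0_coe, MonoidHom.one_apply, Units.val_one]
    rw [h4] at h3
    exact one_ne_zero h3
  have hFc : ∀ x : ℕ, (((hD.F x).filter fun P => cl P.1 = (g : WithZero G)).card : ℝ) =
      (Nat.card {P : Pr K // nP P ≤ x ∧ cl P.1 = (g : WithZero G)} : ℝ) := by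
    intro x
    rw [← Nat.card_eq_finsetCard]
    congr 1
    exact Nat.card_congr (Equiv.subtypeEquivRight fun P => by rw [Finset.mem_filter, hD.mem_F])
  have hw := (Gauss.weylStmt (Pr K) (fun P => th (ψ P.1 * e2 (-α)))
    (fun x => (hD.F x).filter fun P => cl P.1 = (g : WithZero G))
    (fun x => (Nat.card G : ℝ) * (Real.log x / x)) (fun P => th_nonneg _) (fun P => th_lt_one _)
    (fun x => mul_nonneg (Nat.cast_nonneg _)
      (div_nonneg (Real.log_natCast_nonneg x) (Nat.cast_nonneg x))) ?_ ?_ 0 (β - α) le_rfl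
      (by linarith) (by linarith)).1
  · rw [sub_zero] at hw
    have h3 := hw.const_mul (Nat.card G : ℝ)⁻¹
    rw [show (Nat.card G : ℝ)⁻¹ * (β - α) = (β - α) / Nat.card G by rw [div_eq_mul_inv, mul_comm]]
      at h3
    refine h3.congr fun x => ?_
    have h4 : Nat.card {P : Pr K // P ∈ (hD.F x).filter (fun P => cl P.1 = (g : WithZero G)) ∧
        0 < th (ψ P.1 * e2 (-α)) ∧ th (ψ P.1 * e2 (-α)) < β - α} =
        Nat.card {P : Pr K // nP P ≤ x ∧ cl P.1 = (g : WithZero G) ∧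
          ∃ t ∈ Set.Ioo α β, ψ P.1 = e2 t} := by
      refine Nat.card_congr (Equiv.subtypeEquivRight fun P => ?_)
      rw [Finset.mem_filter, hD.mem_F, and_assoc]
      refine and_congr_right fun _ => and_congr_right fun hP => ?_
      exact (mem_arc_iff (hnorm P hP) h2).symm
    rw [h4]
    field_simp
  · have h3 := hcard.const_mul (Nat.card G : ℝ)
    rw [mul_inv_cancel₀ hG0] at h3
    refine h3.congr fun x => ?_
    rw [hFc]
    ring
  · -- the Weyl sums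
    have key : ∀ j : ℕ, j ≠ 0 → Tendsto (fun x : ℕ => (((Nat.card G : ℝ) * (Real.log x / x) : ℝ) : ℂ) *
        ∑ P ∈ (hD.F x).filter (fun P => cl P.1 = (g : WithZero G)),
          (ψ P.1 * e2 (-α)) ^ j) atTop (𝓝 0) := by
      intro j hj
      have h3 := (tendsto_sum_class hN h𝔪 hty hinf hψ hcl hj hD g).const_mul
        ((Nat.card G : ℂ) * e2 (-α) ^ j)
      rw [mul_zero] at h3
      refine h3.congr fun x => ?_
      have h4 : ∀ P : Pr K, (ψ P.1 * e2 (-α)) ^ j = e2 (-α) ^ j * ψ P.1 ^ j := fun P => by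
        rw [mul_pow, mul_comm]
      simp only [h4]
      rw [← Finset.mul_sum]
      push_cast
      ring
    intro k hk
    have h6 : ∀ (x : ℕ), ∀ P ∈ (hD.F x).filter (fun P => cl P.1 = (g : WithZero G)),
        Complex.exp (2 * Real.pi * Complex.I * k * th (ψ P.1 * e2 (-α))) =
          (ψ P.1 * e2 (-α)) ^ k := by
      intro x P hP
      rw [e2_zpow, e2_th]
      rw [norm_mul, norm_e2, mul_one]
      exact hnorm P (Finset.mem_filter.mp hP).2
    obtain ⟨j, rfl | rfl⟩ := k.eq_nat_or_neg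
    · refine (key j (by omega)).congr fun x => ?_
      rw [Finset.sum_congr rfl (h6 x)]
      simp only [zpow_natCast]
    · have h7 := (Complex.continuous_conj.tendsto 0).comp (key j (by omega))
      rw [map_zero] at h7
      refine h7.congr fun x => ?_
      rw [Finset.sum_congr rfl (h6 x), Function.comp_apply, map_mul, Complex.conj_ofReal, map_sum]
      congr 1
      refine Finset.sum_congr rfl fun P hP => ?_
      have h8 : ‖ψ P.1 * e2 (-α)‖ = 1 := by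
        rw [norm_mul, norm_e2, mul_one]
        exact hnorm P (Finset.mem_filter.mp hP).2
      rw [zpow_neg, zpow_natCast, ← inv_pow, Complex.inv_eq_conj h8, map_pow]

/-! ### Narrow ray classes -/

/-- **Hecke: the values `ψ(P)` of a Groessencharakter of infinite order modulo `𝔪` are
equidistributed on the unit circle, in every narrow ray class modulo `𝔪`.** -/
theorem tendsto_arc_nray (hN : NonVanGStmt K) (h𝔪 : 𝔪 ≠ ⊥) (hty : IsTy n κ) (hinf : IsInf n κ)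
    (hψ : GChar n κ 𝔪 ψ) {J : (Ideal (𝓞 K))⁰} (hJ : IsCoprime (J : Ideal (𝓞 K)) 𝔪) {α β : ℝ}
    (h1 : α ≤ β) (h2 : β ≤ α + 1) :
    Tendsto (fun x : ℕ => (Nat.card {P : Pr K // nP P ≤ x ∧ NRayEq 𝔪 P.1 J ∧
      ∃ t ∈ Set.Ioo α β, ψ P.1 = e2 t} : ℝ) * Real.log x / x) atTop
      (𝓝 ((β - α) / nRayNumber 𝔪)) := by
  obtain ⟨G, _, _, cl, hsurj, hcl⟩ := groupNStmt K 𝔪 h𝔪
  have h3 : ∀ P : Pr K, (cl0 cl P.1 = (cl ⟨J, hJ⟩ : WithZero G)) ↔ NRayEq 𝔪 P.1 J := fun P => by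
    rw [cl0_eq_iff_n cl hcl hJ]
    exact ⟨fun h => h.2, fun h => ⟨h.coprime hJ, h⟩⟩
  have h4 : Tendsto (fun x : ℕ => (Nat.card {P : Pr K // nP P ≤ x ∧
      cl0 cl P.1 = (cl ⟨J, hJ⟩ : WithZero G)} : ℝ) * Real.log x / x) atTop
      (𝓝 (Nat.card G : ℝ)⁻¹) := by
    rw [natCard_eq_nRayNumber cl hsurj hcl]
    simp only [h3]
    exact tendsto_card_nray (entireNStmt K) (groupNStmt K) h𝔪 hJ
  have key := tendsto_arc_group hN h𝔪 hty hinf hψ (nRayChar_psi cl hcl) (cl ⟨J, hJ⟩) h4 h1 h2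
  rw [natCard_eq_nRayNumber cl hsurj hcl] at key
  simp only [h3] at key
  exact key

/-- **The values `ψ(P)` of a Groessencharakter of infinite order are equidistributed on the unit
circle**: all prime ideals prime to `𝔪`. -/
theorem tendsto_arc (hN : NonVanGStmt K) (h𝔪 : 𝔪 ≠ ⊥) (hty : IsTy n κ) (hinf : IsInf n κ)
    (hψ : GChar n κ 𝔪 ψ) {α β : ℝ} (h1 : α ≤ β) (h2 : β ≤ α + 1) :
    Tendsto (fun x : ℕ => (Nat.card {P : Pr K // nP P ≤ x ∧
      IsCoprime ((P.1 : (Ideal (𝓞 K))⁰) : Ideal (𝓞 K)) 𝔪 ∧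
      ∃ t ∈ Set.Ioo α β, ψ P.1 = e2 t} : ℝ) * Real.log x / x) atTop (𝓝 (β - α)) := by
  obtain ⟨G, _, _, cl, hsurj, hcl⟩ := groupNStmt K 𝔪 h𝔪
  have : Fintype G := Fintype.ofFinite G
  have hG0 : (Nat.card G : ℝ) ≠ 0 := by exact_mod_cast Nat.card_pos.ne'
  have h4 : ∀ g : G, Tendsto (fun x : ℕ => (Nat.card {P : Pr K // nP P ≤ x ∧
      cl0 cl P.1 = (g : WithZero G) ∧ ∃ t ∈ Set.Ioo α β, ψ P.1 = e2 t} : ℝ) *
      Real.log x / x) atTop (𝓝 ((β - α) / Nat.card G)) := by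
    intro g
    obtain ⟨⟨J, hJ⟩, rfl⟩ := hsurj g
    refine tendsto_arc_group hN h𝔪 hty hinf hψ (nRayChar_psi cl hcl) _ ?_ h1 h2
    have h3 : ∀ P : Pr K, (cl0 cl P.1 = (cl ⟨J, hJ⟩ : WithZero G)) ↔ NRayEq 𝔪 P.1 J :=
      fun P => by
        rw [cl0_eq_iff_n cl hcl hJ]
        exact ⟨fun h => h.2, fun h => ⟨h.coprime hJ, h⟩⟩
    rw [natCard_eq_nRayNumber cl hsurj hcl]
    simp only [h3]
    exact tendsto_card_nray (entireNStmt K) (groupNStmt K) h𝔪 hJ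
  have h5 := tendsto_finsetSum Finset.univ fun g _ => h4 g
  rw [Finset.sum_const, Finset.card_univ, ← Nat.card_eq_fintype_card, nsmul_eq_mul,
    mul_div_cancel₀ _ hG0] at h5
  refine h5.congr fun x => ?_
  obtain ⟨D, hD⟩ := exists_isCount K
  rw [← Finset.sum_div, ← Finset.sum_mul]
  congr 2
  have h6 : ∀ g : G, (Nat.card {P : Pr K // nP P ≤ x ∧ cl0 cl P.1 = (g : WithZero G) ∧
      ∃ t ∈ Set.Ioo α β, ψ P.1 = e2 t} : ℝ) = (((hD.F x).filter fun P =>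
        (IsCoprime ((P.1 : (Ideal (𝓞 K))⁰) : Ideal (𝓞 K)) 𝔪 ∧ ∃ t ∈ Set.Ioo α β,
          ψ P.1 = e2 t) ∧ cl0 cl P.1 = (g : WithZero G)).card : ℝ) := by
    intro g
    rw [← Nat.card_eq_finsetCard]
    congr 1
    refine Nat.card_congr (Equiv.subtypeEquivRight fun P => ?_)
    rw [Finset.mem_filter, hD.mem_F]
    refine and_congr_right fun _ => ⟨fun h => ⟨⟨?_, h.2⟩, h.1⟩, fun h => ⟨h.2, h.1.2⟩⟩
    by_contra h7
    have h8 := (cl0_eq_zero_iff cl).mpr h7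
    rw [h.1] at h8
    exact WithZero.coe_ne_zero h8
  have h7 : (Nat.card {P : Pr K // nP P ≤ x ∧
      IsCoprime ((P.1 : (Ideal (𝓞 K))⁰) : Ideal (𝓞 K)) 𝔪 ∧
      ∃ t ∈ Set.Ioo α β, ψ P.1 = e2 t} : ℝ) = (((hD.F x).filter fun P =>
        (IsCoprime ((P.1 : (Ideal (𝓞 K))⁰) : Ideal (𝓞 K)) 𝔪 ∧ ∃ t ∈ Set.Ioo α β,
          ψ P.1 = e2 t)).card : ℝ) := by
    rw [← Nat.card_eq_finsetCard]
    congr 1
    exact Nat.card_congr (Equiv.subtypeEquivRight fun P => by rw [Finset.mem_filter, hD.mem_F])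
  rw [h7, Finset.sum_congr rfl fun g _ => h6 g]
  have h8 : ∀ P ∈ (hD.F x).filter (fun P =>
      (IsCoprime ((P.1 : (Ideal (𝓞 K))⁰) : Ideal (𝓞 K)) 𝔪 ∧ ∃ t ∈ Set.Ioo α β,
        ψ P.1 = e2 t)), cl0 cl P.1 ∈ Finset.univ.map
          (⟨fun g : G => (g : WithZero G), WithZero.coe_injective⟩ : G ↪ WithZero G) := by
    intro P hP
    have h9 : cl0 cl P.1 ≠ 0 := fun h0 =>
      (cl0_eq_zero_iff cl).mp h0 (Finset.mem_filter.mp hP).2.1
    obtain ⟨g, hg⟩ := WithZero.ne_zero_iff_exists.mp h9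
    exact Finset.mem_map.mpr ⟨g, Finset.mem_univ g, hg⟩
  have h9 := Finset.card_eq_sum_card_fiberwise h8
  rw [h9, Finset.sum_map]
  push_cast
  refine Finset.sum_congr rfl fun g _ => ?_
  rw [Finset.filter_filter]
  rfl

/-! ### Ideal classes -/

/-- **Ideal classes**: the case `𝔪 = 1`. -/
theorem tendsto_arc_class (hN : NonVanGStmt K) (hty : IsTy n κ) (hinf : IsInf n κ)
    (hψ : GChar n κ (⊤ : Ideal (𝓞 K)) ψ) (C : ClassGroup (𝓞 K)) {α β : ℝ}
    (h1 : α ≤ β) (h2 : β ≤ α + 1) :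
    Tendsto (fun x : ℕ => (Nat.card {P : Pr K // nP P ≤ x ∧ ClassGroup.mk0 P.1 = C ∧
      ∃ t ∈ Set.Ioo α β, ψ P.1 = e2 t} : ℝ) * Real.log x / x) atTop
      (𝓝 ((β - α) / classNumber K)) := by
  have hcard : Nat.card (ClassGroup (𝓞 K)) = classNumber K := by
    rw [Nat.card_eq_fintype_card]
    rfl
  let cl : (Ideal (𝓞 K))⁰ →* WithZero (ClassGroup (𝓞 K)) :=
    { toFun := fun I => ((ClassGroup.mk0 I : ClassGroup (𝓞 K)) : WithZero (ClassGroup (𝓞 K)))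
      map_one' := by rw [map_one, WithZero.coe_one]
      map_mul' := fun I J => by rw [map_mul, WithZero.coe_mul] }
  have hcl : ∀ χ : ClassGroup (𝓞 K) →* ℂˣ, NRayChar (⊤ : Ideal (𝓞 K)) (Psi.psi cl χ) := by
    intro χ
    refine ⟨(Psi.isUnitary_psi cl χ).le, fun I hI => absurd ?_ hI, fun I a hI _ _ => ?_⟩
    · rw [← Ideal.one_eq_top]
      exact isCoprime_one_right
    · have h3 : ClassGroup.mk0 I = 1 :=
        (ClassGroup.mk0_eq_one_iff I.2).mpr ⟨⟨a, hI⟩⟩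
      change Psi.chi0 χ ((ClassGroup.mk0 I : ClassGroup (𝓞 K)) : WithZero _) = 1
      rw [h3, Psi.chi0_coe, map_one, Units.val_one]
  have h4 : ∀ P : Pr K, cl P.1 = (C : WithZero (ClassGroup (𝓞 K))) ↔ ClassGroup.mk0 P.1 = C :=
    fun P => WithZero.coe_inj
  have h5 := tendsto_arc_group hN (by exact top_ne_bot) hty hinf hψ hcl C (by
    simp only [h4]
    rw [← one_div]
    exact prime_ideal_theorem_class K C) h1 h2
  simp only [h4] at h5
  rw [hcard] at h5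
  exact h5

end Fermat.Agent.Cor.RayG

end
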