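import Fermat.Agent.Corollaries.RayG.ConeChar
import Fermat.Agent.Corollaries.RayG.Equi

/-!
# Open cones in the mixed space, in logarithmic coordinates
-/

set_option autoImplicit false
set_option linter.unusedSectionVars false

noncomputable section

open NumberField NumberField.InfinitePlace NumberField.Units nonZeroDivisors Complex Filter Topology
open NumberField.Units.dirichletUnitTheorem NumberField.mixedEmbedding

open scoped Classical ComplexConjugate

namespace Fermat.Agent.Cor.RayG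

open Fermat.Agent.ClassL Fermat.Agent.Classic.Zeta Fermat.Agent.Cor.Ray Fermat.Agent.Cor.RayN

universe u

variable {K : Type u} [Field K] [NumberField K]

namespace Cone

theorem sum_mult_log_mixed {y : mixedSpace K} (hy : mixedEmbedding.norm y ≠ 0) :
    ∑ w : InfinitePlace K, (mult w : ℝ) * Real.log (normAtPlace w y) =
      Real.log (mixedEmbedding.norm y) := by
  rw [mixedEmbedding.norm_apply, Real.log_prod fun w _ => pow_ne_zero _
    (mixedEmbedding.norm_ne_zero_iff.mp hy w)]
  refine Finset.sum_congr rfl fun w _ => ?_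
  rw [Real.log_pow]

theorem lg_logMap {y : mixedSpace K} (hy : mixedEmbedding.norm y ≠ 0) (w : InfinitePlace K) :
    lg (logMap y) w = Real.log (normAtPlace w y) -
      Real.log (mixedEmbedding.norm y) * (Module.finrank ℚ K : ℝ)⁻¹ := by
  have hm : ∀ w : InfinitePlace K, (mult w : ℝ) ≠ 0 := fun w => by
    exact_mod_cast mult_coe_ne_zero (K := K)
  have hf := finrank_ne_zero_real (K := K)
  unfold lg
  split_ifs with h
  · have h1 : ∑ w' : {w : InfinitePlace K // w ≠ w₀}, logMap y w' =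
        -((mult (w₀ : InfinitePlace K) : ℝ) * (Real.log (normAtPlace w₀ y) -
          Real.log (mixedEmbedding.norm y) * (Module.finrank ℚ K : ℝ)⁻¹)) := by
      have h2 : ∑ w : InfinitePlace K, (mult w : ℝ) * (Real.log (normAtPlace w y) -
          Real.log (mixedEmbedding.norm y) * (Module.finrank ℚ K : ℝ)⁻¹) = 0 := by
        simp only [mul_sub]
        rw [Finset.sum_sub_distrib, sum_mult_log_mixed hy, ← Finset.sum_mul, sum_mult_real]
        field_simp
        ring
      rw [Fintype.sum_eq_add_sum_subtype_ne _ (w₀ : InfinitePlace K)] at h2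
      rw [← sub_eq_zero, sub_neg_eq_add, add_comm]
      exact h2
    rw [h1, neg_neg, h, mul_div_cancel_left₀ _ (hm _)]
  · rw [logMap_apply, mul_div_cancel_left₀ _ (hm _)]

variable {r : Type} [Fintype r] (b : Module.Basis r ℝ (logSpace K))

/-- the parametrisation of the cone with signs `ε` -/
def Phi (ε : RP K → ℝ) (p : (CP K → ℝ) × (r → ℝ)) : mixedSpace K :=
  (fun w => ε w * Real.exp (lg (∑ j, p.2 j • b j) w.1),
    fun w => ((Real.exp (lg (∑ j, p.2 j • b j) w.1) : ℝ) : ℂ) * e2 (p.1 w))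

theorem continuous_lg (w : InfinitePlace K) : Continuous fun y : logSpace K => lg y w := by
  unfold lg
  split_ifs <;> fun_prop

theorem continuous_e2 : Continuous e2 := by
  unfold e2
  fun_prop

theorem continuous_Phi (ε : RP K → ℝ) : Continuous (Phi b ε) := by
  have h1 : Continuous fun p : (CP K → ℝ) × (r → ℝ) => ∑ j, p.2 j • b j := by fun_prop
  unfold Phi
  refine Continuous.prodMk (continuous_pi fun w => ?_) (continuous_pi fun w => ?_)
  · exact continuous_const.mul (Real.continuous_exp.comp ((continuous_lg w.1).comp h1))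
  · refine Continuous.mul (Complex.continuous_ofReal.comp
      (Real.continuous_exp.comp ((continuous_lg w.1).comp h1))) (continuous_e2.comp ?_)
    exact (continuous_apply w).comp continuous_fst

theorem Phi_shift (ε : RP K → ℝ) (s : CP K → ℝ) (t : r → ℝ) (q : CP K → ℤ) :
    Phi b ε (fun w => s w - q w, t) = Phi b ε (s, t) := by
  unfold Phi
  refine Prod.ext rfl (funext fun w => ?_)
  change _ * e2 (s w - q w) = _ * e2 (s w)
  congr 1
  exact e2_eq_iff.mpr ⟨-q w, by push_cast; ring⟩

/-- every point of norm `≠ 0` is a multiple of a point `Phi` -/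
theorem eq_smul_Phi {y : mixedSpace K} (hy : mixedEmbedding.norm y ≠ 0) {ε : RP K → ℝ}
    (hε : ∀ w : RP K, ε w * |y.1 w| = y.1 w) :
    y = Real.exp (Real.log (mixedEmbedding.norm y) * (Module.finrank ℚ K : ℝ)⁻¹) •
      Phi b ε (fun w => (y.2 w).arg / (2 * Real.pi), fun j => b.repr (logMap y) j) := by
  have h1 : ∀ w : InfinitePlace K,
      Real.exp (Real.log (mixedEmbedding.norm y) * (Module.finrank ℚ K : ℝ)⁻¹) *
        Real.exp (lg (∑ j, b.repr (logMap y) j • b j) w) = normAtPlace w y := by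
    intro w
    rw [b.sum_repr, lg_logMap hy, ← Real.exp_add, add_sub_cancel, Real.exp_log]
    exact lt_of_le_of_ne (normAtPlace_nonneg _ _) (mixedEmbedding.norm_ne_zero_iff.mp hy w).symm
  refine Prod.ext (funext fun w => ?_) (funext fun w => ?_)
  · change y.1 w = Real.exp _ * (ε w * Real.exp _)
    rw [mul_left_comm, h1 w.1, normAtPlace_apply_of_isReal w.2, Real.norm_eq_abs]
    exact (hε w).symm
  · change y.2 w = ((Real.exp _ : ℝ) : ℂ) * (((Real.exp _ : ℝ) : ℂ) * e2 _)
    rw [← mul_assoc, ← Complex.ofReal_mul, h1 w.1, normAtPlace_apply_of_isComplex w.2]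
    have h2 : e2 ((y.2 w).arg / (2 * Real.pi)) = Complex.exp ((y.2 w).arg * Complex.I) := by
      rw [e2]
      congr 1
      push_cast
      have : (Real.pi : ℂ) ≠ 0 := by exact_mod_cast Real.pi_ne_zero
      field_simp
    rw [h2]
    exact (Complex.norm_mul_exp_arg_mul_I _).symm

/-- **A box in the coordinates.** -/
theorem exists_cone_box {U : Set (mixedSpace K)} (hU : IsOpen U)
    (hc : ∀ x ∈ U, ∀ c : ℝ, 0 < c → c • x ∈ U) {g : mixedSpace K} (hg : g ∈ U)
    (h0 : mixedEmbedding.norm g ≠ 0) :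
    ∃ (t₀ : r → ℝ) (θ₀ : CP K → ℝ) (δ : ℝ), 0 < δ ∧ ∀ x : K, x ≠ 0 →
      (∀ w : RP K, 0 < em w x * g.1 w) → (∀ j, |b.repr (lv x) j - t₀ j| < δ) →
      (∀ w : CP K, ∃ q : ℤ, |an w.1 x - θ₀ w - q| < δ) → mixedEmbedding K x ∈ U := by
  set ε : RP K → ℝ := fun w => (SignType.sign (g.1 w) : ℝ) with hε
  set t₀ : r → ℝ := fun j => b.repr (logMap g) j with ht₀
  set θ₀ : CP K → ℝ := fun w => (g.2 w).arg / (2 * Real.pi) with hθ₀
  have h1 := eq_smul_Phi b h0 (ε := ε) fun w => sign_mul_abs (g.1 w)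
  have h2 : Phi b ε (θ₀, t₀) ∈ U := by
    set c := Real.exp (Real.log (mixedEmbedding.norm g) * (Module.finrank ℚ K : ℝ)⁻¹) with hcdef
    have hc0 : 0 < c := Real.exp_pos _
    have h3 : Phi b ε (θ₀, t₀) = c⁻¹ • g := by
      conv_rhs => rw [h1]
      rw [smul_smul, inv_mul_cancel₀ hc0.ne', one_smul]
    rw [h3]
    exact hc g hg _ (inv_pos.mpr hc0)
  obtain ⟨δ, hδ, hball⟩ := Metric.isOpen_iff.mp (hU.preimage (continuous_Phi b ε)) (θ₀, t₀) h2
  refine ⟨t₀, θ₀, δ, hδ, fun x hx hs ht hw => ?_⟩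
  choose q hq using hw
  have h4 : Phi b ε (fun w => an w.1 x - q w, fun j => b.repr (lv x) j) ∈ U := by
    refine hball ?_
    rw [Metric.mem_ball, Prod.dist_eq, max_lt_iff]
    refine ⟨(dist_pi_lt_iff hδ).mpr fun w => ?_, (dist_pi_lt_iff hδ).mpr fun j => ?_⟩
    · rw [Real.dist_eq]
      have h5 := hq w
      rwa [sub_right_comm] at h5
    · rw [Real.dist_eq]
      exact ht j
  rw [Phi_shift b ε (fun w => an w.1 x)] at h4
  have h6 := eq_smul_Phi b (norm_mixed_ne_zero hx) (ε := ε) fun w => by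
    have h7 : (mixedEmbedding K x).1 w = em w x := rfl
    rw [h7]
    have h8 : ε w = (SignType.sign (em w x) : ℝ) := by
      have h9 := hs w
      rcases pos_and_pos_or_neg_and_neg_of_mul_pos h9 with ⟨h10, h11⟩ | ⟨h10, h11⟩
      · rw [hε]
        simp only [sign_pos h10, sign_pos h11]
      · rw [hε]
        simp only [sign_neg h10, sign_neg h11]
    rw [h8]
    exact sign_mul_abs _
  rw [h6]
  exact hc _ h4 _ (Real.exp_pos _)

theorem exists_mem_norm_ne_zero {U : Set (mixedSpace K)} (hU : IsOpen U) (hne : U.Nonempty) :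
    ∃ g ∈ U, mixedEmbedding.norm g ≠ 0 := by
  have h1 : Dense ((Set.univ.pi fun _ : RP K => ({0}ᶜ : Set ℝ)) ×ˢ
      (Set.univ.pi fun _ : CP K => ({0}ᶜ : Set ℂ))) :=
    (dense_pi _ fun _ _ => dense_compl_singleton (0 : ℝ)).prod
      (dense_pi _ fun _ _ => dense_compl_singleton (0 : ℂ))
  obtain ⟨g, hg, hg1, hg2⟩ := h1.inter_open_nonempty U hU hne
  refine ⟨g, hg, mixedEmbedding.norm_ne_zero_iff.mpr fun w => ?_⟩
  rcases isReal_or_isComplex w with hw | hw
  · rw [normAtPlace_apply_of_isReal hw, norm_ne_zero_iff]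
    exact hg1 ⟨w, hw⟩ (Set.mem_univ _)
  · rw [normAtPlace_apply_of_isComplex hw, norm_ne_zero_iff]
    exact hg2 ⟨w, hw⟩ (Set.mem_univ _)

end Cone

end Fermat.Agent.Cor.RayG

end
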