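import Fermat.Agent.Corollaries.RayG.ConeEqui
import Fermat.Agent.Corollaries.RayG.ConeTop
import Mathlib.GroupTheory.FiniteAbelian.Basic

/-!
# Hecke: prime elements in every open cone, for every number field
-/

set_option autoImplicit false
set_option linter.unusedSectionVars false

noncomputable section

open NumberField NumberField.InfinitePlace NumberField.Units nonZeroDivisors Complex Filter Topology
open NumberField.Units.dirichletUnitTheorem NumberField.mixedEmbedding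

open scoped Classical ComplexConjugate

namespace Fermat.Agent.Cor.RayG

open Fermat.Agent.ClassL Fermat.Agent.Classic.Zeta Fermat.Agent.Cor.Ray Fermat.Agent.Cor.RayN

namespace Cone

section Units

universe u

variable {K : Type u} [Field K] [NumberField K] (𝔪 : Ideal (𝓞 K))

theorem em_unit_mul (w : RP K) (a b : (𝓞 K)ˣ) :
    em w (((a * b : (𝓞 K)ˣ) : 𝓞 K) : K) = em w ((a : 𝓞 K) : K) * em w ((b : 𝓞 K) : K) := by
  rw [coe_unit_mul, map_mul]

/-- the totally positive units `≡ 1` modulo `𝔪` -/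
def Lp : Subgroup (𝓞 K)ˣ where
  carrier := {u | (u : 𝓞 K) - 1 ∈ 𝔪 ∧ ∀ w : RP K, 0 < em w ((u : 𝓞 K) : K)}
  one_mem' := by
    refine ⟨by rw [Units.val_one, sub_self]; exact 𝔪.zero_mem, fun w => ?_⟩
    rw [coe_unit_one, map_one]
    exact one_pos
  mul_mem' := by
    rintro a b ⟨ha, ha'⟩ ⟨hb, hb'⟩
    refine ⟨?_, fun w => ?_⟩
    · have h : ((a * b : (𝓞 K)ˣ) : 𝓞 K) - 1 = a * (b - 1) + (a - 1) := by
        rw [Units.val_mul]
        ring
      rw [h]
      exact 𝔪.add_mem (𝔪.mul_mem_left _ hb) ha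
    · rw [em_unit_mul]
      exact mul_pos (ha' w) (hb' w)
  inv_mem' := by
    rintro a ⟨ha, ha'⟩
    refine ⟨?_, fun w => ?_⟩
    · have h : ((a⁻¹ : (𝓞 K)ˣ) : 𝓞 K) - 1 = -((a⁻¹ : (𝓞 K)ˣ) : 𝓞 K) * (a - 1) := by
        rw [neg_mul, mul_sub, mul_one, Units.inv_mul]
        ring
      rw [h]
      exact 𝔪.mul_mem_left _ ha
    · have h := em_unit_mul w a a⁻¹
      rw [mul_inv_cancel, coe_unit_one, map_one] at h
      by_contra h1
      nlinarith [ha' w, not_lt.mp h1, mul_nonneg (ha' w).le (neg_nonneg.mpr (not_lt.mp h1))]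

variable {𝔪}

theorem mem_Lp {u : (𝓞 K)ˣ} :
    u ∈ Lp 𝔪 ↔ (u : 𝓞 K) - 1 ∈ 𝔪 ∧ ∀ w : RP K, 0 < em w ((u : 𝓞 K) : K) := Iff.rfl

theorem pow_pos_of_ne {a : ℝ} (ha : a ≠ 0) (m : ℕ) : 0 < (a ^ m) ^ 2 :=
  lt_of_le_of_ne (sq_nonneg _) (pow_ne_zero 2 (pow_ne_zero m ha)).symm

theorem em_unit_ne_zero (w : RP K) (u : (𝓞 K)ˣ) : em w ((u : 𝓞 K) : K) ≠ 0 :=
  (map_ne_zero _).mpr (coe_ne_zeroG u.ne_zero)

/-- a power of every unit is in `Lp` -/
theorem exists_pow_mem_Lp (h𝔪 : 𝔪 ≠ ⊥) : ∃ N : ℕ, N ≠ 0 ∧ ∀ u : (𝓞 K)ˣ, u ^ N ∈ Lp 𝔪 := by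
  have : Finite (𝓞 K ⧸ 𝔪) := Ideal.finiteQuotientOfFreeOfNeBot 𝔪 h𝔪
  refine ⟨2 * Nat.card (𝓞 K ⧸ 𝔪)ˣ, mul_ne_zero two_ne_zero Nat.card_pos.ne', fun u => ?_⟩
  refine mem_Lp.mpr ⟨?_, fun w => ?_⟩
  · rw [← Ideal.Quotient.eq, map_one]
    have h1 : (Units.map (Ideal.Quotient.mk 𝔪 : 𝓞 K →* 𝓞 K ⧸ 𝔪) u) ^ Nat.card (𝓞 K ⧸ 𝔪)ˣ = 1 :=
      pow_card_eq_one'
    have h2 := congrArg Units.val h1
    rw [Units.val_pow_eq_pow_val, Units.val_one, Units.coe_map] at h2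
    rw [Units.val_pow_eq_pow_val, map_pow, mul_comm, pow_mul]
    change ((Ideal.Quotient.mk 𝔪) (u : 𝓞 K)) ^ Nat.card (𝓞 K ⧸ 𝔪)ˣ = 1 at h2
    rw [h2, one_pow]
  · have h1 : ((((u ^ (2 * Nat.card (𝓞 K ⧸ 𝔪)ˣ) : (𝓞 K)ˣ) : 𝓞 K) : K)) =
        (((u : 𝓞 K) : K) ^ Nat.card (𝓞 K ⧸ 𝔪)ˣ) ^ 2 := by
      rw [← pow_mul, mul_comm _ 2, Units.val_pow_eq_pow_val]
      exact map_pow (algebraMap (𝓞 K) K) _ _
    rw [h1, map_pow]
    rw [map_pow]
    exact pow_pos_of_ne (em_unit_ne_zero w u) _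

theorem exists_cone_units (h𝔪 : 𝔪 ≠ ⊥) :
    ∃ (v : Fin (rank K) → (𝓞 K)ˣ) (b : Module.Basis (Fin (rank K)) ℝ (logSpace K)),
      (∀ j, v j ∈ Lp 𝔪) ∧ (∀ j, b j = logEmbedding K (Additive.ofMul (v j))) ∧
      (Subgroup.closure (Set.range v)).FiniteIndex := by
  obtain ⟨N, hN, hmem⟩ := exists_pow_mem_Lp h𝔪
  have hNu : ∀ _ : Fin (rank K), IsUnit (N : ℝ) := fun _ => (Nat.cast_ne_zero.mpr hN).isUnit
  refine ⟨fun j => fundSystem K j ^ N, (bK K).isUnitSMul hNu, fun j => hmem _, fun j => ?_, ?_⟩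
  · rw [Module.Basis.isUnitSMul_apply, bK_apply, ofMul_pow, map_nsmul, Nat.cast_smul_eq_nsmul]
  · set H := Subgroup.closure (Set.range fun j => fundSystem K j ^ N) with hH
    have htor : IsMulTorsion ((𝓞 K)ˣ ⧸ H) := by
      intro q
      induction q using QuotientGroup.induction_on with
      | H x =>
        obtain ⟨⟨ζ, e⟩, hx, -⟩ := exist_unique_eq_mul_prod K x
        change x = (ζ : (𝓞 K)ˣ) * ∏ i, (fundSystem K i) ^ (e i) at hx
        have hζ : IsOfFinOrder (ζ : (𝓞 K)ˣ) := ζ.2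
        rw [isOfFinOrder_iff_pow_eq_one]
        refine ⟨orderOf (ζ : (𝓞 K)ˣ) * N, Nat.mul_pos hζ.orderOf_pos (Nat.pos_of_ne_zero hN), ?_⟩
        have h1 : x ^ (orderOf (ζ : (𝓞 K)ˣ) * N) =
            ∏ i, (fundSystem K i ^ N) ^ (e i * (orderOf (ζ : (𝓞 K)ˣ) : ℤ)) := by
          rw [hx, mul_pow, pow_mul (ζ : (𝓞 K)ˣ), pow_orderOf_eq_one, one_pow, one_mul,
            ← Finset.prod_pow]
          refine Finset.prod_congr rfl fun i _ => ?_
          rw [← zpow_natCast, ← zpow_natCast, ← zpow_mul, ← zpow_mul]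
          congr 1
          push_cast
          ring
        rw [← QuotientGroup.mk_pow, QuotientGroup.eq_one_iff, h1]
        exact Subgroup.prod_mem _ fun i _ => Subgroup.zpow_mem _
          (Subgroup.subset_closure (Set.mem_range_self i)) _
    have hfg : Group.FG (𝓞 K)ˣ := Group.fg_iff_monoid_fg.mpr inferInstance
    have := CommGroup.finite_of_fg_isMulTorsion ((𝓞 K)ˣ ⧸ H) htor
    exact Subgroup.finiteIndex_of_finite_quotient

theorem isCoprime_of_sub_mem {α β : 𝓞 K} (hα : IsCoprime (Ideal.span {α}) 𝔪) (h : β - α ∈ 𝔪) :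
    IsCoprime (Ideal.span {β}) 𝔪 := by
  obtain ⟨c, hc⟩ := isCoprime_span_iff.mp hα
  refine isCoprime_span_iff.mpr ⟨c, ?_⟩
  have h1 : c * β - 1 = (c * α - 1) + c * (β - α) := by ring
  rw [h1]
  exact 𝔪.add_mem hc (𝔪.mul_mem_left c h)

/-- an element `≡ α` modulo `𝔪` with given signs -/
theorem exists_congr_signs (h𝔪 : 𝔪 ≠ ⊥) {α : 𝓞 K} (hα : IsCoprime (Ideal.span {α}) 𝔪)
    {ε : RP K → ℝ} (hε : ∀ w, ε w ≠ 0) :
    ∃ β : 𝓞 K, β ≠ 0 ∧ β - α ∈ 𝔪 ∧ ∀ w : RP K, 0 < em w (β : K) * ε w := by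
  obtain ⟨α', h0, hα'⟩ : ∃ α' : 𝓞 K, α' ≠ 0 ∧ α' - α ∈ 𝔪 := by
    by_cases h : α = 0
    · refine ⟨1, one_ne_zero, ?_⟩
      obtain ⟨b, hb⟩ := isCoprime_span_iff.mp hα
      rw [h, mul_zero, zero_sub] at hb
      rw [h, sub_zero]
      have := 𝔪.neg_mem hb
      rwa [neg_neg] at this
    · exact ⟨α, h, by rw [sub_self]; exact 𝔪.zero_mem⟩
  have ht : ∀ w : RP K, em w (α' : K) * ε w ≠ 0 := fun w =>
    mul_ne_zero ((map_ne_zero _).mpr (coe_ne_zeroG h0)) (hε w)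
  obtain ⟨a, ha0, ha1, ha⟩ := exists_signs h𝔪
    (fun w => (SignType.sign (em w (α' : K) * ε w) : ℝ)) (fun w => by
      rcases lt_or_gt_of_ne (ht w) with h | h
      · exact Or.inr (by simp only [sign_neg h]; simp)
      · exact Or.inl (by simp only [sign_pos h]; simp))
  refine ⟨α' * a, mul_ne_zero h0 ha0, ?_, fun w => ?_⟩
  · have h1 : α' * a - α = α' * (a - 1) + (α' - α) := by ring
    rw [h1]
    exact 𝔪.add_mem (𝔪.mul_mem_left _ ha1) hα'
  · have h2 : em w ((α' * a : 𝓞 K) : K) = em w (α' : K) * em w (a : K) := em_mulF w α' a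
    have h3 := ha w
    have h4 := sign_mul_abs (em w (α' : K) * ε w)
    have h5 : em w ((α' * a : 𝓞 K) : K) * ε w =
        |em w (α' : K) * ε w| * ((SignType.sign (em w (α' : K) * ε w) : ℝ) * em w (a : K)) := by
      rw [h2, ← mul_assoc, mul_comm (|_|), h4]
      ring
    rw [h5]
    exact mul_pos (abs_pos.mpr (ht w)) h3

end Units

variable {K : Type} [Field K] [NumberField K] {𝔪 : Ideal (𝓞 K)}

section Move

variable {r : Type} [Fintype r] {v : r → (𝓞 K)ˣ} {b : Module.Basis r ℝ (logSpace K)}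

/-- moving the coordinates by integers -/
theorem exists_move (hb : ∀ j, b j = logEmbedding K (Additive.ofMul (v j))) (z : r → ℤ) :
    ∃ y ∈ Subgroup.closure (Set.range v), ∀ x : K, x ≠ 0 →
      (∀ j, b.repr (lv (x * ((y : 𝓞 K) : K))) j = b.repr (lv x) j + z j) ∧
      ∀ w : CP K, ∃ q : ℤ, crd v b (x * ((y : 𝓞 K) : K)) (Sum.inl w) =
        crd v b x (Sum.inl w) + q := by
  refine ⟨∏ j, v j ^ z j, Subgroup.prod_mem _ fun j _ => Subgroup.zpow_mem _
    (Subgroup.subset_closure (Set.mem_range_self j)) _, fun x hx => ⟨fun j => ?_, fun w => ?_⟩⟩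
  · rw [lv_mul hx (coe_ne_zeroG (Units.ne_zero _)), map_add, Finsupp.add_apply, lv_unit]
    congr 1
    have h1 : logEmbedding K (Additive.ofMul (∏ j, v j ^ z j)) = ∑ j, (z j : ℝ) • b j := by
      rw [ofMul_prod, map_sum]
      refine Finset.sum_congr rfl fun j _ => ?_
      rw [ofMul_zpow, map_zsmul, ← hb, Int.cast_smul_eq_zsmul]
    rw [h1, b.repr_sum_self]
  · set y := ∏ j, v j ^ z j with hy
    have hyc : y ∈ Subgroup.closure (Set.range v) := Subgroup.prod_mem _ fun j _ =>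
      Subgroup.zpow_mem _ (Subgroup.subset_closure (Set.mem_range_self j)) _
    set k : CP K ⊕ r → ℤ := Pi.single (Sum.inl w) 1 with hk
    have hy0 : ((y : 𝓞 K) : K) ≠ 0 := coe_ne_zeroG (Units.ne_zero _)
    have hsum : ∀ x : K, ∑ i, (k i : ℝ) * crd v b x i = crd v b x (Sum.inl w) := by
      intro x
      rw [Finset.sum_eq_single (Sum.inl w)]
      · rw [hk, Pi.single_eq_same, Int.cast_one, one_mul]
      · intro i _ hi
        rw [hk, Pi.single_eq_of_ne hi, Int.cast_zero, zero_mul]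
      · intro h
        exact absurd (Finset.mem_univ _) h
    have h1 : e2 (crd v b (x * ((y : 𝓞 K) : K)) (Sum.inl w)) = e2 (crd v b x (Sum.inl w)) := by
      rw [← hsum, ← hsum, ← chi_crd' k (mul_ne_zero hx hy0), ← chi_crd' k hx,
        chi_mul _ _ hx hy0, chi_crd_closure hb k hyc, mul_one]
    exact e2_eq_iff.mp h1

end Move

/-- **Hecke (1920), every number field: the prime elements in an open cone.** Let `U` be a
non-empty open subset of the space `K ⊗ ℝ` (the mixed space, the product of the completions at the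
infinite places) which is a cone (`c • x ∈ U` for `x ∈ U`, `c > 0`), `𝔪 ≠ 0` an ideal and `α`
prime to `𝔪`. Then `U` contains a generator `π ≡ α` modulo `𝔪` of infinitely many prime ideals. -/
theorem hecke_cone (h𝔪 : 𝔪 ≠ ⊥) {α : 𝓞 K} (hα : IsCoprime (Ideal.span {α}) 𝔪)
    {U : Set (mixedSpace K)} (hU : IsOpen U) (hne : U.Nonempty)
    (hc : ∀ x ∈ U, ∀ c : ℝ, 0 < c → c • x ∈ U) :
    {I : Ideal (𝓞 K) | ∃ π : 𝓞 K, Prime π ∧ I = Ideal.span {π} ∧ π - α ∈ 𝔪 ∧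
      mixedEmbedding K (π : K) ∈ U}.Infinite := by
  obtain ⟨g, hg, hg0⟩ := exists_mem_norm_ne_zero hU hne
  have hgw : ∀ w : RP K, g.1 w ≠ 0 := fun w => by
    have h1 := mixedEmbedding.norm_ne_zero_iff.mp hg0 w.1
    rwa [normAtPlace_apply_of_isReal w.2, norm_ne_zero_iff] at h1
  obtain ⟨β, hβ0, hβα, hβs⟩ := exists_congr_signs h𝔪 hα hgw
  have hβ := isCoprime_of_sub_mem hα hβα
  obtain ⟨v, b, hv, hb, hfi⟩ := exists_cone_units (K := K) h𝔪
  obtain ⟨t₀, θ₀, δ, hδ, hbox⟩ := exists_cone_box b hU hc hg hg0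
  set L := Lp 𝔪 with hL
  have hfi2 : ((Subgroup.closure (Set.range v)).subgroupOf L).FiniteIndex := inferInstance
  have : Fintype (L ⧸ (Subgroup.closure (Set.range v)).subgroupOf L) := Fintype.ofFinite _
  -- the centre of the box
  set p : CP K ⊕ Fin (rank K) → ℝ := Sum.elim
    (fun w => θ₀ w - ∑ j, t₀ j * an w.1 ((v j : 𝓞 K) : K)) t₀ with hp
  set A : ℝ := ∑ w : CP K, ∑ j, |an w.1 ((v j : 𝓞 K) : K)| with hA
  have hA0 : 0 ≤ A := Finset.sum_nonneg fun w _ => Finset.sum_nonneg fun j _ => abs_nonneg _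
  have hA1 : 0 < 1 + A := by linarith
  set η : ℝ := δ / (1 + A) with hη
  have hη0 : 0 < η := div_pos hδ hA1
  have hηδ : η ≤ δ := div_le_self hδ.le (by linarith)
  set lo : CP K ⊕ Fin (rank K) → ℝ := fun i => Int.fract (p i) with hlo
  set hi : CP K ⊕ Fin (rank K) → ℝ := fun i => min 1 (Int.fract (p i) + η) with hhi
  -- the generators
  choose! gen hgen using fun (P : Pr K) (h : NRayEq 𝔪 P.1 (sp β hβ0)) =>
    (exists_isGen hβ hβ0 P).mp h
  have key := infinite_cone_box (v := v) (b := b) h𝔪 hβ hβ0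
    (fun q : L ⧸ (Subgroup.closure (Set.range v)).subgroupOf L => ((q.out : L) : (𝓞 K)ˣ))
    (fun q => (q.out : L).2)
    (fun k => by
      by_cases h : ∀ u ∈ L, chi (nk k) (kapT (Tf v b k)) ((u : 𝓞 K) : K) = 1
      · exact Or.inl fun u h1 h2 => h u ⟨h1, h2⟩
      · push Not at h
        obtain ⟨u₀, hu₀, hne⟩ := h
        exact Or.inr (chi_quot hb L k hu₀ hne))
    gen hgen (lo := lo) (hi := hi) (fun i => Int.fract_nonneg _)
    (fun i => lt_min (Int.fract_lt_one _) (by linarith)) (fun i => min_le_left _ _)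
  have hinj : Set.InjOn (fun P : Pr K => ((P.1 : (Ideal (𝓞 K))⁰) : Ideal (𝓞 K)))
      {P : Pr K | NRayEq 𝔪 P.1 (sp β hβ0) ∧
        ∃ q : L ⧸ (Subgroup.closure (Set.range v)).subgroupOf L, ∀ j,
        lo j < Int.fract (crd v b ((gen P : K) * (((q.out : L) : (𝓞 K)ˣ) : 𝓞 K)) j) ∧
        Int.fract (crd v b ((gen P : K) * (((q.out : L) : (𝓞 K)ˣ) : 𝓞 K)) j) < hi j} :=
    fun P _ Q _ h => Subtype.ext (Subtype.ext h)
  refine (key.image hinj).mono ?_
  rintro I ⟨P, ⟨hP, q, hq⟩, rfl⟩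
  have hG := hgen P hP
  set u : (𝓞 K)ˣ := ((q.out : L) : (𝓞 K)ˣ) with hu
  have huL : u ∈ L := (q.out : L).2
  have hx0 : (gen P : K) * ((u : 𝓞 K) : K) ≠ 0 :=
    mul_ne_zero hG.ne_zeroK (coe_ne_zeroG u.ne_zero)
  -- integers
  have hz : ∀ i, ∃ z : ℤ, |crd v b ((gen P : K) * ((u : 𝓞 K) : K)) i - p i - z| < η := by
    intro i
    obtain ⟨h1, h2⟩ := hq i
    refine ⟨⌊crd v b ((gen P : K) * ((u : 𝓞 K) : K)) i⌋ - ⌊p i⌋, ?_⟩
    have h3 := h2.trans_le (min_le_right _ _)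
    have h4 : lo i = Int.fract (p i) := rfl
    rw [h4] at h1
    have h5 := Int.fract_add_floor (crd v b ((gen P : K) * ((u : 𝓞 K) : K)) i)
    have h6 := Int.fract_add_floor (p i)
    rw [abs_lt]
    push_cast
    constructor <;> linarith
  choose z hz using hz
  obtain ⟨y, hyc, hy⟩ := exists_move hb (fun j => -z (Sum.inr j))
  have hyL : y ∈ L := (Subgroup.closure_le L).mpr (by
    rintro _ ⟨j, rfl⟩
    exact hv j) hyc
  obtain ⟨hy1, hy2⟩ := hy _ hx0
  have huy : u * y ∈ L := L.mul_mem huL hyL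
  obtain ⟨huy1, huy2⟩ := mem_Lp.mp huy
  have hπ : ((gen P * ((u * y : (𝓞 K)ˣ) : 𝓞 K) : 𝓞 K) : K) =
      (gen P : K) * ((u : 𝓞 K) : K) * ((y : 𝓞 K) : K) := by
    rw [mul_assoc, ← coe_unit_mul]
    exact map_mul (algebraMap (𝓞 K) K) _ _
  have hspan : Ideal.span {gen P * ((u * y : (𝓞 K)ˣ) : 𝓞 K)} = Ideal.span {gen P} :=
    Ideal.span_singleton_mul_right_unit (u * y).isUnit _
  refine ⟨gen P * ((u * y : (𝓞 K)ˣ) : 𝓞 K), ?_, ?_, ?_, ?_⟩
  · rw [← Ideal.span_singleton_prime (mul_ne_zero hG.ne_zero (u * y).ne_zero), hspan,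
      ← hG.eq_span]
    exact Ideal.isPrime_of_prime P.2
  · rw [hspan]
    exact hG.eq_span
  · have h1 : gen P * ((u * y : (𝓞 K)ˣ) : 𝓞 K) - α =
        gen P * (((u * y : (𝓞 K)ˣ) : 𝓞 K) - 1) + (gen P - β) + (β - α) := by ring
    rw [h1]
    exact 𝔪.add_mem (𝔪.add_mem (𝔪.mul_mem_left _ huy1) hG.sub_mem) hβα
  · rw [hπ]
    refine hbox _ (mul_ne_zero hx0 (coe_ne_zeroG y.ne_zero)) (fun w => ?_) (fun j => ?_)
      fun w => ?_
    · have h1 := hG.signs w
      have h2 := hβs w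
      have h3 := huy2 w
      have h4 : em w ((gen P : K) * ((u : 𝓞 K) : K) * ((y : 𝓞 K) : K)) =
          em w (gen P : K) * em w (((u * y : (𝓞 K)ˣ) : 𝓞 K) : K) := by
        rw [mul_assoc, ← coe_unit_mul, map_mul]
      rw [h4]
      have h5 : 0 < (em w (gen P : K) * em w (β : K)) * (em w (β : K) * g.1 w) := mul_pos h1 h2
      have h6 : em w (gen P : K) * g.1 w * (em w (β : K)) ^ 2 =
          (em w (gen P : K) * em w (β : K)) * (em w (β : K) * g.1 w) := by ring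
      have h7 : 0 < em w (gen P : K) * g.1 w := by
        rw [← h6] at h5
        exact pos_of_mul_pos_left h5 (sq_nonneg _)
      have h8 : em w (gen P : K) * em w (((u * y : (𝓞 K)ˣ) : 𝓞 K) : K) * g.1 w =
          (em w (gen P : K) * g.1 w) * em w (((u * y : (𝓞 K)ˣ) : 𝓞 K) : K) := by ring
      rw [h8]
      exact mul_pos h7 h3
    · rw [hy1]
      have h1 := hz (Sum.inr j)
      have h2 : crd v b ((gen P : K) * ((u : 𝓞 K) : K)) (Sum.inr j) =
          b.repr (lv ((gen P : K) * ((u : 𝓞 K) : K))) j := rfl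
      have h3 : p (Sum.inr j) = t₀ j := rfl
      rw [h2, h3] at h1
      refine lt_of_eq_of_lt ?_ (h1.trans_le hηδ)
      congr 1
      push_cast
      ring
    · obtain ⟨q', hq'⟩ := hy2 w
      refine ⟨q' + z (Sum.inl w), ?_⟩
      have h1 := hz (Sum.inl w)
      have h3 : p (Sum.inl w) = θ₀ w - ∑ j, t₀ j * an w.1 ((v j : 𝓞 K) : K) := rfl
      rw [h3] at h1
      have h4 : crd v b ((gen P : K) * ((u : 𝓞 K) : K) * ((y : 𝓞 K) : K)) (Sum.inl w) =
          an w.1 ((gen P : K) * ((u : 𝓞 K) : K) * ((y : 𝓞 K) : K)) -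
            ∑ j, b.repr (lv ((gen P : K) * ((u : 𝓞 K) : K) * ((y : 𝓞 K) : K))) j *
              an w.1 ((v j : 𝓞 K) : K) := rfl
      set x := (gen P : K) * ((u : 𝓞 K) : K) * ((y : 𝓞 K) : K) with hx
      have hsum : |∑ j, (b.repr (lv x) j - t₀ j) * an w.1 ((v j : 𝓞 K) : K)| ≤ η * A := by
        refine (Finset.abs_sum_le_sum_abs _ _).trans ?_
        have h5 : ∀ j, |(b.repr (lv x) j - t₀ j) * an w.1 ((v j : 𝓞 K) : K)| ≤
            η * |an w.1 ((v j : 𝓞 K) : K)| := by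
          intro j
          rw [abs_mul]
          refine mul_le_mul_of_nonneg_right ?_ (abs_nonneg _)
          rw [hy1]
          have h1 := hz (Sum.inr j)
          have h2 : crd v b ((gen P : K) * ((u : 𝓞 K) : K)) (Sum.inr j) =
              b.repr (lv ((gen P : K) * ((u : 𝓞 K) : K))) j := rfl
          have h3 : p (Sum.inr j) = t₀ j := rfl
          rw [h2, h3] at h1
          refine le_of_eq_of_le ?_ h1.le
          congr 1
          push_cast
          ring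
        refine (Finset.sum_le_sum fun j _ => h5 j).trans ?_
        rw [← Finset.mul_sum]
        refine mul_le_mul_of_nonneg_left ?_ hη0.le
        exact Finset.single_le_sum (f := fun w : CP K => ∑ j, |an w.1 ((v j : 𝓞 K) : K)|)
          (fun w _ => Finset.sum_nonneg fun j _ => abs_nonneg _) (Finset.mem_univ w)
      have h6 : an w.1 x - θ₀ w - ((q' + z (Sum.inl w) : ℤ) : ℝ) =
          (crd v b ((gen P : K) * ((u : 𝓞 K) : K)) (Sum.inl w) -
            (θ₀ w - ∑ j, t₀ j * an w.1 ((v j : 𝓞 K) : K)) - z (Sum.inl w)) +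
          ∑ j, (b.repr (lv x) j - t₀ j) * an w.1 ((v j : 𝓞 K) : K) := by
        rw [h4] at hq'
        simp only [sub_mul, Finset.sum_sub_distrib]
        push_cast
        linarith
      rw [h6]
      refine (abs_add_le _ _).trans_lt ?_
      have h7 : η * (1 + A) = δ := div_mul_cancel₀ _ hA1.ne'
      linarith

end Cone

end Fermat.Agent.Cor.RayG

end
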