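import Fermat.Agent.Corollaries.RayG.LogTorus

/-!
# Coordinates on a cone modulo units, and the characters
-/

set_option autoImplicit false
set_option linter.unusedSectionVars false

noncomputable section

open NumberField NumberField.InfinitePlace NumberField.Units nonZeroDivisors Complex Filter Topology
open NumberField.Units.dirichletUnitTheorem

open scoped Classical ComplexConjugate

namespace Fermat.Agent.Cor.RayG

open Fermat.Agent.ClassL Fermat.Agent.Classic.Zeta Fermat.Agent.Cor.Ray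

universe u

variable {K : Type u} [Field K] [NumberField K]

namespace Cone

/-! ### The phase of `chi` -/

theorem hz_eq (k : ℤ) (z : ℂ) : hz k z = ((‖z‖ ^ k.natAbs : ℝ) : ℂ) * eI (k * z.arg) := by
  have h0 : z = ((‖z‖ : ℝ) : ℂ) * eI z.arg := by
    rw [eI]
    exact (Complex.norm_mul_exp_arg_mul_I z).symm
  have h1 : ∀ m : ℕ, z ^ m = ((‖z‖ ^ m : ℝ) : ℂ) * eI (m * z.arg) := by
    intro m
    conv_lhs => rw [h0]
    rw [mul_pow, ← eI_natCast_mul]
    push_cast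
    rfl
  unfold hz
  split_ifs with hk
  · rw [h1]
    have h2 : ((k.natAbs : ℕ) : ℝ) = (k : ℝ) := by
      have h3 : ((k.natAbs : ℕ) : ℤ) = k := Int.natAbs_of_nonneg hk
      calc ((k.natAbs : ℕ) : ℝ) = (((k.natAbs : ℕ) : ℤ) : ℝ) := (Int.cast_natCast _).symm
        _ = (k : ℝ) := by rw [h3]
    rw [h2]
  · rw [← map_pow, h1, map_mul, Complex.conj_ofReal, ← eI_neg]
    have h2 : ((k.natAbs : ℕ) : ℝ) = -(k : ℝ) := by
      have h3 : ((k.natAbs : ℕ) : ℤ) = -k := Int.ofNat_natAbs_of_nonpos (by omega)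
      calc ((k.natAbs : ℕ) : ℝ) = (((k.natAbs : ℕ) : ℤ) : ℝ) := (Int.cast_natCast _).symm
        _ = -(k : ℝ) := by rw [h3, Int.cast_neg]
    rw [h2]
    congr 2
    ring

theorem eI_sum {ι : Type*} (s : Finset ι) (f : ι → ℝ) : eI (∑ i ∈ s, f i) = ∏ i ∈ s, eI (f i) := by
  induction s using Finset.induction_on with
  | empty => rw [Finset.sum_empty, Finset.prod_empty, eI_zero]
  | insert a s ha ih => rw [Finset.sum_insert ha, Finset.prod_insert ha, eI_add, ih]

theorem aG_eq (n : InfinitePlace K → ℤ) {x : K} (hx : x ≠ 0) :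
    aG n x = eI (∑ w : InfinitePlace K, (n w : ℝ) * (w.embedding x).arg) := by
  have h1 : pG n x = ((‖pG n x‖ : ℝ) : ℂ) *
      eI (∑ w : InfinitePlace K, (n w : ℝ) * (w.embedding x).arg) := by
    have h2 : ‖pG n x‖ = ∏ w : InfinitePlace K, ‖w.embedding x‖ ^ (n w).natAbs := by
      unfold pG
      rw [norm_prod]
      exact Finset.prod_congr rfl fun w _ => norm_hz _ _
    rw [h2, eI_sum, Complex.ofReal_prod, ← Finset.prod_mul_distrib]
    unfold pG
    exact Finset.prod_congr rfl fun w _ => hz_eq _ _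
  have h3 : ((‖pG n x‖ : ℝ) : ℂ) ≠ 0 := by
    exact_mod_cast norm_ne_zero_iff.mpr (pG_ne_zero n hx)
  unfold aG
  rw [div_eq_iff h3, mul_comm]
  exact h1

theorem chi_eq (n : InfinitePlace K → ℤ) (κ : InfinitePlace K → ℝ) {x : K} (hx : x ≠ 0) :
    chi n κ x = eI (∑ w : InfinitePlace K, (n w : ℝ) * (w.embedding x).arg + lK κ x) := by
  rw [chi, aG_eq n hx, eI_add]

/-! ### The coordinates -/

variable {r : Type} [Fintype r]

/-- the complex places -/
abbrev CP (K : Type u) [Field K] : Type u := {w : InfinitePlace K // IsComplex w}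

/-- the angle at `w`, in turns -/
def an (w : InfinitePlace K) (x : K) : ℝ := (w.embedding x).arg / (2 * Real.pi)

/-- the coordinates -/
def crd (v : r → (𝓞 K)ˣ) (b : Module.Basis r ℝ (logSpace K)) (x : K) : CP K ⊕ r → ℝ
  | Sum.inl w => an w.1 x - ∑ j, b.repr (lv x) j * an w.1 ((v j : 𝓞 K) : K)
  | Sum.inr j => b.repr (lv x) j

/-- the exponents -/
def nk (k : CP K ⊕ r → ℤ) (w : InfinitePlace K) : ℤ :=
  if h : IsComplex w then k (Sum.inl ⟨w, h⟩) else 0

/-- the linear form -/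
def Tf (v : r → (𝓞 K)ˣ) (b : Module.Basis r ℝ (logSpace K)) (k : CP K ⊕ r → ℤ) :
    logSpace K →ₗ[ℝ] ℝ :=
  (2 * Real.pi) • ∑ j, ((k (Sum.inr j) : ℝ) -
    ∑ w : CP K, (k (Sum.inl w) : ℝ) * an w.1 ((v j : 𝓞 K) : K)) • b.coord j

theorem Tf_apply (v : r → (𝓞 K)ˣ) (b : Module.Basis r ℝ (logSpace K)) (k : CP K ⊕ r → ℤ)
    (z : logSpace K) : Tf v b k z = 2 * Real.pi * ∑ j, ((k (Sum.inr j) : ℝ) -
      ∑ w : CP K, (k (Sum.inl w) : ℝ) * an w.1 ((v j : 𝓞 K) : K)) * b.repr z j := by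
  unfold Tf
  rw [LinearMap.smul_apply, LinearMap.sum_apply, smul_eq_mul]
  rfl

theorem sum_nk (k : CP K ⊕ r → ℤ) (f : InfinitePlace K → ℝ) :
    ∑ w : InfinitePlace K, (nk k w : ℝ) * f w = ∑ w : CP K, (k (Sum.inl w) : ℝ) * f w.1 := by
  have h1 : ∀ w : CP K, (k (Sum.inl w) : ℝ) * f w.1 = (nk k w.1 : ℝ) * f w.1 := fun w => by
    rw [nk, dif_pos w.2]
  rw [Finset.sum_congr rfl fun w _ => h1 w,
    ← Finset.sum_subtype (Finset.univ.filter fun w : InfinitePlace K => IsComplex w)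
    (p := fun w : InfinitePlace K => IsComplex w) (fun w => by simp)
    (fun w => (nk k w : ℝ) * f w)]
  refine (Finset.sum_subset (Finset.filter_subset _ _) fun w _ hw => ?_).symm
  rw [nk, dif_neg fun h => hw (Finset.mem_filter.mpr ⟨Finset.mem_univ _, h⟩), Int.cast_zero,
    zero_mul]

theorem chi_crd (v : r → (𝓞 K)ˣ) (b : Module.Basis r ℝ (logSpace K)) (k : CP K ⊕ r → ℤ) {x : K}
    (hx : x ≠ 0) : chi (nk k) (kapT (Tf v b k)) x =
      eI (2 * Real.pi * ∑ i, (k i : ℝ) * crd v b x i) := by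
  rw [chi_eq _ _ hx, lK_kapT _ hx, Tf_apply, sum_nk, Fintype.sum_sum_type]
  congr 1
  simp only [crd]
  have h1 : ∀ w : CP K, (k (Sum.inl w) : ℝ) * (w.1.embedding x).arg =
      2 * Real.pi * ((k (Sum.inl w) : ℝ) * an w.1 x) := by
    intro w
    unfold an
    field_simp
  rw [Finset.sum_congr rfl fun w _ => h1 w, ← Finset.mul_sum, ← mul_add]
  congr 1
  have h2 : ∑ j, ((k (Sum.inr j) : ℝ) - ∑ w : CP K, (k (Sum.inl w) : ℝ) *
      an w.1 ((v j : 𝓞 K) : K)) * b.repr (lv x) j = ∑ j, (k (Sum.inr j) : ℝ) * b.repr (lv x) j -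
      ∑ w : CP K, (k (Sum.inl w) : ℝ) * ∑ j, b.repr (lv x) j * an w.1 ((v j : 𝓞 K) : K) := by
    simp only [sub_mul, Finset.sum_sub_distrib]
    congr 1
    simp only [Finset.sum_mul, Finset.mul_sum]
    rw [Finset.sum_comm]
    refine Finset.sum_congr rfl fun w _ => Finset.sum_congr rfl fun j _ => ?_
    ring
  rw [h2]
  simp only [mul_sub, Finset.sum_sub_distrib]
  ring

theorem isTy_nk (v : r → (𝓞 K)ˣ) (b : Module.Basis r ℝ (logSpace K)) (k : CP K ⊕ r → ℤ) :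
    IsTy (nk k) (kapT (Tf v b k)) where
  real w hw := by
    rw [nk, dif_neg (not_isComplex_iff_isReal.mpr hw)]
    simp
  sum := sum_kapT _

theorem nk_real (k : CP K ⊕ r → ℤ) {w : InfinitePlace K} (hw : IsReal w) : nk k w = 0 := by
  rw [nk, dif_neg (not_isComplex_iff_isReal.mpr hw)]

theorem isInf_nk (v : r → (𝓞 K)ˣ) (b : Module.Basis r ℝ (logSpace K)) {k : CP K ⊕ r → ℤ}
    (hk : k ≠ 0) : IsInf (nk k) (kapT (Tf v b k)) := by
  by_cases h : ∃ w : CP K, k (Sum.inl w) ≠ 0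
  · obtain ⟨w, hw⟩ := h
    refine Or.inr ⟨w.1, w.2, ?_⟩
    rw [nk, dif_pos w.2]
    exact hw
  · push Not at h
    refine Or.inl (kapT_ne_zero ?_)
    have h1 : Tf v b k = Tk b fun j => k (Sum.inr j) := by
      refine LinearMap.ext fun z => ?_
      rw [Tf_apply, Tk_apply]
      simp [h]
    rw [h1]
    refine Tk_ne_zero b fun h2 => hk ?_
    funext i
    rcases i with w | j
    · exact h w
    · exact congrFun h2 j

theorem lv_one : lv (1 : K) = 0 := by
  have h := lv_mul (one_ne_zero (α := K)) (one_ne_zero (α := K))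
  rw [mul_one] at h
  exact left_eq_add.mp h

theorem an_one (w : InfinitePlace K) : an w (1 : K) = 0 := by
  rw [an, map_one, Complex.arg_one, zero_div]

theorem crd_unit {v : r → (𝓞 K)ˣ} {b : Module.Basis r ℝ (logSpace K)}
    (hb : ∀ j, b j = logEmbedding K (Additive.ofMul (v j))) (j : r) (i : CP K ⊕ r) :
    ∃ z : ℤ, crd v b ((v j : 𝓞 K) : K) i = z := by
  have h1 : ∀ j', b.repr (lv ((v j : 𝓞 K) : K)) j' = if j' = j then 1 else 0 := by
    intro j'
    rw [lv_unit, ← hb, Module.Basis.repr_self, Finsupp.single_apply]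
    by_cases h : j' = j
    · rw [if_pos h, if_pos h.symm]
    · rw [if_neg h, if_neg (Ne.symm h)]
  rcases i with w | j'
  · refine ⟨0, ?_⟩
    rw [crd]
    simp [h1]
  · refine ⟨if j' = j then 1 else 0, ?_⟩
    rw [crd, h1]
    push_cast
    rfl

theorem chi_crd_unit {v : r → (𝓞 K)ˣ} {b : Module.Basis r ℝ (logSpace K)}
    (hb : ∀ j, b j = logEmbedding K (Additive.ofMul (v j))) (k : CP K ⊕ r → ℤ) (j : r) :
    chi (nk k) (kapT (Tf v b k)) ((v j : 𝓞 K) : K) = 1 := by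
  rw [chi_crd v b k (coe_ne_zeroG (v j).ne_zero)]
  choose z hz using fun i => crd_unit hb j i
  have h1 : ∑ i, (k i : ℝ) * crd v b ((v j : 𝓞 K) : K) i = ((∑ i, k i * z i : ℤ) : ℝ) := by
    push_cast
    exact Finset.sum_congr rfl fun i _ => by rw [hz]
  rw [h1, eI_two_pi_int]

theorem coe_unit_one : (((1 : (𝓞 K)ˣ) : 𝓞 K) : K) = 1 := map_one (algebraMap (𝓞 K) K)

theorem coe_unit_mul (x y : (𝓞 K)ˣ) : (((x * y : (𝓞 K)ˣ) : 𝓞 K) : K) = ((x : 𝓞 K) : K) * ((y : 𝓞 K) : K) :=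
  map_mul (algebraMap (𝓞 K) K) _ _

theorem chi_crd_closure {v : r → (𝓞 K)ˣ} {b : Module.Basis r ℝ (logSpace K)}
    (hb : ∀ j, b j = logEmbedding K (Additive.ofMul (v j))) (k : CP K ⊕ r → ℤ) {u : (𝓞 K)ˣ}
    (hu : u ∈ Subgroup.closure (Set.range v)) :
    chi (nk k) (kapT (Tf v b k)) ((u : 𝓞 K) : K) = 1 := by
  induction hu using Subgroup.closure_induction with
  | mem x hx =>
    obtain ⟨j, rfl⟩ := hx
    exact chi_crd_unit hb k j
  | one => rw [coe_unit_one, chi_one]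
  | mul x y _ _ hx hy =>
    rw [coe_unit_mul, chi_mul _ _ (coe_ne_zeroG x.ne_zero) (coe_ne_zeroG y.ne_zero), hx, hy,
      mul_one]
  | inv x _ hx =>
    have h1 : chi (nk k) (kapT (Tf v b k)) (((x * x⁻¹ : (𝓞 K)ˣ) : 𝓞 K) : K) = 1 := by
      rw [mul_inv_cancel, coe_unit_one, chi_one]
    rw [coe_unit_mul, chi_mul _ _ (coe_ne_zeroG x.ne_zero) (coe_ne_zeroG x⁻¹.ne_zero), hx,
      one_mul] at h1
    exact h1

end Cone

end Fermat.Agent.Cor.RayG

end
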