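import Fermat.Agent.Corollaries.RayG.QuadNarrow
import Fermat.Agent.Corollaries.RayN.FormSign

/-!
# Prime ideals of degree one of a real quadratic field with a generator in a given cone

The prime ideals `P` of residue degree one with `P A = (α)`, `α ≡ γ` modulo `𝔪`, `α` of the signs of
`γ` and `log |σ(α)/τ(α)|` in a given interval.
-/

set_option autoImplicit false
set_option linter.unusedSectionVars false

noncomputable section

open NumberField NumberField.InfinitePlace nonZeroDivisors Complex Filter Topology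

open scoped Classical ComplexConjugate

namespace Fermat.Agent.Cor.RayG

open Fermat.Agent.ClassL Fermat.Agent.Classic.Zeta Fermat.Agent.Cor.Ray Fermat.Agent.Cor.RayN

universe u

variable {K : Type u} [Field K] [NumberField K] {𝔪 : Ideal (𝓞 K)}

/-- a set of primes which has a positive density, up to the primes of degree at least two, is
infinite -/
theorem infinite_deg_one_of_tendsto {A : Pr K → Prop} {l : ℝ} (hl : 0 < l)
    (h : Tendsto (fun x : ℕ => (Nat.card {P : Pr K // nP P ≤ x ∧ A P} : ℝ) * Real.log x / x)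
      atTop (𝓝 l)) :
    {P : Pr K | A P ∧ (Ideal.absNorm (P.1 : Ideal (𝓞 K))).Prime}.Infinite := by
  intro hfin
  have h2 : Tendsto (fun _ : ℕ => (0 : ℝ)) atTop (𝓝 l) := by
    have h3 : ∀ x : ℕ, |(Nat.card {P : Pr K // nP P ≤ x ∧ A P} : ℝ) - 0| ≤
        (Module.finrank ℚ K : ℝ) * Nat.sqrt x + ((Module.finrank ℚ K : ℝ) + hfin.toFinset.card) := by
      intro x
      have h1 : Nat.card {P : Pr K // nP P ≤ x ∧ A P} = ((prLe K x).filter A).card := by
        rw [Nat.subtype_card]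
        intro P
        rw [Finset.mem_filter, mem_prLe]
        rfl
      rw [sub_zero, Nat.abs_cast, h1, ← Finset.card_filter_add_card_filter_not
        (s := (prLe K x).filter A) (fun P => (Ideal.absNorm (P.1 : Ideal (𝓞 K))).Prime)]
      rw [Finset.filter_filter, Finset.filter_filter]
      have h4 : ((prLe K x).filter fun P => A P ∧
          (Ideal.absNorm (P.1 : Ideal (𝓞 K))).Prime) ⊆ hfin.toFinset := by
        intro P hP
        rw [Set.Finite.mem_toFinset]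
        exact (Finset.mem_filter.mp hP).2
      have h5 : ((prLe K x).filter fun P => A P ∧
          ¬ (Ideal.absNorm (P.1 : Ideal (𝓞 K))).Prime).card ≤
          Module.finrank ℚ K * (Nat.sqrt x + 1) := by
        refine (Finset.card_le_card fun P hP => ?_).trans (card_deg_two_le x)
        rw [Finset.mem_filter] at hP ⊢
        exact ⟨hP.1, hP.2.2⟩
      have h6 := Finset.card_le_card h4
      have h7 : (((prLe K x).filter fun P => A P ∧
          ¬ (Ideal.absNorm (P.1 : Ideal (𝓞 K))).Prime).card : ℝ) ≤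
          (Module.finrank ℚ K * (Nat.sqrt x + 1) : ℕ) := by exact_mod_cast h5
      have h8 : (((prLe K x).filter fun P => A P ∧
          (Ideal.absNorm (P.1 : Ideal (𝓞 K))).Prime).card : ℝ) ≤ hfin.toFinset.card := by
        exact_mod_cast h6
      push_cast at h7 ⊢
      linarith
    have h5 := qd_tendsto_of_bounded (g := fun _ => 0) h3 h
    refine h5.congr fun x => ?_
    rw [zero_mul, zero_div]
  exact hl.ne (tendsto_nhds_unique tendsto_const_nhds h2)

/-- **Prime ideals of degree one in a cone.** -/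
theorem infinite_deg_one_cone (h2 : Module.finrank ℚ K = 2) {σ τ : K →+* ℝ} (hστ : σ ≠ τ)
    (h𝔪 : 𝔪 ≠ ⊥) {A : (Ideal (𝓞 K))⁰} (hA : IsCoprime (A : Ideal (𝓞 K)) 𝔪) {γ : 𝓞 K}
    (hγ0 : γ ≠ 0) (hγ : IsCoprime (Ideal.span {γ}) 𝔪) {s t : ℝ} (hst : s < t) :
    {P : Pr K | (Ideal.absNorm (P.1 : Ideal (𝓞 K))).Prime ∧ ∃ α : 𝓞 K,
      ((P.1 : (Ideal (𝓞 K))⁰) : Ideal (𝓞 K)) * (A : Ideal (𝓞 K)) = Ideal.span {α} ∧
      α - γ ∈ 𝔪 ∧ (∀ w : RP K, 0 < em w (α : K) * em w (γ : K)) ∧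
      s < Real.log |σ (α : K) / τ (α : K)| ∧
      Real.log |σ (α : K) / τ (α : K)| < t}.Infinite := by
  have hw := mk_real_ne hστ
  obtain ⟨L, hL, hu⟩ := exists_period_narrow (card_places_real_quadratic h2 hw) hw h𝔪
  set κ₀ : InfinitePlace K → ℝ := kap (InfinitePlace.mk (Complex.ofRealHom.comp σ))
    (InfinitePlace.mk (Complex.ofRealHom.comp τ)) with hκ₀
  have hlog : ∀ x : 𝓞 K, x ≠ 0 → Real.log |σ (x : K) / τ (x : K)| = lK κ₀ (x : K) := by
    intro x hx
    have hx' : (x : K) ≠ 0 := by exact_mod_cast hx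
    rw [hκ₀, lK_kap, mk_real_apply, mk_real_apply, abs_div, Real.log_div (abs_ne_zero.mpr
      ((map_ne_zero σ).mpr hx')) (abs_ne_zero.mpr ((map_ne_zero τ).mpr hx'))]
  have hchi : ∀ x : K, chi (0 : InfinitePlace K → ℤ) (fun w => 2 * Real.pi / L * κ₀ w) x =
      e2 (lK κ₀ x / L) := by
    intro x
    have h1 : lK (fun w => 2 * Real.pi / L * κ₀ w) x = 2 * Real.pi / L * lK κ₀ x := by
      unfold lK
      rw [Finset.mul_sum]
      exact Finset.sum_congr rfl fun w _ => by ring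
    rw [chi, aG_zero_left, one_mul, h1, eI, e2]
    congr 1
    push_cast
    ring
  have hpi : 2 * Real.pi / L ≠ 0 := div_ne_zero Real.two_pi_pos.ne' hL.ne'
  have hT : IsTy (0 : InfinitePlace K → ℤ) (fun w => 2 * Real.pi / L * κ₀ w) :=
    ⟨fun w _ => by simp, by rw [← Finset.mul_sum, hκ₀, sum_kap, mul_zero]⟩
  have hinf : IsInf (0 : InfinitePlace K → ℤ) (fun w => 2 * Real.pi / L * κ₀ w) :=
    Or.inl fun h => kap_ne_zero hw
      (funext fun w => (mul_eq_zero.mp (congrFun h w)).resolve_left hpi)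
  obtain ⟨S, hS⟩ := exists_sgn (𝔪 := 𝔪) (n := (0 : InfinitePlace K → ℤ))
    (κ := fun w => 2 * Real.pi / L * κ₀ w) (fun v hv hvs => by
      obtain ⟨j, hj⟩ := (hu _).mp ⟨v, hv, hvs, rfl⟩
      rw [hchi, hj, mul_div_cancel_right₀ _ hL.ne', e2_int])
  obtain ⟨ψ, hψ⟩ := existG K (redG (1 • (0 : InfinitePlace K → ℤ) + nS S))
    (1 • fun w => 2 * Real.pi / L * κ₀ w) 𝔪 h𝔪 (fun v hv => by
    have hv0 : ((v : 𝓞 K) : K) ≠ 0 := by exact_mod_cast v.ne_zero
    rw [chi_comb 1 S hv0, pow_one, hS v hv, ← Complex.ofReal_mul, sg_sq S hv0,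
      Complex.ofReal_one])
  obtain ⟨t₀, ht₀⟩ := exists_shift_n h𝔪 hψ hγ hγ0
  obtain ⟨J, hJ, hJP⟩ := exists_nray_rep h𝔪 hA hγ0 hγ
  have hψA : ψ A = e2 (th (ψ A)) := (e2_th (norm_gchar h𝔪 hψ hA)).symm
  set tA : ℝ := th (ψ A) with htA
  set t' : ℝ := min t (s + L) with ht'
  have hst' : s < t' := lt_min hst (by linarith)
  have hval : ∀ P : Pr K, ∀ α : 𝓞 K, ((P.1 : (Ideal (𝓞 K))⁰) : Ideal (𝓞 K)) *
      (A : Ideal (𝓞 K)) = Ideal.span {α} → α - γ ∈ 𝔪 → SameSigns α γ →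
      α ≠ 0 ∧ ψ P.1 = e2 (lK κ₀ (α : K) / L + t₀ - tA) := by
    intro P α hα hαγ hs
    have hα0 : α ≠ 0 := by
      rintro rfl
      rw [Ideal.span_singleton_eq_bot.mpr rfl] at hα
      exact mul_ne_zero (nonZeroDivisors.coe_ne_zero P.1) (nonZeroDivisors.coe_ne_zero A) hα
    refine ⟨hα0, ?_⟩
    have h3 : P.1 * A = sp α hα0 := Subtype.ext hα
    have h4 := ht₀ α hα0 hαγ hs
    rw [← h3, map_mul, hψA, hchi, ← e2_add] at h4
    have h5 : e2 tA * e2 (-tA) = 1 := by rw [← e2_add, add_neg_cancel, e2_zero]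
    calc ψ P.1 = ψ P.1 * (e2 tA * e2 (-tA)) := by rw [h5, mul_one]
      _ = (ψ P.1 * e2 tA) * e2 (-tA) := by rw [mul_assoc]
      _ = e2 (lK κ₀ (α : K) / L + t₀ - tA) := by rw [h4, ← e2_add, ← sub_eq_add_neg]
  have key := tendsto_card_arc_narrow h𝔪 (isTy_comb hT 1 S) (isInf_comb hinf one_ne_zero S) hψ hJ
    (a := s / L + t₀ - tA) (b := t' / L + t₀ - tA)
    (by have := div_le_div_of_nonneg_right hst'.le hL.le; linarith)
    (by
      have h3 : t' / L ≤ s / L + 1 := by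
        rw [div_le_iff₀ hL, add_mul, div_mul_cancel₀ _ hL.ne', one_mul]
        exact min_le_right _ _
      linarith)
  have hr : (0 : ℝ) < nRayNumber 𝔪 := by
    exact_mod_cast Nat.pos_of_ne_zero (nRayNumber_ne_zero h𝔪)
  have hpos : 0 < (t' / L + t₀ - tA - (s / L + t₀ - tA)) / (nRayNumber 𝔪 : ℝ) := by
    refine div_pos ?_ hr
    have := div_lt_div_of_pos_right hst' hL
    linarith
  refine (infinite_deg_one_of_tendsto hpos key).mono ?_
  rintro P ⟨⟨hPJ, q, ⟨hq1, hq2⟩, hPq⟩, hPp⟩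
  refine ⟨hPp, ?_⟩
  obtain ⟨α, hα, hαγ, hs⟩ := hJP P.1 hPJ
  obtain ⟨hα0, h3⟩ := hval P α hα hαγ hs
  rw [hPq, e2_eq_iff] at h3
  obtain ⟨k, hk⟩ := h3
  obtain ⟨v, hv, hvs, hvk⟩ := (hu (k * L)).mpr ⟨k, rfl⟩
  have h4 : (((v : 𝓞 K) * α : 𝓞 K) : K) = ((v : 𝓞 K) : K) * (α : K) := rfl
  have h5 : lK κ₀ (((v : 𝓞 K) * α : 𝓞 K) : K) = k * L + lK κ₀ (α : K) := by
    rw [h4, lK_mul κ₀ (by exact_mod_cast v.ne_zero) (by exact_mod_cast hα0), hvk]
  have h6 : lK κ₀ (((v : 𝓞 K) * α : 𝓞 K) : K) = L * (q - t₀ + tA) := by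
    rw [h5, hk]
    field_simp
    ring
  refine ⟨(v : 𝓞 K) * α, ?_, ?_, fun w => ?_, ?_, ?_⟩
  · rw [hα, Ideal.span_singleton_eq_span_singleton]
    exact ⟨v, mul_comm _ _⟩
  · have h7 : (v : 𝓞 K) * α - γ = (v : 𝓞 K) * (α - γ) + γ * ((v : 𝓞 K) - 1) := by ring
    rw [h7]
    exact 𝔪.add_mem (𝔪.mul_mem_left _ hαγ) (𝔪.mul_mem_left _ hv)
  · rw [h4, map_mul, mul_assoc]
    exact mul_pos (hvs w) (hs w)
  · rw [hlog _ (mul_ne_zero v.ne_zero hα0), h6]
    have h7 : s / L < q - t₀ + tA := by linarith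
    rw [div_lt_iff₀ hL] at h7
    linarith
  · rw [hlog _ (mul_ne_zero v.ne_zero hα0), h6]
    have h7 : q - t₀ + tA < t' / L := by linarith
    rw [lt_div_iff₀ hL] at h7
    have h8 : t' ≤ t := min_le_left _ _
    linarith

end Fermat.Agent.Cor.RayG

end
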