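import Fermat.Agent.Corollaries.RayG.Quadratic
import Fermat.Agent.Corollaries.RayG.Equi
import Fermat.Agent.Corollaries.RayN.Number

/-!
# Prime elements with given signs: Hecke's theorem in the narrow sense

The character at infinity is only assumed to be trivial on the totally positive units `≡ 1`
modulo `𝔪`.
-/

set_option autoImplicit false
set_option linter.unusedSectionVars false

noncomputable section

open NumberField NumberField.InfinitePlace nonZeroDivisors Complex Filter Topology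

open scoped Classical ComplexConjugate

namespace Fermat.Agent.Cor.RayG

open Fermat.Agent.ClassL Fermat.Agent.Classic.Zeta Fermat.Agent.Cor.Ray Fermat.Agent.Cor.RayN

universe u

variable {K : Type u} [Field K] [NumberField K] {𝔪 : Ideal (𝓞 K)} {α : 𝓞 K}
  {n : InfinitePlace K → ℤ} {κ : InfinitePlace K → ℝ}

/-! ### The signs of the units -/

/-- the character at infinity on the units -/
def chiU (n : InfinitePlace K → ℤ) (κ : InfinitePlace K → ℝ) : (𝓞 K)ˣ →* ℂˣ where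
  toFun v := Units.mk0 (chi n κ ((v : 𝓞 K) : K)) (chi_ne_zero n κ (by exact_mod_cast v.ne_zero))
  map_one' := Units.ext (chi_one n κ)
  map_mul' v v' := Units.ext (chi_mul n κ (x := ((v : 𝓞 K) : K)) (y := ((v' : 𝓞 K) : K))
    (by exact_mod_cast v.ne_zero) (by exact_mod_cast v'.ne_zero))

theorem coe_chiU (v : (𝓞 K)ˣ) : ((chiU n κ v : ℂˣ) : ℂ) = chi n κ ((v : 𝓞 K) : K) := rfl

theorem exists_char (hu : ∀ v : (𝓞 K)ˣ, (v : 𝓞 K) - 1 ∈ 𝔪 →
    (∀ w : RP K, 0 < em w ((v : 𝓞 K) : K)) → chi n κ ((v : 𝓞 K) : K) = 1) :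
    ∃ F : (𝓞 K ⧸ 𝔪)ˣ × (RP K → ℤˣ) →* ℂˣ, ∀ v : (𝓞 K)ˣ,
      ((F (unitsMap 𝔪 v) : ℂˣ) : ℂ) = chi n κ ((v : 𝓞 K) : K) := by
  have hker : ∀ v ∈ (unitsMap 𝔪).ker, chiU n κ v = 1 := by
    intro v hv
    rw [MonoidHom.mem_ker] at hv
    have h1 : Units.map (Ideal.Quotient.mk 𝔪 : 𝓞 K →* 𝓞 K ⧸ 𝔪) v = 1 := congrArg Prod.fst hv
    have h2 : sU (v : 𝓞 K) = 1 := congrArg Prod.snd hv
    refine Units.ext ((coe_chiU v).trans (hu v ?_ fun w => ?_))
    · rw [← Ideal.Quotient.eq, map_one]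
      exact congrArg Units.val h1
    · have h3 : sU (v : 𝓞 K) w = 1 := congrFun h2 w
      unfold sU at h3
      refine lt_of_le_of_ne (not_lt.mp fun h4 => ?_) (em_ne_zero v.ne_zero w).symm
      rw [if_pos h4] at h3
      exact absurd h3 (by decide)
  obtain ⟨F, hF⟩ := exists_extend_units (H := (𝓞 K)ˣ ⧸ (unitsMap 𝔪).ker)
    (G := (𝓞 K ⧸ 𝔪)ˣ × (RP K → ℤˣ)) (QuotientGroup.kerLift (unitsMap 𝔪))
    (QuotientGroup.kerLift_injective _) (QuotientGroup.lift (unitsMap 𝔪).ker (chiU n κ) hker)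
  refine ⟨F, fun v => ?_⟩
  have h1 : F (unitsMap 𝔪 v) = chiU n κ v := hF (QuotientGroup.mk v)
  rw [h1, coe_chiU]

/-- **The signs of the units**: a character at infinity which is trivial on the totally positive
units `≡ 1` modulo `𝔪` is a sign character on the units `≡ 1` modulo `𝔪`. -/
theorem exists_sgn (hu : ∀ v : (𝓞 K)ˣ, (v : 𝓞 K) - 1 ∈ 𝔪 →
    (∀ w : RP K, 0 < em w ((v : 𝓞 K) : K)) → chi n κ ((v : 𝓞 K) : K) = 1) :
    ∃ S : Finset (RP K), ∀ v : (𝓞 K)ˣ, (v : 𝓞 K) - 1 ∈ 𝔪 →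
      chi n κ ((v : 𝓞 K) : K) = ((sg S ((v : 𝓞 K) : K) : ℝ) : ℂ) := by
  obtain ⟨F, hF⟩ := exists_char hu
  set F₁ : (RP K → ℤˣ) →* ℂˣ := F.comp (MonoidHom.inr _ _) with hF₁
  refine ⟨Finset.univ.filter fun w => F₁ (Pi.mulSingle w (-1)) ≠ 1, fun v hv => ?_⟩
  have h1 : unitsMap 𝔪 v = (1, sU (v : 𝓞 K)) := by
    refine Prod.ext ?_ rfl
    refine Units.ext ?_
    have h2 : Ideal.Quotient.mk 𝔪 (v : 𝓞 K) = Ideal.Quotient.mk 𝔪 1 := Ideal.Quotient.eq.mpr hv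
    rw [map_one] at h2
    exact h2
  have h2 : ((F₁ (sU (v : 𝓞 K)) : ℂˣ) : ℂ) = chi n κ ((v : 𝓞 K) : K) := by
    rw [← hF v, h1]
    rfl
  have hval : ∀ w : RP K, ((F₁ (Pi.mulSingle w (-1)) : ℂˣ) : ℂ) = 1 ∨
      ((F₁ (Pi.mulSingle w (-1)) : ℂˣ) : ℂ) = -1 := by
    intro w
    have h3 : ((-1 : ℤˣ)) * (-1) = 1 := by decide
    rw [← mul_self_eq_one_iff, ← Units.val_mul, ← map_mul, ← Pi.mulSingle_mul, h3,
      Pi.mulSingle_one, map_one, Units.val_one]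
  have hx : (((v : 𝓞 K) : K)) ≠ 0 := by exact_mod_cast v.ne_zero
  rw [← h2, sg_eq_prod _ hx, Finset.prod_filter, Complex.ofReal_prod,
    ← Finset.univ_prod_mulSingle (sU (v : 𝓞 K)), map_prod, Units.coe_prod]
  refine Finset.prod_congr rfl fun w _ => ?_
  by_cases h3 : em w ((v : 𝓞 K) : K) < 0
  · have h4 : sU (v : 𝓞 K) w = -1 := by rw [sU, if_pos h3]
    rw [h4]
    by_cases h5 : F₁ (Pi.mulSingle w (-1)) = 1
    · rw [if_neg (not_not.mpr h5), h5, Units.val_one, Complex.ofReal_one]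
    · rw [if_pos h5, if_pos h3]
      have h6 := (hval w).resolve_left fun h => h5 (Units.ext h)
      rw [h6]
      push_cast
      rfl
  · have h4 : sU (v : 𝓞 K) w = 1 := by rw [sU, if_neg h3]
    rw [h4, Pi.mulSingle_one, map_one, Units.val_one]
    split_ifs <;> simp

/-! ### Arcs in narrow ray classes -/

/-- Weyl's criterion for a set of prime ideals, arcs in general position -/
theorem tendsto_arc_of_sums {A : Pr K → Prop} {h : ℝ} (hh : 0 < h) {ψ : (Ideal (𝓞 K))⁰ →* ℂ}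
    {D : ℝ} (hD : IsCount (nP (K := K)) D)
    (hcard : Tendsto (fun x : ℕ => (Nat.card {P : Pr K // nP P ≤ x ∧ A P} : ℝ) *
      Real.log x / x) atTop (𝓝 h⁻¹))
    (hone : ∀ P, A P → ‖ψ P.1‖ = 1)
    (hsum : ∀ m : ℕ, m ≠ 0 → Tendsto (fun x : ℕ => ((Real.log x / x : ℝ) : ℂ) *
      ∑ P ∈ (hD.F x).filter A, ψ P.1 ^ m) atTop (𝓝 0))
    {a b : ℝ} (hab : a ≤ b) (hb : b ≤ a + 1) :
    Tendsto (fun x : ℕ => (Nat.card {P : Pr K // nP P ≤ x ∧ A P ∧
      ∃ s ∈ Set.Ioo a b, ψ P.1 = e2 s} : ℝ) * Real.log x / x) atTop (𝓝 ((b - a) / h)) := by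
  have : Countable (Pr K) := by
    have h1 : (Set.univ : Set (Pr K)) = ⋃ x : ℕ, (hD.F x : Set (Pr K)) := by
      ext P
      simp only [Set.mem_univ, Set.mem_iUnion, Finset.mem_coe, true_iff]
      exact ⟨nP P, hD.mem_F.mpr le_rfl⟩
    rw [← Set.countable_univ_iff, h1]
    exact Set.countable_iUnion fun x => (Finset.countable_toSet _)
  have hmem : ∀ (x : ℕ) (P : Pr K), P ∈ (hD.F x).filter A ↔ nP P ≤ x ∧ A P := fun x P => by
    rw [Finset.mem_filter, hD.mem_F]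
  have hcard' : ∀ x : ℕ, ((hD.F x).filter A).card = Nat.card {P : Pr K // nP P ≤ x ∧ A P} :=
    fun x => (Nat.subtype_card _ (hmem x)).symm
  have hone' : ∀ (x : ℕ), ∀ P ∈ (hD.F x).filter A, ‖ψ P.1‖ = 1 :=
    fun x P hP => hone P ((hmem x P).mp hP).2
  have hc0 : ∀ x : ℕ, 0 ≤ h * (Real.log x / x) := fun x =>
    mul_nonneg hh.le (div_nonneg (Real.log_natCast_nonneg x) (Nat.cast_nonneg _))
  have hF : Tendsto (fun x : ℕ => (h * (Real.log x / x)) *
      ((((hD.F x).filter A).card : ℕ) : ℝ)) atTop (𝓝 1) := by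
    have h1 := hcard.const_mul h
    rw [mul_inv_cancel₀ hh.ne'] at h1
    refine h1.congr fun x => ?_
    rw [hcard']
    ring
  have hpos : ∀ m : ℕ, m ≠ 0 → Tendsto (fun x : ℕ => ((h * (Real.log x / x) : ℝ) : ℂ) *
      ∑ P ∈ (hD.F x).filter A, ψ P.1 ^ m) atTop (𝓝 0) := by
    intro m hm
    have h1 := (hsum m hm).const_mul (h : ℂ)
    rw [mul_zero] at h1
    refine h1.congr fun x => ?_
    rw [Complex.ofReal_mul]
    ring
  have hW0 : ∀ k : ℤ, k ≠ 0 → Tendsto (fun x : ℕ => ((h * (Real.log x / x) : ℝ) : ℂ) *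
      ∑ P ∈ (hD.F x).filter A,
        Complex.exp (2 * Real.pi * Complex.I * k * ang (ψ P.1))) atTop (𝓝 0) := by
    intro k hk
    obtain ⟨m, rfl | rfl⟩ := Int.eq_nat_or_neg k
    · refine (hpos m (by exact_mod_cast hk)).congr fun x => ?_
      congr 1
      refine Finset.sum_congr rfl fun P hP => ?_
      rw [Int.cast_natCast, exp_ang_pow (hone' x P hP)]
    · have hm : m ≠ 0 := by
        rintro rfl
        exact hk (by simp)
      have h1 := (Complex.continuous_conj.tendsto 0).comp (hpos m hm)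
      rw [map_zero] at h1
      refine h1.congr fun x => ?_
      rw [Function.comp_apply, map_mul, Complex.conj_ofReal, map_sum]
      congr 1
      refine Finset.sum_congr rfl fun P hP => ?_
      rw [← exp_ang_pow (hone' x P hP), ← Complex.exp_conj]
      congr 1
      simp only [map_mul, Complex.conj_I, Complex.conj_ofReal, map_natCast, map_ofNat]
      push_cast
      ring
  have hW : ∀ k : ℤ, k ≠ 0 → Tendsto (fun x : ℕ => ((h * (Real.log x / x) : ℝ) : ℂ) *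
      ∑ P ∈ (hD.F x).filter A,
        Complex.exp (2 * Real.pi * Complex.I * k * Int.fract (ang (ψ P.1) - a))) atTop (𝓝 0) := by
    intro k hk
    have h1 := (hW0 k hk).mul_const (Complex.exp (-(2 * Real.pi * Complex.I * k * a)))
    rw [zero_mul] at h1
    refine h1.congr fun x => ?_
    rw [mul_assoc, Finset.sum_mul]
    simp only [exp_fract_sub]
  have key := (weyl_countable (fun P : Pr K => Int.fract (ang (ψ P.1) - a))
    (fun x => (hD.F x).filter A) (fun x => h * (Real.log x / x)) (fun P => Int.fract_nonneg _)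
    (fun P => Int.fract_lt_one _) hc0 hF hW le_rfl (sub_nonneg.mpr hab) (by linarith)).1
  rw [sub_zero] at key
  have hfin : ∀ x : ℕ, Nat.card {P : Pr K // P ∈ (hD.F x).filter A ∧
        0 < Int.fract (ang (ψ P.1) - a) ∧ Int.fract (ang (ψ P.1) - a) < b - a} =
      Nat.card {P : Pr K // nP P ≤ x ∧ A P ∧ ∃ s ∈ Set.Ioo a b, ψ P.1 = e2 s} := fun x =>
    Nat.card_congr (Equiv.subtypeEquivRight fun P => by
      rw [hmem, and_assoc]
      refine and_congr_right fun _ => and_congr_right fun hA => ?_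
      rw [fract_sub_iff hb]
      have h1 : e2 (ang (ψ P.1)) = ψ P.1 := exp_ang (hone P hA)
      constructor
      · rintro ⟨j, h2, h3⟩
        refine ⟨ang (ψ P.1) + j, ⟨h2, h3⟩, ?_⟩
        rw [e2_add, e2_int, mul_one, h1]
      · rintro ⟨s, ⟨h2, h3⟩, h4⟩
        rw [← h1, e2_eq_iff] at h4
        obtain ⟨k, hk⟩ := h4
        refine ⟨-k, ?_, ?_⟩
        · push_cast
          linarith
        · push_cast
          linarith)
  simp only [hfin] at key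
  have h4 := key.const_mul h⁻¹
  rw [← div_eq_inv_mul] at h4
  refine h4.congr fun x => ?_
  field_simp

/-- **Equidistribution of the values of a Groessencharakter in a narrow ray class**, every
number field, arcs in general position. -/
theorem tendsto_card_arc_narrow (h𝔪 : 𝔪 ≠ ⊥) (hT : IsTy n κ) (hinf : IsInf n κ)
    {ψ : (Ideal (𝓞 K))⁰ →* ℂ} (hψ : GChar n κ 𝔪 ψ)
    {J : (Ideal (𝓞 K))⁰} (hJ : IsCoprime (J : Ideal (𝓞 K)) 𝔪)
    {a b : ℝ} (hab : a ≤ b) (hb : b ≤ a + 1) :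
    Tendsto (fun x : ℕ => (Nat.card {P : Pr K // nP P ≤ x ∧ NRayEq 𝔪 P.1 J ∧
      ∃ s ∈ Set.Ioo a b, ψ P.1 = e2 s} : ℝ) * Real.log x / x) atTop
      (𝓝 ((b - a) / nRayNumber 𝔪)) := by
  obtain ⟨D, hD⟩ := exists_isCount K
  obtain ⟨G, _, _, cl, hsurj, hcl⟩ := groupNStmt K 𝔪 h𝔪
  have h3 : ∀ P : Pr K, (cl0 cl P.1 = (cl ⟨J, hJ⟩ : WithZero G)) ↔ NRayEq 𝔪 P.1 J := fun P => by
    rw [cl0_eq_iff_n cl hcl hJ]
    exact ⟨fun h => h.2, fun h => ⟨h.coprime hJ, h⟩⟩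
  have hr : (0 : ℝ) < nRayNumber 𝔪 := by
    rw [← natCard_eq_nRayNumber cl hsurj hcl]
    exact_mod_cast Nat.card_pos
  refine tendsto_arc_of_sums (A := fun P => NRayEq 𝔪 P.1 J) hr hD
    (tendsto_card_nray (entireNStmt K) (groupNStmt K) h𝔪 hJ)
    (fun P hP => norm_psi_eq_one h𝔪 hψ (hP.coprime hJ)) (fun m hm => ?_) hab hb
  have h4 := tendsto_sum_class (nonVanGStmt K) h𝔪 hT hinf hψ (nRayChar_psi cl hcl) hm hD
    (cl ⟨J, hJ⟩)
  simp only [h3] at h4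
  exact h4

/-! ### Prime elements with signs -/

/-- the signs of `α` -/
def SameSigns (π α : 𝓞 K) : Prop := ∀ w : RP K, 0 < em w (π : K) * em w (α : K)

theorem SameSigns.sg_eq {π : 𝓞 K} (h : SameSigns π α) (S : Finset (RP K)) :
    sg S (π : K) = sg S (α : K) := sg_congr S h

/-- `ψ((π)) = e(t) χ(π)` for all `π ≡ α` with the signs of `α`, with a constant `t` -/
theorem exists_shift_n (h𝔪 : 𝔪 ≠ ⊥) {S : Finset (RP K)} {ψ : (Ideal (𝓞 K))⁰ →* ℂ}
    (hψ : GChar (redG (1 • n + nS S)) (1 • κ) 𝔪 ψ) (hα : IsCoprime (Ideal.span {α}) 𝔪)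
    (hα0 : α ≠ 0) : ∃ t : ℝ, ∀ (π : 𝓞 K) (hπ : π ≠ 0), π - α ∈ 𝔪 → SameSigns π α →
      ψ (sp π hπ) = chi n κ (π : K) * e2 t := by
  obtain ⟨t, ht⟩ := exists_shift h𝔪 hψ hα
  have hαK : (α : K) ≠ 0 := by exact_mod_cast hα0
  have hn : ‖((sg S (α : K) : ℝ) : ℂ) * e2 t‖ = 1 := by
    rw [norm_mul, norm_e2, mul_one, Complex.norm_real, Real.norm_eq_abs, abs_sg S hαK]
  refine ⟨th (((sg S (α : K) : ℝ) : ℂ) * e2 t), fun π hπ hπα hs => ?_⟩
  rw [e2_th hn, ht π hπ hπα, chi_comb 1 S (by exact_mod_cast hπ), pow_one, hs.sg_eq S, e2]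
  ring

/-- **Equidistribution of prime elements with signs**: let `χ = exp(2πiθ)` be a character at
infinity of infinite order which is trivial on the totally positive units `≡ 1` modulo `𝔪`. Then
the numbers `θ(π)` modulo `1`, for the prime elements `π ≡ α` modulo `𝔪` with the signs of `α` at
the real places, are equidistributed. -/
theorem equidistribution_signs (h𝔪 : 𝔪 ≠ ⊥) (hT : IsTy n κ) (hinf : IsInf n κ)
    (hu : ∀ v : (𝓞 K)ˣ, (v : 𝓞 K) - 1 ∈ 𝔪 → (∀ w : RP K, 0 < em w ((v : 𝓞 K) : K)) →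
      chi n κ ((v : 𝓞 K) : K) = 1) {θ : 𝓞 K → ℝ}
    (hθ : ∀ x : 𝓞 K, x ≠ 0 → e2 (θ x) = chi n κ (x : K))
    (hα : IsCoprime (Ideal.span {α}) 𝔪) (hα0 : α ≠ 0) {a b : ℝ} (hab : a ≤ b) (hb : b ≤ a + 1) :
    Tendsto (fun x : ℕ => (Nat.card {P : Pr K // nP P ≤ x ∧ ∃ π : 𝓞 K, π - α ∈ 𝔪 ∧
      SameSigns π α ∧ ((P.1 : (Ideal (𝓞 K))⁰) : Ideal (𝓞 K)) = Ideal.span {π} ∧
      ∃ j : ℤ, a < θ π + j ∧ θ π + j < b} : ℝ) * Real.log x / x) atTop
      (𝓝 ((b - a) / nRayNumber 𝔪)) := by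
  obtain ⟨S, hS⟩ := exists_sgn hu
  obtain ⟨ψ, hψ⟩ := existG K (redG (1 • n + nS S)) (1 • κ) 𝔪 h𝔪 (fun v hv => by
    have hv0 : ((v : 𝓞 K) : K) ≠ 0 := by exact_mod_cast v.ne_zero
    rw [chi_comb 1 S hv0, pow_one, hS v hv, ← Complex.ofReal_mul, sg_sq S hv0,
      Complex.ofReal_one])
  obtain ⟨t, ht⟩ := exists_shift_n h𝔪 hψ hα hα0
  have key := tendsto_card_arc_narrow h𝔪 (isTy_comb hT 1 S)
    (isInf_comb hinf one_ne_zero S) hψ (J := sp α hα0) hα (a := a + t) (b := b + t)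
    (by linarith) (by linarith)
  rw [add_sub_add_right_eq_sub] at key
  refine key.congr fun x => ?_
  congr 3
  refine Nat.card_congr (Equiv.subtypeEquivRight fun P => and_congr_right fun _ => ?_)
  rw [nRayEq_span_iff hα hα0 rfl]
  have hval : ∀ π : 𝓞 K, π - α ∈ 𝔪 → SameSigns π α →
      ((P.1 : (Ideal (𝓞 K))⁰) : Ideal (𝓞 K)) = Ideal.span {π} → ψ P.1 = e2 (θ π + t) := by
    intro π hπ hs hP
    have hπ0 : π ≠ 0 := by
      rintro rfl
      rw [Ideal.span_singleton_eq_bot.mpr rfl] at hP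
      exact nonZeroDivisors.coe_ne_zero _ hP
    have h1 : P.1 = sp π hπ0 := Subtype.ext hP
    rw [h1, ht π hπ0 hπ hs, e2_add, hθ π hπ0]
  constructor
  · rintro ⟨⟨π, hπ, hs, hP⟩, s, ⟨h1, h2⟩, h3⟩
    rw [hval π hπ hs hP, e2_eq_iff] at h3
    obtain ⟨k, hk⟩ := h3
    refine ⟨π, hπ, hs, hP, -k, ?_, ?_⟩
    · push_cast
      linarith
    · push_cast
      linarith
  · rintro ⟨π, hπ, hs, hP, j, h1, h2⟩
    refine ⟨⟨π, hπ, hs, hP⟩, θ π + j + t, ⟨by linarith, by linarith⟩, ?_⟩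
    rw [hval π hπ hs hP, e2_eq_iff]
    exact ⟨-j, by push_cast; ring⟩

/-- **Linear forms in the logarithms**, with signs: for every number field, if the values of
`∑ κ_w log |v|_w` at the totally positive units `≡ 1` modulo `𝔪` are the multiples of `L`. -/
theorem equidistribution_log_signs (h𝔪 : 𝔪 ≠ ⊥) (hκ : ∑ w, κ w = 0) (hκ0 : κ ≠ 0) {L : ℝ}
    (hL : 0 < L)
    (hu : ∀ t : ℝ, (∃ v : (𝓞 K)ˣ, (v : 𝓞 K) - 1 ∈ 𝔪 ∧ (∀ w : RP K, 0 < em w ((v : 𝓞 K) : K)) ∧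
      lK κ ((v : 𝓞 K) : K) = t) ↔ ∃ j : ℤ, t = j * L)
    (hα : IsCoprime (Ideal.span {α}) 𝔪) (hα0 : α ≠ 0) {a b : ℝ} (hab : a ≤ b) (hb : b ≤ a + L) :
    Tendsto (fun x : ℕ => (Nat.card {P : Pr K // nP P ≤ x ∧ ∃ π : 𝓞 K, π - α ∈ 𝔪 ∧
      ((P.1 : (Ideal (𝓞 K))⁰) : Ideal (𝓞 K)) = Ideal.span {π} ∧ SameSigns π α ∧
      a < lK κ (π : K) ∧ lK κ (π : K) < b} : ℝ) *
      Real.log x / x) atTop (𝓝 ((b - a) / (L * nRayNumber 𝔪))) := by
  have hchi : ∀ x : K, chi (0 : InfinitePlace K → ℤ) (fun w => 2 * Real.pi / L * κ w) x =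
      e2 (lK κ x / L) := by
    intro x
    have h1 : lK (fun w => 2 * Real.pi / L * κ w) x = 2 * Real.pi / L * lK κ x := by
      unfold lK
      rw [Finset.mul_sum]
      exact Finset.sum_congr rfl fun w _ => by ring
    rw [chi, aG_zero_left, one_mul, h1, eI, e2]
    congr 1
    push_cast
    ring
  have hpi : 2 * Real.pi / L ≠ 0 := div_ne_zero Real.two_pi_pos.ne' hL.ne'
  have key := equidistribution_signs (n := 0) (κ := fun w => 2 * Real.pi / L * κ w) h𝔪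
    ⟨fun w _ => by simp, by rw [← Finset.mul_sum, hκ, mul_zero]⟩
    (Or.inl fun h => hκ0 (funext fun w => (mul_eq_zero.mp (congrFun h w)).resolve_left hpi))
    (fun v hv hvs => by
      obtain ⟨j, hj⟩ := (hu _).mp ⟨v, hv, hvs, rfl⟩
      rw [hchi, hj, mul_div_cancel_right₀ _ hL.ne', e2_int])
    (θ := fun π => lK κ (π : K) / L)
    (fun x _ => (hchi _).symm) hα hα0 (a := a / L) (b := b / L)
    (div_le_div_of_nonneg_right hab hL.le)
    (by rw [div_le_iff₀ hL, add_mul, div_mul_cancel₀ _ hL.ne', one_mul]; exact hb)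
  rw [← sub_div, div_div] at key
  refine key.congr fun x => ?_
  congr 3
  refine Nat.card_congr (Equiv.subtypeEquivRight fun P => and_congr_right fun _ => ?_)
  constructor
  · rintro ⟨π, hπ, hs, hP, j, h1, h2⟩
    obtain ⟨v, hv, hvs, hvj⟩ := (hu (j * L)).mpr ⟨j, rfl⟩
    have hπ0 : π ≠ 0 := by
      rintro rfl
      rw [Ideal.span_singleton_eq_bot.mpr rfl] at hP
      exact nonZeroDivisors.coe_ne_zero _ hP
    have h3 : lK κ (((v : 𝓞 K) * π : 𝓞 K) : K) = j * L + lK κ (π : K) := by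
      have h4 : (((v : 𝓞 K) * π : 𝓞 K) : K) = ((v : 𝓞 K) : K) * (π : K) := rfl
      rw [h4, lK_mul κ (by exact_mod_cast v.ne_zero) (by exact_mod_cast hπ0), hvj]
    refine ⟨(v : 𝓞 K) * π, ?_, ?_, fun w => ?_, ?_, ?_⟩
    · have h4 : (v : 𝓞 K) * π - α = (v : 𝓞 K) * (π - α) + α * ((v : 𝓞 K) - 1) := by ring
      rw [h4]
      exact 𝔪.add_mem (𝔪.mul_mem_left _ hπ) (𝔪.mul_mem_left _ hv)
    · rw [hP, Ideal.span_singleton_eq_span_singleton]
      exact ⟨v, mul_comm _ _⟩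
    · have h4 : em w (((v : 𝓞 K) * π : 𝓞 K) : K) = em w ((v : 𝓞 K) : K) * em w (π : K) :=
        map_mul (em w) ((v : 𝓞 K) : K) (π : K)
      rw [h4, mul_assoc]
      exact mul_pos (hvs w) (hs w)
    · rw [div_add' _ _ _ hL.ne', div_lt_div_iff_of_pos_right hL] at h1
      rw [h3]
      linarith
    · rw [div_add' _ _ _ hL.ne', div_lt_div_iff_of_pos_right hL] at h2
      rw [h3]
      linarith
  · rintro ⟨π, hπ, hP, hs, h1, h2⟩
    refine ⟨π, hπ, hs, hP, 0, ?_, ?_⟩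
    · rw [Int.cast_zero, add_zero]
      exact div_lt_div_of_pos_right h1 hL
    · rw [Int.cast_zero, add_zero]
      exact div_lt_div_of_pos_right h2 hL

end Fermat.Agent.Cor.RayG

end
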