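import Fermat.Agent.Corollaries.RayG.ConeChar
import Fermat.Agent.Corollaries.RayG.Narrow

/-!
# Equidistribution of prime elements with given signs on the torus of a cone modulo units
-/

set_option autoImplicit false
set_option linter.unusedSectionVars false

noncomputable section

open NumberField NumberField.InfinitePlace NumberField.Units nonZeroDivisors Complex Filter Topology
open NumberField.Units.dirichletUnitTheorem

open scoped Classical ComplexConjugate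

namespace Fermat.Agent.Cor.RayG

open Fermat.Agent.ClassL Fermat.Agent.Classic.Zeta Fermat.Agent.Cor.Ray Fermat.Agent.Cor.RayN

namespace Cone

/-! ### Sums over a finite quotient -/

theorem sum_out {G : Type*} [CommGroup G] (L H : Subgroup G) [Fintype (L ⧸ H.subgroupOf L)]
    (φ : G →* ℂ) (hH : ∀ u ∈ H, φ u = 1) {u₀ : G} (hu₀ : u₀ ∈ L) (h : φ u₀ ≠ 1) :
    ∑ q : L ⧸ H.subgroupOf L, φ ((q.out : L) : G) = 0 := by
  set q₀ : L ⧸ H.subgroupOf L := QuotientGroup.mk ⟨u₀, hu₀⟩ with hq₀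
  have h1 : ∀ q : L ⧸ H.subgroupOf L, φ (((q₀ * q).out : L) : G) =
      φ u₀ * φ ((q.out : L) : G) := by
    intro q
    have h2 : ((QuotientGroup.mk ((q₀ * q).out) : L ⧸ H.subgroupOf L)) =
        QuotientGroup.mk (⟨u₀, hu₀⟩ * q.out) := by
      rw [QuotientGroup.out_eq', QuotientGroup.mk_mul, QuotientGroup.out_eq']
    have h3 := QuotientGroup.eq.mp h2
    rw [Subgroup.mem_subgroupOf] at h3
    have h4 := hH _ h3
    have h5 : φ (((q₀ * q).out : L) : G) * φ (((((q₀ * q).out)⁻¹ * (⟨u₀, hu₀⟩ * q.out) : L)) : G) =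
        φ u₀ * φ ((q.out : L) : G) := by
      rw [← map_mul, ← map_mul]
      congr 1
      push_cast
      rw [mul_inv_cancel_left]
    rw [h4, mul_one] at h5
    exact h5
  have h6 : ∑ q : L ⧸ H.subgroupOf L, φ ((q.out : L) : G) =
      φ u₀ * ∑ q : L ⧸ H.subgroupOf L, φ ((q.out : L) : G) := by
    rw [Finset.mul_sum, ← Finset.sum_congr rfl fun q _ => h1 q]
    exact (Fintype.sum_equiv (Equiv.mulLeft q₀) _ _ fun q => rfl).symm
  have h7 : (φ u₀ - 1) * ∑ q : L ⧸ H.subgroupOf L, φ ((q.out : L) : G) = 0 := by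
    rw [sub_mul, one_mul, ← h6, sub_self]
  exact (mul_eq_zero.mp h7).resolve_left (sub_ne_zero.mpr h)

variable {K : Type} [Field K] [NumberField K] {𝔪 : Ideal (𝓞 K)} {α : 𝓞 K}
  {n : InfinitePlace K → ℤ} {κ : InfinitePlace K → ℝ}

/-- a generator of `P` congruent to `α` modulo `𝔪` with the signs of `α` -/
structure IsGen (𝔪 : Ideal (𝓞 K)) (α : 𝓞 K) (P : Pr K) (π : 𝓞 K) : Prop where
  sub_mem : π - α ∈ 𝔪
  signs : SameSigns π α
  eq_span : ((P.1 : (Ideal (𝓞 K))⁰) : Ideal (𝓞 K)) = Ideal.span {π}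

theorem IsGen.ne_zero {P : Pr K} {π : 𝓞 K} (h : IsGen 𝔪 α P π) : π ≠ 0 := by
  rintro rfl
  have h1 := h.eq_span
  rw [Ideal.span_singleton_eq_bot.mpr rfl] at h1
  exact nonZeroDivisors.coe_ne_zero _ h1

theorem IsGen.ne_zeroK {P : Pr K} {π : 𝓞 K} (h : IsGen 𝔪 α P π) : (π : K) ≠ 0 := by
  exact_mod_cast h.ne_zero

theorem exists_isGen (hα : IsCoprime (Ideal.span {α}) 𝔪) (hα0 : α ≠ 0) (P : Pr K) :
    NRayEq 𝔪 P.1 (sp α hα0) ↔ ∃ π, IsGen 𝔪 α P π := by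
  rw [nRayEq_span_iff hα hα0 rfl]
  exact ⟨fun ⟨π, h1, h2, h3⟩ => ⟨π, h1, h2, h3⟩, fun ⟨π, h⟩ => ⟨π, h.1, h.2, h.3⟩⟩

/-- **The sum over the prime elements with given signs.** -/
theorem narrow_sum (h𝔪 : 𝔪 ≠ ⊥) (hT : IsTy n κ) (hinf : IsInf n κ)
    (hu : ∀ v : (𝓞 K)ˣ, (v : 𝓞 K) - 1 ∈ 𝔪 → (∀ w : RP K, 0 < em w ((v : 𝓞 K) : K)) →
      chi n κ ((v : 𝓞 K) : K) = 1)
    (hα : IsCoprime (Ideal.span {α}) 𝔪) (hα0 : α ≠ 0) {D : ℝ} (hD : IsCount (nP (K := K)) D)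
    (gen : Pr K → 𝓞 K) (hgen : ∀ P : Pr K, NRayEq 𝔪 P.1 (sp α hα0) → IsGen 𝔪 α P (gen P)) :
    Tendsto (fun x : ℕ => ((Real.log x / x : ℝ) : ℂ) *
      ∑ P ∈ (hD.F x).filter (fun P => NRayEq 𝔪 P.1 (sp α hα0)), chi n κ (gen P : K))
      atTop (𝓝 0) := by
  obtain ⟨S, hS⟩ := exists_sgn hu
  obtain ⟨ψ, hψ⟩ := existG K (redG (1 • n + nS S)) (1 • κ) 𝔪 h𝔪 (fun v hv => by
    have hv0 : ((v : 𝓞 K) : K) ≠ 0 := by exact_mod_cast v.ne_zero
    rw [chi_comb 1 S hv0, pow_one, hS v hv, ← Complex.ofReal_mul, sg_sq S hv0,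
      Complex.ofReal_one])
  obtain ⟨t, ht⟩ := exists_shift_n h𝔪 hψ hα hα0
  obtain ⟨G, _, _, cl, hsurj, hcl⟩ := groupNStmt K 𝔪 h𝔪
  have hJ : IsCoprime ((sp α hα0 : (Ideal (𝓞 K))⁰) : Ideal (𝓞 K)) 𝔪 := hα
  have h3 : ∀ P : Pr K, (cl0 cl P.1 = (cl ⟨sp α hα0, hJ⟩ : WithZero G)) ↔
      NRayEq 𝔪 P.1 (sp α hα0) := fun P => by
    rw [cl0_eq_iff_n cl hcl hJ]
    exact ⟨fun h => h.2, fun h => ⟨h.coprime hJ, h⟩⟩
  have h4 := tendsto_sum_class (nonVanGStmt K) h𝔪 (isTy_comb hT 1 S)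
    (isInf_comb hinf one_ne_zero S) hψ (nRayChar_psi cl hcl) one_ne_zero hD
    (cl ⟨sp α hα0, hJ⟩)
  simp only [h3] at h4
  have h5 := h4.const_mul (e2 (-t))
  rw [mul_zero] at h5
  refine h5.congr fun x => ?_
  rw [mul_left_comm]
  congr 1
  rw [Finset.mul_sum]
  refine Finset.sum_congr rfl fun P hP => ?_
  have hg := hgen P (Finset.mem_filter.mp hP).2
  have h6 : P.1 = sp (gen P) hg.ne_zero := Subtype.ext hg.eq_span
  have h7 : e2 (-t) * e2 t = 1 := by rw [← e2_add, neg_add_cancel, e2_zero]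
  rw [pow_one]
  have h8 : ψ (P.1 : (Ideal (𝓞 K))⁰) = chi n κ (gen P : K) * e2 t := by
    rw [h6, ht _ hg.ne_zero hg.sub_mem hg.signs]
  rw [h8, mul_left_comm, h7, mul_one]

/-! ### Weyl's criterion -/

variable {r : Type} [Fintype r] {v : r → (𝓞 K)ˣ} {b : Module.Basis r ℝ (logSpace K)}

theorem e2_eq_eI (t : ℝ) : e2 t = eI (2 * Real.pi * t) := by
  rw [e2, eI]
  congr 1
  push_cast
  ring

theorem chi_crd' (k : CP K ⊕ r → ℤ) {x : K} (hx : x ≠ 0) :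
    chi (nk k) (kapT (Tf v b k)) x = e2 (∑ i, (k i : ℝ) * crd v b x i) := by
  rw [chi_crd v b k hx, e2_eq_eI]

theorem exp_fract (k : CP K ⊕ r → ℤ) {x : K} (hx : x ≠ 0) :
    Complex.exp (2 * Real.pi * Complex.I * ∑ i, (k i : ℂ) * (Int.fract (crd v b x i) : ℝ)) =
      chi (nk k) (kapT (Tf v b k)) x := by
  rw [chi_crd' k hx]
  have h1 : Complex.exp (2 * Real.pi * Complex.I *
      ∑ i, (k i : ℂ) * (Int.fract (crd v b x i) : ℝ)) =
      e2 (∑ i, (k i : ℝ) * Int.fract (crd v b x i)) := by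
    rw [e2]
    push_cast
    rfl
  rw [h1, e2_eq_iff]
  refine ⟨-∑ i, k i * ⌊crd v b x i⌋, ?_⟩
  push_cast
  rw [← sub_eq_add_neg, ← Finset.sum_sub_distrib]
  refine Finset.sum_congr rfl fun i _ => ?_
  rw [← Int.self_sub_floor]
  ring

theorem chi_quot (hb : ∀ j, b j = logEmbedding K (Additive.ofMul (v j))) (L : Subgroup (𝓞 K)ˣ)
    [Fintype (L ⧸ (Subgroup.closure (Set.range v)).subgroupOf L)] (k : CP K ⊕ r → ℤ)
    {u₀ : (𝓞 K)ˣ} (hu₀ : u₀ ∈ L) (h : chi (nk k) (kapT (Tf v b k)) ((u₀ : 𝓞 K) : K) ≠ 1) :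
    ∑ q : L ⧸ (Subgroup.closure (Set.range v)).subgroupOf L,
      chi (nk k) (kapT (Tf v b k)) ((((q.out : L) : (𝓞 K)ˣ) : 𝓞 K) : K) = 0 :=
  sum_out L (Subgroup.closure (Set.range v))
    ((Units.coeHom ℂ).comp (chiU (nk k) (kapT (Tf v b k))))
    (fun _ hu => chi_crd_closure hb k hu) hu₀ h

/-- **Equidistribution**, with boxes. -/
theorem tendsto_cone_box (h𝔪 : 𝔪 ≠ ⊥) (hα : IsCoprime (Ideal.span {α}) 𝔪) (hα0 : α ≠ 0)
    {Q : Type} [Fintype Q] [Nonempty Q] (g : Q → (𝓞 K)ˣ)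
    (hg1 : ∀ q, (g q : 𝓞 K) - 1 ∈ 𝔪 ∧ ∀ w : RP K, 0 < em w ((g q : 𝓞 K) : K))
    (hg2 : ∀ k : CP K ⊕ r → ℤ, (∀ u : (𝓞 K)ˣ, (u : 𝓞 K) - 1 ∈ 𝔪 →
      (∀ w : RP K, 0 < em w ((u : 𝓞 K) : K)) →
      chi (nk k) (kapT (Tf v b k)) ((u : 𝓞 K) : K) = 1) ∨
      ∑ q, chi (nk k) (kapT (Tf v b k)) ((g q : 𝓞 K) : K) = 0)
    {D : ℝ} (hD : IsCount (nP (K := K)) D)
    (gen : Pr K → 𝓞 K) (hgen : ∀ P : Pr K, NRayEq 𝔪 P.1 (sp α hα0) → IsGen 𝔪 α P (gen P))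
    {lo hi : CP K ⊕ r → ℝ} (h0 : ∀ i, 0 ≤ lo i) (hlh : ∀ i, lo i ≤ hi i) (h1 : ∀ i, hi i ≤ 1) :
    Tendsto (fun x : ℕ => ((nRayNumber 𝔪 : ℝ) / (Fintype.card Q : ℝ) * (Real.log x / x)) *
      (Nat.card {i : Pr K × Q //
        i ∈ ((hD.F x).filter fun P => NRayEq 𝔪 P.1 (sp α hα0)) ×ˢ (Finset.univ : Finset Q) ∧
        ∀ j, lo j < Int.fract (crd v b ((gen i.1 : K) * ((g i.2 : 𝓞 K) : K)) j) ∧
          Int.fract (crd v b ((gen i.1 : K) * ((g i.2 : 𝓞 K) : K)) j) < hi j} :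
          ℝ)) atTop (𝓝 (∏ j, (hi j - lo j))) := by
  obtain ⟨G, _, _, cl, hsurj, hcl⟩ := groupNStmt K 𝔪 h𝔪
  have hr : (0 : ℝ) < nRayNumber 𝔪 := by
    rw [← natCard_eq_nRayNumber cl hsurj hcl]
    exact_mod_cast Nat.card_pos
  have hQ0 : (0 : ℝ) < (Fintype.card Q : ℝ) := by exact_mod_cast Fintype.card_pos
  refine (Weyl.weyl_box (ι := Pr K × Q) (d := CP K ⊕ r)
    (θ := fun i j => Int.fract (crd v b ((gen i.1 : K) * ((g i.2 : 𝓞 K) : K)) j))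
    (F := fun x => ((hD.F x).filter fun P => NRayEq 𝔪 P.1 (sp α hα0)) ×ˢ (Finset.univ : Finset Q))
    (c := fun x => (nRayNumber 𝔪 : ℝ) / (Fintype.card Q : ℝ) * (Real.log x / x))
    (fun i j => Int.fract_nonneg _) (fun i j => Int.fract_lt_one _) ?_ ?_ ?_ h0 hlh h1).1
  · intro x
    exact mul_nonneg (div_nonneg hr.le hQ0.le)
      (div_nonneg (Real.log_natCast_nonneg x) (Nat.cast_nonneg x))
  · have hJ : IsCoprime ((sp α hα0 : (Ideal (𝓞 K))⁰) : Ideal (𝓞 K)) 𝔪 := hα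
    have h3 := (tendsto_card_nray (entireNStmt K) (groupNStmt K) h𝔪 hJ).const_mul
      (nRayNumber 𝔪 : ℝ)
    rw [mul_inv_cancel₀ hr.ne'] at h3
    refine h3.congr fun x => ?_
    rw [Finset.card_product, Finset.card_univ]
    have hFc : (((hD.F x).filter fun P => NRayEq 𝔪 P.1 (sp α hα0)).card : ℝ) =
        (Nat.card {P : Pr K // nP P ≤ x ∧ NRayEq 𝔪 P.1 (sp α hα0)} : ℝ) := by
      rw [← Nat.card_eq_finsetCard]
      congr 1
      exact Nat.card_congr (Equiv.subtypeEquivRight fun P => by rw [Finset.mem_filter, hD.mem_F])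
    push_cast
    rw [hFc]
    change (nRayNumber 𝔪 : ℝ) * ((Nat.card {P : Pr K // nP P ≤ x ∧
      NRayEq 𝔪 P.1 (sp α hα0)} : ℝ) * Real.log x / x) = _
    field_simp
  · intro k hk
    have hval : ∀ x : ℕ, ∑ i ∈ ((hD.F x).filter fun P => NRayEq 𝔪 P.1 (sp α hα0)) ×ˢ
        (Finset.univ : Finset Q), Complex.exp (2 * Real.pi * Complex.I * ∑ j, (k j : ℂ) *
          (Int.fract (crd v b ((gen i.1 : K) * ((g i.2 : 𝓞 K) : K)) j) : ℝ)) =
        (∑ P ∈ (hD.F x).filter (fun P => NRayEq 𝔪 P.1 (sp α hα0)),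
          chi (nk k) (kapT (Tf v b k)) (gen P : K)) *
          ∑ q : Q, chi (nk k) (kapT (Tf v b k)) ((g q : 𝓞 K) : K) := by
      intro x
      rw [Finset.sum_product, Finset.sum_mul]
      refine Finset.sum_congr rfl fun P hP => ?_
      rw [Finset.mul_sum]
      refine Finset.sum_congr rfl fun q _ => ?_
      have hg := (hgen P (Finset.mem_filter.mp hP).2).ne_zeroK
      have hq : ((g q : 𝓞 K) : K) ≠ 0 := coe_ne_zeroG (Units.ne_zero _)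
      rw [exp_fract k (mul_ne_zero hg hq), ← chi_mul _ _ hg hq]
    rcases hg2 k with htr | h4
    · have h3 := (narrow_sum h𝔪 (isTy_nk v b k) (isInf_nk v b hk)
        htr hα hα0 hD gen hgen).const_mul (nRayNumber 𝔪 : ℂ)
      rw [mul_zero] at h3
      refine h3.congr fun x => ?_
      rw [hval]
      have h4 : ∑ q : Q, chi (nk k) (kapT (Tf v b k)) ((g q : 𝓞 K) : K) =
          ((Fintype.card Q : ℝ) : ℂ) := by
        rw [Finset.sum_congr rfl fun q _ => htr _ (hg1 q).1 (hg1 q).2]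
        simp
      rw [h4]
      have hQ1 : ((Fintype.card Q : ℝ) : ℂ) ≠ 0 := by exact_mod_cast hQ0.ne'
      push_cast
      push_cast at hQ1
      field_simp
    · refine tendsto_const_nhds.congr fun x => ?_
      rw [hval, h4, mul_zero, mul_zero]

theorem tendsto_log_div_nat : Tendsto (fun x : ℕ => Real.log x / x) atTop (𝓝 0) :=
  (Real.isLittleO_log_id_atTop.tendsto_div_nhds_zero).comp tendsto_natCast_atTop_atTop

/-- **infinitely many prime elements in the box** -/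
theorem infinite_cone_box (h𝔪 : 𝔪 ≠ ⊥) (hα : IsCoprime (Ideal.span {α}) 𝔪) (hα0 : α ≠ 0)
    {Q : Type} [Fintype Q] [Nonempty Q] (g : Q → (𝓞 K)ˣ)
    (hg1 : ∀ q, (g q : 𝓞 K) - 1 ∈ 𝔪 ∧ ∀ w : RP K, 0 < em w ((g q : 𝓞 K) : K))
    (hg2 : ∀ k : CP K ⊕ r → ℤ, (∀ u : (𝓞 K)ˣ, (u : 𝓞 K) - 1 ∈ 𝔪 →
      (∀ w : RP K, 0 < em w ((u : 𝓞 K) : K)) →
      chi (nk k) (kapT (Tf v b k)) ((u : 𝓞 K) : K) = 1) ∨
      ∑ q, chi (nk k) (kapT (Tf v b k)) ((g q : 𝓞 K) : K) = 0)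
    (gen : Pr K → 𝓞 K) (hgen : ∀ P : Pr K, NRayEq 𝔪 P.1 (sp α hα0) → IsGen 𝔪 α P (gen P))
    {lo hi : CP K ⊕ r → ℝ} (h0 : ∀ i, 0 ≤ lo i) (hlh : ∀ i, lo i < hi i) (h1 : ∀ i, hi i ≤ 1) :
    {P : Pr K | NRayEq 𝔪 P.1 (sp α hα0) ∧ ∃ q : Q, ∀ j,
      lo j < Int.fract (crd v b ((gen P : K) * ((g q : 𝓞 K) : K)) j) ∧
        Int.fract (crd v b ((gen P : K) * ((g q : 𝓞 K) : K)) j) < hi j}.Infinite := by
  intro hfin
  obtain ⟨D, hD⟩ := exists_isCount K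
  have key := tendsto_cone_box h𝔪 hα hα0 g hg1 hg2 hD gen hgen h0 (fun i => (hlh i).le) h1
  have hpos : 0 < ∏ j, (hi j - lo j) := Finset.prod_pos fun j _ => sub_pos.mpr (hlh j)
  set T := hfin.toFinset with hT
  have hle : ∀ x : ℕ, (Nat.card {i : Pr K × Q //
        i ∈ ((hD.F x).filter fun P => NRayEq 𝔪 P.1 (sp α hα0)) ×ˢ (Finset.univ : Finset Q) ∧
        ∀ j, lo j < Int.fract (crd v b ((gen i.1 : K) * ((g i.2 : 𝓞 K) : K)) j) ∧
          Int.fract (crd v b ((gen i.1 : K) * ((g i.2 : 𝓞 K) : K)) j) < hi j} : ℝ) ≤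
      ((T ×ˢ (Finset.univ : Finset Q)).card : ℝ) := by
    intro x
    rw [← Nat.card_eq_finsetCard]
    have : Finite {i : Pr K × Q // i ∈ T ×ˢ (Finset.univ : Finset Q)} := Finite.of_fintype _
    exact_mod_cast Nat.card_le_card_of_injective
      (fun i : {i : Pr K × Q // i ∈ ((hD.F x).filter fun P => NRayEq 𝔪 P.1 (sp α hα0)) ×ˢ
          (Finset.univ : Finset Q) ∧
        ∀ j, lo j < Int.fract (crd v b ((gen i.1 : K) * ((g i.2 : 𝓞 K) : K)) j) ∧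
          Int.fract (crd v b ((gen i.1 : K) * ((g i.2 : 𝓞 K) : K)) j) < hi j} =>
        (⟨i.1, by
          rw [Finset.mem_product]
          refine ⟨?_, Finset.mem_univ _⟩
          rw [hT, Set.Finite.mem_toFinset]
          exact ⟨(Finset.mem_filter.mp (Finset.mem_product.mp i.2.1).1).2, i.1.2, i.2.2⟩⟩ :
          {i : Pr K × Q // i ∈ T ×ˢ (Finset.univ : Finset Q)}))
      fun i j hij => Subtype.ext (congrArg (fun z => z.1) hij)
  have hzero : Tendsto (fun x : ℕ => ((nRayNumber 𝔪 : ℝ) / (Fintype.card Q : ℝ) *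
      (Real.log x / x)) * ((T ×ˢ (Finset.univ : Finset Q)).card : ℝ)) atTop (𝓝 0) := by
    have h3 := (tendsto_log_div_nat.const_mul ((nRayNumber 𝔪 : ℝ) / (Fintype.card Q : ℝ))).mul_const
      ((T ×ˢ (Finset.univ : Finset Q)).card : ℝ)
    rwa [mul_zero, zero_mul] at h3
  have h5 := le_of_tendsto_of_tendsto' key hzero fun x =>
    mul_le_mul_of_nonneg_left (hle x) (mul_nonneg (div_nonneg (Nat.cast_nonneg _)
      (Nat.cast_nonneg _)) (div_nonneg (Real.log_natCast_nonneg x) (Nat.cast_nonneg x)))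
  exact absurd h5 (not_le.mpr hpos)

end Cone

end Fermat.Agent.Cor.RayG

end
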