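import Fermat.Agent.Corollaries.RayG.ConeDeg
import Fermat.Agent.Corollaries.RayN.FormsN

/-!
# Primes represented by indefinite binary quadratic forms at points of a given direction

Let `f = a x² + b x y + c y²` be a primitive form of positive discriminant which is not a square,
and `f(x₀, y₀)` prime to `M`. The points `(x, y)/√p` with `f(x, y) = p` prime,
`(x, y) ≡ (x₀, y₀)` modulo `M`, are dense in the hyperbola `f = 1` (Hecke).
-/

set_option autoImplicit false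
set_option linter.unusedSectionVars false

noncomputable section

open NumberField NumberField.InfinitePlace nonZeroDivisors Filter Topology QuadraticAlgebra

namespace Fermat.Agent.Cor.RayG

open Fermat.Agent.ClassL Fermat.Agent.Cor.Ray Fermat.Agent.Cor.RayN

/-! ### Hyperbolic polar coordinates -/

theorem polar {s t c ε : ℝ} (hc : 0 < c) (hst : s * t = c) (hε : ε * ε = 1) (hs : 0 < ε * s) :
    s = ε * (√c * Real.exp (Real.log |s / t| / 2)) ∧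
      t = ε * (√c * Real.exp (-(Real.log |s / t| / 2))) := by
  have hε0 : ε ≠ 0 := by
    rintro rfl
    rw [zero_mul] at hs
    exact lt_irrefl _ hs
  have hmul : (ε * s) * (ε * t) = c := by rw [mul_mul_mul_comm, hε, one_mul, hst]
  have ht : 0 < ε * t := by
    have h1 := hc
    rw [← hmul] at h1
    exact (pos_iff_pos_of_mul_pos h1).mp hs
  have h1 : |s / t| = (ε * s) / (ε * t) := by
    have h2 : s / t = (ε * s) / (ε * t) := by rw [mul_div_mul_left _ _ hε0]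
    rw [h2, abs_of_pos (div_pos hs ht)]
  set u : ℝ := Real.exp (Real.log |s / t| / 2) with hu
  have hu0 : 0 < u := Real.exp_pos _
  have huu : u * u = (ε * s) / (ε * t) := by
    rw [hu, ← Real.exp_add, add_halves, h1, Real.exp_log (div_pos hs ht)]
  have hneg : Real.exp (-(Real.log |s / t| / 2)) = u⁻¹ := by rw [Real.exp_neg]
  have hsc : √c * √c = c := Real.mul_self_sqrt hc.le
  have hsc0 : 0 < √c := Real.sqrt_pos.mpr hc
  have ht0 : t ≠ 0 := by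
    rintro rfl
    rw [mul_zero] at ht
    exact lt_irrefl _ ht
  have h2 : ε * s = √c * u := by
    have h3 : (ε * s) ^ 2 = (√c * u) ^ 2 := by
      have h4 : (√c * u) ^ 2 = (√c * √c) * (u * u) := by ring
      rw [h4, hsc, huu, ← hmul]
      field_simp
    exact (pow_left_inj₀ hs.le (mul_pos hsc0 hu0).le two_ne_zero).mp h3
  have h3 : ε * t = √c * u⁻¹ := by
    have h4 : (√c * u) * (ε * t) = √c * √c := by rw [← h2, hmul, hsc]
    field_simp
    have h5 : √c * (u * (ε * t)) = √c * √c := by rw [← h4]; ring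
    have h6 := mul_left_cancel₀ hsc0.ne' h5
    linarith
  refine ⟨?_, ?_⟩
  · rw [← h2, ← mul_assoc, hε, one_mul]
  · rw [hneg, ← h3, ← mul_assoc, hε, one_mul]

/-- the point with hyperbolic angle `l` -/
def phi (a r₁ r₂ ε l : ℝ) : ℝ × ℝ :=
  ((r₂ * (ε * (√a * Real.exp (l / 2))) - r₁ * (ε * (√a * Real.exp (-(l / 2))))) /
    (a * (r₂ - r₁)),
    ((ε * (√a * Real.exp (l / 2))) - (ε * (√a * Real.exp (-(l / 2))))) / (r₂ - r₁))

theorem continuous_phi (a r₁ r₂ ε : ℝ) : Continuous (phi a r₁ r₂ ε) := by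
  unfold phi
  fun_prop

theorem phi_eq {a r₁ r₂ ε x y q : ℝ} (ha : 0 < a) (hr : r₂ - r₁ ≠ 0) (hε : ε * ε = 1) (hq : 0 < q)
    (h : (a * x - r₁ * y) * (a * x - r₂ * y) = a * q) (hs : 0 < ε * (a * x - r₁ * y)) :
    phi a r₁ r₂ ε (Real.log |(a * x - r₁ * y) / (a * x - r₂ * y)|) = (x / √q, y / √q) := by
  obtain ⟨h1, h2⟩ := polar (mul_pos ha hq) h hε hs
  set l : ℝ := Real.log |(a * x - r₁ * y) / (a * x - r₂ * y)| with hl
  rw [Real.sqrt_mul ha.le] at h1 h2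
  have hq0 : 0 < √q := Real.sqrt_pos.mpr hq
  have h3 : ε * (√a * Real.exp (l / 2)) = (a * x - r₁ * y) / √q := by
    rw [eq_div_iff hq0.ne', h1]
    ring
  have h4 : ε * (√a * Real.exp (-(l / 2))) = (a * x - r₂ * y) / √q := by
    rw [eq_div_iff hq0.ne', h2]
    ring
  rw [phi, h3, h4]
  refine Prod.ext ?_ ?_
  · simp only
    field_simp
    ring
  · simp only
    field_simp
    ring

section Order

variable {a b c : ℤ} [hF : Fact (∀ r : ℚ, r ^ 2 ≠ -((a : ℚ) * c) + -(b : ℚ) * r)]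

/-- an integer `≡ d` modulo `T` of given sign -/
theorem exists_sign_int_mod {d T : ℤ} (hT : T ≠ 0) (hd : IsCoprime d T) {ε : ℝ} (hε : ε * ε = 1) :
    ∃ d' : ℤ, T ∣ d' - d ∧ IsCoprime d' T ∧ d' ≠ 0 ∧ 0 < ε * (d' : ℝ) := by
  obtain ⟨e, he, heε⟩ : ∃ e : ℤ, e * e = 1 ∧ (e : ℝ) = ε := by
    rcases mul_self_eq_one_iff.mp hε with h | h
    · exact ⟨1, by norm_num, by rw [h]; norm_num⟩
    · exact ⟨-1, by norm_num, by rw [h]; norm_num⟩
  have hT2 : 1 ≤ T ^ 2 := by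
    have h1 : 0 < T ^ 2 := by positivity
    linarith
  have hpos : 0 < e * (d + T * (T * (|d| + 1) * e)) := by
    have h1 : e * (d + T * (T * (|d| + 1) * e)) = e * d + T ^ 2 * (|d| + 1) * (e * e) := by ring
    rw [h1, he, mul_one]
    have h2 : |e * d| = |d| := by
      have h3 : |e| * |e| = 1 := by rw [abs_mul_abs_self]; exact he
      have h4 : |e| = 1 := by
        have := abs_nonneg e
        nlinarith
      rw [abs_mul, h4, one_mul]
    have h3 := neg_abs_le (e * d)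
    rw [h2] at h3
    have h4 := abs_nonneg d
    nlinarith
  refine ⟨d + T * (T * (|d| + 1) * e), ⟨T * (|d| + 1) * e, by ring⟩,
    IsCoprime.add_mul_left_left hd _, ?_, ?_⟩
  · intro h0
    rw [h0, mul_zero] at hpos
    exact lt_irrefl _ hpos
  · rw [← heε]
    exact_mod_cast hpos

/-- the case of a first coefficient positive and prime to everything, and `(x₀, y₀) = (d, 0)` -/
theorem exists_prime_coprime_cone (hD : 0 < b ^ 2 - 4 * a * c) {M : ℤ}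
    (hM : M ≠ 0) (hcop : IsCoprime a (2 * (b ^ 2 - 4 * a * c) * M)) (ha : 0 < a) {d : ℤ}
    (hd₀ : IsCoprime d (2 * (b ^ 2 - 4 * a * c) * M)) {U : Set (ℝ × ℝ)} (hU : IsOpen U) {ξ η : ℝ}
    (hξ : (ξ, η) ∈ U) (h1 : a * ξ ^ 2 + b * ξ * η + c * η ^ 2 = 1) (B : ℕ) :
    ∃ p : ℕ, p.Prime ∧ B < p ∧ ∃ x y : ℤ, M ∣ x - d ∧ M ∣ y ∧
      a * x ^ 2 + b * x * y + c * y ^ 2 = p ∧ ((x : ℝ) / √p, (y : ℝ) / √p) ∈ U := by
  have hD0 : b ^ 2 - 4 * a * c ≠ 0 := hD.ne'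
  set T : ℤ := 2 * (b ^ 2 - 4 * a * c) * M with hT
  have hT0 : T ≠ 0 := mul_ne_zero (mul_ne_zero two_ne_zero hD0) hM
  have hcop2 : IsCoprime a (2 * (b ^ 2 - 4 * a * c)) := IsCoprime.of_mul_right_left hcop
  have hcopM : IsCoprime a M := IsCoprime.of_mul_right_right hcop
  -- the real embeddings
  have hDR : (0 : ℝ) < (b : ℝ) ^ 2 - 4 * a * c := by exact_mod_cast hD
  set ρ : ℝ := √((b : ℝ) ^ 2 - 4 * a * c) with hρ
  have hρ2 : ρ ^ 2 = (b : ℝ) ^ 2 - 4 * a * c := Real.sq_sqrt hDR.le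
  have hρ0 : 0 < ρ := Real.sqrt_pos.mpr hDR
  have haR : (0 : ℝ) < a := by exact_mod_cast ha
  set r₁ : ℝ := (-b + ρ) / 2 with hr₁
  set r₂ : ℝ := (-b - ρ) / 2 with hr₂
  have e₁ : r₁ ^ 2 = -((a : ℝ) * c) + -(b : ℝ) * r₁ := by
    rw [hr₁]
    linear_combination hρ2 / 4
  have e₂ : r₂ ^ 2 = -((a : ℝ) * c) + -(b : ℝ) * r₂ := by
    rw [hr₂]
    linear_combination hρ2 / 4
  have hr21 : r₂ - r₁ ≠ 0 := by
    have h3 : r₂ - r₁ = -ρ := by rw [hr₁, hr₂]; ring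
    rw [h3]
    exact neg_ne_zero.mpr hρ0.ne'
  have hprod : ∀ x y : ℝ, (a * x - r₁ * y) * (a * x - r₂ * y) =
      a * (a * x ^ 2 + b * x * y + c * y ^ 2) := by
    intro x y
    rw [hr₁, hr₂]
    linear_combination (-(y ^ 2) / 4) * hρ2
  set σ : QF a b c →+* ℝ := emQ a b c r₁ e₁ with hσ
  set τ : QF a b c →+* ℝ := emQ a b c r₂ e₂ with hτ
  have hσa : ∀ z : QF a b c, σ z = (z.re : ℝ) + z.im * r₁ := fun z => rfl
  have hτa : ∀ z : QF a b c, τ z = (z.re : ℝ) + z.im * r₂ := fun z => rfl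
  have hστ : σ ≠ τ := by
    intro h
    have h3 := RingHom.congr_fun h (⟨0, 1⟩ : QF a b c)
    rw [hσa, hτa] at h3
    simp only [Rat.cast_zero, Rat.cast_one, zero_add, one_mul] at h3
    exact hr21 (by rw [h3, sub_self])
  have hfr : Module.finrank ℚ (QF a b c) = 2 := QuadraticAlgebra.finrank_eq_two _ _
  -- the sign
  have hs12 : (a * ξ - r₁ * η) * (a * ξ - r₂ * η) = a * 1 := by rw [hprod, h1]
  have hs1 : a * ξ - r₁ * η ≠ 0 := by
    intro h3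
    rw [h3, zero_mul, mul_one] at hs12
    exact haR.ne hs12
  obtain ⟨ε, hε, hεs⟩ : ∃ ε : ℝ, ε * ε = 1 ∧ 0 < ε * (a * ξ - r₁ * η) := by
    rcases lt_or_gt_of_ne hs1 with h3 | h3
    · exact ⟨-1, by norm_num, by linarith⟩
    · exact ⟨1, by norm_num, by linarith⟩
  obtain ⟨d', hd'T, hd, hd0, hd'ε⟩ := exists_sign_int_mod hT0 hd₀ hε
  -- the interval
  have hphi0 := phi_eq haR hr21 hε one_pos hs12 hεs
  rw [Real.sqrt_one, div_one, div_one] at hphi0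
  set l₀ : ℝ := Real.log |(a * ξ - r₁ * η) / (a * ξ - r₂ * η)| with hl₀
  have hopen : IsOpen (phi a r₁ r₂ ε ⁻¹' U) := hU.preimage (continuous_phi _ _ _ _)
  have hmem : l₀ ∈ phi a r₁ r₂ ε ⁻¹' U := by
    rw [Set.mem_preimage, hphi0]
    exact hξ
  obtain ⟨δ, hδ, hball⟩ := Metric.isOpen_iff.mp hopen l₀ hmem
  -- the ideals
  have h𝔪 : Ideal.span {((T : ℤ) : 𝓞 (QF a b c))} ≠ ⊥ := by
    rw [Ne, Ideal.span_singleton_eq_bot]
    exact_mod_cast hT0
  have hbot : idealQ a b c ≠ ⊥ := by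
    intro h
    have h1 := absNorm_idealQ' hcop2
    rw [h, Ideal.absNorm_bot] at h1
    exact ha.ne' (Int.natAbs_eq_zero.mp h1.symm)
  let A : (Ideal (𝓞 (QF a b c)))⁰ := ⟨idealQ a b c, mem_nonZeroDivisors_of_ne_zero hbot⟩
  have hA : IsCoprime (A : Ideal (𝓞 (QF a b c))) (Ideal.span {((T : ℤ) : 𝓞 (QF a b c))}) := by
    have h1 := isCoprime_span_intCast (a := a) (b := b) (c := c) hcop
    rw [Ideal.isCoprime_iff_sup_eq] at h1 ⊢
    refine top_le_iff.mp (h1.symm.le.trans (sup_le_sup_right ?_ _))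
    rw [Ideal.span_singleton_le_iff_mem]
    exact Ideal.subset_span (Set.mem_insert _ _)
  have hγ0 : ((d' * a : ℤ) : 𝓞 (QF a b c)) ≠ 0 := by
    exact_mod_cast mul_ne_zero hd0 ha.ne'
  -- a prime ideal of degree one of large norm
  have hfin : {P : ClassL.Pr (QF a b c) |
      Ideal.absNorm (P.1 : Ideal (𝓞 (QF a b c))) ≤ B}.Finite :=
    (Ideal.finite_setOfPred_absNorm_le₀ (S := 𝓞 (QF a b c)) B).preimage
      (f := fun P : ClassL.Pr (QF a b c) => P.1) Subtype.val_injective.injOn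
  obtain ⟨P, ⟨hPp, α, hα, hαγ, hsg, hlo, hhi⟩, hPB⟩ := ((infinite_deg_one_cone hfr hστ h𝔪 hA hγ0
    (isCoprime_span_intCast (a := a) (b := b) (c := c) (hd.mul_left hcop))
    (s := l₀ - δ) (t := l₀ + δ) (by linarith)).sdiff hfin).nonempty
  have hPB' : B < Ideal.absNorm (P.1 : Ideal (𝓞 (QF a b c))) := not_le.mp hPB
  refine ⟨_, hPp, hPB', ?_⟩
  -- the coordinates of `α`
  obtain ⟨z, hz⟩ := Ideal.mem_span_singleton'.mp hαγ
  obtain ⟨x', y', hxy⟩ := exists_comb_mul z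
  have h1 : α = ((d' * a + M * x' : ℤ) : 𝓞 (QF a b c)) +
      ((M * y' : ℤ) : 𝓞 (QF a b c)) * thetaQ a b c := by
    have h2 : ((T : ℤ) : 𝓞 (QF a b c)) =
        ((2 * (b ^ 2 - 4 * a * c) : ℤ) : 𝓞 (QF a b c)) * ((M : ℤ) : 𝓞 (QF a b c)) := by
      rw [hT, Int.cast_mul]
    rw [h2] at hz
    push_cast
    push_cast at hz hxy
    linear_combination -hz + (M : 𝓞 (QF a b c)) * hxy
  have hαA : α ∈ idealQ a b c := by
    have h2 : α ∈ (P.1 : Ideal (𝓞 (QF a b c))) * (A : Ideal (𝓞 (QF a b c))) := by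
      rw [hα]
      exact Ideal.mem_span_singleton_self α
    have h3 : (P.1 : Ideal (𝓞 (QF a b c))) * (A : Ideal (𝓞 (QF a b c))) ≤
      (A : Ideal (𝓞 (QF a b c))) := Ideal.mul_le_right
    exact h3 h2
  rw [h1] at hαA
  have h2 : a ∣ d' * a + M * x' := dvd_of_comb_mem hcop2 hαA
  obtain ⟨w, hw⟩ : a ∣ x' := by
    have h3 : a ∣ M * x' := (dvd_add_right (Dvd.intro_left d' rfl)).mp h2
    exact hcopM.dvd_of_dvd_mul_left h3
  have h3 : α = (((d' + M * w) * a : ℤ) : 𝓞 (QF a b c)) +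
      ((M * y' : ℤ) : 𝓞 (QF a b c)) * thetaQ a b c := by
    rw [h1, hw]
    push_cast
    ring
  have h4 : (Algebra.norm ℤ α).natAbs =
      Ideal.absNorm (P.1 : Ideal (𝓞 (QF a b c))) * a.natAbs := by
    rw [← Ideal.absNorm_span_singleton, ← hα, map_mul, ← absNorm_idealQ' hcop2]
  -- the sign of the norm
  have hα0 : α ≠ 0 := by
    intro h0
    rw [h0, Algebra.norm_zero, Int.natAbs_zero] at h4
    exact mul_ne_zero hPp.ne_zero (Int.natAbs_ne_zero.mpr ha.ne') h4.symm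
  have hNγ : 0 < Algebra.norm ℤ ((d' * a : ℤ) : 𝓞 (QF a b c)) := by
    have e1 : ((d' * a : ℤ) : 𝓞 (QF a b c)) =
        ((d' * a : ℤ) : 𝓞 (QF a b c)) + ((0 : ℤ) : 𝓞 (QF a b c)) * thetaQ a b c := by
      push_cast
      ring
    rw [e1, norm_comb]
    have e2 : 0 < a ^ 2 * d' ^ 2 := by positivity
    linarith
  have h6 : 0 < Algebra.norm ℤ α := by
    have h7 := norm_mul_norm_pos hα0 hγ0 hsg
    exact pos_of_mul_pos_left h7 hNγ.le
  have h7 : a * (a * (d' + M * w) ^ 2 - b * (d' + M * w) * (M * y') + c * (M * y') ^ 2) =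
      a * (Ideal.absNorm (P.1 : Ideal (𝓞 (QF a b c))) : ℤ) := by
    rw [← norm_comb, ← h3, ← Int.natAbs_of_nonneg h6.le, h4, Nat.cast_mul,
      Int.natAbs_of_nonneg ha.le, mul_comm]
  have h8 : a * (d' + M * w) ^ 2 + b * (d' + M * w) * (-(M * y')) + c * (-(M * y')) ^ 2 =
      (Ideal.absNorm (P.1 : Ideal (𝓞 (QF a b c))) : ℤ) := by
    rw [← mul_left_cancel₀ ha.ne' h7]
    ring
  have hdM : M ∣ d' - d := (Dvd.intro_left _ hT.symm).trans hd'T
  refine ⟨d' + M * w, -(M * y'), ?_, ⟨-y', by ring⟩, h8, ?_⟩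
  · have h9 : d' + M * w - d = (d' - d) + M * w := by ring
    rw [h9]
    exact dvd_add hdM (Dvd.intro _ rfl)
  -- the direction
  have hcoe : (α : QF a b c) = ⟨(((d' + M * w) * a : ℤ) : ℚ), ((M * y' : ℤ) : ℚ)⟩ := by
    rw [h3, coe_comb]
  have hσα : σ (α : QF a b c) = a * ((d' + M * w : ℤ) : ℝ) - r₁ * ((-(M * y') : ℤ) : ℝ) := by
    rw [hσa, hcoe]
    push_cast
    ring
  have hτα : τ (α : QF a b c) = a * ((d' + M * w : ℤ) : ℝ) - r₂ * ((-(M * y') : ℤ) : ℝ) := by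
    rw [hτa, hcoe]
    push_cast
    ring
  have hp0 : (0 : ℝ) < (Ideal.absNorm (P.1 : Ideal (𝓞 (QF a b c))) : ℝ) := by
    exact_mod_cast hPp.pos
  have hpr : (a * ((d' + M * w : ℤ) : ℝ) - r₁ * ((-(M * y') : ℤ) : ℝ)) *
      (a * ((d' + M * w : ℤ) : ℝ) - r₂ * ((-(M * y') : ℤ) : ℝ)) =
      a * (Ideal.absNorm (P.1 : Ideal (𝓞 (QF a b c))) : ℝ) := by
    rw [hprod]
    have h9 := congrArg (fun m : ℤ => (m : ℝ)) h8
    push_cast at h9 ⊢
    rw [h9]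
  have hsα : 0 < ε * (a * ((d' + M * w : ℤ) : ℝ) - r₁ * ((-(M * y') : ℤ) : ℝ)) := by
    have h9 := ((forall_RP_iff hfr hστ (p := fun e => 0 < e (α : QF a b c) *
      e (((d' * a : ℤ) : 𝓞 (QF a b c)) : QF a b c))).mp hsg).1
    have h10 : σ (((d' * a : ℤ) : 𝓞 (QF a b c)) : QF a b c) = (d' : ℝ) * a := by
      have h11 : (((d' * a : ℤ) : 𝓞 (QF a b c)) : QF a b c) = ((d' * a : ℤ) : QF a b c) :=
        map_intCast _ _
      rw [h11, map_intCast]
      push_cast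
      ring
    rw [h10, hσα] at h9
    have h12 : 0 < (ε * (a * ((d' + M * w : ℤ) : ℝ) - r₁ * ((-(M * y') : ℤ) : ℝ))) *
        ((ε * (d' : ℝ)) * a) := by
      have h13 : (ε * (a * ((d' + M * w : ℤ) : ℝ) - r₁ * ((-(M * y') : ℤ) : ℝ))) *
        ((ε * (d' : ℝ)) * a) = (ε * ε) * ((a * ((d' + M * w : ℤ) : ℝ) -
          r₁ * ((-(M * y') : ℤ) : ℝ)) * ((d' : ℝ) * a)) := by ring
      rw [h13, hε, one_mul]
      exact h9
    exact pos_of_mul_pos_left h12 (mul_pos hd'ε haR).le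
  have hfinal := phi_eq haR hr21 hε hp0 hpr hsα
  rw [← hfinal, ← hσα, ← hτα]
  refine hball ?_
  rw [Metric.mem_ball, Real.dist_eq, abs_lt]
  constructor <;> linarith

end Order

/-! ### The theorems -/

theorem exists_prime_form_cone {a b c : ℤ}
    (hprim : ∀ q : ℕ, q.Prime → ¬ ((q : ℤ) ∣ a ∧ (q : ℤ) ∣ b ∧ (q : ℤ) ∣ c))
    (hsq : ¬ IsSquare (b ^ 2 - 4 * a * c)) (hpos : 0 < b ^ 2 - 4 * a * c)
    {M : ℤ} (hM : M ≠ 0) {x₀ y₀ : ℤ} (h : IsCoprime (qf a b c x₀ y₀) M)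
    {U : Set (ℝ × ℝ)} (hU : IsOpen U) {ξ η : ℝ}
    (hξ : (ξ, η) ∈ U) (h1 : a * ξ ^ 2 + b * ξ * η + c * η ^ 2 = 1) (B : ℕ) :
    ∃ p : ℕ, p.Prime ∧ B < p ∧ ∃ x y : ℤ, M ∣ x - x₀ ∧ M ∣ y - y₀ ∧ qf a b c x y = p ∧
      ((x : ℝ) / √p, (y : ℝ) / √p) ∈ U := by
  set D : ℤ := b ^ 2 - 4 * a * c with hD
  have hD0 : D ≠ 0 := hpos.ne'
  -- a point whose value is positive and prime to `2 D M`
  obtain ⟨x₁, y₁, hx, hy, hco, hvpos⟩ := exists_value_coprime_pos hprim hsq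
    (fun h => absurd hpos (not_lt.mpr h.le)) hM h
    (2 * D).natAbs (Int.natAbs_ne_zero.mpr (mul_ne_zero two_ne_zero hD0))
  have hco' : IsCoprime (qf a b c x₁ y₁) (2 * D * M) := by
    rcases Int.natAbs_eq (2 * D) with h1 | h1
    · rwa [← h1] at hco
    · rw [h1]
      have h2 : -(((2 * D).natAbs : ℕ) : ℤ) * M = -((((2 * D).natAbs : ℕ) : ℤ) * M) := by ring
      rw [h2]
      exact hco.neg_right
  set T : ℤ := 2 * D * M with hT
  have hval : qf a b c x₁ y₁ ≠ 0 := hvpos.ne'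
  -- the primitive vector
  obtain ⟨u, v, d, r, s, hx₁, hy₁, hdet⟩ : ∃ u v d r s : ℤ, x₁ = d * u ∧ y₁ = d * v ∧
      u * s - v * r = 1 := by
    have hne : x₁ ≠ 0 ∨ y₁ ≠ 0 := by
      by_contra hcon
      push Not at hcon
      apply hval
      rw [qf, hcon.1, hcon.2]
      ring
    obtain ⟨u, hu⟩ := Int.gcd_dvd_left (a := x₁) (b := y₁)
    obtain ⟨v, hv⟩ := Int.gcd_dvd_right (a := x₁) (b := y₁)
    have hg : ((Int.gcd x₁ y₁ : ℕ) : ℤ) ≠ 0 := by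
      rw [Ne, Int.natCast_eq_zero, Int.gcd_eq_zero_iff, not_and_or]
      exact hne
    have hbez := Int.gcd_eq_gcd_ab x₁ y₁
    refine ⟨u, v, (Int.gcd x₁ y₁ : ℕ), -Int.gcdB x₁ y₁, Int.gcdA x₁ y₁, hu, hv, ?_⟩
    refine mul_left_cancel₀ hg ?_
    rw [mul_one]
    conv_rhs => rw [hbez]
    linear_combination (-Int.gcdA x₁ y₁) * hu - (Int.gcdB x₁ y₁) * hv
  -- the equivalent form
  set a' : ℤ := qf a b c u v with ha'
  set b' : ℤ := 2 * a * u * r + b * (u * s + v * r) + 2 * c * v * s with hb'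
  set c' : ℤ := qf a b c r s with hc'
  have hdisc : b' ^ 2 - 4 * a' * c' = D := by
    have h1 : b' ^ 2 - 4 * a' * c' = D * (u * s - v * r) ^ 2 := by
      rw [hb', ha', hc', hD, qf, qf]
      ring
    rw [h1, hdet]
    ring
  have hval2 : qf a b c x₁ y₁ = d ^ 2 * a' := by
    rw [ha', qf, qf, hx₁, hy₁]
    ring
  have ha'T : IsCoprime a' T := by
    rw [hval2] at hco'
    exact hco'.of_mul_left_right
  have hdT : IsCoprime d T := by
    rw [hval2, pow_two, mul_assoc] at hco'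
    exact hco'.of_mul_left_left
  have ha'0 : 0 < a' := by
    rw [hval2] at hvpos
    exact pos_of_mul_pos_right hvpos (sq_nonneg _)
  have : Fact (∀ r : ℚ, r ^ 2 ≠ -((a' : ℚ) * c') + -(b' : ℚ) * r) :=
    fact_of_not_isSquare (by rw [hdisc]; exact hsq)
  -- the open set in the new coordinates
  have hdetR : (u : ℝ) * s - v * r = 1 := by exact_mod_cast hdet
  set g : ℝ × ℝ → ℝ × ℝ := fun q => (u * q.1 + r * q.2, v * q.1 + s * q.2) with hg
  have hgc : Continuous g := by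
    rw [hg]
    fun_prop
  have hg0 : g (s * ξ - r * η, u * η - v * ξ) = (ξ, η) := by
    rw [hg]
    refine Prod.ext ?_ ?_
    · simp only
      linear_combination ξ * hdetR
    · simp only
      linear_combination η * hdetR
  have hval3 : (a' : ℝ) * (s * ξ - r * η) ^ 2 + b' * (s * ξ - r * η) * (u * η - v * ξ) +
      c' * (u * η - v * ξ) ^ 2 = 1 := by
    have h2 : (a' : ℝ) * (s * ξ - r * η) ^ 2 + b' * (s * ξ - r * η) * (u * η - v * ξ) +
        c' * (u * η - v * ξ) ^ 2 = (a * ξ ^ 2 + b * ξ * η + c * η ^ 2) * (u * s - v * r) ^ 2 := by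
      rw [hb', ha', hc', qf, qf]
      push_cast
      ring
    rw [h2, h1, hdetR]
    norm_num
  obtain ⟨p, hp, hB, X, Y, hX, hY, hXY, hdir⟩ := exists_prime_coprime_cone (a := a') (b := b')
    (c := c') (by rw [hdisc]; exact hpos) hM (by rw [hdisc]; exact ha'T) ha'0
    (by rw [hdisc]; exact hdT) (U := g ⁻¹' U) (hU.preimage hgc) (ξ := s * ξ - r * η)
    (η := u * η - v * ξ) (by rw [Set.mem_preimage, hg0]; exact hξ) hval3 B
  refine ⟨p, hp, hB, u * X + r * Y, v * X + s * Y, ?_, ?_, ?_, ?_⟩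
  · have h1 : u * X + r * Y - x₀ = u * (X - d) + (r * Y + (x₁ - x₀)) := by rw [hx₁]; ring
    rw [h1]
    exact dvd_add (Dvd.dvd.mul_left hX _) (dvd_add (Dvd.dvd.mul_left hY _) hx)
  · have h1 : v * X + s * Y - y₀ = v * (X - d) + (s * Y + (y₁ - y₀)) := by rw [hy₁]; ring
    rw [h1]
    exact dvd_add (Dvd.dvd.mul_left hX _) (dvd_add (Dvd.dvd.mul_left hY _) hy)
  · rw [← hXY]
    rw [hb', ha', hc', qf, qf, qf]
    ring
  · rw [Set.mem_preimage, hg] at hdir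
    have h2 : (((u * X + r * Y : ℤ) : ℝ) / √p, ((v * X + s * Y : ℤ) : ℝ) / √p) =
        (u * ((X : ℝ) / √p) + r * ((Y : ℝ) / √p), v * ((X : ℝ) / √p) + s * ((Y : ℝ) / √p)) := by
      refine Prod.ext ?_ ?_
      · simp only
        push_cast
        ring
      · simp only
        push_cast
        ring
    rw [h2]
    exact hdir

/-- **Primes represented by an indefinite binary quadratic form, in residue classes and in
directions** (Meyer, Hecke). Let `a x² + b x y + c y²` be a primitive form whose discriminant is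
positive and not a square, with value at `(x₀, y₀)` prime to `M ≠ 0`; let `(ξ, η)` be a real point
with value `1`, `U` a neighbourhood of it. There are infinitely many primes `p = f(x, y)` with
`(x, y) ≡ (x₀, y₀)` modulo `M` and `(x, y)/√p` in `U`: the points `(x, y)/√p` are dense in the
hyperbola `f = 1`. -/
theorem infinite_primes_form_direction {a b c : ℤ}
    (hprim : ∀ q : ℕ, q.Prime → ¬ ((q : ℤ) ∣ a ∧ (q : ℤ) ∣ b ∧ (q : ℤ) ∣ c))
    (hsq : ¬ IsSquare (b ^ 2 - 4 * a * c)) (hpos : 0 < b ^ 2 - 4 * a * c)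
    {M : ℤ} (hM : M ≠ 0) {x₀ y₀ : ℤ}
    (h : IsCoprime (a * x₀ ^ 2 + b * x₀ * y₀ + c * y₀ ^ 2) M)
    {U : Set (ℝ × ℝ)} (hU : IsOpen U) {ξ η : ℝ}
    (hξ : (ξ, η) ∈ U) (h1 : a * ξ ^ 2 + b * ξ * η + c * η ^ 2 = 1) :
    {p : ℕ | p.Prime ∧ ∃ x y : ℤ, M ∣ x - x₀ ∧ M ∣ y - y₀ ∧
      a * x ^ 2 + b * x * y + c * y ^ 2 = p ∧ ((x : ℝ) / √p, (y : ℝ) / √p) ∈ U}.Infinite := by
  refine Set.infinite_of_forall_exists_gt fun B => ?_
  obtain ⟨p, hp, hB, hxy⟩ := exists_prime_form_cone hprim hsq hpos hM h hU hξ h1 B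
  exact ⟨p, ⟨hp, hxy⟩, hB⟩

/-- **Primes in cones**: an indefinite primitive form of non-square discriminant represents
infinitely many primes at the points `≡ (x₀, y₀)` modulo `M` of every open cone which contains a
point of positive value. -/
theorem infinite_primes_form_cone {a b c : ℤ}
    (hprim : ∀ q : ℕ, q.Prime → ¬ ((q : ℤ) ∣ a ∧ (q : ℤ) ∣ b ∧ (q : ℤ) ∣ c))
    (hsq : ¬ IsSquare (b ^ 2 - 4 * a * c)) (hpos : 0 < b ^ 2 - 4 * a * c)
    {M : ℤ} (hM : M ≠ 0) {x₀ y₀ : ℤ}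
    (h : IsCoprime (a * x₀ ^ 2 + b * x₀ * y₀ + c * y₀ ^ 2) M)
    {C : Set (ℝ × ℝ)} (hC : IsOpen C) (hcone : ∀ q ∈ C, ∀ r : ℝ, 0 < r → (r * q.1, r * q.2) ∈ C)
    {ξ η : ℝ} (hξ : (ξ, η) ∈ C) (h1 : 0 < a * ξ ^ 2 + b * ξ * η + c * η ^ 2) :
    {p : ℕ | p.Prime ∧ ∃ x y : ℤ, M ∣ x - x₀ ∧ M ∣ y - y₀ ∧
      a * x ^ 2 + b * x * y + c * y ^ 2 = p ∧ ((x : ℝ), (y : ℝ)) ∈ C}.Infinite := by
  set v : ℝ := a * ξ ^ 2 + b * ξ * η + c * η ^ 2 with hv
  have hv0 : 0 < √v := Real.sqrt_pos.mpr h1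
  have hvv : √v * √v = v := Real.mul_self_sqrt h1.le
  have h2 : a * ((√v)⁻¹ * ξ) ^ 2 + b * ((√v)⁻¹ * ξ) * ((√v)⁻¹ * η) + c * ((√v)⁻¹ * η) ^ 2 =
      1 := by
    have h3 : a * ((√v)⁻¹ * ξ) ^ 2 + b * ((√v)⁻¹ * ξ) * ((√v)⁻¹ * η) + c * ((√v)⁻¹ * η) ^ 2 =
        (√v * √v)⁻¹ * v := by
      rw [hv, mul_inv]
      ring
    rw [h3, hvv, inv_mul_cancel₀ h1.ne']
  refine (infinite_primes_form_direction hprim hsq hpos hM h hC
    (hcone _ hξ _ (inv_pos.mpr hv0)) h2).mono ?_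
  rintro p ⟨hp, x, y, hx, hy, hxy, hU⟩
  refine ⟨hp, x, y, hx, hy, hxy, ?_⟩
  have hp0 : (0 : ℝ) < √p := Real.sqrt_pos.mpr (by exact_mod_cast hp.pos)
  have h3 := hcone _ hU _ hp0
  simp only at h3
  rwa [mul_div_cancel₀ _ hp0.ne', mul_div_cancel₀ _ hp0.ne'] at h3

/-- **Primes `x² - n y²` with `y / x` in a given interval**: `n` not a square,
`x₀² - n y₀²` prime to `M`, `-1/√n ≤ s < t ≤ 1/√n`: there are infinitely many primes
`p = x² - n y²` with `x > 0`, `s < y / x < t` and `(x, y) ≡ (x₀, y₀)` modulo `M`. -/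
theorem infinite_primes_sq_sub_mul_cone {n : ℕ} (hn : ¬ IsSquare n) {M : ℤ} (hM : M ≠ 0)
    {x₀ y₀ : ℤ} (h : IsCoprime (x₀ ^ 2 - n * y₀ ^ 2) M) {s t : ℝ} (hst : s < t)
    (hs : -1 ≤ s * √n) (ht : t * √n ≤ 1) :
    {p : ℕ | p.Prime ∧ ∃ x y : ℤ, M ∣ x - x₀ ∧ M ∣ y - y₀ ∧ x ^ 2 - n * y ^ 2 = p ∧
      0 < x ∧ s < y / x ∧ (y : ℝ) / x < t}.Infinite := by
  have hn0 : n ≠ 0 := by
    rintro rfl
    exact hn ⟨0, rfl⟩
  have hnR : (0 : ℝ) < n := by exact_mod_cast Nat.pos_of_ne_zero hn0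
  have hsn : 0 < √(n : ℝ) := Real.sqrt_pos.mpr hnR
  have hsq : ¬ IsSquare ((0 : ℤ) ^ 2 - 4 * 1 * (-n)) := by
    rintro ⟨t, ht⟩
    have h1 : (4 : ℤ) * n = t ^ 2 := by linear_combination ht
    have h2 : (2 : ℤ) ∣ t := by
      have h3 : (2 : ℤ) ∣ t ^ 2 := ⟨2 * n, by linear_combination -h1⟩
      exact Int.prime_two.dvd_of_dvd_pow h3
    obtain ⟨k, rfl⟩ := h2
    refine hn ⟨k.natAbs, ?_⟩
    have h3 : (n : ℤ) = k * k := by linarith
    have h4 : (n : ℤ) = ((k.natAbs * k.natAbs : ℕ) : ℤ) := by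
      rw [h3, Nat.cast_mul, Int.natAbs_mul_self']
    exact_mod_cast h4
  have hD : (0 : ℤ) < (0 : ℤ) ^ 2 - 4 * 1 * (-n) := by
    have : (0 : ℤ) < n := by exact_mod_cast Nat.pos_of_ne_zero hn0
    linarith
  have hprim : ∀ q : ℕ, q.Prime → ¬ ((q : ℤ) ∣ 1 ∧ (q : ℤ) ∣ 0 ∧ (q : ℤ) ∣ -(n : ℤ)) := by
    rintro q hq ⟨h1, -, -⟩
    have h2 : q ∣ 1 := by exact_mod_cast h1
    exact hq.one_lt.ne' (Nat.dvd_one.mp h2)
  have hC : IsOpen {q : ℝ × ℝ | 0 < q.1 ∧ s * q.1 < q.2 ∧ q.2 < t * q.1} :=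
    (isOpen_lt continuous_const continuous_fst).inter
      ((isOpen_lt (continuous_const.mul continuous_fst) continuous_snd).inter
        (isOpen_lt continuous_snd (continuous_const.mul continuous_fst)))
  have hm1 : -1 < (s + t) / 2 * √n := by nlinarith
  have hm2 : (s + t) / 2 * √n < 1 := by nlinarith
  have hval : 0 < ((1 : ℤ) : ℝ) * (1 : ℝ) ^ 2 + ((0 : ℤ) : ℝ) * 1 * ((s + t) / 2) +
      ((-(n : ℤ) : ℤ) : ℝ) * ((s + t) / 2) ^ 2 := by
    have h2 : ((s + t) / 2 * √n) ^ 2 < 1 := by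
      rw [sq_lt_one_iff_abs_lt_one, abs_lt]
      exact ⟨hm1, hm2⟩
    rw [mul_pow, Real.sq_sqrt hnR.le] at h2
    push_cast
    linarith
  refine (infinite_primes_form_cone hprim hsq hD hM (x₀ := x₀) (y₀ := y₀) ?_ hC ?_ (ξ := 1)
    (η := (s + t) / 2) ?_ hval).mono ?_
  · have h2 : 1 * x₀ ^ 2 + 0 * x₀ * y₀ + -(n : ℤ) * y₀ ^ 2 = x₀ ^ 2 - n * y₀ ^ 2 := by ring
    rw [h2]
    exact h
  · rintro q ⟨h2, h3, h4⟩ r hr
    refine ⟨mul_pos hr h2, ?_, ?_⟩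
    · simp only
      nlinarith
    · simp only
      nlinarith
  · refine ⟨one_pos, ?_, ?_⟩
    · simp only
      linarith
    · simp only
      linarith
  · rintro p ⟨hp, x, y, hx, hy, hxy, h2, h3, h4⟩
    simp only at h2 h3 h4
    refine ⟨hp, x, y, hx, hy, ?_, by exact_mod_cast h2, ?_, ?_⟩
    · rw [← hxy]
      ring
    · rwa [lt_div_iff₀ h2]
    · rwa [div_lt_iff₀ h2]

end Fermat.Agent.Cor.RayG

end
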