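import Fermat.Agent.Corollaries.RayG.ConeOne
import Fermat.Agent.Corollaries.RayN.FormSign

/-!
# Prime ideals of degree one in a given ideal class, with a generator in a given open cone
-/

set_option autoImplicit false
set_option linter.unusedSectionVars false

noncomputable section

open NumberField NumberField.InfinitePlace NumberField.Units nonZeroDivisors Complex Filter Topology
open NumberField.Units.dirichletUnitTheorem NumberField.mixedEmbedding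

open scoped Classical ComplexConjugate

namespace Fermat.Agent.Cor.RayG

open Fermat.Agent.ClassL Fermat.Agent.Classic.Zeta Fermat.Agent.Cor.Ray Fermat.Agent.Cor.RayN

namespace Cone

variable {K : Type} [Field K] [NumberField K] {𝔪 : Ideal (𝓞 K)} {α : 𝓞 K}
  {n : InfinitePlace K → ℤ} {κ : InfinitePlace K → ℝ} {A J : (Ideal (𝓞 K))⁰}

/-- a generator of `P A` congruent to `α` modulo `𝔪` with the signs of `α` -/
structure IsGenA (𝔪 : Ideal (𝓞 K)) (α : 𝓞 K) (A : (Ideal (𝓞 K))⁰) (P : Pr K) (π : 𝓞 K) :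
    Prop where
  sub_mem : π - α ∈ 𝔪
  signs : SameSigns π α
  eq_span : ((P.1 : (Ideal (𝓞 K))⁰) : Ideal (𝓞 K)) * (A : Ideal (𝓞 K)) = Ideal.span {π}

theorem IsGenA.ne_zero {P : Pr K} {π : 𝓞 K} (h : IsGenA 𝔪 α A P π) : π ≠ 0 := by
  rintro rfl
  have h1 := h.eq_span
  rw [Ideal.span_singleton_eq_bot.mpr rfl] at h1
  exact mul_ne_zero (nonZeroDivisors.coe_ne_zero P.1) (nonZeroDivisors.coe_ne_zero A) h1

theorem IsGenA.ne_zeroK {P : Pr K} {π : 𝓞 K} (h : IsGenA 𝔪 α A P π) : (π : K) ≠ 0 := by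
  exact_mod_cast h.ne_zero

/-- **The sum over the generators of `P A` with given signs.** -/
theorem narrow_sumA (h𝔪 : 𝔪 ≠ ⊥) (hT : IsTy n κ) (hinf : IsInf n κ)
    (hu : ∀ v : (𝓞 K)ˣ, (v : 𝓞 K) - 1 ∈ 𝔪 → (∀ w : RP K, 0 < em w ((v : 𝓞 K) : K)) →
      chi n κ ((v : 𝓞 K) : K) = 1)
    (hα : IsCoprime (Ideal.span {α}) 𝔪) (hα0 : α ≠ 0)
    (hJ : IsCoprime (J : Ideal (𝓞 K)) 𝔪)
    {D : ℝ} (hD : IsCount (nP (K := K)) D)
    (gen : Pr K → 𝓞 K) (hgen : ∀ P : Pr K, NRayEq 𝔪 P.1 J → IsGenA 𝔪 α A P (gen P)) :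
    Tendsto (fun x : ℕ => ((Real.log x / x : ℝ) : ℂ) *
      ∑ P ∈ (hD.F x).filter (fun P => NRayEq 𝔪 P.1 J), chi n κ (gen P : K))
      atTop (𝓝 0) := by
  obtain ⟨S, hS⟩ := exists_sgn hu
  obtain ⟨ψ, hψ⟩ := existG K (redG (1 • n + nS S)) (1 • κ) 𝔪 h𝔪 (fun v hv => by
    have hv0 : ((v : 𝓞 K) : K) ≠ 0 := by exact_mod_cast v.ne_zero
    rw [chi_comb 1 S hv0, pow_one, hS v hv, ← Complex.ofReal_mul, sg_sq S hv0,
      Complex.ofReal_one])
  obtain ⟨t, ht⟩ := exists_shift_n h𝔪 hψ hα hα0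
  obtain ⟨G, _, _, cl, hsurj, hcl⟩ := groupNStmt K 𝔪 h𝔪
  have h3 : ∀ P : Pr K, (cl0 cl P.1 = (cl ⟨J, hJ⟩ : WithZero G)) ↔ NRayEq 𝔪 P.1 J := fun P => by
    rw [cl0_eq_iff_n cl hcl hJ]
    exact ⟨fun h => h.2, fun h => ⟨h.coprime hJ, h⟩⟩
  have h4 := tendsto_sum_class (nonVanGStmt K) h𝔪 (isTy_comb hT 1 S)
    (isInf_comb hinf one_ne_zero S) hψ (nRayChar_psi cl hcl) one_ne_zero hD (cl ⟨J, hJ⟩)
  simp only [h3] at h4
  have h5 := h4.const_mul (ψ A * e2 (-t))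
  rw [mul_zero] at h5
  refine h5.congr fun x => ?_
  rw [mul_left_comm]
  congr 1
  rw [Finset.mul_sum]
  refine Finset.sum_congr rfl fun P hP => ?_
  have hg := hgen P (Finset.mem_filter.mp hP).2
  have h6 : P.1 * A = sp (gen P) hg.ne_zero := Subtype.ext hg.eq_span
  have h7 : e2 (-t) * e2 t = 1 := by rw [← e2_add, neg_add_cancel, e2_zero]
  rw [pow_one]
  have h8 : ψ (P.1 : (Ideal (𝓞 K))⁰) * ψ A = chi n κ (gen P : K) * e2 t := by
    rw [← map_mul, h6, ht _ hg.ne_zero hg.sub_mem hg.signs]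
  calc ψ A * e2 (-t) * ψ (P.1 : (Ideal (𝓞 K))⁰) = e2 (-t) * (ψ (P.1 : (Ideal (𝓞 K))⁰) * ψ A) := by
        ring
    _ = chi n κ (gen P : K) * (e2 (-t) * e2 t) := by
        rw [h8]
        ring
    _ = chi n κ (gen P : K) := by rw [h7, mul_one]

section

variable {r : Type} [Fintype r] {v : r → (𝓞 K)ˣ} {b : Module.Basis r ℝ (logSpace K)}

/-- **Equidistribution**, with boxes. -/
theorem tendsto_cone_boxA (h𝔪 : 𝔪 ≠ ⊥) (hα : IsCoprime (Ideal.span {α}) 𝔪) (hα0 : α ≠ 0)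
    (hJ : IsCoprime (J : Ideal (𝓞 K)) 𝔪)
    {Q : Type} [Fintype Q] [Nonempty Q] (g : Q → (𝓞 K)ˣ)
    (hg1 : ∀ q, (g q : 𝓞 K) - 1 ∈ 𝔪 ∧ ∀ w : RP K, 0 < em w ((g q : 𝓞 K) : K))
    (hg2 : ∀ k : CP K ⊕ r → ℤ, (∀ u : (𝓞 K)ˣ, (u : 𝓞 K) - 1 ∈ 𝔪 →
      (∀ w : RP K, 0 < em w ((u : 𝓞 K) : K)) →
      chi (nk k) (kapT (Tf v b k)) ((u : 𝓞 K) : K) = 1) ∨
      ∑ q, chi (nk k) (kapT (Tf v b k)) ((g q : 𝓞 K) : K) = 0)
    {D : ℝ} (hD : IsCount (nP (K := K)) D)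
    (gen : Pr K → 𝓞 K) (hgen : ∀ P : Pr K, NRayEq 𝔪 P.1 J → IsGenA 𝔪 α A P (gen P))
    {lo hi : CP K ⊕ r → ℝ} (h0 : ∀ i, 0 ≤ lo i) (hlh : ∀ i, lo i ≤ hi i) (h1 : ∀ i, hi i ≤ 1) :
    Tendsto (fun x : ℕ => ((nRayNumber 𝔪 : ℝ) / (Fintype.card Q : ℝ) * (Real.log x / x)) *
      (Nat.card {i : Pr K × Q //
        i ∈ ((hD.F x).filter fun P => NRayEq 𝔪 P.1 J) ×ˢ (Finset.univ : Finset Q) ∧
        ∀ j, lo j < Int.fract (crd v b ((gen i.1 : K) * ((g i.2 : 𝓞 K) : K)) j) ∧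
          Int.fract (crd v b ((gen i.1 : K) * ((g i.2 : 𝓞 K) : K)) j) < hi j} :
          ℝ)) atTop (𝓝 (∏ j, (hi j - lo j))) := by
  obtain ⟨G, _, _, cl, hsurj, hcl⟩ := groupNStmt K 𝔪 h𝔪
  have hr : (0 : ℝ) < nRayNumber 𝔪 := by
    rw [← natCard_eq_nRayNumber cl hsurj hcl]
    exact_mod_cast Nat.card_pos
  have hQ0 : (0 : ℝ) < (Fintype.card Q : ℝ) := by exact_mod_cast Fintype.card_pos
  refine (Weyl.weyl_box (ι := Pr K × Q) (d := CP K ⊕ r)
    (θ := fun i j => Int.fract (crd v b ((gen i.1 : K) * ((g i.2 : 𝓞 K) : K)) j))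
    (F := fun x => ((hD.F x).filter fun P => NRayEq 𝔪 P.1 J) ×ˢ (Finset.univ : Finset Q))
    (c := fun x => (nRayNumber 𝔪 : ℝ) / (Fintype.card Q : ℝ) * (Real.log x / x))
    (fun i j => Int.fract_nonneg _) (fun i j => Int.fract_lt_one _) ?_ ?_ ?_ h0 hlh h1).1
  · intro x
    exact mul_nonneg (div_nonneg hr.le hQ0.le)
      (div_nonneg (Real.log_natCast_nonneg x) (Nat.cast_nonneg x))
  · have h3 := (tendsto_card_nray (entireNStmt K) (groupNStmt K) h𝔪 hJ).const_mul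
      (nRayNumber 𝔪 : ℝ)
    rw [mul_inv_cancel₀ hr.ne'] at h3
    refine h3.congr fun x => ?_
    rw [Finset.card_product, Finset.card_univ]
    have hFc : (((hD.F x).filter fun P => NRayEq 𝔪 P.1 J).card : ℝ) =
        (Nat.card {P : Pr K // nP P ≤ x ∧ NRayEq 𝔪 P.1 J} : ℝ) := by
      rw [← Nat.card_eq_finsetCard]
      congr 1
      exact Nat.card_congr (Equiv.subtypeEquivRight fun P => by rw [Finset.mem_filter, hD.mem_F])
    push_cast
    rw [hFc]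
    change (nRayNumber 𝔪 : ℝ) * ((Nat.card {P : Pr K // nP P ≤ x ∧
      NRayEq 𝔪 P.1 J} : ℝ) * Real.log x / x) = _
    field_simp
  · intro k hk
    have hval : ∀ x : ℕ, ∑ i ∈ ((hD.F x).filter fun P => NRayEq 𝔪 P.1 J) ×ˢ
        (Finset.univ : Finset Q), Complex.exp (2 * Real.pi * Complex.I * ∑ j, (k j : ℂ) *
          (Int.fract (crd v b ((gen i.1 : K) * ((g i.2 : 𝓞 K) : K)) j) : ℝ)) =
        (∑ P ∈ (hD.F x).filter (fun P => NRayEq 𝔪 P.1 J),
          chi (nk k) (kapT (Tf v b k)) (gen P : K)) *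
          ∑ q : Q, chi (nk k) (kapT (Tf v b k)) ((g q : 𝓞 K) : K) := by
      intro x
      rw [Finset.sum_product, Finset.sum_mul]
      refine Finset.sum_congr rfl fun P hP => ?_
      rw [Finset.mul_sum]
      refine Finset.sum_congr rfl fun q _ => ?_
      have hg := (hgen P (Finset.mem_filter.mp hP).2).ne_zeroK
      have hq : ((g q : 𝓞 K) : K) ≠ 0 := coe_ne_zeroG (Units.ne_zero _)
      rw [exp_fract k (mul_ne_zero hg hq), ← chi_mul _ _ hg hq]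
    rcases hg2 k with htr | h4
    · have h3 := (narrow_sumA h𝔪 (isTy_nk v b k) (isInf_nk v b hk)
        htr hα hα0 hJ hD gen hgen).const_mul (nRayNumber 𝔪 : ℂ)
      rw [mul_zero] at h3
      refine h3.congr fun x => ?_
      rw [hval]
      have h4 : ∑ q : Q, chi (nk k) (kapT (Tf v b k)) ((g q : 𝓞 K) : K) =
          ((Fintype.card Q : ℝ) : ℂ) := by
        rw [Finset.sum_congr rfl fun q _ => htr _ (hg1 q).1 (hg1 q).2]
        simp
      rw [h4]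
      have hQ1 : ((Fintype.card Q : ℝ) : ℂ) ≠ 0 := by exact_mod_cast hQ0.ne'
      push_cast
      push_cast at hQ1
      field_simp
    · refine tendsto_const_nhds.congr fun x => ?_
      rw [hval, h4, mul_zero, mul_zero]

/-- **infinitely many prime elements of degree one in the box** -/
theorem infinite_cone_box_oneA (h𝔪 : 𝔪 ≠ ⊥) (hα : IsCoprime (Ideal.span {α}) 𝔪) (hα0 : α ≠ 0)
    (hJ : IsCoprime (J : Ideal (𝓞 K)) 𝔪)
    {Q : Type} [Fintype Q] [Nonempty Q] (g : Q → (𝓞 K)ˣ)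
    (hg1 : ∀ q, (g q : 𝓞 K) - 1 ∈ 𝔪 ∧ ∀ w : RP K, 0 < em w ((g q : 𝓞 K) : K))
    (hg2 : ∀ k : CP K ⊕ r → ℤ, (∀ u : (𝓞 K)ˣ, (u : 𝓞 K) - 1 ∈ 𝔪 →
      (∀ w : RP K, 0 < em w ((u : 𝓞 K) : K)) →
      chi (nk k) (kapT (Tf v b k)) ((u : 𝓞 K) : K) = 1) ∨
      ∑ q, chi (nk k) (kapT (Tf v b k)) ((g q : 𝓞 K) : K) = 0)
    (gen : Pr K → 𝓞 K) (hgen : ∀ P : Pr K, NRayEq 𝔪 P.1 J → IsGenA 𝔪 α A P (gen P))
    {lo hi : CP K ⊕ r → ℝ} (h0 : ∀ i, 0 ≤ lo i) (hlh : ∀ i, lo i < hi i) (h1 : ∀ i, hi i ≤ 1) :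
    {P : Pr K | NRayEq 𝔪 P.1 J ∧ (Ideal.absNorm (P.1 : Ideal (𝓞 K))).Prime ∧
      ∃ q : Q, ∀ j, lo j < Int.fract (crd v b ((gen P : K) * ((g q : 𝓞 K) : K)) j) ∧
        Int.fract (crd v b ((gen P : K) * ((g q : 𝓞 K) : K)) j) < hi j}.Infinite := by
  intro hfin
  obtain ⟨D, hD⟩ := exists_isCount K
  have key := tendsto_cone_boxA h𝔪 hα hα0 hJ g hg1 hg2 hD gen hgen h0 (fun i => (hlh i).le) h1
  have hpos : 0 < ∏ j, (hi j - lo j) := Finset.prod_pos fun j _ => sub_pos.mpr (hlh j)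
  set T := hfin.toFinset with hT
  set B : ℕ → Finset (Pr K) := fun x => (prLe K x).filter
    fun P => ¬ (Ideal.absNorm (P.1 : Ideal (𝓞 K))).Prime with hB
  have hle : ∀ x : ℕ, (Nat.card {i : Pr K × Q //
        i ∈ ((hD.F x).filter fun P => NRayEq 𝔪 P.1 J) ×ˢ (Finset.univ : Finset Q) ∧
        ∀ j, lo j < Int.fract (crd v b ((gen i.1 : K) * ((g i.2 : 𝓞 K) : K)) j) ∧
          Int.fract (crd v b ((gen i.1 : K) * ((g i.2 : 𝓞 K) : K)) j) < hi j} : ℝ) ≤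
      (((T ∪ B x) ×ˢ (Finset.univ : Finset Q)).card : ℝ) := by
    intro x
    rw [← Nat.card_eq_finsetCard]
    have : Finite {i : Pr K × Q // i ∈ (T ∪ B x) ×ˢ (Finset.univ : Finset Q)} :=
      Finite.of_fintype _
    exact_mod_cast Nat.card_le_card_of_injective
      (fun i : {i : Pr K × Q // i ∈ ((hD.F x).filter fun P => NRayEq 𝔪 P.1 J) ×ˢ
          (Finset.univ : Finset Q) ∧
        ∀ j, lo j < Int.fract (crd v b ((gen i.1 : K) * ((g i.2 : 𝓞 K) : K)) j) ∧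
          Int.fract (crd v b ((gen i.1 : K) * ((g i.2 : 𝓞 K) : K)) j) < hi j} =>
        (⟨i.1, by
          rw [Finset.mem_product]
          refine ⟨?_, Finset.mem_univ _⟩
          have h2 := Finset.mem_filter.mp (Finset.mem_product.mp i.2.1).1
          rw [Finset.mem_union]
          by_cases hp : (Ideal.absNorm (i.1.1.1 : Ideal (𝓞 K))).Prime
          · left
            rw [hT, Set.Finite.mem_toFinset]
            exact ⟨h2.2, hp, i.1.2, i.2.2⟩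
          · right
            rw [hB]
            exact Finset.mem_filter.mpr ⟨mem_prLe.mpr (hD.mem_F.mp h2.1), hp⟩⟩ :
          {i : Pr K × Q // i ∈ (T ∪ B x) ×ˢ (Finset.univ : Finset Q)}))
      fun i j hij => Subtype.ext (congrArg (fun z => z.1) hij)
  set C : ℝ := (Fintype.card Q : ℝ) with hC
  set n : ℝ := (Module.finrank ℚ K : ℝ) with hn
  have hle2 : ∀ x : ℕ, (((T ∪ B x) ×ˢ (Finset.univ : Finset Q)).card : ℝ) ≤
      ((T.card : ℝ) + n * (Nat.sqrt x + 1)) * C := by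
    intro x
    rw [Finset.card_product, Finset.card_univ, Nat.cast_mul]
    refine mul_le_mul_of_nonneg_right ?_ (Nat.cast_nonneg _)
    have h2 := Finset.card_union_le T (B x)
    have h3 := card_deg_two_le (K := K) x
    have h4 : ((T ∪ B x).card : ℝ) ≤ (T.card : ℝ) + ((B x).card : ℝ) := by exact_mod_cast h2
    have h5 : ((B x).card : ℝ) ≤ n * (Nat.sqrt x + 1) := by
      rw [hn]
      exact_mod_cast h3
    linarith
  have hzero : Tendsto (fun x : ℕ => ((nRayNumber 𝔪 : ℝ) / C * (Real.log x / x)) *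
      (((T.card : ℝ) + n * (Nat.sqrt x + 1)) * C)) atTop (𝓝 0) := by
    have h3 := ((qd_sqrt_log.const_mul n).add (tendsto_log_div_nat.const_mul
      ((T.card : ℝ) + n))).const_mul ((nRayNumber 𝔪 : ℝ) / C * C)
    rw [mul_zero, mul_zero, add_zero, mul_zero] at h3
    refine h3.congr fun x => ?_
    ring
  have h5 := le_of_tendsto_of_tendsto' key hzero fun x =>
    mul_le_mul_of_nonneg_left ((hle x).trans (hle2 x)) (mul_nonneg (div_nonneg (Nat.cast_nonneg _)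
      (Nat.cast_nonneg _)) (div_nonneg (Real.log_natCast_nonneg x) (Nat.cast_nonneg x)))
  exact absurd h5 (not_le.mpr hpos)

end

/-- **Hecke, every number field and every ideal class: prime ideals `P` of degree one with
`P A = (γ)`, `γ ≡ α` modulo `𝔪`, `γ` in a given open cone.** -/
theorem hecke_cone_ideal (h𝔪 : 𝔪 ≠ ⊥) (hA : IsCoprime (A : Ideal (𝓞 K)) 𝔪) {α : 𝓞 K}
    (hα : IsCoprime (Ideal.span {α}) 𝔪) {U : Set (mixedSpace K)} (hU : IsOpen U)
    (hne : U.Nonempty) (hc : ∀ x ∈ U, ∀ c : ℝ, 0 < c → c • x ∈ U) :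
    {P : Ideal (𝓞 K) | (Ideal.absNorm P).Prime ∧ ∃ γ : 𝓞 K,
      P * (A : Ideal (𝓞 K)) = Ideal.span {γ} ∧ γ - α ∈ 𝔪 ∧
      mixedEmbedding K (γ : K) ∈ U}.Infinite := by
  obtain ⟨g, hg, hg0⟩ := exists_mem_norm_ne_zero hU hne
  have hgw : ∀ w : RP K, g.1 w ≠ 0 := fun w => by
    have h1 := mixedEmbedding.norm_ne_zero_iff.mp hg0 w.1
    rwa [normAtPlace_apply_of_isReal w.2, norm_ne_zero_iff] at h1
  obtain ⟨β, hβ0, hβα, hβs⟩ := exists_congr_signs h𝔪 hα hgw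
  have hβ := isCoprime_of_sub_mem hα hβα
  obtain ⟨v, b, hv, hb, hfi⟩ := exists_cone_units (K := K) h𝔪
  obtain ⟨t₀, θ₀, δ, hδ, hbox⟩ := exists_cone_box b hU hc hg hg0
  set L := Lp 𝔪 with hL
  have hfi2 : ((Subgroup.closure (Set.range v)).subgroupOf L).FiniteIndex := inferInstance
  have : Fintype (L ⧸ (Subgroup.closure (Set.range v)).subgroupOf L) := Fintype.ofFinite _
  -- the centre of the box
  set p : CP K ⊕ Fin (rank K) → ℝ := Sum.elim
    (fun w => θ₀ w - ∑ j, t₀ j * an w.1 ((v j : 𝓞 K) : K)) t₀ with hp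
  set B : ℝ := ∑ w : CP K, ∑ j, |an w.1 ((v j : 𝓞 K) : K)| with hB
  have hB0 : 0 ≤ B := Finset.sum_nonneg fun w _ => Finset.sum_nonneg fun j _ => abs_nonneg _
  have hA1 : 0 < 1 + B := by linarith
  set η : ℝ := δ / (1 + B) with hη
  have hη0 : 0 < η := div_pos hδ hA1
  have hηδ : η ≤ δ := div_le_self hδ.le (by linarith)
  set lo : CP K ⊕ Fin (rank K) → ℝ := fun i => Int.fract (p i) with hlo
  set hi : CP K ⊕ Fin (rank K) → ℝ := fun i => min 1 (Int.fract (p i) + η) with hhi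
  -- the generators
  obtain ⟨J, hJ, hJP⟩ := exists_nray_rep h𝔪 hA hβ0 hβ
  have hex : ∀ P : Pr K, NRayEq 𝔪 P.1 J → ∃ π, IsGenA 𝔪 β A P π := fun P hP => by
    obtain ⟨π, h1, h2, h3⟩ := hJP P.1 hP
    exact ⟨π, h2, h3, h1⟩
  choose! gen hgen using hex
  have key := infinite_cone_box_oneA (v := v) (b := b) h𝔪 hβ hβ0 hJ
    (fun q : L ⧸ (Subgroup.closure (Set.range v)).subgroupOf L => ((q.out : L) : (𝓞 K)ˣ))
    (fun q => (q.out : L).2)
    (fun k => by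
      by_cases h : ∀ u ∈ L, chi (nk k) (kapT (Tf v b k)) ((u : 𝓞 K) : K) = 1
      · exact Or.inl fun u h1 h2 => h u ⟨h1, h2⟩
      · push Not at h
        obtain ⟨u₀, hu₀, hne⟩ := h
        exact Or.inr (chi_quot hb L k hu₀ hne))
    gen hgen (lo := lo) (hi := hi) (fun i => Int.fract_nonneg _)
    (fun i => lt_min (Int.fract_lt_one _) (by linarith)) (fun i => min_le_left _ _)
  have hinj : Set.InjOn (fun P : Pr K => ((P.1 : (Ideal (𝓞 K))⁰) : Ideal (𝓞 K)))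
      {P : Pr K | NRayEq 𝔪 P.1 J ∧ (Ideal.absNorm (P.1 : Ideal (𝓞 K))).Prime ∧
        ∃ q : L ⧸ (Subgroup.closure (Set.range v)).subgroupOf L, ∀ j,
        lo j < Int.fract (crd v b ((gen P : K) * (((q.out : L) : (𝓞 K)ˣ) : 𝓞 K)) j) ∧
        Int.fract (crd v b ((gen P : K) * (((q.out : L) : (𝓞 K)ˣ) : 𝓞 K)) j) < hi j} :=
    fun P _ Q _ h => Subtype.ext (Subtype.ext h)
  refine (key.image hinj).mono ?_
  rintro I ⟨P, ⟨hP, hp1, q, hq⟩, rfl⟩
  have hG := hgen P hP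
  set u : (𝓞 K)ˣ := ((q.out : L) : (𝓞 K)ˣ) with hu
  have huL : u ∈ L := (q.out : L).2
  have hx0 : (gen P : K) * ((u : 𝓞 K) : K) ≠ 0 :=
    mul_ne_zero hG.ne_zeroK (coe_ne_zeroG u.ne_zero)
  -- integers
  have hz : ∀ i, ∃ z : ℤ, |crd v b ((gen P : K) * ((u : 𝓞 K) : K)) i - p i - z| < η := by
    intro i
    obtain ⟨h1, h2⟩ := hq i
    refine ⟨⌊crd v b ((gen P : K) * ((u : 𝓞 K) : K)) i⌋ - ⌊p i⌋, ?_⟩
    have h3 := h2.trans_le (min_le_right _ _)
    have h4 : lo i = Int.fract (p i) := rfl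
    rw [h4] at h1
    have h5 := Int.fract_add_floor (crd v b ((gen P : K) * ((u : 𝓞 K) : K)) i)
    have h6 := Int.fract_add_floor (p i)
    rw [abs_lt]
    push_cast
    constructor <;> linarith
  choose z hz using hz
  obtain ⟨y, hyc, hy⟩ := exists_move hb (fun j => -z (Sum.inr j))
  have hyL : y ∈ L := (Subgroup.closure_le L).mpr (by
    rintro _ ⟨j, rfl⟩
    exact hv j) hyc
  obtain ⟨hy1, hy2⟩ := hy _ hx0
  have huy : u * y ∈ L := L.mul_mem huL hyL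
  obtain ⟨huy1, huy2⟩ := mem_Lp.mp huy
  have hπ : ((gen P * ((u * y : (𝓞 K)ˣ) : 𝓞 K) : 𝓞 K) : K) =
      (gen P : K) * ((u : 𝓞 K) : K) * ((y : 𝓞 K) : K) := by
    rw [mul_assoc, ← coe_unit_mul]
    exact map_mul (algebraMap (𝓞 K) K) _ _
  have hspan : Ideal.span {gen P * ((u * y : (𝓞 K)ˣ) : 𝓞 K)} = Ideal.span {gen P} :=
    Ideal.span_singleton_mul_right_unit (u * y).isUnit _
  refine ⟨hp1, gen P * ((u * y : (𝓞 K)ˣ) : 𝓞 K), ?_, ?_, ?_⟩
  · rw [hspan]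
    exact hG.eq_span
  · have h1 : gen P * ((u * y : (𝓞 K)ˣ) : 𝓞 K) - α =
        gen P * (((u * y : (𝓞 K)ˣ) : 𝓞 K) - 1) + (gen P - β) + (β - α) := by ring
    rw [h1]
    exact 𝔪.add_mem (𝔪.add_mem (𝔪.mul_mem_left _ huy1) hG.sub_mem) hβα
  · rw [hπ]
    refine hbox _ (mul_ne_zero hx0 (coe_ne_zeroG y.ne_zero)) (fun w => ?_) (fun j => ?_)
      fun w => ?_
    · have h1 := hG.signs w
      have h2 := hβs w
      have h3 := huy2 w
      have h4 : em w ((gen P : K) * ((u : 𝓞 K) : K) * ((y : 𝓞 K) : K)) =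
          em w (gen P : K) * em w (((u * y : (𝓞 K)ˣ) : 𝓞 K) : K) := by
        rw [mul_assoc, ← coe_unit_mul, map_mul]
      rw [h4]
      have h5 : 0 < (em w (gen P : K) * em w (β : K)) * (em w (β : K) * g.1 w) := mul_pos h1 h2
      have h6 : em w (gen P : K) * g.1 w * (em w (β : K)) ^ 2 =
          (em w (gen P : K) * em w (β : K)) * (em w (β : K) * g.1 w) := by ring
      have h7 : 0 < em w (gen P : K) * g.1 w := by
        rw [← h6] at h5
        exact pos_of_mul_pos_left h5 (sq_nonneg _)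
      have h8 : em w (gen P : K) * em w (((u * y : (𝓞 K)ˣ) : 𝓞 K) : K) * g.1 w =
          (em w (gen P : K) * g.1 w) * em w (((u * y : (𝓞 K)ˣ) : 𝓞 K) : K) := by ring
      rw [h8]
      exact mul_pos h7 h3
    · rw [hy1]
      have h1 := hz (Sum.inr j)
      have h2 : crd v b ((gen P : K) * ((u : 𝓞 K) : K)) (Sum.inr j) =
          b.repr (lv ((gen P : K) * ((u : 𝓞 K) : K))) j := rfl
      have h3 : p (Sum.inr j) = t₀ j := rfl
      rw [h2, h3] at h1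
      refine lt_of_eq_of_lt ?_ (h1.trans_le hηδ)
      congr 1
      push_cast
      ring
    · obtain ⟨q', hq'⟩ := hy2 w
      refine ⟨q' + z (Sum.inl w), ?_⟩
      have h1 := hz (Sum.inl w)
      have h3 : p (Sum.inl w) = θ₀ w - ∑ j, t₀ j * an w.1 ((v j : 𝓞 K) : K) := rfl
      rw [h3] at h1
      have h4 : crd v b ((gen P : K) * ((u : 𝓞 K) : K) * ((y : 𝓞 K) : K)) (Sum.inl w) =
          an w.1 ((gen P : K) * ((u : 𝓞 K) : K) * ((y : 𝓞 K) : K)) -
            ∑ j, b.repr (lv ((gen P : K) * ((u : 𝓞 K) : K) * ((y : 𝓞 K) : K))) j *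
              an w.1 ((v j : 𝓞 K) : K) := rfl
      set x := (gen P : K) * ((u : 𝓞 K) : K) * ((y : 𝓞 K) : K) with hx
      have hsum : |∑ j, (b.repr (lv x) j - t₀ j) * an w.1 ((v j : 𝓞 K) : K)| ≤ η * B := by
        refine (Finset.abs_sum_le_sum_abs _ _).trans ?_
        have h5 : ∀ j, |(b.repr (lv x) j - t₀ j) * an w.1 ((v j : 𝓞 K) : K)| ≤
            η * |an w.1 ((v j : 𝓞 K) : K)| := by
          intro j
          rw [abs_mul]
          refine mul_le_mul_of_nonneg_right ?_ (abs_nonneg _)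
          rw [hy1]
          have h1 := hz (Sum.inr j)
          have h2 : crd v b ((gen P : K) * ((u : 𝓞 K) : K)) (Sum.inr j) =
              b.repr (lv ((gen P : K) * ((u : 𝓞 K) : K))) j := rfl
          have h3 : p (Sum.inr j) = t₀ j := rfl
          rw [h2, h3] at h1
          refine le_of_eq_of_le ?_ h1.le
          congr 1
          push_cast
          ring
        refine (Finset.sum_le_sum fun j _ => h5 j).trans ?_
        rw [← Finset.mul_sum]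
        refine mul_le_mul_of_nonneg_left ?_ hη0.le
        exact Finset.single_le_sum (f := fun w : CP K => ∑ j, |an w.1 ((v j : 𝓞 K) : K)|)
          (fun w _ => Finset.sum_nonneg fun j _ => abs_nonneg _) (Finset.mem_univ w)
      have h6 : an w.1 x - θ₀ w - ((q' + z (Sum.inl w) : ℤ) : ℝ) =
          (crd v b ((gen P : K) * ((u : 𝓞 K) : K)) (Sum.inl w) -
            (θ₀ w - ∑ j, t₀ j * an w.1 ((v j : 𝓞 K) : K)) - z (Sum.inl w)) +
          ∑ j, (b.repr (lv x) j - t₀ j) * an w.1 ((v j : 𝓞 K) : K) := by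
        rw [h4] at hq'
        simp only [sub_mul, Finset.sum_sub_distrib]
        push_cast
        linarith
      rw [h6]
      refine (abs_add_le _ _).trans_lt ?_
      have h7 : η * (1 + B) = δ := div_mul_cancel₀ _ hA1.ne'
      linarith

end Cone

end Fermat.Agent.Cor.RayG

end
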