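import Fermat.Agent.Corollaries.RayG.UnfoldG

/-!
# Continuity and decay of the integrated theta functions of type `(n, κ)`

(C) `decayGStmt_of` of `RayG/Defs`.
-/

set_option autoImplicit false

noncomputable section

namespace Fermat.Agent.Cor.RayG

open NumberField NumberField.InfinitePlace NumberField.Units MeasureTheory Filter Set
open NumberField.Units.dirichletUnitTheorem
open Fermat.Agent.Classic.Zeta Fermat.Agent.Cor.Ray Fermat.Agent.Cor.RayN
open scoped nonZeroDivisors Classical Topology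

universe u

variable {K : Type u} [Field K] [NumberField K]

variable {n : InfinitePlace K → ℤ} {κ : InfinitePlace K → ℝ}
  {𝔟 𝔠 : FractionalIdeal (𝓞 K)⁰ K} {φ : K → ℂ} {β : logSpace K → ℝ}

/-- The bound by the unweighted theta function without its constant term. -/
theorem IsWtG.norm_theta_sub_le (h : IsWtG n κ 𝔟 𝔠 φ) {M : ℝ} (hM : ∀ x, ‖φ x‖ ≤ M) {C : ℝ}
    (hC : ∀ (t : InfinitePlace K → ℝ), (∀ w, 0 ≤ t w) → ∀ x : K,
      ‖EG n t x‖ ≤ C * E (fun w => t w / 2) x)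
    {t : InfinitePlace K → ℝ} (ht : ∀ w, 0 < t w) :
    ‖ΘG n φ t - φ 0 * EG n t 0‖ ≤ M * C * (Θ 𝔟 (fun w => t w / 2) - 1) := by
  have ht2 : ∀ w, 0 < t w / 2 := fun w => half_pos (ht w)
  have hs : Summable fun a : 𝔟 => E (fun w => t w / 2) (a : K) := sumE K 𝔟 _ ht2
  have e2 : Θ 𝔟 (fun w => t w / 2) - 1 =
      ∑' a : 𝔟, if a = Decay.zr 𝔟 then 0 else E (fun w => t w / 2) (a : K) := by
    unfold Θ
    rw [hs.tsum_eq_add_tsum_ite (Decay.zr 𝔟), Decay.coe_zr, E_zero, add_sub_cancel_left]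
  have hs2 : Summable fun a : 𝔟 => if a = Decay.zr 𝔟 then 0 else E (fun w => t w / 2) (a : K) := by
    refine Summable.of_nonneg_of_le (fun a => ?_) (fun a => ?_) hs
    · split_ifs
      · exact le_rfl
      · exact (E_pos _ _).le
    · split_ifs
      · exact (E_pos _ _).le
      · exact le_rfl
  have e3 : ΘG n φ t - φ 0 * EG n t 0 =
      ∑' a : 𝔟, if a = Decay.zr 𝔟 then 0 else φ a * EG n t (a : K) := by
    rw [h.theta_eq t, (h.summable_sub ht).tsum_eq_add_tsum_ite (Decay.zr 𝔟), Decay.coe_zr,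
      add_sub_cancel_left]
  rw [e3, e2, ← tsum_mul_left]
  refine tsum_of_norm_bounded (hs2.mul_left (M * C)).hasSum fun a => ?_
  split_ifs with ha
  · rw [norm_zero, mul_zero]
  · rw [norm_mul, mul_assoc]
    exact mul_le_mul (hM a) (hC t (fun w => (ht w).le) a) (norm_nonneg _)
      ((norm_nonneg _).trans (hM a))

theorem IsWtG.continuousAt_FG (h : IsWtG n κ 𝔟 𝔠 φ) (hβ : IsBeta β) {x : ℝ} (hx : 0 < x) :
    ContinuousAt (FG n κ β φ) x := by
  obtain ⟨C, hC⟩ := h.norm_integrand_le hβ (half_pos hx)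
  refine continuousAt_of_dominated (bound := fun y => C * β y) ?_ ?_
    ((Decay.integrable hβ).const_mul C) ?_
  · filter_upwards [Ioi_mem_nhds hx] with x' hx'
    exact (h.continuous_theta_tt hx').aestronglyMeasurable.mul (aesm_betaG hβ κ)
  · filter_upwards [Ici_mem_nhds (half_lt_self hx)] with x' hx'
    exact Eventually.of_forall fun y => hC x' hx' y
  · exact Eventually.of_forall fun y => (h.continuousAt_theta_tt hx y).mul continuousAt_const

/-- **`FG n κ β φ` is continuous on `(0, ∞)`.** -/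
theorem IsWtG.continuousOn_FG (h : IsWtG n κ 𝔟 𝔠 φ) (hβ : IsBeta β) :
    ContinuousOn (FG n κ β φ) (Ioi 0) :=
  fun _ hx => (h.continuousAt_FG hβ hx).continuousWithinAt

theorem IsWtG.norm_FG_le (hZ : ZeroGStmt K) (hT : IsTy n κ) (hne : n ≠ 0 ∨ κ ≠ 0)
    (h : IsWtG n κ 𝔟 𝔠 φ) (hβ : IsBeta β) {M : ℝ} (hM : ∀ x, ‖φ x‖ ≤ M) {C : ℝ}
    (hC : ∀ (t : InfinitePlace K → ℝ), (∀ w, 0 ≤ t w) → ∀ x : K,
      ‖EG n t x‖ ≤ C * E (fun w => t w / 2) x) {x : ℝ} (hx : 0 < x) :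
    ‖FG n κ β φ x‖ ≤ M * C * (F β 𝔟 (x / √2) - B β) := by
  have hx' := div_sqrt_two_pos hx
  have hi : Integrable fun y : logSpace K => (Θ 𝔟 (tt (x / √2) y) - 1) * β y := by
    refine ((Decay.integrable_F hβ 𝔟 hx').sub (Decay.integrable hβ)).congr
      (Eventually.of_forall fun y => ?_)
    simp only [Pi.sub_apply]
    ring
  have e1 : FG n κ β φ x = ∫ y, (ΘG n φ (tt x y) - φ 0 * EG n (tt x y) 0) *
      (eI (-lam κ y) * (β y : ℂ)) := by
    have hz := h.zero_term hZ hT hne hβ (fun y => tt x y)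
    have h3 : ∀ y : logSpace K, (ΘG n φ (tt x y) - φ 0 * EG n (tt x y) 0) *
        (eI (-lam κ y) * (β y : ℂ)) = ΘG n φ (tt x y) * (eI (-lam κ y) * (β y : ℂ)) -
        φ 0 * EG n (tt x y) 0 * (eI (-lam κ y) * (β y : ℂ)) := fun y => sub_mul _ _ _
    simp only [h3]
    rw [integral_sub (h.integrable_integrand hβ hx) (integrable_zero_term n κ (φ 0) hβ hx), hz,
      sub_zero, FG]
  rw [e1, Decay.F_sub hβ 𝔟 hx', ← integral_const_mul]
  refine norm_integral_le_of_norm_le (hi.const_mul (M * C)) (Eventually.of_forall fun y => ?_)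
  rw [norm_mul, norm_eI_mul_beta hβ, ← mul_assoc]
  have h2 := h.norm_theta_sub_le hM hC (Decay.tt_pos hx y)
  rw [tt_half] at h2
  exact mul_le_mul_of_nonneg_right h2 (hβ.nonneg y)

/-- **Exponential decay of `FG n κ β φ`.** -/
theorem IsWtG.isBigO_FG_exp (hZ : ZeroGStmt K) (hT : IsTy n κ) (hne : n ≠ 0 ∨ κ ≠ 0)
    (h : IsWtG n κ 𝔟 𝔠 φ) (hβ : IsBeta β) :
    ∃ a : ℝ, 0 < a ∧ (FG n κ β φ) =O[atTop] fun x : ℝ => Real.exp (-a * x) := by
  obtain ⟨M, hM⟩ := h.bdd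
  obtain ⟨C, hC0, hC⟩ := norm_EG_le n
  obtain ⟨A, a, x₀, hA, ha, hx₀, hF⟩ := Decay.exists_F_sub_le hβ 𝔟
  have h2 : (0 : ℝ) < √2 := Real.sqrt_pos.mpr zero_lt_two
  refine ⟨a / √2, div_pos ha h2, Asymptotics.IsBigO.of_bound (M * C * A) ?_⟩
  filter_upwards [eventually_ge_atTop (x₀ * √2)] with x hx
  have hx1 : x₀ ≤ x / √2 := (le_div_iff₀ h2).mpr hx
  have hx0 : 0 < x := lt_of_lt_of_le (mul_pos (one_pos.trans_le hx₀) h2) hx
  have hM0 : 0 ≤ M := (norm_nonneg _).trans (hM 0)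
  have h3 : -(a / √2) * x = -(a * (x / √2)) := by ring
  rw [Real.norm_eq_abs, abs_of_pos (Real.exp_pos _), mul_assoc (M * C), h3]
  exact (h.norm_FG_le hZ hT hne hβ hM hC hx0).trans
    (mul_le_mul_of_nonneg_left (hF _ hx1) (mul_nonneg hM0 hC0))

/-- **(C)** -/
theorem decayGStmt_of (hZ : ZeroGStmt K) : DecayGStmt K :=
  fun _ _ hT hne _ hβ _ _ _ h => ⟨(h.continuousOn_FG hβ).locallyIntegrableOn measurableSet_Ioi,
    fun r => by
      obtain ⟨a, ha, h1⟩ := h.isBigO_FG_exp hZ hT hne hβ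
      exact h1.trans (isLittleO_exp_neg_mul_rpow_atTop ha r).isBigO⟩

end Fermat.Agent.Cor.RayG
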