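import Fermat.Agent.Corollaries.RayN.Defs
import Fermat.Agent.Corollaries.Ray.UnfoldW
import Fermat.Agent.Corollaries.Ray.Weight

/-!
# Hecke's Groessencharaktere of infinite order: definitions, statements of the pieces

The type at infinity is a pair `(n, κ)`, `n : InfinitePlace K → ℤ` (`|n w| ≤ 1` at the real places),
`κ : InfinitePlace K → ℝ` with `∑ κ w = 0`:
`chi n κ x = ∏_w (x_w / |x_w|) ^ n_w * |x_w| ^ (i κ_w)`.
-/

set_option autoImplicit false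

noncomputable section

namespace Fermat.Agent.Cor.RayG

open NumberField NumberField.InfinitePlace NumberField.Units MeasureTheory Set
open NumberField.Units.dirichletUnitTheorem
open Fermat.Agent.Classic.Zeta Fermat.Agent.Cor.Ray Fermat.Agent.Cor.RayN
open scoped nonZeroDivisors Classical Real ComplexConjugate

universe u

/-! ### The local factor -/

/-- `z ^ k` for `0 ≤ k`, `(conj z) ^ |k|` for `k < 0` -/
def hz (k : ℤ) (z : ℂ) : ℂ := if 0 ≤ k then z ^ k.natAbs else (conj z) ^ k.natAbs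

theorem norm_hz (k : ℤ) (z : ℂ) : ‖hz k z‖ = ‖z‖ ^ k.natAbs := by
  unfold hz
  split_ifs
  · rw [norm_pow]
  · rw [norm_pow, Complex.norm_conj]

theorem hz_mul (k : ℤ) (z z' : ℂ) : hz k (z * z') = hz k z * hz k z' := by
  unfold hz
  split_ifs
  · rw [mul_pow]
  · rw [map_mul, mul_pow]

theorem hz_one (k : ℤ) : hz k 1 = 1 := by
  unfold hz
  split_ifs
  · rw [one_pow]
  · rw [map_one, one_pow]

theorem hz_zero_left (z : ℂ) : hz 0 z = 1 := by
  unfold hz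
  rw [if_pos le_rfl, Int.natAbs_zero, pow_zero]

theorem hz_zero {k : ℤ} (hk : k ≠ 0) : hz k 0 = 0 := by
  have h : k.natAbs ≠ 0 := Int.natAbs_ne_zero.mpr hk
  unfold hz
  split_ifs
  · rw [zero_pow h]
  · rw [map_zero, zero_pow h]

theorem hz_neg (k : ℤ) (z : ℂ) : hz (-k) z = conj (hz k z) := by
  rcases lt_trichotomy k 0 with h | h | h
  · rw [hz, hz, if_pos (by omega), if_neg (by omega), Int.natAbs_neg, map_pow, Complex.conj_conj]
  · subst h
    rw [neg_zero, hz_zero_left, map_one]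
  · rw [hz, hz, if_neg (by omega), if_pos (by omega), Int.natAbs_neg, map_pow]

theorem continuous_hz (k : ℤ) : Continuous (hz k) := by
  unfold hz
  split_ifs
  · exact continuous_pow _
  · exact Complex.continuous_conj.pow _

/-! ### The angular part -/

variable {K : Type u} [Field K] [NumberField K]

/-- the harmonic polynomial -/
def pG (n : InfinitePlace K → ℤ) (x : K) : ℂ := ∏ w : InfinitePlace K, hz (n w) (w.embedding x)

theorem norm_pG (n : InfinitePlace K → ℤ) (x : K) :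
    ‖pG n x‖ = ∏ w : InfinitePlace K, w x ^ (n w).natAbs := by
  unfold pG
  rw [norm_prod]
  refine Finset.prod_congr rfl fun w _ => ?_
  rw [norm_hz, norm_embedding_eq]

theorem pG_mul (n : InfinitePlace K → ℤ) (x y : K) : pG n (x * y) = pG n x * pG n y := by
  unfold pG
  rw [← Finset.prod_mul_distrib]
  exact Finset.prod_congr rfl fun w _ => by rw [map_mul, hz_mul]

theorem pG_one (n : InfinitePlace K → ℤ) : pG n (1 : K) = 1 := by
  unfold pG
  exact Finset.prod_eq_one fun w _ => by rw [map_one, hz_one]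

theorem pG_ne_zero (n : InfinitePlace K → ℤ) {x : K} (hx : x ≠ 0) : pG n x ≠ 0 := by
  rw [← norm_ne_zero_iff, norm_pG]
  exact Finset.prod_ne_zero_iff.mpr fun w _ => pow_ne_zero _ (w.pos_iff.mpr hx).ne'

theorem pG_zero {n : InfinitePlace K → ℤ} (hn : n ≠ 0) : pG n (0 : K) = 0 := by
  obtain ⟨w, hw⟩ := Function.ne_iff.mp hn
  refine Finset.prod_eq_zero (Finset.mem_univ w) ?_
  rw [map_zero, hz_zero hw]

theorem pG_zero_left (x : K) : pG (0 : InfinitePlace K → ℤ) x = 1 :=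
  Finset.prod_eq_one fun _ _ => hz_zero_left _

theorem pG_neg (n : InfinitePlace K → ℤ) (x : K) : pG (-n) x = conj (pG n x) := by
  unfold pG
  rw [map_prod]
  exact Finset.prod_congr rfl fun w _ => hz_neg _ _

/-- the angular part of the character at infinity -/
def aG (n : InfinitePlace K → ℤ) (x : K) : ℂ := pG n x / ((‖pG n x‖ : ℝ) : ℂ)

theorem aG_mul (n : InfinitePlace K → ℤ) (x y : K) : aG n (x * y) = aG n x * aG n y := by
  unfold aG
  rw [pG_mul, norm_mul, Complex.ofReal_mul, mul_div_mul_comm]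

theorem aG_one (n : InfinitePlace K → ℤ) : aG n (1 : K) = 1 := by
  rw [aG, pG_one, norm_one, Complex.ofReal_one, div_one]

theorem norm_aG (n : InfinitePlace K → ℤ) {x : K} (hx : x ≠ 0) : ‖aG n x‖ = 1 := by
  rw [aG, norm_div, Complex.norm_real, norm_norm, div_self]
  exact norm_ne_zero_iff.mpr (pG_ne_zero n hx)

theorem aG_mul_norm (n : InfinitePlace K → ℤ) (x : K) :
    aG n x * ((‖pG n x‖ : ℝ) : ℂ) = pG n x := by
  by_cases h : pG n x = 0
  · rw [h, norm_zero, Complex.ofReal_zero, mul_zero]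
  · rw [aG, div_mul_cancel₀]
    exact_mod_cast norm_ne_zero_iff.mpr h

theorem aG_zero_left (x : K) : aG (0 : InfinitePlace K → ℤ) x = 1 := by
  rw [aG, pG_zero_left, norm_one, Complex.ofReal_one, div_one]

theorem aG_neg (n : InfinitePlace K → ℤ) (x : K) : aG (-n) x = conj (aG n x) := by
  rw [aG, aG, pG_neg, Complex.norm_conj, map_div₀, Complex.conj_ofReal]

/-! ### The radial part -/

/-- `e ^ (i r)` -/
def eI (r : ℝ) : ℂ := Complex.exp (r * Complex.I)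

theorem norm_eI (r : ℝ) : ‖eI r‖ = 1 := Complex.norm_exp_ofReal_mul_I r

theorem eI_zero : eI 0 = 1 := by rw [eI, Complex.ofReal_zero, zero_mul, Complex.exp_zero]

theorem eI_add (r s : ℝ) : eI (r + s) = eI r * eI s := by
  rw [eI, eI, eI, Complex.ofReal_add, add_mul, Complex.exp_add]

theorem eI_neg (r : ℝ) : eI (-r) = conj (eI r) := by
  rw [eI, eI, ← Complex.exp_conj, map_mul, Complex.conj_ofReal, Complex.conj_I,
    Complex.ofReal_neg, neg_mul, mul_neg]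

theorem continuous_eI : Continuous eI := by
  unfold eI
  fun_prop

theorem conj_mul_self_of_norm {z : ℂ} (hz : ‖z‖ = 1) : conj z * z = 1 := by
  rw [← Complex.normSq_eq_conj_mul_self, Complex.normSq_eq_norm_sq, hz]
  norm_num

/-- `∑ κ_w log |x|_w` -/
def lK (κ : InfinitePlace K → ℝ) (x : K) : ℝ := ∑ w : InfinitePlace K, κ w * Real.log (w x)

theorem lK_mul (κ : InfinitePlace K → ℝ) {x y : K} (hx : x ≠ 0) (hy : y ≠ 0) :
    lK κ (x * y) = lK κ x + lK κ y := by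
  unfold lK
  rw [← Finset.sum_add_distrib]
  refine Finset.sum_congr rfl fun w _ => ?_
  rw [map_mul, Real.log_mul (w.pos_iff.mpr hx).ne' (w.pos_iff.mpr hy).ne', mul_add]

theorem lK_one (κ : InfinitePlace K → ℝ) : lK κ (1 : K) = 0 :=
  Finset.sum_eq_zero fun w _ => by rw [map_one, Real.log_one, mul_zero]

theorem lK_neg (κ : InfinitePlace K → ℝ) (x : K) : lK (-κ) x = -lK κ x := by
  unfold lK
  rw [← Finset.sum_neg_distrib]
  exact Finset.sum_congr rfl fun w _ => by rw [Pi.neg_apply, neg_mul]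

theorem lK_zero_left (x : K) : lK (0 : InfinitePlace K → ℝ) x = 0 :=
  Finset.sum_eq_zero fun w _ => by rw [Pi.zero_apply, zero_mul]

/-- **the character at infinity of type `(n, κ)`** -/
def chi (n : InfinitePlace K → ℤ) (κ : InfinitePlace K → ℝ) (x : K) : ℂ := aG n x * eI (lK κ x)

variable (n : InfinitePlace K → ℤ) (κ : InfinitePlace K → ℝ)

theorem chi_mul {x y : K} (hx : x ≠ 0) (hy : y ≠ 0) :
    chi n κ (x * y) = chi n κ x * chi n κ y := by
  rw [chi, chi, chi, aG_mul, lK_mul κ hx hy, eI_add]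
  ring

theorem chi_one : chi n κ (1 : K) = 1 := by
  rw [chi, aG_one, lK_one, eI_zero, mul_one]

theorem norm_chi {x : K} (hx : x ≠ 0) : ‖chi n κ x‖ = 1 := by
  rw [chi, norm_mul, norm_aG n hx, norm_eI, one_mul]

theorem chi_ne_zero {x : K} (hx : x ≠ 0) : chi n κ x ≠ 0 := by
  rw [← norm_ne_zero_iff, norm_chi n κ hx]
  exact one_ne_zero

theorem conj_chi_mul {x : K} (hx : x ≠ 0) : conj (chi n κ x) * chi n κ x = 1 :=
  conj_mul_self_of_norm (norm_chi n κ hx)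

theorem chi_neg_neg (x : K) : chi (-n) (-κ) x = conj (chi n κ x) := by
  rw [chi, chi, aG_neg, lK_neg, eI_neg, map_mul]

theorem chi_zero_zero (x : K) : chi (0 : InfinitePlace K → ℤ) (0 : InfinitePlace K → ℝ) x = 1 := by
  rw [chi, aG_zero_left, lK_zero_left, eI_zero, mul_one]

/-! ### On the torus -/

/-- the linear form on `logSpace K` -/
def lam (y : logSpace K) : ℝ := ∑ w : InfinitePlace K, κ w * lg y w

theorem lam_add (y z : logSpace K) : lam κ (y + z) = lam κ y + lam κ z := by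
  unfold lam
  rw [← Finset.sum_add_distrib]
  exact Finset.sum_congr rfl fun w _ => by rw [lg_add, mul_add]

theorem lam_neg (y : logSpace K) : lam κ (-y) = -lam κ y := by
  unfold lam
  rw [← Finset.sum_neg_distrib]
  exact Finset.sum_congr rfl fun w _ => by rw [lg_neg, mul_neg]

theorem lam_neg_left (y : logSpace K) : lam (-κ) y = -lam κ y := by
  unfold lam
  rw [← Finset.sum_neg_distrib]
  exact Finset.sum_congr rfl fun w _ => by rw [Pi.neg_apply, neg_mul]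

theorem continuous_lam : Continuous fun y : logSpace K => lam κ y := by
  unfold lam
  exact continuous_finsetSum _ fun w _ => continuous_const.mul (continuous_lg w)

theorem lam_logEmbedding (v : (𝓞 K)ˣ) :
    lam κ (logEmbedding K (Additive.ofMul v)) = lK κ ((v : 𝓞 K) : K) := by
  unfold lam lK
  exact Finset.sum_congr rfl fun w _ => by rw [lg_logEmbedding]

/-- the summand of the theta function -/
def EG (t : InfinitePlace K → ℝ) (x : K) : ℂ :=
  ((∏ w : InfinitePlace K, √(t w) ^ (n w).natAbs : ℝ) : ℂ) * pG n x * (E t x : ℂ)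

theorem EG_zero_left (t : InfinitePlace K → ℝ) (x : K) : EG (0 : InfinitePlace K → ℤ) t x = E t x := by
  unfold EG
  rw [pG_zero_left, mul_one]
  have h : ∏ w : InfinitePlace K, √(t w) ^ ((0 : InfinitePlace K → ℤ) w).natAbs = 1 :=
    Finset.prod_eq_one fun w _ => by rw [Pi.zero_apply, Int.natAbs_zero, pow_zero]
  rw [h, Complex.ofReal_one, one_mul]

variable {n} in
theorem EG_zero (hn : n ≠ 0) (t : InfinitePlace K → ℝ) : EG n t (0 : K) = 0 := by
  rw [EG, pG_zero hn, mul_zero, zero_mul]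

/-- the action of the units -/
theorem EG_mul (x : ℝ) (y : logSpace K) (v : (𝓞 K)ˣ) (a : K) :
    EG n (tt x y) (((v : 𝓞 K) : K) * a) =
      aG n (v : K) * EG n (tt x (y + logEmbedding K (Additive.ofMul v))) a := by
  have h1 : ∏ w : InfinitePlace K,
      √(tt x (y + logEmbedding K (Additive.ofMul v)) w) ^ (n w).natAbs =
      (∏ w : InfinitePlace K, √(tt x y w) ^ (n w).natAbs) * ‖pG n (v : K)‖ := by
    rw [norm_pG, ← Finset.prod_mul_distrib]
    refine Finset.prod_congr rfl fun w _ => ?_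
    have h0 : 0 ≤ tt x y w := by rw [tt_eq]; positivity
    rw [tt_add, Real.sqrt_mul h0, Real.sqrt_sq (apply_nonneg w _), mul_pow]
  have h2 := aG_mul_norm n (v : K)
  rw [EG, EG, E_mul, pG_mul, h1, Complex.ofReal_mul]
  linear_combination (-(((∏ w : InfinitePlace K, √(tt x y w) ^ (n w).natAbs : ℝ) : ℂ)) * pG n a *
    E (tt x (y + logEmbedding K (Additive.ofMul v))) a) * h2

/-- the norm of the summand, `x ≠ 0` -/
theorem norm_EG_eq (t : InfinitePlace K → ℝ) {x : K} (hx : x ≠ 0) :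
    ((‖EG n t x‖ : ℝ) : ℂ) = conj (aG n x) * EG n t x := by
  have h1 : ‖EG n t x‖ = (∏ w : InfinitePlace K, √(t w) ^ (n w).natAbs) * ‖pG n x‖ * E t x := by
    rw [EG, norm_mul, norm_mul, Complex.norm_real, Complex.norm_real,
      Real.norm_of_nonneg (E_pos t x).le,
      Real.norm_of_nonneg (Finset.prod_nonneg fun w _ => pow_nonneg (Real.sqrt_nonneg _) _)]
  have h2 := aG_mul_norm n x
  have h3 := conj_mul_self_of_norm (norm_aG n hx)
  rw [h1, EG, Complex.ofReal_mul, Complex.ofReal_mul]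
  linear_combination (-(((∏ w : InfinitePlace K, √(t w) ^ (n w).natAbs : ℝ) : ℂ) *
    ((‖pG n x‖ : ℝ) : ℂ) * (E t x : ℂ))) * h3 + (conj (aG n x) *
      ((∏ w : InfinitePlace K, √(t w) ^ (n w).natAbs : ℝ) : ℂ) * (E t x : ℂ)) * h2

/-- **the bound**: `‖EG n t x‖ ≤ C E (t / 2) x` -/
theorem norm_EG_le : ∃ C : ℝ, 0 ≤ C ∧ ∀ (t : InfinitePlace K → ℝ), (∀ w, 0 ≤ t w) → ∀ x : K,
    ‖EG n t x‖ ≤ C * E (fun w => t w / 2) x := by
  have hexp : ∀ (k : ℕ) (r : ℝ), 0 ≤ r → r ^ k ≤ (k.factorial * Real.exp 1) *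
      Real.exp (π * (r ^ 2 / 2)) := fun k r hr => by
    have h1 : r ^ k / k.factorial ≤ Real.exp r := Real.pow_div_factorial_le_exp r hr k
    have h2 : Real.exp r ≤ Real.exp (1 + π * (r ^ 2 / 2)) := by
      refine Real.exp_le_exp.mpr ?_
      have := Real.pi_gt_three
      nlinarith [sq_nonneg (r - 1), sq_nonneg r]
    rw [Real.exp_add] at h2
    have h3 : (0 : ℝ) < k.factorial := by exact_mod_cast k.factorial_pos
    rw [div_le_iff₀ h3] at h1
    calc r ^ k ≤ Real.exp r * k.factorial := h1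
      _ ≤ (Real.exp 1 * Real.exp (π * (r ^ 2 / 2))) * k.factorial :=
        mul_le_mul_of_nonneg_right h2 h3.le
      _ = _ := by ring
  refine ⟨∏ w : InfinitePlace K, ((n w).natAbs.factorial * Real.exp 1), by positivity,
    fun t ht x => ?_⟩
  have h0 : ‖EG n t x‖ = (∏ w : InfinitePlace K, (√(t w) * w x) ^ (n w).natAbs) * E t x := by
    rw [EG, norm_mul, norm_mul, Complex.norm_real, Complex.norm_real,
      Real.norm_of_nonneg (E_pos t x).le,
      Real.norm_of_nonneg (Finset.prod_nonneg fun w _ => pow_nonneg (Real.sqrt_nonneg _) _),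
      norm_pG, ← Finset.prod_mul_distrib]
    congr 1
    exact Finset.prod_congr rfl fun w _ => (mul_pow _ _ _).symm
  have h1 : ∏ w : InfinitePlace K, (√(t w) * w x) ^ (n w).natAbs ≤
      (∏ w : InfinitePlace K, (((n w).natAbs.factorial : ℝ) * Real.exp 1)) *
        Real.exp (π * ∑ w : InfinitePlace K, (t w * w x ^ 2) / 2) := by
    rw [Finset.mul_sum, Real.exp_sum, ← Finset.prod_mul_distrib]
    refine Finset.prod_le_prod (fun w _ => by positivity) fun w _ => ?_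
    have h3 := hexp (n w).natAbs (√(t w) * w x) (by positivity)
    rwa [mul_pow (√(t w)) (w x) 2, Real.sq_sqrt (ht _)] at h3
  have h2 : ∑ w : InfinitePlace K, (t w * w x ^ 2) / 2 ≤
      ∑ w : InfinitePlace K, (w.mult : ℝ) * (t w / 2 * w x ^ 2) := by
    refine Finset.sum_le_sum fun w _ => ?_
    have h4 : (1 : ℝ) ≤ w.mult := by exact_mod_cast w.mult_pos
    have h5 : 0 ≤ t w / 2 * w x ^ 2 := mul_nonneg (div_nonneg (ht w) zero_le_two) (sq_nonneg _)
    nlinarith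
  have h3 : E t x = Real.exp (-π * ∑ w : InfinitePlace K, (w.mult : ℝ) * (t w / 2 * w x ^ 2)) *
      E (fun w => t w / 2) x := by
    rw [E, E, ← Real.exp_add, ← mul_add, ← Finset.sum_add_distrib]
    congr 2
    exact Finset.sum_congr rfl fun w _ => by ring
  have hC : 0 ≤ ∏ w : InfinitePlace K, (((n w).natAbs.factorial : ℝ) * Real.exp 1) :=
    Finset.prod_nonneg fun w _ => by positivity
  rw [h0, h3, ← mul_assoc]
  refine mul_le_mul_of_nonneg_right ?_ (E_pos _ _).le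
  calc (∏ w : InfinitePlace K, (√(t w) * w x) ^ (n w).natAbs) *
        Real.exp (-π * ∑ w : InfinitePlace K, (w.mult : ℝ) * (t w / 2 * w x ^ 2))
      ≤ ((∏ w : InfinitePlace K, (((n w).natAbs.factorial : ℝ) * Real.exp 1)) *
        Real.exp (π * ∑ w : InfinitePlace K, (t w * w x ^ 2) / 2)) *
        Real.exp (-π * ∑ w : InfinitePlace K, (w.mult : ℝ) * (t w / 2 * w x ^ 2)) :=
        mul_le_mul_of_nonneg_right h1 (Real.exp_pos _).le
    _ = (∏ w : InfinitePlace K, (((n w).natAbs.factorial : ℝ) * Real.exp 1)) *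
        Real.exp (π * (∑ w : InfinitePlace K, (t w * w x ^ 2) / 2 -
        ∑ w : InfinitePlace K, (w.mult : ℝ) * (t w / 2 * w x ^ 2))) := by
        rw [mul_assoc, ← Real.exp_add]
        congr 2
        ring
    _ ≤ (∏ w : InfinitePlace K, (((n w).natAbs.factorial : ℝ) * Real.exp 1)) * 1 := by
        refine mul_le_mul_of_nonneg_left ?_ hC
        rw [Real.exp_le_one_iff]
        exact mul_nonpos_of_nonneg_of_nonpos Real.pi_pos.le (sub_nonpos.mpr h2)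
    _ = _ := mul_one _

/-! ### Weights -/

/-- a weight of type `(n, κ)` -/
structure IsWtG (𝔟 𝔠 : FractionalIdeal (𝓞 K)⁰ K) (φ : K → ℂ) : Prop where
  hb : 𝔟 ≠ 0
  hc : 𝔠 ≠ 0
  le : 𝔠 ≤ 𝔟
  supp : ∀ x, x ∉ 𝔟 → φ x = 0
  per : ∀ x, ∀ c ∈ 𝔠, φ (x + c) = φ x
  unit : ∀ (v : (𝓞 K)ˣ) (x : K), φ (((v : 𝓞 K) : K) * x) = conj (chi n κ (v : K)) * φ x
  bdd : ∃ M : ℝ, ∀ x, ‖φ x‖ ≤ M

/-- the weighted theta function of type `n` -/
def ΘG (φ : K → ℂ) (t : InfinitePlace K → ℝ) : ℂ := ∑' x : K, φ x * EG n t x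

/-- integrated over the torus against `e ^ (-i λ(y)) β(y)` -/
def FG (β : logSpace K → ℝ) (φ : K → ℂ) (x : ℝ) : ℂ :=
  ∫ y, ΘG n φ (tt x y) * (eI (-lam κ y) * (β y : ℂ))

/-- `(φ, φ')` is a pair of weights with theta inversion (type `n` against type `-n`; the power of
`i` is in `φ'`). -/
def IsInvG (𝔠 : FractionalIdeal (𝓞 K)⁰ K) (φ φ' : K → ℂ) : Prop :=
  ∀ t : InfinitePlace K → ℝ, (∀ w, 0 < t w) →
    ΘG n φ t = (((√|(discr K : ℝ)| * nF 𝔠 * ∏ w : InfinitePlace K, t w ^ ((w.mult : ℝ) / 2))⁻¹ : ℝ) :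
      ℂ) * ΘG (-n) φ' (fun w => (t w)⁻¹)

/-- the type is admissible -/
structure IsTy : Prop where
  real : ∀ w : InfinitePlace K, IsReal w → (n w).natAbs ≤ 1
  sum : ∑ w : InfinitePlace K, κ w = 0

/-- the exponent at `w` -/
def sgG (s : ℂ) (w : InfinitePlace K) : ℂ :=
  (w.mult : ℂ) * s + (n w).natAbs - κ w * Complex.I

/-- the Gamma factor -/
def gamG (s : ℂ) : ℂ := ∏ w : InfinitePlace K,
  (((π * w.mult : ℝ) : ℂ) ^ (-(sgG n κ s w / 2)) * Complex.Gamma (sgG n κ s w / 2))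

/-! ### The analytic pieces -/

/-- (A) ThetaG.lean: theta inversion -/
def ThetaGStmt (K : Type u) [Field K] [NumberField K] : Prop :=
  ∀ (n : InfinitePlace K → ℤ) (κ : InfinitePlace K → ℝ), IsTy n κ →
    ∀ (𝔟 𝔠 : FractionalIdeal (𝓞 K)⁰ K) (φ : K → ℂ), IsWtG n κ 𝔟 𝔠 φ →
      ∃ φ' : K → ℂ, IsWtG (-n) (-κ) (dualF 𝔠) (dualF 𝔟) φ' ∧ IsInvG n 𝔠 φ φ'

/-- (Z) ZeroG.lean: the character of the torus has mean value zero -/
def ZeroGStmt (K : Type u) [Field K] [NumberField K] : Prop :=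
  ∀ κ : InfinitePlace K → ℝ, ∑ w, κ w = 0 → κ ≠ 0 →
    (∀ v : (𝓞 K)ˣ, eI (lK κ ((v : 𝓞 K) : K)) = 1) → ∀ β : logSpace K → ℝ, IsBeta β →
      ∫ y, eI (-lam κ y) * (β y : ℂ) = 0

/-- (B) UnfoldG.lean: unfolding, pointwise in `x` -/
def UnfoldGStmt (K : Type u) [Field K] [NumberField K] : Prop :=
  ∀ (n : InfinitePlace K → ℤ) (κ : InfinitePlace K → ℝ), IsTy n κ → (n ≠ 0 ∨ κ ≠ 0) →
    ∀ β : logSpace K → ℝ, IsBeta β → ∀ (𝔟 𝔠 : FractionalIdeal (𝓞 K)⁰ K) (φ : K → ℂ),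
      IsWtG n κ 𝔟 𝔠 φ → ∀ (ι : Type u) (g : ι → K), IsGen 𝔟 g → ∀ x : ℝ, 0 < x →
        HasSum (fun i => φ (g i) * ∫ y : logSpace K, EG n (tt x y) (g i) * eI (-lam κ y))
          (FG n κ β φ x)

/-- (B') UnfoldG.lean: the functional equation of the integrated theta function -/
def TorusGStmt (K : Type u) [Field K] [NumberField K] : Prop :=
  ∀ (n : InfinitePlace K → ℤ) (κ : InfinitePlace K → ℝ), IsTy n κ → (n ≠ 0 ∨ κ ≠ 0) →
    ∀ β : logSpace K → ℝ, IsBeta β →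
    ∀ (𝔟 𝔠 : FractionalIdeal (𝓞 K)⁰ K) (φ φ' : K → ℂ),
      IsWtG n κ 𝔟 𝔠 φ → IsWtG (-n) (-κ) (dualF 𝔠) (dualF 𝔟) φ' → IsInvG n 𝔠 φ φ' →
      ∀ x : ℝ, 0 < x →
        FG n κ β φ x⁻¹ = ((√|(discr K : ℝ)| * nF 𝔠 : ℝ) : ℂ)⁻¹ *
          (x : ℂ) ^ (Module.finrank ℚ K) * FG (-n) (-κ) β φ' x

/-- (C) DecayG.lean -/
def DecayGStmt (K : Type u) [Field K] [NumberField K] : Prop :=
  ∀ (n : InfinitePlace K → ℤ) (κ : InfinitePlace K → ℝ), IsTy n κ → (n ≠ 0 ∨ κ ≠ 0) →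
    ∀ β : logSpace K → ℝ, IsBeta β →
    ∀ (𝔟 𝔠 : FractionalIdeal (𝓞 K)⁰ K) (φ : K → ℂ), IsWtG n κ 𝔟 𝔠 φ →
      LocallyIntegrableOn (FG n κ β φ) (Ioi 0) ∧
      ∀ r : ℝ, (FG n κ β φ) =O[Filter.atTop] (fun x : ℝ => x ^ r)

/-- (D0) GammaG.lean -/
def GammaGStmt (K : Type u) [Field K] [NumberField K] : Prop :=
  ∃ c : ℝ, 0 < c ∧ ∀ (n : InfinitePlace K → ℤ) (κ : InfinitePlace K → ℝ), ∑ w, κ w = 0 →
    ∀ a : K, a ≠ 0 → ∀ s : ℂ, 0 < s.re →
    IntegrableOn (fun p : ℝ × logSpace K =>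
      (p.1 : ℂ) ^ ((Module.finrank ℚ K : ℂ) * s - 1) * (EG n (tt p.1 p.2) a * eI (-lam κ p.2)))
      (Ioi 0 ×ˢ univ) ∧
    ∫ x in Ioi (0 : ℝ), ∫ y : logSpace K,
      (x : ℂ) ^ ((Module.finrank ℚ K : ℂ) * s - 1) * (EG n (tt x y) a * eI (-lam κ y)) =
      c * gamG n κ s * chi n κ a * (((|Algebra.norm ℚ a| : ℚ) : ℂ)) ^ (-s)

/-- (D) MellinG.lean -/
def MellinGStmt (K : Type u) [Field K] [NumberField K] : Prop :=
  ∃ c : ℝ, 0 < c ∧ ∀ (n : InfinitePlace K → ℤ) (κ : InfinitePlace K → ℝ), IsTy n κ →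
    (n ≠ 0 ∨ κ ≠ 0) → ∀ β : logSpace K → ℝ, IsBeta β →
    ∀ (𝔟 𝔠 : FractionalIdeal (𝓞 K)⁰ K) (φ : K → ℂ), IsWtG n κ 𝔟 𝔠 φ →
      ∀ (ι : Type u) (g : ι → K), IsGen 𝔟 g → ∀ s : ℂ, 1 < s.re →
        Summable (fun i => φ (g i) * chi n κ (g i) * (((|Algebra.norm ℚ (g i)| : ℚ) : ℂ)) ^ (-s)) ∧
        mellin (FG n κ β φ) ((Module.finrank ℚ K : ℂ) * s) =
          c * gamG n κ s * ∑' i, φ (g i) * chi n κ (g i) *
            (((|Algebra.norm ℚ (g i)| : ℚ) : ℂ)) ^ (-s)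

/-- (E) EntireG.lean: **the output of the analytic part**. -/
def EntireGStmt (K : Type u) [Field K] [NumberField K] : Prop :=
  ∀ (n : InfinitePlace K → ℤ) (κ : InfinitePlace K → ℝ), IsTy n κ → (n ≠ 0 ∨ κ ≠ 0) →
    ∀ (𝔟 𝔠 : FractionalIdeal (𝓞 K)⁰ K) (φ : K → ℂ), IsWtG n κ 𝔟 𝔠 φ →
      ∃ A : ℂ → ℂ, Differentiable ℂ A ∧
        ∀ (ι : Type u) (g : ι → K), IsGen 𝔟 g → ∀ s : ℂ, 1 < s.re →
          ∑' i, φ (g i) * chi n κ (g i) * (((|Algebra.norm ℚ (g i)| : ℚ) : ℂ)) ^ (-s) = A s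

/-! ### Groessencharaktere -/

/-- **Groessencharaktere** modulo `𝔪` of type `(n, κ)`, as functions on the nonzero integral
ideals, extended by zero. -/
structure GChar (𝔪 : Ideal (𝓞 K)) (ψ : (Ideal (𝓞 K))⁰ →* ℂ) : Prop where
  norm_le : ∀ I, ‖ψ I‖ ≤ 1
  eq_zero : ∀ I : (Ideal (𝓞 K))⁰, ¬ IsCoprime (I : Ideal (𝓞 K)) 𝔪 → ψ I = 0
  cong : ∀ (a : 𝓞 K) (ha : a ≠ 0), a - 1 ∈ 𝔪 → ψ (sp a ha) = chi n κ (a : K)

/-- (F) LFunG.lean: the `L`-function of a Groessencharakter of nontrivial type is entire -/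
def LFunGStmt (K : Type u) [Field K] [NumberField K] : Prop :=
  ∀ (n : InfinitePlace K → ℤ) (κ : InfinitePlace K → ℝ), IsTy n κ → (n ≠ 0 ∨ κ ≠ 0) →
    ∀ (𝔪 : Ideal (𝓞 K)), 𝔪 ≠ ⊥ → ∀ (ψ : (Ideal (𝓞 K))⁰ →* ℂ), GChar n κ 𝔪 ψ →
      ∃ L : ℂ → ℂ, Differentiable ℂ L ∧ ∀ s : ℂ, 1 < s.re → L s = Ls ψ s

/-- the type is not the type of a character of finite order -/
def IsInf : Prop := κ ≠ 0 ∨ ∃ w : InfinitePlace K, IsComplex w ∧ n w ≠ 0

/-- (G) NonVanG.lean -/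
def NonVanGStmt (K : Type u) [Field K] [NumberField K] : Prop :=
  ∀ (n : InfinitePlace K → ℤ) (κ : InfinitePlace K → ℝ), IsTy n κ → IsInf n κ →
    ∀ (𝔪 : Ideal (𝓞 K)), 𝔪 ≠ ⊥ → ∀ (ψ : (Ideal (𝓞 K))⁰ →* ℂ), GChar n κ 𝔪 ψ →
      ∃ L : ℂ → ℂ, Differentiable ℂ L ∧ (∀ s : ℂ, 1 < s.re → L s = Ls ψ s) ∧
        ∀ s : ℂ, 1 ≤ s.re → L s ≠ 0

/-- (H) PrimeSumG.lean: **the prime number theorem for Groessencharaktere** -/
def PrimeSumGStmt (K : Type u) [Field K] [NumberField K] : Prop :=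
  ∀ (n : InfinitePlace K → ℤ) (κ : InfinitePlace K → ℝ), IsTy n κ → IsInf n κ →
    ∀ (𝔪 : Ideal (𝓞 K)), 𝔪 ≠ ⊥ → ∀ (ψ : (Ideal (𝓞 K))⁰ →* ℂ), GChar n κ 𝔪 ψ →
      Filter.Tendsto (fun x : ℝ => (∑ᶠ P ∈ {P : (Ideal (𝓞 K))⁰ | (P : Ideal (𝓞 K)).IsPrime ∧
        (Ideal.absNorm (P : Ideal (𝓞 K)) : ℝ) ≤ x}, ψ P) * Real.log x / x) Filter.atTop (nhds 0)

/-- (X) ExistG.lean: existence of Groessencharaktere -/
def ExistGStmt (K : Type u) [Field K] [NumberField K] : Prop :=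
  ∀ (n : InfinitePlace K → ℤ) (κ : InfinitePlace K → ℝ) (𝔪 : Ideal (𝓞 K)), 𝔪 ≠ ⊥ →
    (∀ v : (𝓞 K)ˣ, (v : 𝓞 K) - 1 ∈ 𝔪 → chi n κ ((v : 𝓞 K) : K) = 1) →
      ∃ ψ : (Ideal (𝓞 K))⁰ →* ℂ, GChar n κ 𝔪 ψ

end Fermat.Agent.Cor.RayG

end
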