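import Fermat.Agent.Corollaries.RayG.NormIdeal

/-!
# The directions of the prime elements are dense in the unit sphere
-/

set_option autoImplicit false
set_option linter.unusedSectionVars false

noncomputable section

open NumberField NumberField.InfinitePlace nonZeroDivisors Filter Topology
open NumberField.mixedEmbedding

open scoped Classical

namespace Fermat.Agent.Cor.RayG

namespace Cone

section Dir

variable {E : Type*} [NormedAddCommGroup E] [NormedSpace ℝ E]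

/-- the vectors whose direction is close to `y` -/
def dirU (y : E) (ε : ℝ) : Set E := {x | x ≠ 0 ∧ ‖‖x‖⁻¹ • x - y‖ < ε}

theorem isOpen_dirU (y : E) (ε : ℝ) : IsOpen (dirU y ε) := by
  rw [isOpen_iff_mem_nhds]
  rintro x ⟨hx0, hx⟩
  have h1 : ContinuousAt (fun x : E => ‖‖x‖⁻¹ • x - y‖) x := by
    refine ContinuousAt.norm (ContinuousAt.sub (ContinuousAt.smul ?_ continuousAt_id)
      continuousAt_const)
    exact continuous_norm.continuousAt.inv₀ (norm_ne_zero_iff.mpr hx0)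
  exact Filter.inter_mem (isOpen_compl_singleton.mem_nhds hx0)
    (h1.eventually (isOpen_Iio.mem_nhds hx))

theorem mem_dirU {y : E} (hy : ‖y‖ = 1) {ε : ℝ} (hε : 0 < ε) : y ∈ dirU y ε := by
  refine ⟨fun h => ?_, ?_⟩
  · rw [h, norm_zero] at hy
    exact zero_ne_one hy
  · rw [hy, inv_one, one_smul, sub_self, norm_zero]
    exact hε

theorem smul_mem_dirU {y : E} {ε : ℝ} : ∀ x ∈ dirU y ε, ∀ c : ℝ, 0 < c → c • x ∈ dirU y ε := by
  rintro x ⟨hx0, hx⟩ c hc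
  refine ⟨smul_ne_zero hc.ne' hx0, ?_⟩
  rwa [_root_.norm_smul, Real.norm_of_nonneg hc.le, smul_smul, mul_inv, mul_right_comm,
    inv_mul_cancel₀ hc.ne', one_mul]

end Dir

variable {K : Type} [Field K] [NumberField K] {𝔪 : Ideal (𝓞 K)} {ι : Type} [Fintype ι]

/-- **The directions of the prime elements `π ≡ α` modulo `𝔪` of degree one are dense in the unit
sphere of `K ⊗ ℝ`.** -/
theorem dense_directions (h𝔪 : 𝔪 ≠ ⊥) {α : 𝓞 K} (hα : IsCoprime (Ideal.span {α}) 𝔪)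
    {y : mixedSpace K} (hy : ‖y‖ = 1) {ε : ℝ} (hε : 0 < ε) :
    {I : Ideal (𝓞 K) | (Ideal.absNorm I).Prime ∧ ∃ π : 𝓞 K, Prime π ∧ I = Ideal.span {π} ∧
      π - α ∈ 𝔪 ∧ ‖‖mixedEmbedding K (π : K)‖⁻¹ • mixedEmbedding K (π : K) - y‖ < ε}.Infinite := by
  refine (hecke_cone_one h𝔪 hα (isOpen_dirU y ε) ⟨y, mem_dirU hy hε⟩ smul_mem_dirU).mono ?_
  rintro I ⟨h1, π, h2, h3, h4, h5⟩
  exact ⟨h1, π, h2, h3, h4, h5.2⟩

/-- **The directions of the integral points at which a norm form is a prime number are dense in the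
unit sphere of `ℝⁿ`**: `A` a non-zero ideal with the `ℤ`-basis `ω`, `x ≡ a` modulo `m`,
`|N(∑ x_i ω_i)| = N(A) p`. -/
theorem dense_directions_form {A : Ideal (𝓞 K)} (hA : A ≠ ⊥) (ω : Module.Basis ι ℤ A)
    {y : ι → ℝ} (hy : ‖y‖ = 1) {ε : ℝ} (hε : 0 < ε) {m : ℕ}
    (hm : m ≠ 0) (hAm : (Ideal.absNorm A).Coprime m) {a : ι → ℤ}
    (ha : IsCoprime (Algebra.norm ℤ ((∑ i, a i • ω i : A) : 𝓞 K)) (m : ℤ)) :
    {p : ℕ | p.Prime ∧ ∃ x : ι → ℤ, (∀ i, x i ≡ a i [ZMOD m]) ∧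
      ‖‖fun i => (x i : ℝ)‖⁻¹ • (fun i => (x i : ℝ)) - y‖ < ε ∧
      (Algebra.norm ℤ ((∑ i, x i • ω i : A) : 𝓞 K)).natAbs = Ideal.absNorm A * p}.Infinite := by
  refine (norm_form_primes_ideal hA ω (isOpen_dirU y ε) ⟨y, mem_dirU hy hε⟩ smul_mem_dirU
    hm hAm ha).mono ?_
  rintro p ⟨h1, x, h2, h3, h4⟩
  exact ⟨h1, x, h2, h3.2, h4⟩

end Cone

end Fermat.Agent.Cor.RayG

end
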