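import Fermat.Agent.Corollaries.RayG.EquiAll
import Fermat.Agent.Corollaries.RayN.FormSign

/-!
# Groessencharaktere and the elements of an ideal

`A` an ideal, `ξ₀ ∈ A`, `(ξ₀) = A B`, `A` and `B` prime to `𝔪`. The prime ideals `P` such that
`A P = (ξ)` with `ξ ≡ ξ₀` modulo `𝔪` and `ξ / ξ₀` totally positive are equidistributed with respect
to `chi n κ ξ`.
-/

set_option autoImplicit false
set_option linter.unusedSectionVars false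

noncomputable section

open NumberField NumberField.InfinitePlace nonZeroDivisors Filter Topology Module

open scoped Classical

namespace Fermat.Agent.Cor.RayG

open Fermat.Agent.ClassL Fermat.Agent.Cor.Ray Fermat.Agent.Cor.RayN

universe u

section Gen

variable {K : Type u} [Field K] [NumberField K] {𝔪 : Ideal (𝓞 K)}
  {n : InfinitePlace K → ℤ} {κ : InfinitePlace K → ℝ} {ψ : (Ideal (𝓞 K))⁰ →* ℂ}

theorem nRayEq_mul_iff {A I J : (Ideal (𝓞 K))⁰} :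
    NRayEq 𝔪 (A * I) (A * J) ↔ NRayEq 𝔪 I J := by
  have h1 : ∀ a b : 𝓞 K,
      (Ideal.span {a} * ((A * I : (Ideal (𝓞 K))⁰) : Ideal (𝓞 K)) =
        Ideal.span {b} * ((A * J : (Ideal (𝓞 K))⁰) : Ideal (𝓞 K))) ↔
      Ideal.span {a} * (I : Ideal (𝓞 K)) = Ideal.span {b} * (J : Ideal (𝓞 K)) := by
    intro a b
    rw [Submonoid.coe_mul, Submonoid.coe_mul, mul_left_comm, mul_left_comm (Ideal.span {b})]
    exact mul_right_inj' (nonZeroDivisors.coe_ne_zero A)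
  simp only [NRayEq, h1]

/-- the character at infinity at congruent elements -/
theorem psi_gen (hψ : GChar n κ 𝔪 ψ) {ξ ξ₀ : 𝓞 K} (h : ξ - ξ₀ ∈ 𝔪) (hξ : ξ ≠ 0) (hξ₀ : ξ₀ ≠ 0)
    (hco : IsCoprime (Ideal.span {ξ₀}) 𝔪) :
    ψ (sp ξ hξ) * chi n κ (ξ₀ : K) = ψ (sp ξ₀ hξ₀) * chi n κ (ξ : K) := by
  obtain ⟨c, hc0, hc⟩ : ∃ c : 𝓞 K, c ≠ 0 ∧ c * ξ₀ - 1 ∈ 𝔪 := by
    obtain ⟨c, hc⟩ := isCoprime_span_iff.mp hco
    by_cases h0 : c = 0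
    · have htop : 𝔪 = ⊤ := by
        rw [Ideal.eq_top_iff_one]
        have := 𝔪.neg_mem hc
        rwa [h0, zero_mul, zero_sub, neg_neg] at this
      exact ⟨1, one_ne_zero, by rw [htop]; trivial⟩
    · exact ⟨c, h0, hc⟩
  have hc' : c * ξ - 1 ∈ 𝔪 := by
    have h1 : c * ξ - 1 = (c * ξ₀ - 1) + c * (ξ - ξ₀) := by ring
    rw [h1]
    exact 𝔪.add_mem hc (𝔪.mul_mem_left c h)
  have hcK : (c : K) ≠ 0 := by exact_mod_cast hc0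
  have hξK : (ξ : K) ≠ 0 := by exact_mod_cast hξ
  have hξ₀K : (ξ₀ : K) ≠ 0 := by exact_mod_cast hξ₀
  have h1 := hψ.cong (c * ξ) (mul_ne_zero hc0 hξ) hc'
  have h2 := hψ.cong (c * ξ₀) (mul_ne_zero hc0 hξ₀) hc
  have e1 : ((c * ξ : 𝓞 K) : K) = (c : K) * (ξ : K) := map_mul _ _ _
  have e3 : ((c * ξ₀ : 𝓞 K) : K) = (c : K) * (ξ₀ : K) := map_mul _ _ _
  rw [sp_mul hc0 hξ, map_mul, e1, chi_mul n κ hcK hξK] at h1
  rw [sp_mul hc0 hξ₀, map_mul, e3, chi_mul n κ hcK hξ₀K] at h2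
  have hchi := chi_ne_zero n κ hcK
  have hψc : ψ (sp c hc0) ≠ 0 := by
    intro h0
    rw [h0, zero_mul] at h2
    exact mul_ne_zero hchi (chi_ne_zero n κ hξ₀K) h2.symm
  refine mul_left_cancel₀ (mul_ne_zero hchi hψc) ?_
  linear_combination (chi n κ (c : K) * chi n κ (ξ₀ : K)) * h1 -
    (chi n κ (c : K) * chi n κ (ξ : K)) * h2

/-- **The elements of an ideal**: the condition on `ξ` in terms of `P`. -/
theorem gen_iff (h𝔪 : 𝔪 ≠ ⊥) (hψ : GChar n κ 𝔪 ψ) {A B : (Ideal (𝓞 K))⁰} {ξ₀ : 𝓞 K} (hξ₀ : ξ₀ ≠ 0)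
    (hA : IsCoprime (A : Ideal (𝓞 K)) 𝔪) (hB : IsCoprime (B : Ideal (𝓞 K)) 𝔪)
    (hAB : (A : Ideal (𝓞 K)) * (B : Ideal (𝓞 K)) = Ideal.span {ξ₀}) :
    ∃ s : ℝ, ∀ (P : (Ideal (𝓞 K))⁰) (α β : ℝ),
      (NRayEq 𝔪 P B ∧ ∃ t ∈ Set.Ioo (α - s) (β - s), ψ P = e2 t) ↔
      ∃ ξ : 𝓞 K, (A : Ideal (𝓞 K)) * (P : Ideal (𝓞 K)) = Ideal.span {ξ} ∧ ξ - ξ₀ ∈ 𝔪 ∧
        (∀ w : RP K, 0 < em w (ξ : K) * em w (ξ₀ : K)) ∧
        ∃ t ∈ Set.Ioo α β, chi n κ (ξ : K) = e2 t := by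
  have hξ₀K : (ξ₀ : K) ≠ 0 := by exact_mod_cast hξ₀
  have hco : IsCoprime (Ideal.span {ξ₀}) 𝔪 := hAB ▸ hA.mul_left hB
  have hψA : ψ A ≠ 0 := by
    rw [← norm_ne_zero_iff, norm_gchar h𝔪 hψ hA]
    exact one_ne_zero
  have hψB : ψ B ≠ 0 := by
    rw [← norm_ne_zero_iff, norm_gchar h𝔪 hψ hB]
    exact one_ne_zero
  have hc1 : ‖chi n κ (ξ₀ : K) * (ψ B)⁻¹‖ = 1 := by
    rw [norm_mul, norm_inv, norm_chi n κ hξ₀K, norm_gchar h𝔪 hψ hB, inv_one, mul_one]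
  have hsp₀ : sp ξ₀ hξ₀ = A * B := Subtype.ext hAB.symm
  have key : ∀ (P : (Ideal (𝓞 K))⁰) (ξ : 𝓞 K),
      (A : Ideal (𝓞 K)) * (P : Ideal (𝓞 K)) = Ideal.span {ξ} → ξ - ξ₀ ∈ 𝔪 →
      chi n κ (ξ : K) = ψ P * (chi n κ (ξ₀ : K) * (ψ B)⁻¹) := by
    intro P ξ hP hξ
    have hξ0 : ξ ≠ 0 := by
      rintro rfl
      rw [Ideal.span_singleton_eq_bot.mpr rfl, ← Ideal.zero_eq_bot, mul_eq_zero] at hP
      exact hP.elim (nonZeroDivisors.coe_ne_zero A) (nonZeroDivisors.coe_ne_zero P)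
    have hsp : sp ξ hξ0 = A * P := Subtype.ext hP.symm
    have h1 := psi_gen hψ hξ hξ0 hξ₀ hco
    rw [hsp, hsp₀, map_mul, map_mul, mul_assoc, mul_assoc] at h1
    have h2 := mul_left_cancel₀ hψA h1
    field_simp
    linear_combination -h2
  refine ⟨th (chi n κ (ξ₀ : K) * (ψ B)⁻¹), fun P α β => ?_⟩
  have hs := e2_th hc1
  set s := th (chi n κ (ξ₀ : K) * (ψ B)⁻¹)
  have hmem : Ideal.span {ξ₀} ∈ (Ideal (𝓞 K))⁰ := (sp ξ₀ hξ₀).2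
  have hgen := nRayEq_span_iff (𝔪 := 𝔪) hco hξ₀ (A := A * B) hAB (A * P)
  rw [nRayEq_mul_iff] at hgen
  constructor
  · rintro ⟨h1, t, ht, htP⟩
    obtain ⟨ξ, hξ, hpos, hspan⟩ := hgen.mp h1
    have hspan' : (A : Ideal (𝓞 K)) * (P : Ideal (𝓞 K)) = Ideal.span {ξ} := hspan
    refine ⟨ξ, hspan', hξ, hpos, t + s, ⟨by linarith [ht.1], by linarith [ht.2]⟩, ?_⟩
    rw [key P ξ hspan' hξ, htP, ← hs, e2_add]
  · rintro ⟨ξ, hspan, hξ, hpos, t, ht, hχ⟩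
    refine ⟨hgen.mpr ⟨ξ, hξ, hpos, hspan⟩, t - s, ⟨by linarith [ht.1], by linarith [ht.2]⟩, ?_⟩
    have h1 := key P ξ hspan hξ
    rw [hχ, ← hs] at h1
    have h2 : e2 t = e2 (t - s) * e2 s := by rw [← e2_add, sub_add_cancel]
    rw [h2] at h1
    have h3 : e2 s ≠ 0 := by
      rw [← norm_ne_zero_iff, norm_e2]
      exact one_ne_zero
    exact (mul_right_cancel₀ h3 h1).symm

/-- The prime ideals of residue degree at least two do not matter. -/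
theorem tendsto_deg_one {T : Pr K → Prop} {l : ℝ} (h : Tendsto (fun x : ℕ => (Nat.card {P : Pr K //
      Ideal.absNorm ((P.1 : (Ideal (𝓞 K))⁰) : Ideal (𝓞 K)) ≤ x ∧ T P} : ℝ) * Real.log x / x)
      atTop (𝓝 l)) :
    Tendsto (fun x : ℕ => (Nat.card {P : Pr K //
      Ideal.absNorm ((P.1 : (Ideal (𝓞 K))⁰) : Ideal (𝓞 K)) ≤ x ∧
      (Ideal.absNorm ((P.1 : (Ideal (𝓞 K))⁰) : Ideal (𝓞 K))).Prime ∧ T P} : ℝ) *
        Real.log x / x) atTop (𝓝 l) := by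
  refine qd_tendsto_of_bounded (A := finrank ℚ K) (B := finrank ℚ K) (fun x => ?_) h
  have e1 : Nat.card {P : Pr K // Ideal.absNorm ((P.1 : (Ideal (𝓞 K))⁰) : Ideal (𝓞 K)) ≤ x ∧ T P} =
      ((prLe K x).filter fun P => T P).card := by
    rw [Nat.subtype_card]
    intro P
    rw [Finset.mem_filter, mem_prLe]
  have e3 : Nat.card {P : Pr K // Ideal.absNorm ((P.1 : (Ideal (𝓞 K))⁰) : Ideal (𝓞 K)) ≤ x ∧
      (Ideal.absNorm ((P.1 : (Ideal (𝓞 K))⁰) : Ideal (𝓞 K))).Prime ∧ T P} =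
      ((prLe K x).filter fun P => T P ∧
        (Ideal.absNorm ((P.1 : (Ideal (𝓞 K))⁰) : Ideal (𝓞 K))).Prime).card := by
    rw [Nat.subtype_card]
    intro P
    rw [Finset.mem_filter, mem_prLe]
    tauto
  rw [e1, e3]
  have h2 := Finset.card_filter_add_card_filter_not (s := (prLe K x).filter fun P => T P)
    (fun P => (Ideal.absNorm (P.1 : Ideal (𝓞 K))).Prime)
  rw [Finset.filter_filter, Finset.filter_filter] at h2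
  have h3 : ((prLe K x).filter fun P => T P ∧
      ¬ (Ideal.absNorm (P.1 : Ideal (𝓞 K))).Prime).card ≤ finrank ℚ K * (Nat.sqrt x + 1) := by
    refine (Finset.card_le_card fun P hP => ?_).trans (card_deg_two_le x)
    rw [Finset.mem_filter] at hP ⊢
    exact ⟨hP.1, hP.2.2⟩
  rw [← h2, Nat.cast_add, add_sub_cancel_left, Nat.abs_cast]
  have h4 : (((prLe K x).filter fun P => T P ∧
      ¬ (Ideal.absNorm (P.1 : Ideal (𝓞 K))).Prime).card : ℝ) ≤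
      (finrank ℚ K * (Nat.sqrt x + 1) : ℕ) := by exact_mod_cast h3
  refine h4.trans (le_of_eq ?_)
  push_cast
  ring

theorem infinite_of_tendsto {T : Pr K → Prop} {l : ℝ}
    (h : Tendsto (fun x : ℕ => (Nat.card {P : Pr K //
      Ideal.absNorm ((P.1 : (Ideal (𝓞 K))⁰) : Ideal (𝓞 K)) ≤ x ∧ T P} : ℝ) * Real.log x / x)
      atTop (𝓝 l)) (hl : l ≠ 0) : {P : Pr K | T P}.Infinite := by
  intro hfin
  have h3 : Tendsto (fun _ : ℕ => (0 : ℝ)) atTop (𝓝 l) := by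
    refine (qd_tendsto_of_bounded (g := fun _ => 0) (A := 0) (B := {P : Pr K | T P}.ncard)
      (fun x => ?_) h).congr fun x => by rw [zero_mul, zero_div]
    rw [sub_zero, Nat.abs_cast, zero_mul, zero_add]
    have h4 : Nat.card {P : Pr K //
        Ideal.absNorm ((P.1 : (Ideal (𝓞 K))⁰) : Ideal (𝓞 K)) ≤ x ∧ T P} ≤
        {P : Pr K | T P}.ncard := by
      rw [← Nat.card_coe_set_eq]
      have := hfin.to_subtype
      refine Nat.card_le_card_of_injective (fun P => ⟨P.1, P.2.2⟩) ?_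
      intro P Q h
      exact Subtype.ext (congrArg (fun z : {P : Pr K | T P} => z.1) h)
    exact_mod_cast h4
  exact hl (tendsto_nhds_unique h3 tendsto_const_nhds)

end Gen

section Main

variable {K : Type} [Field K] [NumberField K] {𝔪 : Ideal (𝓞 K)}
  {n : InfinitePlace K → ℤ} {κ : InfinitePlace K → ℝ}

/-- **Equidistribution of the elements of an ideal with prime quotient.** `(n, κ)` of infinite order,
trivial on the units `≡ 1` modulo `𝔪`; `A B = (ξ₀)`, `A` and `B` prime to `𝔪`. The number of the prime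
ideals `P` of norm at most `x` for which `A P` is generated by a `ξ ≡ ξ₀` modulo `𝔪` with the signs of
`ξ₀` and `chi n κ ξ` in the arc from `e(α)` to `e(β)` is `~ (β - α) / h * x / log x`. -/
theorem hecke_arc_ideal (h𝔪 : 𝔪 ≠ ⊥) (hty : IsTy n κ) (hinf : IsInf n κ)
    (hu : ∀ v : (𝓞 K)ˣ, (v : 𝓞 K) - 1 ∈ 𝔪 → chi n κ ((v : 𝓞 K) : K) = 1)
    {A B : (Ideal (𝓞 K))⁰} {ξ₀ : 𝓞 K} (hξ₀ : ξ₀ ≠ 0)
    (hA : IsCoprime (A : Ideal (𝓞 K)) 𝔪) (hB : IsCoprime (B : Ideal (𝓞 K)) 𝔪)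
    (hAB : (A : Ideal (𝓞 K)) * (B : Ideal (𝓞 K)) = Ideal.span {ξ₀}) {α β : ℝ}
    (h1 : α ≤ β) (h2 : β ≤ α + 1) :
    Tendsto (fun x : ℕ => (Nat.card {P : Pr K //
      Ideal.absNorm ((P.1 : (Ideal (𝓞 K))⁰) : Ideal (𝓞 K)) ≤ x ∧
      ∃ ξ : 𝓞 K, (A : Ideal (𝓞 K)) * ((P.1 : (Ideal (𝓞 K))⁰) : Ideal (𝓞 K)) = Ideal.span {ξ} ∧
        ξ - ξ₀ ∈ 𝔪 ∧ (∀ w : RP K, 0 < em w (ξ : K) * em w (ξ₀ : K)) ∧
        ∃ t ∈ Set.Ioo α β, chi n κ (ξ : K) = e2 t} : ℝ) * Real.log x / x) atTop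
      (𝓝 ((β - α) / nRayNumber 𝔪)) := by
  obtain ⟨ψ, hψ⟩ := existG K n κ 𝔪 h𝔪 hu
  obtain ⟨s, hs⟩ := gen_iff h𝔪 hψ hξ₀ hA hB hAB
  have key := hecke_arc_narrow h𝔪 hty hinf hψ hB (α := α - s) (β := β - s) (by linarith)
    (by linarith)
  rw [sub_sub_sub_cancel_right] at key
  simpa only [hs] using key

/-- **The same for the prime ideals of residue degree one.** -/
theorem hecke_arc_ideal_deg_one (h𝔪 : 𝔪 ≠ ⊥) (hty : IsTy n κ) (hinf : IsInf n κ)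
    (hu : ∀ v : (𝓞 K)ˣ, (v : 𝓞 K) - 1 ∈ 𝔪 → chi n κ ((v : 𝓞 K) : K) = 1)
    {A B : (Ideal (𝓞 K))⁰} {ξ₀ : 𝓞 K} (hξ₀ : ξ₀ ≠ 0)
    (hA : IsCoprime (A : Ideal (𝓞 K)) 𝔪) (hB : IsCoprime (B : Ideal (𝓞 K)) 𝔪)
    (hAB : (A : Ideal (𝓞 K)) * (B : Ideal (𝓞 K)) = Ideal.span {ξ₀}) {α β : ℝ}
    (h1 : α ≤ β) (h2 : β ≤ α + 1) :
    Tendsto (fun x : ℕ => (Nat.card {P : Pr K //
      Ideal.absNorm ((P.1 : (Ideal (𝓞 K))⁰) : Ideal (𝓞 K)) ≤ x ∧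
      (Ideal.absNorm ((P.1 : (Ideal (𝓞 K))⁰) : Ideal (𝓞 K))).Prime ∧
      ∃ ξ : 𝓞 K, (A : Ideal (𝓞 K)) * ((P.1 : (Ideal (𝓞 K))⁰) : Ideal (𝓞 K)) = Ideal.span {ξ} ∧
        ξ - ξ₀ ∈ 𝔪 ∧ (∀ w : RP K, 0 < em w (ξ : K) * em w (ξ₀ : K)) ∧
        ∃ t ∈ Set.Ioo α β, chi n κ (ξ : K) = e2 t} : ℝ) * Real.log x / x) atTop
      (𝓝 ((β - α) / nRayNumber 𝔪)) :=
  tendsto_deg_one (hecke_arc_ideal h𝔪 hty hinf hu hξ₀ hA hB hAB h1 h2)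

/-- **Infinitely many prime ideals of residue degree one.** -/
theorem infinite_arc_ideal (h𝔪 : 𝔪 ≠ ⊥) (hty : IsTy n κ) (hinf : IsInf n κ)
    (hu : ∀ v : (𝓞 K)ˣ, (v : 𝓞 K) - 1 ∈ 𝔪 → chi n κ ((v : 𝓞 K) : K) = 1)
    {A B : (Ideal (𝓞 K))⁰} {ξ₀ : 𝓞 K} (hξ₀ : ξ₀ ≠ 0)
    (hA : IsCoprime (A : Ideal (𝓞 K)) 𝔪) (hB : IsCoprime (B : Ideal (𝓞 K)) 𝔪)
    (hAB : (A : Ideal (𝓞 K)) * (B : Ideal (𝓞 K)) = Ideal.span {ξ₀}) {α β : ℝ}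
    (h1 : α < β) (h2 : β ≤ α + 1) :
    {P : Pr K | (Ideal.absNorm ((P.1 : (Ideal (𝓞 K))⁰) : Ideal (𝓞 K))).Prime ∧
      ∃ ξ : 𝓞 K, (A : Ideal (𝓞 K)) * ((P.1 : (Ideal (𝓞 K))⁰) : Ideal (𝓞 K)) = Ideal.span {ξ} ∧
        ξ - ξ₀ ∈ 𝔪 ∧ (∀ w : RP K, 0 < em w (ξ : K) * em w (ξ₀ : K)) ∧
        ∃ t ∈ Set.Ioo α β, chi n κ (ξ : K) = e2 t}.Infinite :=
  infinite_of_tendsto (hecke_arc_ideal_deg_one h𝔪 hty hinf hu hξ₀ hA hB hAB h1.le h2)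
    (div_ne_zero (by linarith) (by exact_mod_cast nRayNumber_ne_zero h𝔪))

end Main

end Fermat.Agent.Cor.RayG

end
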