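import Fermat.Agent.Corollaries.RayG.UnfoldG
import Fermat.Agent.Classic.Zeta.Main

/-!
# Weighted zeta functions with Groessencharaktere are entire (RAYG (E))

`entireGStmt_of`: theta inversion, the functional equation of the integrated theta function, its
decay and its Mellin transform give the entire continuation of
`∑ φ(g_i) χ(g_i) |N g_i| ^ {-s}` for every nontrivial type at infinity.
-/

set_option autoImplicit false

noncomputable section

namespace Fermat.Agent.Cor.RayG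

open NumberField NumberField.InfinitePlace NumberField.Units MeasureTheory Set
open NumberField.Units.dirichletUnitTheorem
open Fermat.Agent.Classic.Zeta Fermat.Agent.Cor.Ray Fermat.Agent.Cor.RayN
open scoped nonZeroDivisors Classical Real ComplexConjugate

universe u

variable {K : Type u} [Field K] [NumberField K] {n : InfinitePlace K → ℤ} {κ : InfinitePlace K → ℝ}

/-! ### The dual type -/

omit [NumberField K] in
theorem neg_ne_zero_or (h : n ≠ 0 ∨ κ ≠ 0) : -n ≠ 0 ∨ -κ ≠ 0 :=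
  h.imp neg_ne_zero.mpr neg_ne_zero.mpr

/-! ### The Gamma factor -/

omit [NumberField K] in
theorem re_sgG (s : ℂ) (w : InfinitePlace K) :
    (sgG n κ s w).re = w.mult * s.re + (n w).natAbs := by
  have h1 : ((w.mult : ℂ) * s).re = w.mult * s.re := by
    rw [← Complex.ofReal_natCast, Complex.re_ofReal_mul]
  have h2 : ((κ w : ℂ) * Complex.I).re = 0 := by
    rw [Complex.re_ofReal_mul, Complex.I_re, mul_zero]
  rw [sgG, Complex.sub_re, Complex.add_re, h1, h2, Complex.natCast_re, sub_zero]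

omit [NumberField K] in
theorem re_sgG_pos {s : ℂ} (hs : 0 < s.re) (w : InfinitePlace K) : 0 < (sgG n κ s w).re := by
  rw [re_sgG]
  have h1 : (0 : ℝ) < w.mult := by exact_mod_cast w.mult_pos
  positivity

omit [NumberField K] in
theorem pi_mult_ne_zero (w : InfinitePlace K) : ((π * w.mult : ℝ) : ℂ) ≠ 0 := by
  have h1 : (0 : ℝ) < w.mult := by exact_mod_cast w.mult_pos
  have h2 : (0 : ℝ) < π * w.mult := mul_pos Real.pi_pos h1
  exact_mod_cast h2.ne'

/-- the Gamma factor has no zeros -/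
theorem gamG_ne_zero {s : ℂ} (hs : 0 < s.re) : gamG n κ s ≠ 0 := by
  unfold gamG
  refine Finset.prod_ne_zero_iff.mpr fun w _ => mul_ne_zero ?_ ?_
  · exact (Complex.cpow_ne_zero_iff).mpr (Or.inl (pi_mult_ne_zero w))
  · refine Complex.Gamma_ne_zero_of_re_pos ?_
    have h1 := re_sgG_pos (n := n) (κ := κ) hs w
    have h2 : (sgG n κ s w / 2).re = (sgG n κ s w).re / 2 := by
      rw [show (2 : ℂ) = ((2 : ℝ) : ℂ) by norm_num, Complex.div_ofReal_re]
    rw [h2]
    positivity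

variable (n κ) in
/-- the inverse of the Gamma factor -/
def gGi (s : ℂ) : ℂ := (gamG n κ s)⁻¹

variable (n κ) in
/-- the inverse of the Gamma factor is entire -/
theorem differentiable_gGi : Differentiable ℂ (gGi n κ) := by
  have h : gGi n κ = fun s => ∏ w : InfinitePlace K,
      (((π * w.mult : ℝ) : ℂ) ^ (sgG n κ s w / 2) * (Complex.Gamma (sgG n κ s w / 2))⁻¹) := by
    funext s
    rw [gGi, gamG, ← Finset.prod_inv_distrib]
    refine Finset.prod_congr rfl fun w _ => ?_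
    rw [mul_inv, Complex.cpow_neg, inv_inv]
  rw [h]
  have h0 : ∀ w : InfinitePlace K, Differentiable ℂ fun s : ℂ => sgG n κ s w / 2 := by
    intro w
    unfold sgG
    fun_prop
  refine Differentiable.fun_finsetProd fun w _ => ?_
  refine Differentiable.mul ?_ ?_
  · exact (h0 w).const_cpow (Or.inl (pi_mult_ne_zero w))
  · exact Complex.differentiable_one_div_Gamma.comp (h0 w)

section pair

variable {β : logSpace K → ℝ} (hβ : IsBeta β) (hty : IsTy n κ) (h0 : n ≠ 0 ∨ κ ≠ 0)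
  (hT : TorusGStmt K) (hD : DecayGStmt K)
  {𝔟 𝔠 : FractionalIdeal (𝓞 K)⁰ K} {φ φ' : K → ℂ} (hφ : IsWtG n κ 𝔟 𝔠 φ)
  (hφ' : IsWtG (-n) (-κ) (dualF 𝔠) (dualF 𝔟) φ') (hI : IsInvG n 𝔠 φ φ')

include hT in
/-- the functional equation pair of a weight of type `(n, κ)` -/
def feG : WeakFEPair ℂ where
  f := FG n κ β φ
  g := FG (-n) (-κ) β φ'
  k := Module.finrank ℚ K
  ε := (((√|(discr K : ℝ)| * nF 𝔠)⁻¹ : ℝ) : ℂ)
  f₀ := 0
  g₀ := 0
  hf_int := (hD n κ hty h0 β hβ _ _ φ hφ).1
  hg_int := (hD (-n) (-κ) hty.neg (neg_ne_zero_or h0) β hβ _ _ φ' hφ').1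
  hk := finrank_pos' K
  hε := by
    rw [Complex.ofReal_ne_zero]
    exact inv_ne_zero (mul_ne_zero (Real.sqrt_ne_zero'.mpr (disc_pos K)) (nF_pos hφ.hc).ne')
  h_feq x hx := by
    have h := hT n κ hty h0 β hβ _ _ φ φ' hφ hφ' hI x hx
    rw [one_div, h, Real.rpow_natCast, smul_eq_mul]
    push_cast
    ring
  hf_top r := by
    simp only [sub_zero]
    exact (hD n κ hty h0 β hβ _ _ φ hφ).2 r
  hg_top r := by
    simp only [sub_zero]
    exact (hD (-n) (-κ) hty.neg (neg_ne_zero_or h0) β hβ _ _ φ' hφ').2 r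

end pair

/-- **(E)**: the weighted zeta functions of nontrivial type are entire. -/
theorem entireGStmt_of (hA : ThetaGStmt K) (hT : TorusGStmt K) (hD : DecayGStmt K)
    (hM : MellinGStmt K) : EntireGStmt K := by
  intro n κ hty h0 𝔟 𝔠 φ hφ
  obtain ⟨β, hβ⟩ := (torusStmt (thetaStmt K)).1
  obtain ⟨c, hc, hM⟩ := hM
  have hc' : (c : ℂ) ≠ 0 := by exact_mod_cast hc.ne'
  have hn : (0 : ℝ) < (Module.finrank ℚ K : ℝ) := finrank_pos' K
  obtain ⟨φ', hφ', hI⟩ := hA n κ hty 𝔟 𝔠 φ hφ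
  set P : WeakFEPair ℂ := feG hβ hty h0 hT hD hφ hφ' hI with hP
  refine ⟨fun s => (c : ℂ)⁻¹ * (gGi n κ s * P.Λ₀ ((Module.finrank ℚ K : ℂ) * s)), ?_, ?_⟩
  · have h1 : Differentiable ℂ fun s : ℂ => P.Λ₀ ((Module.finrank ℚ K : ℂ) * s) :=
      P.differentiable_Λ₀.comp (differentiable_id.const_mul _)
    exact ((differentiable_gGi n κ).mul h1).const_mul _
  · intro ι g hg s hs
    have hgam : gamG n κ s ≠ 0 := gamG_ne_zero (zero_lt_one.trans hs)
    obtain ⟨-, hmel⟩ := hM n κ hty h0 β hβ 𝔟 𝔠 φ hφ ι g hg s hs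
    have hk : P.k < ((Module.finrank ℚ K : ℂ) * s).re := by
      change (Module.finrank ℚ K : ℝ) < _
      rw [← Complex.ofReal_natCast, Complex.re_ofReal_mul]
      nlinarith
    have h1 : mellin (fun x : ℝ => FG n κ β φ x - 0) ((Module.finrank ℚ K : ℂ) * s) =
        P.Λ ((Module.finrank ℚ K : ℂ) * s) := (P.hasMellin hk).2
    have h2 : P.Λ ((Module.finrank ℚ K : ℂ) * s) = P.Λ₀ ((Module.finrank ℚ K : ℂ) * s) -
        (1 / ((Module.finrank ℚ K : ℂ) * s)) • (0 : ℂ) -
        ((((√|(discr K : ℝ)| * nF 𝔠)⁻¹ : ℝ) : ℂ) /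
          (((Module.finrank ℚ K : ℝ) : ℂ) - (Module.finrank ℚ K : ℂ) * s)) • (0 : ℂ) := rfl
    simp only [sub_zero] at h1
    rw [smul_zero, smul_zero, sub_zero, sub_zero] at h2
    rw [h1, h2] at hmel
    beta_reduce
    rw [hmel, gGi]
    field_simp

end Fermat.Agent.Cor.RayG

end
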