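import Fermat.Agent.Corollaries.RayG.Defs
import Fermat.Agent.Corollaries.Ray.NonVan
import Mathlib.Algebra.Category.Grp.Injective

/-!
# Existence of Groessencharaktere

A type `(n, κ)` whose character at infinity is trivial on the units `≡ 1` modulo `𝔪` is the type of
a Groessencharakter modulo `𝔪` (`existG`).  The character `(a) ↦ chi n κ a`, `a ≡ 1` modulo `𝔪`, is
extended to all fractional ideals, as `ℂˣ` is a divisible group (`exists_extend_units`).
-/

set_option autoImplicit false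
set_option linter.unusedSectionVars false

noncomputable section

namespace Fermat.Agent.Cor.RayG

open NumberField NumberField.InfinitePlace
open Fermat.Agent.Classic.Zeta Fermat.Agent.Cor.Ray
open scoped nonZeroDivisors Classical ComplexConjugate

universe u

/-- The group `ℂˣ` is divisible. -/
theorem surjective_zpow_units {k : ℤ} (hk : k ≠ 0) : Function.Surjective fun z : ℂˣ => z ^ k := by
  have h1 : ∀ m : ℕ, m ≠ 0 → ∀ z : ℂˣ, ∃ y : ℂˣ, y ^ m = z := by
    intro m hm z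
    obtain ⟨y, hy⟩ := IsAlgClosed.exists_pow_nat_eq (z : ℂ) (Nat.pos_of_ne_zero hm)
    have hy0 : y ≠ 0 := by
      rintro rfl
      rw [zero_pow hm] at hy
      exact z.ne_zero hy.symm
    exact ⟨Units.mk0 y hy0, Units.ext (by rw [Units.val_pow_eq_pow_val, Units.val_mk0, hy])⟩
  intro z
  obtain ⟨m, rfl | rfl⟩ := k.eq_nat_or_neg
  · obtain ⟨y, hy⟩ := h1 m (by omega) z
    exact ⟨y, by simpa using hy⟩
  · obtain ⟨y, hy⟩ := h1 m (by omega) z⁻¹
    exact ⟨y, by simp [hy]⟩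

/-- **A character `H → ℂˣ` of a subgroup `H` of a commutative group `G` extends to `G`.** -/
theorem exists_extend_units {H G : Type*} [CommGroup H] [CommGroup G] (f : H →* G)
    (hf : Function.Injective f) (g : H →* ℂˣ) : ∃ h : G →* ℂˣ, ∀ x, h (f x) = g x := by
  let _ : DivisibleBy (Additive ℂˣ) ℤ := divisibleByOfSMulRightSurj (Additive ℂˣ) ℤ
    fun {k} hk z => surjective_zpow_units hk z
  obtain ⟨h, hh⟩ := (Module.Baer.of_divisible (Additive ℂˣ)).extension_property_addMonoidHom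
    (MonoidHom.toAdditive f) hf (MonoidHom.toAdditive g)
  refine ⟨MonoidHom.toAdditive.symm h, fun x => ?_⟩
  exact DFunLike.congr_fun hh (Additive.ofMul x)

variable {K : Type u} [Field K] [NumberField K] {m : Ideal (𝓞 K)}
  {n : InfinitePlace K → ℤ} {κ : InfinitePlace K → ℝ}

/-- The character `(a) ↦ chi n κ a` is well defined. -/
theorem chi_eq_of_sp (hu : ∀ v : (𝓞 K)ˣ, (v : 𝓞 K) - 1 ∈ m → chi n κ ((v : 𝓞 K) : K) = 1)
    {a b : 𝓞 K} (ha : a ≠ 0) (hb : b ≠ 0) (ha1 : a - 1 ∈ m) (hb1 : b - 1 ∈ m)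
    (h : sp a ha = sp b hb) : chi n κ (a : K) = chi n κ (b : K) := by
  have h1 : Ideal.span {a} = Ideal.span {b} := congrArg Subtype.val h
  obtain ⟨v, hv⟩ := Ideal.span_singleton_eq_span_singleton.mp h1
  have hv1 : (v : 𝓞 K) - 1 ∈ m := by
    have h2 : (v : 𝓞 K) - 1 = (b - 1) - v * (a - 1) := by rw [← hv]; ring
    rw [h2]
    exact m.sub_mem hb1 (m.mul_mem_left _ ha1)
  have h3 : (b : K) = (a : K) * ((v : 𝓞 K) : K) := by
    rw [← hv]
    exact map_mul (algebraMap (𝓞 K) K) _ _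
  rw [h3, chi_mul n κ (by exact_mod_cast ha) (by exact_mod_cast v.ne_zero), hu v hv1, mul_one]

/-- The group of the pairs `((a) / (b), chi a / chi b)`. -/
def graphG (n : InfinitePlace K → ℤ) (κ : InfinitePlace K → ℝ) (m : Ideal (𝓞 K)) :
    Subgroup ((FractionalIdeal (𝓞 K)⁰ K)ˣ × ℂˣ) where
  carrier := {x | ∃ (a b : 𝓞 K) (ha : a ≠ 0) (hb : b ≠ 0), a - 1 ∈ m ∧ b - 1 ∈ m ∧
    x.1 * FractionalIdeal.mk0 K (sp b hb) = FractionalIdeal.mk0 K (sp a ha) ∧
    (x.2 : ℂ) * chi n κ (b : K) = chi n κ (a : K)}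
  one_mem' := ⟨1, 1, one_ne_zero, one_ne_zero, by simp, by simp, by simp, by simp⟩
  mul_mem' := by
    rintro ⟨x, z⟩ ⟨x', z'⟩ ⟨a, b, ha, hb, ha1, hb1, h1, h2⟩ ⟨a', b', ha', hb', ha1', hb1', h1', h2'⟩
    have hm : ∀ c d : 𝓞 K, c - 1 ∈ m → d - 1 ∈ m → c * d - 1 ∈ m := by
      intro c d hc hd
      have : c * d - 1 = c * (d - 1) + (c - 1) := by ring
      rw [this]
      exact m.add_mem (m.mul_mem_left _ hd) hc
    have hc : ∀ c d : 𝓞 K, c ≠ 0 → d ≠ 0 →
        chi n κ ((c * d : 𝓞 K) : K) = chi n κ (c : K) * chi n κ (d : K) := by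
      intro c d hc hd
      rw [← chi_mul n κ (by exact_mod_cast hc) (by exact_mod_cast hd)]
      rfl
    refine ⟨a * a', b * b', mul_ne_zero ha ha', mul_ne_zero hb hb', hm _ _ ha1 ha1',
      hm _ _ hb1 hb1', ?_, ?_⟩
    · rw [sp_mul ha ha', sp_mul hb hb', map_mul, map_mul, ← h1, ← h1']
      change x * x' * _ = _
      rw [mul_mul_mul_comm]
    · rw [hc _ _ ha ha', hc _ _ hb hb', ← h2, ← h2']
      change ((z * z' : ℂˣ) : ℂ) * _ = _
      rw [Units.val_mul]
      ring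
  inv_mem' := by
    rintro ⟨x, z⟩ ⟨a, b, ha, hb, ha1, hb1, h1, h2⟩
    refine ⟨b, a, hb, ha, hb1, ha1, ?_, ?_⟩
    · rw [← h1]
      exact inv_mul_cancel_left x _
    · rw [← h2]
      change ((z⁻¹ : ℂˣ) : ℂ) * ((z : ℂ) * _) = _
      rw [← mul_assoc, Units.inv_mul, one_mul]

/-- (X) **Existence of Groessencharaktere.** -/
theorem existG (K : Type u) [Field K] [NumberField K] : ExistGStmt K := by
  intro n κ m hm hu
  have hinj : Function.Injective ((MonoidHom.fst (FractionalIdeal (𝓞 K)⁰ K)ˣ ℂˣ).comp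
      (graphG n κ m).subtype) := by
    rw [injective_iff_map_eq_one]
    rintro ⟨⟨x, z⟩, a, b, ha, hb, ha1, hb1, h1, h2⟩ hx
    have hx' : x = 1 := hx
    subst hx'
    have h3 : sp b hb = sp a ha := by
      have h4 : FractionalIdeal.mk0 K (sp b hb) = FractionalIdeal.mk0 K (sp a ha) := by
        rw [← h1]
        exact (one_mul _).symm
      have h5 := congrArg (fun u : (FractionalIdeal (𝓞 K)⁰ K)ˣ => (u : FractionalIdeal (𝓞 K)⁰ K)) h4
      simp only [FractionalIdeal.coe_mk0] at h5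
      exact Subtype.ext (FractionalIdeal.coeIdeal_inj.mp h5)
    have h6 := chi_eq_of_sp hu hb ha hb1 ha1 h3
    rw [← h6] at h2
    have h7 : (z : ℂ) = 1 := mul_right_cancel₀ (chi_ne_zero n κ (by exact_mod_cast hb))
      (h2.trans (one_mul _).symm)
    have h8 : z = 1 := Units.ext h7
    subst h8
    rfl
  obtain ⟨Ψ, hΨ⟩ := exists_extend_units _ hinj
    ((MonoidHom.snd (FractionalIdeal (𝓞 K)⁰ K)ˣ ℂˣ).comp (graphG n κ m).subtype)
  have hΨa : ∀ (a : 𝓞 K) (ha : a ≠ 0), a - 1 ∈ m →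
      (Ψ (FractionalIdeal.mk0 K (sp a ha)) : ℂ) = chi n κ (a : K) := by
    intro a ha ha1
    have hc0 : chi n κ (a : K) ≠ 0 := chi_ne_zero n κ (by exact_mod_cast ha)
    have h1 := hΨ ⟨(FractionalIdeal.mk0 K (sp a ha), Units.mk0 _ hc0), a, 1, ha, one_ne_zero, ha1,
      by simp, ?_, ?_⟩
    · exact congrArg Units.val h1
    · have h2 : sp (1 : 𝓞 K) one_ne_zero = 1 := by
        apply Subtype.ext
        change Ideal.span {(1 : 𝓞 K)} = 1
        rw [Ideal.span_singleton_one, Ideal.one_eq_top]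
      rw [h2, map_one, mul_one]
    · have h3 : (((1 : 𝓞 K)) : K) = 1 := map_one _
      rw [h3, chi_one, mul_one]
      rfl
  have hco : ∀ I J : (Ideal (𝓞 K))⁰, IsCoprime ((I * J : (Ideal (𝓞 K))⁰) : Ideal (𝓞 K)) m ↔
      IsCoprime (I : Ideal (𝓞 K)) m ∧ IsCoprime (J : Ideal (𝓞 K)) m := by
    intro I J
    rw [Submonoid.coe_mul]
    exact ⟨fun h => ⟨h.of_mul_left_left, h.of_mul_left_right⟩, fun h => h.1.mul_left h.2⟩
  let ψ : (Ideal (𝓞 K))⁰ →* ℂ :=
    { toFun := fun I => if IsCoprime (I : Ideal (𝓞 K)) m then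
        (Ψ (FractionalIdeal.mk0 K I) : ℂ) else 0
      map_one' := by
        rw [if_pos (by rw [OneMemClass.coe_one]; exact isCoprime_one_left), map_one, map_one,
          Units.val_one]
      map_mul' := fun I J => by
        by_cases hI : IsCoprime (I : Ideal (𝓞 K)) m
        · by_cases hJ : IsCoprime (J : Ideal (𝓞 K)) m
          · rw [if_pos hI, if_pos hJ, if_pos ((hco I J).mpr ⟨hI, hJ⟩), map_mul, map_mul,
              Units.val_mul]
          · rw [if_neg hJ, mul_zero, if_neg fun h => hJ ((hco I J).mp h).2]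
        · rw [if_neg hI, zero_mul, if_neg fun h => hI ((hco I J).mp h).1] }
  have hψ : ∀ I : (Ideal (𝓞 K))⁰, IsCoprime (I : Ideal (𝓞 K)) m →
      ψ I = (Ψ (FractionalIdeal.mk0 K I) : ℂ) := fun I hI => if_pos hI
  have hψ0 : ∀ I : (Ideal (𝓞 K))⁰, ¬ IsCoprime (I : Ideal (𝓞 K)) m → ψ I = 0 :=
    fun I hI => if_neg hI
  have hcong : ∀ (a : 𝓞 K) (ha : a ≠ 0), a - 1 ∈ m → ψ (sp a ha) = chi n κ (a : K) := by
    intro a ha ha1
    have h1 : IsCoprime ((sp a ha : (Ideal (𝓞 K))⁰) : Ideal (𝓞 K)) m :=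
      isCoprime_span_iff.mpr ⟨1, by rwa [one_mul]⟩
    rw [hψ _ h1, hΨa a ha ha1]
  refine ⟨ψ, fun I => ?_, hψ0, hcong⟩
  by_cases hI : IsCoprime (I : Ideal (𝓞 K)) m
  · obtain ⟨k, hk, a, ha, ha1⟩ := exists_pow_eq_span hm hI
    have ha0 : a ≠ 0 := by
      rintro rfl
      rw [Ideal.span_singleton_eq_bot.mpr rfl] at ha
      exact nonZeroDivisors.coe_ne_zero _ ha
    have h1 : I ^ k = sp a ha0 := Subtype.ext ha
    have h2 : ‖ψ I‖ ^ k = 1 := by
      rw [← norm_pow, ← map_pow, h1, hcong a ha0 ha1]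
      exact norm_chi n κ (by exact_mod_cast ha0)
    exact ((pow_eq_one_iff_of_nonneg (norm_nonneg _) hk).mp h2).le
  · rw [hψ0 I hI, norm_zero]
    exact zero_le_one

end Fermat.Agent.Cor.RayG

end
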