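import Fermat.Agent.Corollaries.RayG.Defs
import Fermat.Agent.Corollaries.RayN.GammaS

/-!
# The Gamma factor of a Groessencharakter (RAYG (D0))

The integral over `(0, ∞) × logSpace K` of `x^{ns-1} EG n (tt x y) a e^{-iλ(y)}`.
-/

set_option autoImplicit false
set_option linter.unusedSectionVars false

noncomputable section

open MeasureTheory Set Complex Module NumberField NumberField.InfinitePlace NumberField.Units
open NumberField.Units.dirichletUnitTheorem
open Fermat.Agent.Classic.Zeta Fermat.Agent.Cor.Ray Fermat.Agent.Cor.RayN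
open scoped Real Classical

namespace Fermat.Agent.Cor.RayG

universe u

variable {K : Type u} [Field K] [NumberField K]
variable (n : InfinitePlace K → ℤ) (κ : InfinitePlace K → ℝ)

theorem lgt_eq_add (v : ℝ) (y : logSpace K) (w : InfinitePlace K) :
    lgt K w₀ (v, y) w = v + lg y w := by
  unfold lgt lt lg
  split_ifs with h
  · rw [h]
    ring
  · rfl

theorem sgG_re_pos {s : ℂ} (hs : 0 < s.re) (w : InfinitePlace K) : 0 < (sgG n κ s w).re := by
  have h1 : (sgG n κ s w).re = w.mult * s.re + (n w).natAbs := by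
    rw [sgG, Complex.sub_re, Complex.add_re, Complex.re_ofReal_mul, Complex.I_re, mul_zero,
      sub_zero, Complex.natCast_re]
    congr 1
    have := Complex.re_ofReal_mul (w.mult : ℝ) s
    rw [← this]
    norm_cast
  rw [h1]
  have h2 : (0 : ℝ) < w.mult := by exact_mod_cast w.mult_pos
  have h3 : (0 : ℝ) ≤ (n w).natAbs := Nat.cast_nonneg _
  positivity

/-- the integrand in logarithmic coordinates -/
def kerKG (s : ℂ) (x : K) (p : ℝ × ({w : InfinitePlace K // w ≠ w₀} → ℝ)) : ℂ :=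
  pG n x * kerD (fun w : InfinitePlace K => π * w.mult * w x ^ 2) (sgG n κ s) (lgt K w₀ p)

theorem eI_sum (f : InfinitePlace K → ℝ) : eI (∑ w, f w) = ∏ w, eI (f w) := by
  simp only [eI]
  rw [← Complex.exp_sum, Complex.ofReal_sum, Finset.sum_mul]

/-- the local factor -/
theorem locGG (s : ℂ) {x : K} (hx : x ≠ 0) (w : InfinitePlace K) :
    1 / 2 * (((π * (w.mult : ℝ) * w x ^ 2 : ℝ)) : ℂ) ^ (-(sgG n κ s w / 2)) *
      Complex.Gamma (sgG n κ s w / 2) =
    1 / 2 * ((((π * w.mult : ℝ) : ℂ) ^ (-(sgG n κ s w / 2)) * Complex.Gamma (sgG n κ s w / 2)) *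
      ((w x ^ w.mult : ℝ) : ℂ) ^ (-s) * (((w x ^ (n w).natAbs : ℝ) : ℂ)⁻¹ *
        eI (κ w * Real.log (w x)))) := by
  have hpos : 0 < w x := w.pos_iff.mpr hx
  have hne : ((w x : ℝ) : ℂ) ≠ 0 := by exact_mod_cast hpos.ne'
  rw [ofReal_mul, mul_cpow_ofReal_nonneg (by positivity) (by positivity)]
  have h2 : ((w x ^ 2 : ℝ) : ℂ) ^ (-(sgG n κ s w / 2)) = ((w x : ℝ) : ℂ) ^ (-sgG n κ s w) := by
    have h3 := sq_cpow hpos 1 (sgG n κ s w)
    rwa [Nat.cast_one, one_mul, pow_one] at h3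
  have h3 : ((w x : ℝ) : ℂ) ^ (-sgG n κ s w) = ((w x ^ w.mult : ℝ) : ℂ) ^ (-s) *
      (((w x ^ (n w).natAbs : ℝ) : ℂ)⁻¹ * eI (κ w * Real.log (w x))) := by
    have h4 : -sgG n κ s w = -((w.mult : ℂ) * s) + (-((n w).natAbs : ℂ) + κ w * Complex.I) := by
      rw [sgG]
      ring
    have h5 : ((w x ^ w.mult : ℝ) : ℂ) ^ (-s) = ((w x : ℝ) : ℂ) ^ (-((w.mult : ℂ) * s)) := by
      rw [cpow_def_of_ne_zero (by exact_mod_cast (pow_pos hpos w.mult).ne'),
        cpow_def_of_ne_zero hne, ← ofReal_log (by positivity), ← ofReal_log hpos.le, Real.log_pow]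
      congr 1
      push_cast
      ring
    have h6 : ((w x : ℝ) : ℂ) ^ ((κ w : ℂ) * Complex.I) = eI (κ w * Real.log (w x)) := by
      rw [eI, Complex.cpow_def_of_ne_zero hne, ← Complex.ofReal_log hpos.le]
      congr 1
      push_cast
      ring
    rw [h4, cpow_add _ _ hne, cpow_add _ _ hne, h5, h6, Complex.cpow_neg _ ((n w).natAbs : ℂ),
      Complex.cpow_natCast, ofReal_pow]
  rw [h2, h3]
  ring

/-- the product over all places -/
theorem prod_locGG (s : ℂ) {x : K} (hx : x ≠ 0) :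
    ∏ w : InfinitePlace K, (1 / 2 * (((π * w.mult * w x ^ 2 : ℝ)) : ℂ) ^ (-(sgG n κ s w / 2)) *
      Complex.Gamma (sgG n κ s w / 2)) =
      (1 / 2) ^ Fintype.card (InfinitePlace K) * gamG n κ s *
        ((|(Algebra.norm ℚ x : ℝ)| : ℝ) : ℂ) ^ (-s) *
        (((‖pG n x‖ : ℝ) : ℂ)⁻¹ * eI (lK κ x)) := by
  have hpos : ∀ w : InfinitePlace K, 0 < w x := fun w => w.pos_iff.mpr hx
  rw [norm_pG, lK, eI_sum, ofReal_prod, ← Finset.prod_inv_distrib, ← Finset.prod_mul_distrib, gamG,
    ← prod_pow_mult, finset_prod_cpow _ (fun w => pow_nonneg (hpos w).le _),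
    ← Finset.card_univ, ← Finset.prod_const, ← Finset.prod_mul_distrib, ← Finset.prod_mul_distrib,
    ← Finset.prod_mul_distrib]
  refine Finset.prod_congr rfl fun w _ => ?_
  rw [locGG n κ s hx w]
  ring

/-! ## the integral -/

theorem kerKG_eq (hκ : ∑ w, κ w = 0) (s : ℂ) (x : K) (v : ℝ) (y : logSpace K) :
    kerKG n κ s x (v, y) = pG n x *
      ((∏ w : InfinitePlace K, Real.exp (lgt K w₀ (v, y) w) ^ (n w).natAbs : ℝ) : ℂ) *
      eI (-lam κ y) * kerK w₀ s x (v, y) := by
  rw [kerKG, kerD_eq, kerK]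
  have h1 : ∑ w : InfinitePlace K, sgG n κ s w * (lgt K w₀ (v, y) w : ℂ) =
      s * (Module.finrank ℚ K * v : ℝ) +
        ∑ w : InfinitePlace K, (((n w).natAbs * lgt K w₀ (v, y) w : ℝ) : ℂ) +
        ((-lam κ y : ℝ) : ℂ) * Complex.I := by
    have h2 : ∀ w : InfinitePlace K, sgG n κ s w * (lgt K w₀ (v, y) w : ℂ) =
        s * ((w.mult * lgt K w₀ (v, y) w : ℝ) : ℂ) +
          (((n w).natAbs * lgt K w₀ (v, y) w : ℝ) : ℂ) +
          ((-(κ w * v + κ w * lg y w) : ℝ) : ℂ) * Complex.I := by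
      intro w
      rw [sgG, ← mul_add, ← lgt_eq_add (K := K) v y w]
      push_cast
      ring
    have h3 : ∑ w : InfinitePlace K, (-(κ w * v + κ w * lg y w)) = -lam κ y := by
      rw [Finset.sum_neg_distrib, Finset.sum_add_distrib, ← Finset.sum_mul, hκ, zero_mul, zero_add,
        lam]
    rw [Finset.sum_congr rfl fun w _ => h2 w, Finset.sum_add_distrib, Finset.sum_add_distrib,
      ← Finset.mul_sum, ← Finset.sum_mul, ← ofReal_sum, ← ofReal_sum Finset.univ
        (fun w : InfinitePlace K => -(κ w * v + κ w * lg y w)), h3]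
    congr 4
    have h := sum_lt (n := fun w : InfinitePlace K => (w.mult : ℝ)) w₀
      (fun w => mult_pos' K w) (v, y)
    have h5 : ∑ w : InfinitePlace K, (w.mult : ℝ) = Module.finrank ℚ K := by
      have := sum_mult_eq (K := K)
      exact_mod_cast this
    rw [h5] at h
    rw [← h]
    refine Finset.sum_congr rfl fun w _ => ?_
    rw [lgt]
  have h4 : (∑ w : InfinitePlace K, π * w.mult * w x ^ 2 * Real.exp (2 * lgt K w₀ (v, y) w)) =
      π * qf w₀ x (v, y) := by
    rw [qf, Finset.mul_sum]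
    refine Finset.sum_congr rfl fun w _ => ?_
    rw [← Real.exp_nat_mul]
    push_cast
    ring
  have h6 : cexp (∑ w : InfinitePlace K, (((n w).natAbs * lgt K w₀ (v, y) w : ℝ) : ℂ)) =
      ((∏ w : InfinitePlace K, Real.exp (lgt K w₀ (v, y) w) ^ (n w).natAbs : ℝ) : ℂ) := by
    rw [Complex.exp_sum, ofReal_prod]
    refine Finset.prod_congr rfl fun w _ => ?_
    rw [← Real.exp_nat_mul, Complex.ofReal_exp]
  rw [h1, h4, Complex.exp_add, Complex.exp_add, h6, ← eI]
  ring

/-- **The Gamma factor of type `(n, κ)`.** -/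
theorem exists_integral_kerKG (K : Type u) [Field K] [NumberField K] : ∃ c : ℝ, 0 < c ∧
    ∀ (n : InfinitePlace K → ℤ) (κ : InfinitePlace K → ℝ) (x : K), x ≠ 0 → ∀ s : ℂ, 0 < s.re →
      Integrable (kerKG n κ s x) volume ∧
      ∫ p : ℝ × ({w : InfinitePlace K // w ≠ w₀} → ℝ), kerKG n κ s x p =
        c * gamG n κ s * chi n κ x * ((|(Algebra.norm ℚ x : ℝ)| : ℝ) : ℂ) ^ (-s) := by
  obtain ⟨c, hc, h1, h2⟩ := exists_integral_lt (n := fun w : InfinitePlace K => (w.mult : ℝ)) w₀
    (fun w => mult_pos' K w)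
  refine ⟨c * (1 / 2) ^ Fintype.card (InfinitePlace K), by positivity, ?_⟩
  intro n κ x hx s hs
  have hpos : ∀ w : InfinitePlace K, 0 < π * w.mult * w x ^ 2 := fun w =>
    mul_pos (mul_pos Real.pi_pos (mult_pos' K w)) (pow_pos (w.pos_iff.mpr hx) 2)
  have h3 := integrable_kerD hpos (sgG_re_pos n κ hs)
  have h4 := integral_kerD hpos (sgG_re_pos n κ hs)
  have h5 : kerKG n κ s x = fun p => pG n x * kerD
      (fun w : InfinitePlace K => π * w.mult * w x ^ 2) (sgG n κ s)
      (lt (fun w : InfinitePlace K => (w.mult : ℝ)) w₀ p) := by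
    funext p
    rw [kerKG]
    congr 2
  rw [h5]
  refine ⟨(h1 _ h3).const_mul _, ?_⟩
  rw [integral_const_mul, h2, h4, prod_locGG n κ s hx, chi, aG]
  push_cast
  ring

/-- the integrand on `(0, ∞) × logSpace K` -/
def kerXG (s : ℂ) (a : K) (p : ℝ × logSpace K) : ℂ :=
  (p.1 : ℂ) ^ ((Module.finrank ℚ K : ℂ) * s - 1) * (EG n (tt p.1 p.2) a * eI (-lam κ p.2))

theorem exp_mul_kerXG (hκ : ∑ w, κ w = 0) (s : ℂ) (a : K) (v : ℝ) (y : logSpace K) :
    (Real.exp v : ℂ) * kerXG n κ s a (Real.exp v, y) = kerKG n κ s a (v, y) := by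
  have h1 : (∏ w : InfinitePlace K, √(tt (Real.exp v) y w) ^ (n w).natAbs) =
      ∏ w : InfinitePlace K, Real.exp (lgt K w₀ (v, y) w) ^ (n w).natAbs := by
    refine Finset.prod_congr rfl fun w _ => ?_
    rw [tt_exp, Real.sqrt_sq (Real.exp_pos _).le]
  rw [kerKG_eq n κ hκ, ← exp_mul_kerX, kerX, kerXG, EG, h1]
  ring

theorem continuousOn_kerXG (s : ℂ) (a : K) : ContinuousOn (kerXG n κ s a) (Ioi 0 ×ˢ univ) := by
  have hE : Continuous fun p : ℝ × logSpace K => EG n (tt p.1 p.2) a * eI (-lam κ p.2) := by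
    refine Continuous.mul ?_ (continuous_eI.comp ((continuous_lam κ).comp continuous_snd).neg)
    unfold EG
    refine Continuous.mul (Continuous.mul ?_ continuous_const)
      (continuous_ofReal.comp (continuous_E_tt a))
    exact continuous_ofReal.comp
      (continuous_finsetProd _ fun w _ => ((continuous_tt w).sqrt.pow _))
  refine ContinuousOn.mul ?_ hE.continuousOn
  intro p hp
  refine ContinuousAt.continuousWithinAt ?_
  have h : ContinuousAt (fun z : ℂ => z ^ ((Module.finrank ℚ K : ℂ) * s - 1)) (p.1 : ℂ) :=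
    continuousAt_cpow_const (Or.inl (by simpa using hp.1))
  exact ContinuousAt.comp (f := fun p : ℝ × logSpace K => (p.1 : ℂ)) h
    (continuous_ofReal.comp continuous_fst).continuousAt

/-- (D0) -/
theorem gammaGStmt (K : Type u) [Field K] [NumberField K] : GammaGStmt K := by
  obtain ⟨c, hc, h⟩ := exists_integral_kerKG K
  refine ⟨c, hc, fun n κ hκ a ha s hs => ?_⟩
  obtain ⟨h1, h2⟩ := h n κ a ha s hs
  have hm : AEStronglyMeasurable (kerXG n κ s a)
      ((volume : Measure (ℝ × logSpace K)).restrict (Ioi 0 ×ˢ univ)) :=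
    (continuousOn_kerXG n κ s a).aestronglyMeasurable (measurableSet_Ioi.prod MeasurableSet.univ)
  have hr : (volume : Measure (ℝ × logSpace K)).restrict (Ioi 0 ×ˢ univ) =
      ((volume : Measure ℝ).restrict (Ioi 0)).prod (volume : Measure (logSpace K)) := by
    rw [← Measure.restrict_univ (μ := (volume : Measure (logSpace K))), Measure.prod_restrict]
    rfl
  have hI : IntegrableOn (kerXG n κ s a) (Ioi 0 ×ˢ univ) := by
    refine ⟨hm, ?_⟩
    rw [HasFiniteIntegral, hr, lintegral_prod _ (by rw [← hr]; exact hm.enorm), ← image_exp,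
      lintegral_image_eq_lintegral_abs_deriv_mul MeasurableSet.univ
        (fun x _ => (Real.hasDerivAt_exp x).hasDerivWithinAt) Real.exp_injective.injOn,
      Measure.restrict_univ]
    have h3 : ∫⁻ p, ‖kerKG n κ s a p‖ₑ ∂(volume : Measure (ℝ × logSpace K)) < ⊤ := h1.2
    have h4 : ∫⁻ p, ‖kerKG n κ s a p‖ₑ ∂(volume : Measure (ℝ × logSpace K)) =
        ∫⁻ v : ℝ, ∫⁻ y : logSpace K, ‖kerKG n κ s a (v, y)‖ₑ :=
      lintegral_prod _ h1.1.enorm
    rw [h4] at h3
    refine lt_of_eq_of_lt (lintegral_congr fun v => ?_) h3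
    rw [← lintegral_const_mul']
    · refine lintegral_congr fun y => ?_
      rw [← exp_mul_kerXG n κ hκ, enorm_mul, abs_of_pos (Real.exp_pos v)]
      congr 1
      rw [← ofReal_norm, Complex.norm_real, Real.norm_of_nonneg (Real.exp_pos v).le]
    · exact ENNReal.ofReal_ne_top
  refine ⟨hI, ?_⟩
  have h5 : ∫ x in Ioi (0 : ℝ), ∫ y : logSpace K, kerXG n κ s a (x, y) =
      ∫ p : ℝ × logSpace K, kerKG n κ s a p := by
    have h6 : ∫ p : ℝ × logSpace K, kerKG n κ s a p =
        ∫ v : ℝ, ∫ y : logSpace K, kerKG n κ s a (v, y) := integral_prod _ h1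
    rw [← image_exp, integral_image_eq_integral_abs_deriv_smul MeasurableSet.univ
      (fun x _ => (Real.hasDerivAt_exp x).hasDerivWithinAt) Real.exp_injective.injOn,
      Measure.restrict_univ, h6]
    refine integral_congr_ae (Filter.Eventually.of_forall fun v => ?_)
    simp only
    rw [abs_of_pos (Real.exp_pos v), real_smul, ← integral_const_mul]
    refine integral_congr_ae (Filter.Eventually.of_forall fun y => ?_)
    exact exp_mul_kerXG n κ hκ s a v y
  refine h5.trans (h2.trans ?_)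
  norm_cast

end Fermat.Agent.Cor.RayG

end
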