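import Fermat.Agent.Corollaries.RayG.Defs
import Fermat.Agent.Corollaries.Ray.Entire

/-!
# The `L`-function of a Groessencharakter of non-trivial type is entire

`lFunG : EntireGStmt K → LFunGStmt K`.  The weight attached to a Groessencharakter `ψ` of type
`(n, κ)` is `φ x = ψ (x) * conj (chi n κ x)`; it is periodic modulo `J 𝔪` on the ideal `J`, and
`L(s, ψ)` is the sum over the ideal classes of the zeta functions of these weights.
-/

set_option autoImplicit false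
set_option linter.unusedSectionVars false

noncomputable section

namespace Fermat.Agent.Cor.RayG

open NumberField NumberField.InfinitePlace
open Fermat.Agent.Classic.Zeta Fermat.Agent.Cor.Ray
open scoped nonZeroDivisors Classical ComplexConjugate

universe u

variable {K : Type u} [Field K] [NumberField K] {m : Ideal (𝓞 K)} {ψ : (Ideal (𝓞 K))⁰ →* ℂ}
  {n : InfinitePlace K → ℤ} {κ : InfinitePlace K → ℝ}

/-- The function on elements attached to a Groessencharakter of type `(n, κ)`. -/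
def elG (n : InfinitePlace K → ℤ) (κ : InfinitePlace K → ℝ) (m : Ideal (𝓞 K))
    (ψ : (Ideal (𝓞 K))⁰ →* ℂ) (x : 𝓞 K) : ℂ :=
  if hx : x = 0 then (if m = ⊤ then 1 else 0) else ψ (sp x hx) * conj (chi n κ (x : K))

theorem elG_of_ne {x : 𝓞 K} (hx : x ≠ 0) :
    elG n κ m ψ x = ψ (sp x hx) * conj (chi n κ (x : K)) :=
  dif_neg hx

theorem coe_ne_zeroG {a : 𝓞 K} (ha : a ≠ 0) : (a : K) ≠ 0 := by exact_mod_cast ha

theorem coe_chi_mul {a b : 𝓞 K} (ha : a ≠ 0) (hb : b ≠ 0) :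
    chi n κ ((a * b : 𝓞 K) : K) = chi n κ (a : K) * chi n κ (b : K) := by
  rw [← chi_mul n κ (coe_ne_zeroG ha) (coe_ne_zeroG hb)]
  rfl

theorem norm_elG_le (h : GChar n κ m ψ) (x : 𝓞 K) : ‖elG n κ m ψ x‖ ≤ 1 := by
  by_cases hx : x = 0
  · rw [elG, dif_pos hx]
    split_ifs <;> simp
  · rw [elG_of_ne hx, norm_mul, Complex.norm_conj, norm_chi n κ (coe_ne_zeroG hx), mul_one]
    exact h.norm_le _

theorem elG_mul_of_cong (h : GChar n κ m ψ) {b x : 𝓞 K} (hb : b ≠ 0) (hx : x ≠ 0)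
    (hbx : b * x - 1 ∈ m) : (ψ (sp b hb) * conj (chi n κ (b : K))) * elG n κ m ψ x = 1 := by
  have h1 := h.cong (b * x) (mul_ne_zero hb hx) hbx
  rw [sp_mul hb hx, map_mul, coe_chi_mul hb hx] at h1
  have h2 := conj_chi_mul n κ (coe_ne_zeroG hb)
  have h3 := conj_chi_mul n κ (coe_ne_zeroG hx)
  rw [elG_of_ne hx]
  calc ψ (sp b hb) * conj (chi n κ (b : K)) * (ψ (sp x hx) * conj (chi n κ (x : K)))
      = (ψ (sp b hb) * ψ (sp x hx)) * (conj (chi n κ (b : K)) * conj (chi n κ (x : K))) := by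
        ring
    _ = (conj (chi n κ (b : K)) * chi n κ (b : K)) * (conj (chi n κ (x : K)) * chi n κ (x : K)) := by
      rw [h1]
      ring
    _ = 1 := by rw [h2, h3, one_mul]

theorem elG_add (h : GChar n κ m ψ) (x : 𝓞 K) {r : 𝓞 K} (hr : r ∈ m) :
    elG n κ m ψ (x + r) = elG n κ m ψ x := by
  by_cases hm : m = ⊤
  · have h1 : ∀ y : 𝓞 K, elG n κ m ψ y = 1 := by
      intro y
      by_cases hy : y = 0
      · rw [elG, dif_pos hy, if_pos hm]
      · rw [elG_of_ne hy, h.cong y hy (by rw [hm]; trivial), mul_comm,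
          conj_chi_mul n κ (coe_ne_zeroG hy)]
    rw [h1, h1]
  by_cases hc : IsCoprime (Ideal.span {x}) m
  · obtain ⟨b, hb⟩ := isCoprime_span_iff.mp hc
    have hb' : b * (x + r) - 1 ∈ m := by
      have : b * (x + r) - 1 = (b * x - 1) + b * r := by ring
      rw [this]
      exact m.add_mem hb (m.mul_mem_left _ hr)
    have hne : ∀ y : 𝓞 K, b * y - 1 ∈ m → b ≠ 0 ∧ y ≠ 0 := by
      intro y hy
      constructor
      · rintro rfl
        apply hm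
        rw [Ideal.eq_top_iff_one]
        have := m.neg_mem hy
        simpa using this
      · rintro rfl
        apply hm
        rw [Ideal.eq_top_iff_one]
        have := m.neg_mem hy
        simpa using this
    obtain ⟨hb0, hx0⟩ := hne x hb
    obtain ⟨-, hxr0⟩ := hne (x + r) hb'
    have e1 := elG_mul_of_cong h hb0 hx0 hb
    have e2 := elG_mul_of_cong h hb0 hxr0 hb'
    exact mul_left_cancel₀ (left_ne_zero_of_mul_eq_one e1) (e2.trans e1.symm)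
  · have hc' : ¬ IsCoprime (Ideal.span {x + r}) m := by
      intro h1
      apply hc
      rw [isCoprime_span_iff] at h1 ⊢
      obtain ⟨b, hb⟩ := h1
      refine ⟨b, ?_⟩
      have : b * x - 1 = (b * (x + r) - 1) - b * r := by ring
      rw [this]
      exact m.sub_mem hb (m.mul_mem_left _ hr)
    have h0 : ∀ y : 𝓞 K, ¬ IsCoprime (Ideal.span {y}) m → elG n κ m ψ y = 0 := by
      intro y hy
      by_cases hy0 : y = 0
      · rw [elG, dif_pos hy0, if_neg hm]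
      · have h7 : ψ (sp y hy0) = 0 := h.eq_zero _ hy
        rw [elG_of_ne hy0, h7, zero_mul]
    rw [h0 _ hc, h0 _ hc']

theorem elG_unit_mul (h : GChar n κ m ψ) (v : (𝓞 K)ˣ) (x : 𝓞 K) :
    elG n κ m ψ ((v : 𝓞 K) * x) = conj (chi n κ ((v : 𝓞 K) : K)) * elG n κ m ψ x := by
  have hv0 : (v : 𝓞 K) ≠ 0 := Units.ne_zero v
  by_cases hx : x = 0
  · rw [hx, mul_zero, elG, dif_pos rfl]
    split_ifs with hm
    · have h1 := h.cong v hv0 (by rw [hm]; trivial)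
      have h2 : sp (v : 𝓞 K) hv0 = 1 := by
        apply Subtype.ext
        change Ideal.span {(v : 𝓞 K)} = 1
        rw [Ideal.one_eq_top, Ideal.span_singleton_eq_top]
        exact v.isUnit
      rw [h2, map_one] at h1
      rw [← h1, map_one, mul_one]
    · rw [mul_zero]
  · rw [elG_of_ne hx, elG_of_ne (mul_ne_zero hv0 hx), coe_chi_mul hv0 hx, map_mul]
    have h1 : sp ((v : 𝓞 K) * x) (mul_ne_zero hv0 hx) = sp x hx :=
      Subtype.ext (Ideal.span_singleton_mul_left_unit v.isUnit x)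
    rw [h1]
    ring

/-- the weight on `K` -/
def wG (n : InfinitePlace K → ℤ) (κ : InfinitePlace K → ℝ) (m : Ideal (𝓞 K))
    (ψ : (Ideal (𝓞 K))⁰ →* ℂ) (J : Ideal (𝓞 K)) (x : K) : ℂ :=
  if h : ∃ a ∈ J, (a : K) = x then elG n κ m ψ h.choose else 0

theorem wG_coe {J : Ideal (𝓞 K)} {a : 𝓞 K} (ha : a ∈ J) : wG n κ m ψ J (a : K) = elG n κ m ψ a := by
  have h : ∃ b ∈ J, (b : K) = (a : K) := ⟨a, ha, rfl⟩
  rw [wG, dif_pos h]
  congr 1
  exact RingOfIntegers.ext h.choose_spec.2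

theorem wG_of_notMem {J : Ideal (𝓞 K)} {x : K} (hx : x ∉ (J : FractionalIdeal (𝓞 K)⁰ K)) :
    wG n κ m ψ J x = 0 := by
  rw [wG, dif_neg]
  rintro ⟨a, ha, rfl⟩
  exact hx (FractionalIdeal.mem_coeIdeal_of_mem _ ha)

theorem wG_per (h : GChar n κ m ψ) {J : Ideal (𝓞 K)} (x : K) {c : 𝓞 K}
    (hcJ : c ∈ J) (hcm : c ∈ m) : wG n κ m ψ J (x + (c : K)) = wG n κ m ψ J x := by
  by_cases hx : ∃ a ∈ J, (a : K) = x
  · obtain ⟨a, ha, rfl⟩ := hx
    have h1 : (a : K) + (c : K) = ((a + c : 𝓞 K) : K) := (map_add (algebraMap (𝓞 K) K) a c).symm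
    rw [h1, wG_coe (J.add_mem ha hcJ), elG_add h a hcm, wG_coe ha]
  · rw [wG_of_notMem, wG_of_notMem]
    · rwa [mem_coeIdeal_iff']
    · rw [mem_coeIdeal_iff']
      rintro ⟨b, hb, hbx⟩
      refine hx ⟨b - c, J.sub_mem hb hcJ, ?_⟩
      have h1 : ((b - c : 𝓞 K) : K) = (b : K) - (c : K) := map_sub (algebraMap (𝓞 K) K) b c
      rw [h1, hbx, add_sub_cancel_right]

theorem wG_unit (h : GChar n κ m ψ) {J : Ideal (𝓞 K)} (v : (𝓞 K)ˣ) (x : K) :
    wG n κ m ψ J (((v : 𝓞 K) : K) * x) = conj (chi n κ ((v : 𝓞 K) : K)) * wG n κ m ψ J x := by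
  by_cases hx : ∃ a ∈ J, (a : K) = x
  · obtain ⟨a, ha, rfl⟩ := hx
    have h1 : ((v : 𝓞 K) : K) * (a : K) = (((v : 𝓞 K) * a : 𝓞 K) : K) :=
      (map_mul (algebraMap (𝓞 K) K) _ a).symm
    rw [h1, wG_coe (J.mul_mem_left _ ha), elG_unit_mul h, wG_coe ha]
  · rw [wG_of_notMem, wG_of_notMem, mul_zero]
    · rwa [mem_coeIdeal_iff']
    · rw [mem_coeIdeal_iff']
      rintro ⟨b, hb, hbx⟩
      refine hx ⟨((v⁻¹ : (𝓞 K)ˣ) : 𝓞 K) * b, J.mul_mem_left _ hb, ?_⟩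
      have h1 : ((((v⁻¹ : (𝓞 K)ˣ) : 𝓞 K) * b : 𝓞 K) : K) =
        (((v⁻¹ : (𝓞 K)ˣ) : 𝓞 K) : K) * (b : K) := map_mul (algebraMap (𝓞 K) K) _ b
      have h3 : (((v⁻¹ : (𝓞 K)ˣ) : 𝓞 K) : K) * ((v : 𝓞 K) : K) = 1 := by
        rw [← map_mul, Units.inv_mul, map_one]
      rw [h1, hbx, ← mul_assoc, h3, one_mul]

theorem norm_wG_le (h : GChar n κ m ψ) {J : Ideal (𝓞 K)} (x : K) : ‖wG n κ m ψ J x‖ ≤ 1 := by
  by_cases hx : ∃ a ∈ J, (a : K) = x
  · obtain ⟨a, ha, rfl⟩ := hx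
    rw [wG_coe ha]
    exact norm_elG_le h a
  · rw [wG_of_notMem (by rwa [mem_coeIdeal_iff']), norm_zero]
    exact zero_le_one

theorem isWtG_wG (hm : m ≠ ⊥) (h : GChar n κ m ψ) {J : Ideal (𝓞 K)}
    (hJ : J ≠ ⊥) :
    IsWtG n κ (J : FractionalIdeal (𝓞 K)⁰ K) ((J * m : Ideal (𝓞 K)) : FractionalIdeal (𝓞 K)⁰ K)
      (wG n κ m ψ J) where
  hb := FractionalIdeal.coeIdeal_ne_zero.mpr hJ
  hc := FractionalIdeal.coeIdeal_ne_zero.mpr (mul_ne_zero hJ hm)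
  le := (FractionalIdeal.coeIdeal_le_coeIdeal K).mpr Ideal.mul_le_left
  supp x hx := wG_of_notMem hx
  per x c hc := by
    obtain ⟨c', hc', rfl⟩ := mem_coeIdeal_iff'.mp hc
    exact wG_per h x (Ideal.mul_le_left hc') (Ideal.mul_le_right hc')
  unit v x := wG_unit h v x
  bdd := ⟨1, norm_wG_le h⟩

theorem wG_gen (J : (Ideal (𝓞 K))⁰) (𝔞 : Cls (FractionalIdeal.mk0 K J)) :
    wG n κ m ψ (J : Ideal (𝓞 K)) (Classes.gen 𝔞 : K) * chi n κ (Classes.gen 𝔞 : K) =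
      ψ 𝔞.1 * ψ J := by
  have h1 := Classes.span_gen 𝔞
  have h2 : (Classes.gen 𝔞 : K) ∈ ((J : Ideal (𝓞 K)) : FractionalIdeal (𝓞 K)⁰ K) :=
    Classes.gen_mem 𝔞
  obtain ⟨a, haJ, ha⟩ := mem_coeIdeal_iff'.mp h2
  have ha0 : a ≠ 0 := by
    rintro rfl
    exact (Classes.gen 𝔞).ne_zero (ha.symm.trans (map_zero (algebraMap (𝓞 K) K)))
  rw [← ha, wG_coe haJ, elG_of_ne ha0, mul_assoc,
    conj_chi_mul n κ (coe_ne_zeroG ha0), mul_one, ← map_mul]
  congr 1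
  refine Subtype.ext ?_
  rw [← ha, FractionalIdeal.coe_mk0, ← FractionalIdeal.coeIdeal_span_singleton,
    ← FractionalIdeal.coeIdeal_mul, FractionalIdeal.coeIdeal_inj] at h1
  exact h1

theorem term_genG (J : (Ideal (𝓞 K))⁰) (𝔞 : Cls (FractionalIdeal.mk0 K J)) (s : ℂ) :
    wG n κ m ψ (J : Ideal (𝓞 K)) (Classes.gen 𝔞 : K) * chi n κ (Classes.gen 𝔞 : K) *
      (((|Algebra.norm ℚ (Classes.gen 𝔞 : K)| : ℚ) : ℂ)) ^ (-s) =
    (ψ J * (Ideal.absNorm (J : Ideal (𝓞 K)) : ℂ) ^ (-s)) *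
      (ψ 𝔞.1 * (Ideal.absNorm (𝔞.1 : Ideal (𝓞 K)) : ℂ) ^ (-s)) := by
  rw [wG_gen, Classes.abs_norm_gen, nF_mk0]
  push_cast
  rw [Complex.natCast_mul_natCast_cpow]
  ring

theorem summable_LsG (h : GChar n κ m ψ) {s : ℂ} (hs : 1 < s.re) :
    Summable fun I : (Ideal (𝓞 K))⁰ => ψ I * (Ideal.absNorm (I : Ideal (𝓞 K)) : ℂ) ^ (-s) := by
  refine Summable.of_norm_bounded (Classes.summable_nrm_ideals hs).norm fun I => ?_
  rw [norm_mul]
  exact mul_le_of_le_one_left (norm_nonneg _) (h.norm_le I)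

theorem ne_zero_of_coprimeG (hm : m ≠ ⊥) (h : GChar n κ m ψ)
    {I : (Ideal (𝓞 K))⁰} (hI : IsCoprime (I : Ideal (𝓞 K)) m) : ψ I ≠ 0 := by
  obtain ⟨J, a, ha, hJ, hc, hIJ⟩ := exists_mul_eq_span hm hI
  obtain ⟨b, hb⟩ := isCoprime_span_iff.mp hc
  intro h0
  have h2 : ψ (sp a ha) = 0 := by
    have : sp a ha = I * J := Subtype.ext hIJ.symm
    rw [this, map_mul, h0, zero_mul]
  by_cases hb0 : b = 0
  · subst hb0
    have hmt : m = ⊤ := by
      rw [Ideal.eq_top_iff_one]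
      have := m.neg_mem hb
      simpa using this
    have := h.cong a ha (by rw [hmt]; trivial)
    rw [h2] at this
    exact chi_ne_zero n κ (coe_ne_zeroG ha) this.symm
  · have e1 := h.cong _ (mul_ne_zero hb0 ha) hb
    rw [sp_mul hb0 ha, map_mul, h2, mul_zero] at e1
    exact chi_ne_zero n κ (coe_ne_zeroG (mul_ne_zero hb0 ha)) e1.symm

theorem Ls_eq_sumG (hm : m ≠ ⊥) (h : GChar n κ m ψ) {s : ℂ} (hs : 1 < s.re) :
    Ls ψ s = ∑ C : ClassGroup (𝓞 K), (ψ (JC hm C))⁻¹ *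
      (Ideal.absNorm (JC hm C : Ideal (𝓞 K)) : ℂ) ^ s *
        ∑' 𝔞 : Cls (FractionalIdeal.mk0 K (JC hm C)), wG n κ m ψ (JC hm C : Ideal (𝓞 K))
          (Classes.gen 𝔞 : K) * chi n κ (Classes.gen 𝔞 : K) *
            (((|Algebra.norm ℚ (Classes.gen 𝔞 : K)| : ℚ) : ℂ)) ^ (-s) := by
  let e : (Σ C : ClassGroup (𝓞 K), {𝔞 : (Ideal (𝓞 K))⁰ // ClassGroup.mk0 𝔞 = C}) ≃
      (Ideal (𝓞 K))⁰ := Equiv.sigmaFiberEquiv (fun I : (Ideal (𝓞 K))⁰ => ClassGroup.mk0 I)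
  have hsum : Summable fun c => ψ (e c) * (Ideal.absNorm (e c : Ideal (𝓞 K)) : ℂ) ^ (-s) :=
    (e.summable_iff).mpr (summable_LsG h hs)
  rw [Ls, ← e.tsum_eq, Summable.tsum_sigma hsum, tsum_fintype]
  refine Finset.sum_congr rfl fun C _ => ?_
  have h1 : ∀ 𝔞 : Cls (FractionalIdeal.mk0 K (JC hm C)), wG n κ m ψ (JC hm C : Ideal (𝓞 K))
      (Classes.gen 𝔞 : K) * chi n κ (Classes.gen 𝔞 : K) *
        (((|Algebra.norm ℚ (Classes.gen 𝔞 : K)| : ℚ) : ℂ)) ^ (-s) =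
      (ψ (JC hm C) * (Ideal.absNorm (JC hm C : Ideal (𝓞 K)) : ℂ) ^ (-s)) *
        (ψ 𝔞.1 * (Ideal.absNorm (𝔞.1 : Ideal (𝓞 K)) : ℂ) ^ (-s)) := fun 𝔞 => term_genG _ 𝔞 s
  rw [tsum_congr h1, tsum_mul_left, tsum_Cls hm]
  have h2 : ψ (JC hm C) ≠ 0 := ne_zero_of_coprimeG hm h (JC_coprime hm C)
  have h3 : (Ideal.absNorm (JC hm C : Ideal (𝓞 K)) : ℂ) ≠ 0 := by
    exact_mod_cast (Ideal.absNorm_pos_of_nonZeroDivisors (JC hm C)).ne'
  have h4 : (Ideal.absNorm (JC hm C : Ideal (𝓞 K)) : ℂ) ^ s ≠ 0 := by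
    rw [Complex.cpow_ne_zero_iff]
    exact Or.inl h3
  rw [Complex.cpow_neg]
  change _ = _
  field_simp
  rfl

/-- (F) **The `L`-function of a Groessencharakter of non-trivial type is entire.** -/
theorem lFunG (hE : EntireGStmt K) : LFunGStmt K := by
  intro n κ hty hne m hm ψ h
  have hJ0 : ∀ C : ClassGroup (𝓞 K), (JC hm C : Ideal (𝓞 K)) ≠ ⊥ := fun C =>
    nonZeroDivisors.coe_ne_zero (JC hm C)
  have hex := fun C : ClassGroup (𝓞 K) => hE n κ hty hne _ _ _ (isWtG_wG hm h (hJ0 C))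
  choose A hA hAs using hex
  have hNJ : ∀ C : ClassGroup (𝓞 K), (Ideal.absNorm (JC hm C : Ideal (𝓞 K)) : ℂ) ≠ 0 := fun C => by
    exact_mod_cast (Ideal.absNorm_pos_of_nonZeroDivisors (JC hm C)).ne'
  refine ⟨fun s => ∑ C : ClassGroup (𝓞 K), (ψ (JC hm C))⁻¹ *
    (Ideal.absNorm (JC hm C : Ideal (𝓞 K)) : ℂ) ^ s * A C s, ?_, fun s hs => ?_⟩
  · refine Differentiable.fun_sum fun C _ => ?_
    exact ((differentiable_id.const_cpow (Or.inl (hNJ C))).const_mul _).mul (hA C)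
  · rw [Ls_eq_sumG hm h hs]
    refine Finset.sum_congr rfl fun C _ => ?_
    rw [hAs C _ _ (isGen_gen (FractionalIdeal.mk0 K (JC hm C))) s hs]

end Fermat.Agent.Cor.RayG

end
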