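import Fermat.Agent.Corollaries.RayG.Defs
import Fermat.Agent.Corollaries.RayN.UnfoldS
import Fermat.Agent.Classic.Zeta.Decay

/-!
# Theta functions of type `(n, κ)`: unfolding and inversion on the norm one torus

(B) `unfoldGStmt_of`, (B') `torusGStmt_of` of `RayG/Defs`, from (Z).
-/

set_option autoImplicit false

noncomputable section

namespace Fermat.Agent.Cor.RayG

open NumberField NumberField.InfinitePlace NumberField.Units MeasureTheory Set Real
open NumberField.Units.dirichletUnitTheorem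
open Fermat.Agent.Classic.Zeta Fermat.Agent.Cor.Ray Fermat.Agent.Cor.RayN
open scoped nonZeroDivisors Classical ENNReal ComplexConjugate

universe u

variable {K : Type u} [Field K] [NumberField K]

variable {n : InfinitePlace K → ℤ} {κ : InfinitePlace K → ℝ}

theorem continuous_EG (n : InfinitePlace K → ℤ) (x : ℝ) (a : K) :
    Continuous fun y : logSpace K => EG n (tt x y) a := by
  unfold EG
  refine Continuous.mul (Continuous.mul ?_ continuous_const)
    (Complex.continuous_ofReal.comp (continuous_E x a))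
  exact Complex.continuous_ofReal.comp (continuous_finsetProd _ fun w _ =>
    (Real.continuous_sqrt.comp (continuous_tt_right x w)).pow _)

theorem continuous_eI_lam (κ : InfinitePlace K → ℝ) :
    Continuous fun y : logSpace K => eI (-lam κ y) :=
  continuous_eI.comp (continuous_lam κ).neg

/-- the bound at the comparison point -/
theorem norm_EG_tt_le {C : ℝ} (hC : ∀ (t : InfinitePlace K → ℝ), (∀ w, 0 ≤ t w) → ∀ x : K,
    ‖EG n t x‖ ≤ C * E (fun w => t w / 2) x) {x : ℝ} (hx : 0 < x) (y : logSpace K) (a : K) :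
    ‖EG n (tt x y) a‖ ≤ C * E (tt (x / √2) y) a := by
  rw [← tt_half]
  exact hC _ (fun w => (tt_pos hx y w).le) a

/-! ### Theta functions as sums over the fractional ideal -/

section

variable {𝔟 𝔠 : FractionalIdeal (𝓞 K)⁰ K} {φ : K → ℂ}

theorem IsWtG.summable_sub (h : IsWtG n κ 𝔟 𝔠 φ) {t : InfinitePlace K → ℝ} (ht : ∀ w, 0 < t w) :
    Summable fun a : 𝔟 => φ a * EG n t (a : K) := by
  obtain ⟨M, hM⟩ := h.bdd
  obtain ⟨C, hC0, hC⟩ := norm_EG_le n
  have ht2 : ∀ w, 0 < t w / 2 := fun w => half_pos (ht w)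
  refine Summable.of_norm_bounded (g := fun a : 𝔟 => M * (C * E (fun w => t w / 2) (a : K)))
    (((sumE K 𝔟 _ ht2).mul_left C).mul_left M) fun a => ?_
  rw [norm_mul]
  exact mul_le_mul (hM a) (hC t (fun w => (ht w).le) a) (norm_nonneg _)
    ((norm_nonneg _).trans (hM a))

theorem IsWtG.theta_eq (h : IsWtG n κ 𝔟 𝔠 φ) (t : InfinitePlace K → ℝ) :
    ΘG n φ t = ∑' a : 𝔟, φ a * EG n t (a : K) := by
  unfold ΘG
  refine (tsum_subtype_eq_of_support_subset (s := {a : K | a ∈ 𝔟}) fun a ha => ?_).symm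
  by_contra h0
  refine ha ?_
  change φ a * EG n t a = 0
  rw [h.supp a h0, zero_mul]

theorem IsWtG.norm_theta_le (h : IsWtG n κ 𝔟 𝔠 φ) {M : ℝ} (hM : ∀ x, ‖φ x‖ ≤ M) {C : ℝ}
    (hC : ∀ (t : InfinitePlace K → ℝ), (∀ w, 0 ≤ t w) → ∀ x : K,
      ‖EG n t x‖ ≤ C * E (fun w => t w / 2) x)
    {t : InfinitePlace K → ℝ} (ht : ∀ w, 0 < t w) :
    ‖ΘG n φ t‖ ≤ M * (C * Θ 𝔟 (fun w => t w / 2)) := by
  rw [h.theta_eq t]
  unfold Θ
  rw [← tsum_mul_left, ← tsum_mul_left]
  have ht2 : ∀ w, 0 < t w / 2 := fun w => half_pos (ht w)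
  have h1 : Summable fun a : 𝔟 => M * (C * E (fun w => t w / 2) (a : K)) :=
    ((sumE K 𝔟 _ ht2).mul_left C).mul_left M
  refine tsum_of_norm_bounded h1.hasSum fun a => ?_
  rw [norm_mul]
  exact mul_le_mul (hM a) (hC t (fun w => (ht w).le) a) (norm_nonneg _)
    ((norm_nonneg _).trans (hM a))

variable {ι : Type u} {g : ι → K}

/-- The theta function as a sum over the generators and the units. -/
theorem IsWtG.theta_tt (h : IsWtG n κ 𝔟 𝔠 φ) (hg : IsGen 𝔟 g) {x : ℝ} (hx : 0 < x)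
    (y : logSpace K) :
    ΘG n φ (tt x y) = φ 0 * EG n (tt x y) 0 + ∑' p : ι × (𝓞 K)ˣ,
      φ (g p.1) * (EG n (tt x (y + tr p.2)) (g p.1) * eI (-lam κ (tr p.2))) := by
  have hz0 : (0 : K) ∈ 𝔟 := 𝔟.1.zero_mem
  obtain ⟨z, hz⟩ : ∃ z : 𝔟, (z : K) = 0 := ⟨⟨0, hz0⟩, rfl⟩
  rw [h.theta_eq, tsum_split' (h.summable_sub (tt_pos hx y)) z (fun x : 𝔟 => (x : K) ≠ 0)
    (fun x => by rw [Ne, Ne, not_iff_not, Subtype.ext_iff, hz]), hz, ← hg.equiv.tsum_eq]
  congr 1
  refine tsum_congr fun p => ?_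
  have h1 := conj_mul_self_of_norm (norm_aG n (coe_ne_zero p.2))
  have h3 : lam κ (tr p.2) = lK κ ((p.2 : 𝓞 K) : K) := lam_logEmbedding κ p.2
  rw [hg.coe_equiv, h.unit, EG_mul, chi, map_mul, ← eI_neg, h3]
  linear_combination (φ (g p.1) * EG n (tt x (y + tr p.2)) (g p.1) *
    eI (-lK κ ((p.2 : 𝓞 K) : K))) * h1

/-! ### The term of zero -/

/-- The term of `x = 0` does not contribute. -/
theorem IsWtG.zero_term (hZ : ZeroGStmt K) (hT : IsTy n κ) (hne : n ≠ 0 ∨ κ ≠ 0)
    (h : IsWtG n κ 𝔟 𝔠 φ) {β : logSpace K → ℝ} (hβ : IsBeta β) (t : logSpace K → InfinitePlace K → ℝ) :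
    ∫ y : logSpace K, φ 0 * EG n (t y) 0 * (eI (-lam κ y) * (β y : ℂ)) = 0 := by
  by_cases hn : n = 0
  · subst hn
    have hκ : κ ≠ 0 := hne.resolve_left fun h0 => h0 rfl
    simp only [EG_zero_left, E_zero, Complex.ofReal_one, mul_one]
    rw [integral_const_mul]
    by_cases h0 : φ 0 = 0
    · rw [h0, zero_mul]
    · rw [hZ κ hT.sum hκ ?_ β hβ, mul_zero]
      intro v
      have h1 := h.unit v 0
      rw [mul_zero] at h1
      have h2 : conj (chi (0 : InfinitePlace K → ℤ) κ ((v : 𝓞 K) : K)) = 1 :=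
        mul_right_cancel₀ h0 (by rw [← h1, one_mul])
      rw [chi, aG_zero_left, one_mul] at h2
      have h3 := congrArg conj h2
      rwa [Complex.conj_conj, map_one] at h3
  · simp only [EG_zero hn, mul_zero, zero_mul, integral_zero]

/-! ### Absolute convergence -/

variable {β β' : logSpace K → ℝ}

theorem integrable_EG_mul (n : InfinitePlace K → ℤ) (κ : InfinitePlace K → ℝ) (hβ : IsBeta β)
    {x : ℝ} (hx : 0 < x) (i : ι) (v : (𝓞 K)ˣ) :
    Integrable fun y : logSpace K => EG n (tt x (y + tr v)) (g i) *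
      (eI (-lam κ (y + tr v)) * (β y : ℂ)) := by
  obtain ⟨C, hC0, hC⟩ := norm_EG_le n
  have hi := ((trm_aux (g := g) hβ (div_sqrt_two_pos hx) (i, v)).2.2).const_mul C
  refine Integrable.mono' hi ?_ (Filter.Eventually.of_forall fun y => ?_)
  · exact (((continuous_EG n x (g i)).measurable.comp (measurable_add_const (tr v))).mul
      (((continuous_eI_lam κ).measurable.comp (measurable_add_const (tr v))).mul
        (Complex.measurable_ofReal.comp hβ.meas))).aestronglyMeasurable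
  · rw [norm_mul, norm_mul, norm_eI, one_mul, Complex.norm_real, Real.norm_of_nonneg (hβ.nonneg y),
      ← mul_assoc]
    exact mul_le_mul_of_nonneg_right (norm_EG_tt_le hC hx _ _) (hβ.nonneg y)

theorem integral_norm_EG_le {C : ℝ} (hC : ∀ (t : InfinitePlace K → ℝ), (∀ w, 0 ≤ t w) → ∀ x : K,
      ‖EG n t x‖ ≤ C * E (fun w => t w / 2) x) (κ : InfinitePlace K → ℝ) (hβ : IsBeta β)
    {x : ℝ} (hx : 0 < x) (i : ι) (v : (𝓞 K)ˣ) :
    ∫ y : logSpace K, ‖EG n (tt x (y + tr v)) (g i) * (eI (-lam κ (y + tr v)) * (β y : ℂ))‖ ≤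
      C * trm β g (x / √2) (i, v) := by
  unfold trm
  rw [← integral_const_mul]
  refine integral_mono (integrable_EG_mul n κ hβ hx i v).norm
    (((trm_aux (g := g) hβ (div_sqrt_two_pos hx) (i, v)).2.2).const_mul C) fun y => ?_
  simp only
  rw [norm_mul, norm_mul, norm_eI, one_mul, Complex.norm_real, Real.norm_of_nonneg (hβ.nonneg y),
    ← mul_assoc]
  exact mul_le_mul_of_nonneg_right (norm_EG_tt_le hC hx _ _) (hβ.nonneg y)

/-- translation -/
theorem integral_shiftG (f : logSpace K → ℂ) (β : logSpace K → ℝ) (v : (𝓞 K)ˣ) :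
    ∫ y : logSpace K, f (y + tr v) * (β y : ℂ) = ∫ y : logSpace K, f y * (β (y - tr v) : ℂ) := by
  rw [← integral_add_right_eq_self (fun y => f y * (β (y - tr v) : ℂ)) (tr v)]
  refine integral_congr_ae (Filter.Eventually.of_forall fun y => ?_)
  simp only
  rw [add_sub_cancel_right]

/-- unfolding over the units -/
theorem hasSum_EG (hβ : IsBeta β) (hg : IsGen 𝔟 g) {x : ℝ} (hx : 0 < x) (i : ι) :
    HasSum (fun v : (𝓞 K)ˣ => ∫ y : logSpace K, EG n (tt x (y + tr v)) (g i) *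
      (eI (-lam κ (y + tr v)) * (β y : ℂ)))
      (∫ y : logSpace K, EG n (tt x y) (g i) * eI (-lam κ y)) := by
  obtain ⟨C, hC0, hC⟩ := norm_EG_le n
  have e : ∀ v : (𝓞 K)ˣ, ∫ y : logSpace K, EG n (tt x (y + tr v)) (g i) *
      (eI (-lam κ (y + tr v)) * (β y : ℂ)) =
      ∫ y : logSpace K, EG n (tt x y) (g i) * eI (-lam κ y) * (β (y - tr v) : ℂ) := fun v => by
    rw [← integral_shiftG (fun y => EG n (tt x y) (g i) * eI (-lam κ y)) β v]
    exact integral_congr_ae (Filter.Eventually.of_forall fun y => (mul_assoc _ _ _).symm)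
  have hint : ∀ v : (𝓞 K)ˣ, Integrable fun y : logSpace K =>
      EG n (tt x y) (g i) * eI (-lam κ y) * (β (y - tr v) : ℂ) := by
    intro v
    have h1 := (integrable_EG_mul (g := g) n κ hβ hx i v).comp_sub_right (tr v)
    refine h1.congr (Filter.Eventually.of_forall fun y => ?_)
    simp only
    rw [sub_add_cancel, mul_assoc]
  have hsum : Summable fun v : (𝓞 K)ˣ => ∫ y : logSpace K,
      ‖EG n (tt x y) (g i) * eI (-lam κ y) * (β (y - tr v) : ℂ)‖ := by
    refine Summable.of_nonneg_of_le (fun v => integral_nonneg fun y => norm_nonneg _) (fun v => ?_)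
      ((hasSum_trm hβ hg (div_sqrt_two_pos hx) i).summable.mul_left C)
    refine le_trans (le_of_eq ?_) (integral_norm_EG_le (g := g) hC κ hβ hx i v)
    rw [← integral_add_right_eq_self (fun y =>
      ‖EG n (tt x y) (g i) * eI (-lam κ y) * (β (y - tr v) : ℂ)‖) (tr v)]
    refine integral_congr_ae (Filter.Eventually.of_forall fun y => ?_)
    simp only
    rw [add_sub_cancel_right, mul_assoc]
  have h1 := hasSum_integral_of_summable_integral_norm hint hsum
  simp only [← e] at h1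
  have h2 : ∫ y : logSpace K, ∑' v : (𝓞 K)ˣ, EG n (tt x y) (g i) * eI (-lam κ y) *
      (β (y - tr v) : ℂ) = ∫ y : logSpace K, EG n (tt x y) (g i) * eI (-lam κ y) := by
    refine integral_congr_ae (Filter.Eventually.of_forall fun y => ?_)
    simp only
    have h3 : HasSum (fun v : (𝓞 K)ˣ => (β (y - tr v) : ℂ)) ((1 : ℝ) : ℂ) :=
      Complex.hasSum_ofReal.mpr (hasSum_beta_sub hβ y)
    rw [tsum_mul_left, h3.tsum_eq, Complex.ofReal_one, mul_one]
  rwa [h2] at h1

/-! ### Unfolding -/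

theorem continuous_EG_left (n : InfinitePlace K → ℤ) (x : K) :
    Continuous fun t : InfinitePlace K → ℝ => EG n t x := by
  unfold EG
  refine Continuous.mul (Continuous.mul ?_ continuous_const)
    (Complex.continuous_ofReal.comp (Decay.continuous_E x))
  exact Complex.continuous_ofReal.comp (continuous_finsetProd _ fun w _ =>
    (Real.continuous_sqrt.comp (continuous_apply w)).pow _)

theorem IsWtG.continuousAt_theta (h : IsWtG n κ 𝔟 𝔠 φ) {t : InfinitePlace K → ℝ}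
    (ht : ∀ w, 0 < t w) : ContinuousAt (ΘG n φ) t := by
  obtain ⟨M, hM⟩ := h.bdd
  obtain ⟨C, hC0, hC⟩ := norm_EG_le n
  let c : InfinitePlace K → ℝ := fun w => t w / 2
  have hc : ∀ w, 0 < c w := fun w => half_pos (ht w)
  have hc2 : ∀ w, 0 < c w / 2 := fun w => half_pos (hc w)
  have hU : {s : InfinitePlace K → ℝ | ∀ w, c w ≤ s w} ∈ nhds t := by
    have h1 : {s : InfinitePlace K → ℝ | ∀ w, c w ≤ s w} = Set.univ.pi fun w => Ici (c w) := by
      ext s; simp only [Set.mem_ofPred_eq, Set.mem_univ_pi, Set.mem_Ici]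
    rw [h1]
    exact set_pi_mem_nhds finite_univ fun w _ => Ici_mem_nhds (half_lt_self (ht w))
  have e : ΘG n φ = fun s => ∑' a : 𝔟, φ a * EG n s (a : K) := funext fun s => h.theta_eq s
  have hcont : ContinuousOn (ΘG n φ) {s : InfinitePlace K → ℝ | ∀ w, c w ≤ s w} := by
    rw [e]
    refine continuousOn_tsum (u := fun x : 𝔟 => M * (C * E (fun w => c w / 2) (x : K)))
      (fun x => ?_) (((sumE K 𝔟 _ hc2).mul_left C).mul_left M) fun x s hs => ?_
    · exact (continuous_const.mul (continuous_EG_left n (x : K))).continuousOn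
    · have hs' : ∀ w, c w ≤ s w := hs
      rw [norm_mul]
      refine mul_le_mul (hM x) ?_ (norm_nonneg _) ((norm_nonneg _).trans (hM x))
      refine (hC s (fun w => (hc w).le.trans (hs' w)) (x : K)).trans
        (mul_le_mul_of_nonneg_left (Decay.E_anti (fun w => ?_) _) hC0)
      have := hs' w
      linarith
  exact hcont.continuousAt hU

theorem IsWtG.continuous_theta_tt (h : IsWtG n κ 𝔟 𝔠 φ) {x : ℝ} (hx : 0 < x) :
    Continuous fun y : logSpace K => ΘG n φ (tt x y) := by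
  refine continuous_iff_continuousAt.2 fun y => ?_
  have h1 : ContinuousAt (ΘG n φ) (tt x y) := h.continuousAt_theta (Decay.tt_pos hx y)
  have h2 : Continuous fun y : logSpace K => tt (K := K) x y :=
    Decay.continuous_tt.comp (continuous_const.prodMk continuous_id)
  exact h1.comp h2.continuousAt

theorem IsWtG.continuousAt_theta_tt (h : IsWtG n κ 𝔟 𝔠 φ) {x : ℝ} (hx : 0 < x) (y : logSpace K) :
    ContinuousAt (fun x : ℝ => ΘG n φ (tt x y)) x := by
  have h1 : ContinuousAt (ΘG n φ) (tt x y) := h.continuousAt_theta (Decay.tt_pos hx y)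
  have h2 : Continuous fun x : ℝ => tt (K := K) x y :=
    Decay.continuous_tt.comp (continuous_id.prodMk continuous_const)
  exact ContinuousAt.comp (g := ΘG n φ) (f := fun x : ℝ => tt (K := K) x y) h1 h2.continuousAt

theorem norm_eI_mul_beta (hβ : IsBeta β) (κ : InfinitePlace K → ℝ) (y : logSpace K) :
    ‖eI (-lam κ y) * (β y : ℂ)‖ = β y := by
  rw [norm_mul, norm_eI, one_mul, Complex.norm_real, Real.norm_of_nonneg (hβ.nonneg y)]

/-- A bound for the integrand. -/
theorem IsWtG.norm_integrand_le (h : IsWtG n κ 𝔟 𝔠 φ) (hβ : IsBeta β) {x₀ : ℝ} (hx₀ : 0 < x₀) :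
    ∃ C : ℝ, ∀ x, x₀ ≤ x → ∀ y, ‖ΘG n φ (tt x y) * (eI (-lam κ y) * (β y : ℂ))‖ ≤ C * β y := by
  obtain ⟨M, hM⟩ := h.bdd
  obtain ⟨D, hD0, hD⟩ := norm_EG_le n
  have hx₀' := div_sqrt_two_pos hx₀
  obtain ⟨C, hC⟩ := Decay.norm_le hβ 𝔟 hx₀'
  refine ⟨M * (D * C), fun x hx y => ?_⟩
  have hx0 : 0 < x := hx₀.trans_le hx
  have hx0' := div_sqrt_two_pos hx0
  have hM0 : 0 ≤ M := (norm_nonneg _).trans (hM 0)
  have h1 := hC (x / √2) (div_le_div_of_nonneg_right hx (Real.sqrt_nonneg 2)) y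
  rw [norm_mul, Real.norm_eq_abs, Real.norm_eq_abs, abs_of_nonneg (hβ.nonneg y),
    abs_of_nonneg (zero_le_one.trans (Decay.one_le_Θ 𝔟 (Decay.tt_pos hx0' y)))] at h1
  rw [norm_mul, norm_eI_mul_beta hβ]
  have h2 := h.norm_theta_le hM hD (Decay.tt_pos hx0 y)
  rw [tt_half] at h2
  calc ‖ΘG n φ (tt x y)‖ * β y ≤ M * (D * Θ 𝔟 (tt (x / √2) y)) * β y :=
        mul_le_mul_of_nonneg_right h2 (hβ.nonneg y)
    _ = M * (D * (Θ 𝔟 (tt (x / √2) y) * β y)) := by ring
    _ ≤ M * (D * (C * β y)) :=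
        mul_le_mul_of_nonneg_left (mul_le_mul_of_nonneg_left h1 hD0) hM0
    _ = M * (D * C) * β y := by ring

theorem aesm_betaG (hβ : IsBeta β) (κ : InfinitePlace K → ℝ) :
    AEStronglyMeasurable fun y : logSpace K => eI (-lam κ y) * (β y : ℂ) :=
  ((continuous_eI_lam κ).measurable.mul
    (Complex.measurable_ofReal.comp hβ.meas)).aestronglyMeasurable

theorem IsWtG.integrable_integrand (h : IsWtG n κ 𝔟 𝔠 φ) (hβ : IsBeta β) {x : ℝ} (hx : 0 < x) :
    Integrable fun y : logSpace K => ΘG n φ (tt x y) * (eI (-lam κ y) * (β y : ℂ)) := by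
  obtain ⟨C, hC⟩ := h.norm_integrand_le hβ hx
  exact ((Decay.integrable hβ).const_mul C).mono'
    ((h.continuous_theta_tt hx).aestronglyMeasurable.mul (aesm_betaG hβ κ))
    (Filter.Eventually.of_forall fun y => hC x le_rfl y)

theorem integrable_zero_term (n : InfinitePlace K → ℤ) (κ : InfinitePlace K → ℝ) (z : ℂ)
    (hβ : IsBeta β)
    {x : ℝ} (hx : 0 < x) : Integrable fun y : logSpace K =>
      z * EG n (tt x y) 0 * (eI (-lam κ y) * (β y : ℂ)) := by
  obtain ⟨C, hC0, hC⟩ := norm_EG_le n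
  refine Integrable.mono' ((Decay.integrable hβ).const_mul (‖z‖ * C))
    ((continuous_const.mul (continuous_EG n x 0)).aestronglyMeasurable.mul (aesm_betaG hβ κ))
    (Filter.Eventually.of_forall fun y => ?_)
  rw [norm_mul, norm_eI_mul_beta hβ, norm_mul]
  refine mul_le_mul_of_nonneg_right (mul_le_mul_of_nonneg_left ?_ (norm_nonneg _)) (hβ.nonneg y)
  refine (norm_EG_tt_le hC hx y 0).trans ?_
  rw [E_zero, mul_one]

theorem IsWtG.hasSum_unfold (hZ : ZeroGStmt K) (hT : IsTy n κ) (hne : n ≠ 0 ∨ κ ≠ 0)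
    (h : IsWtG n κ 𝔟 𝔠 φ) (hβ : IsBeta β) (hg : IsGen 𝔟 g) {x : ℝ} (hx : 0 < x) :
    HasSum (fun i => φ (g i) * ∫ y : logSpace K, EG n (tt x y) (g i) * eI (-lam κ y))
      (FG n κ β φ x) := by
  have hcount := hg.countable
  obtain ⟨M, hM⟩ := h.bdd
  obtain ⟨C, hC0, hC⟩ := norm_EG_le n
  set Fp : ι × (𝓞 K)ˣ → logSpace K → ℂ := fun p y =>
    φ (g p.1) * (EG n (tt x (y + tr p.2)) (g p.1) * (eI (-lam κ (y + tr p.2)) * (β y : ℂ))) with hFp
  have hint : ∀ p, Integrable (Fp p) := fun p =>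
    (integrable_EG_mul (g := g) n κ hβ hx p.1 p.2).const_mul (φ (g p.1))
  have hval : ∀ p, ∫ y, Fp p y = φ (g p.1) *
      ∫ y : logSpace K, EG n (tt x (y + tr p.2)) (g p.1) *
        (eI (-lam κ (y + tr p.2)) * (β y : ℂ)) := by
    intro p
    rw [hFp]
    simp only
    rw [integral_const_mul]
  have hnorm : ∀ p, ∫ y, ‖Fp p y‖ ≤ M * (C * trm β g (x / √2) p) := by
    intro p
    have e1 : ∫ y, ‖Fp p y‖ = ‖φ (g p.1)‖ *
        ∫ y : logSpace K, ‖EG n (tt x (y + tr p.2)) (g p.1) *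
          (eI (-lam κ (y + tr p.2)) * (β y : ℂ))‖ := by
      rw [← integral_const_mul]
      refine integral_congr_ae (Filter.Eventually.of_forall fun y => ?_)
      simp only [hFp]
      rw [norm_mul]
    rw [e1]
    exact mul_le_mul (hM _) (integral_norm_EG_le hC κ hβ hx p.1 p.2)
      (integral_nonneg fun y => norm_nonneg _) ((norm_nonneg _).trans (hM (g p.1)))
  have hsum : Summable fun p => ∫ y, ‖Fp p y‖ :=
    Summable.of_nonneg_of_le (fun p => integral_nonneg fun y => norm_nonneg _) hnorm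
      (((summable_trm hβ hg (div_sqrt_two_pos hx)).mul_left C).mul_left M)
  have h1 := hasSum_integral_of_summable_integral_norm hint hsum
  have h2 : ∫ y, ∑' p, Fp p y = FG n κ β φ x := by
    have hz := h.zero_term hZ hT hne hβ (fun y => tt x y)
    have h3 : ∀ y : logSpace K, ∑' p, Fp p y = ΘG n φ (tt x y) * (eI (-lam κ y) * (β y : ℂ)) -
        φ 0 * EG n (tt x y) 0 * (eI (-lam κ y) * (β y : ℂ)) := by
      intro y
      rw [h.theta_tt hg hx y, add_mul, ← tsum_mul_right, add_sub_cancel_left]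
      refine tsum_congr fun p => ?_
      rw [hFp]
      simp only
      rw [lam_add, neg_add, eI_add]
      ring
    simp only [h3]
    rw [integral_sub (h.integrable_integrand hβ hx) (integrable_zero_term n κ (φ 0) hβ hx), hz,
      sub_zero, FG]
  rw [h2] at h1
  simp only [hval] at h1
  refine h1.prod_fiberwise fun i => ?_
  exact (hasSum_EG (n := n) (κ := κ) hβ hg hx i).mul_left (φ (g i))

/-- Independence of the weight `β`. -/
theorem IsWtG.indep (hZ : ZeroGStmt K) (hT : IsTy n κ) (hne : n ≠ 0 ∨ κ ≠ 0)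
    (h : IsWtG n κ 𝔟 𝔠 φ) (hβ : IsBeta β) (hβ' : IsBeta β')
    {x : ℝ} (hx : 0 < x) : FG n κ β φ x = FG n κ β' φ x := by
  obtain ⟨ι, g, hg⟩ := exists_isGen h.hb
  exact (h.hasSum_unfold hZ hT hne hβ hg hx).unique (h.hasSum_unfold hZ hT hne hβ' hg hx)

theorem IsTy.neg (hT : IsTy n κ) : IsTy (-n) (-κ) where
  real w hw := by
    rw [Pi.neg_apply, Int.natAbs_neg]
    exact hT.real w hw
  sum := by
    simp only [Pi.neg_apply, Finset.sum_neg_distrib, hT.sum, neg_zero]

/-- **The functional equation of the integrated theta function.** -/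
theorem FG_inv (hZ : ZeroGStmt K) (hT : IsTy n κ) (hne : n ≠ 0 ∨ κ ≠ 0) {φ' : K → ℂ}
    (hβ : IsBeta β) (h' : IsWtG (-n) (-κ) (dualF 𝔠) (dualF 𝔟) φ') (hI : IsInvG n 𝔠 φ φ')
    {x : ℝ} (hx : 0 < x) :
    FG n κ β φ x⁻¹ = ((√|(discr K : ℝ)| * nF 𝔠 : ℝ) : ℂ)⁻¹ * (x : ℂ) ^ (Module.finrank ℚ K) *
      FG (-n) (-κ) β φ' x := by
  have hne' : -n ≠ 0 ∨ -κ ≠ 0 := hne.imp neg_ne_zero.mpr neg_ne_zero.mpr
  rw [h'.indep hZ hT.neg hne' hβ hβ.neg hx]
  unfold FG
  rw [← integral_const_mul, ← integral_neg_eq_self]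
  refine integral_congr_ae (Filter.Eventually.of_forall fun y => ?_)
  simp only
  have hx' : 0 < x⁻¹ := inv_pos.mpr hx
  rw [hI (tt x⁻¹ (-y)) (tt_pos hx' (-y)), tt_inv, inv_inv, neg_neg, prod_tt hx', inv_pow,
    mul_inv (√|(discr K : ℝ)| * nF 𝔠), inv_inv, Complex.ofReal_mul, Complex.ofReal_inv,
    Complex.ofReal_pow, lam_neg, lam_neg_left]
  ring

end

/-- **(B)** -/
theorem unfoldGStmt_of (hZ : ZeroGStmt K) : UnfoldGStmt K :=
  fun _ _ hT hne _ hβ _ _ _ h _ _ hg _ hx => h.hasSum_unfold hZ hT hne hβ hg hx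

/-- **(B')** -/
theorem torusGStmt_of (hZ : ZeroGStmt K) : TorusGStmt K :=
  fun _ _ hT hne _ hβ _ _ _ _ _ h' hI _ hx => FG_inv hZ hT hne hβ h' hI hx

end Fermat.Agent.Cor.RayG

end
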