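import Fermat.Agent.Corollaries.Ray.MellinW
import Fermat.Agent.Corollaries.RayG.UnfoldG

/-!
# The Mellin transform of the theta functions of type `(n, κ)`
-/

set_option autoImplicit false

noncomputable section

namespace Fermat.Agent.Cor.RayG

open NumberField NumberField.InfinitePlace NumberField.Units MeasureTheory Set
open NumberField.Units.dirichletUnitTheorem
open Fermat.Agent.Classic.Zeta Fermat.Agent.Cor.Ray Fermat.Agent.Cor.RayN
open scoped nonZeroDivisors Classical Real ComplexConjugate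

universe u

variable {K : Type u} [Field K] [NumberField K]

/-- Termwise Mellin transform of `∑ φ_i ∫ k_i x y` with complex `k_i` and bounded `φ_i`. -/
theorem mellinG_unfold {ι Y : Type*} [Countable ι] [MeasurableSpace Y] {ν : Measure Y} [SFinite ν]
    {f : ℝ → ℂ} {k : ι → ℝ → Y → ℂ} {φ : ι → ℂ} {M : ℝ} (hφ : ∀ i, ‖φ i‖ ≤ M)
    (hf : ∀ x, 0 < x → HasSum (fun i => φ i * ∫ y, k i x y ∂ν) (f x)) {s : ℂ}
    (hI : ∀ i, IntegrableOn (fun p : ℝ × Y => (p.1 : ℂ) ^ (s - 1) * k i p.1 p.2)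
      (Ioi 0 ×ˢ univ) (volume.prod ν))
    {b : ι → ℝ} (hb : Summable b) (hA : ∀ i, ∫ x in Ioi (0 : ℝ), ∫ y,
      ‖(x : ℂ) ^ (s - 1) * k i x y‖ ∂ν ≤ b i) :
    HasSum (fun i => φ i * ∫ x in Ioi (0 : ℝ), ∫ y, (x : ℂ) ^ (s - 1) * k i x y ∂ν)
      (mellin f s) := by
  classical
  have hM0 : ∀ i, 0 ≤ M := fun i => (norm_nonneg _).trans (hφ i)
  have hμ : (volume.prod ν).restrict (Ioi (0 : ℝ) ×ˢ (univ : Set Y)) =
      (volume.restrict (Ioi (0 : ℝ))).prod ν := by
    rw [← Measure.prod_restrict, Measure.restrict_univ]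
  let Fc : ι → ℝ → ℂ := fun i x => φ i * ∫ y, (x : ℂ) ^ (s - 1) * k i x y ∂ν
  have hI' : ∀ i, Integrable (fun p : ℝ × Y => (p.1 : ℂ) ^ (s - 1) * k i p.1 p.2)
      ((volume.restrict (Ioi (0 : ℝ))).prod ν) := fun i => by
    have h1 := hI i
    rwa [IntegrableOn, hμ] at h1
  have hFi : ∀ i, Integrable (Fc i) (volume.restrict (Ioi (0 : ℝ))) := fun i =>
    (hI' i).integral_prod_left.const_mul (φ i)
  have hFn : ∀ i, Integrable (fun x : ℝ => ∫ y, ‖(x : ℂ) ^ (s - 1) * k i x y‖ ∂ν)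
      (volume.restrict (Ioi (0 : ℝ))) := fun i => (hI' i).norm.integral_prod_left
  have hFs : Summable fun i => ∫ x in Ioi (0 : ℝ), ‖Fc i x‖ := by
    refine Summable.of_nonneg_of_le (fun i => integral_nonneg fun x => norm_nonneg _)
      (fun i => ?_) (hb.mul_left M)
    have h1 : ∫ x in Ioi (0 : ℝ), ‖Fc i x‖ ≤
        ∫ x in Ioi (0 : ℝ), M * ∫ y, ‖(x : ℂ) ^ (s - 1) * k i x y‖ ∂ν := by
      refine integral_mono (hFi i).norm ((hFn i).const_mul M) fun x => ?_
      simp only [Fc]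
      rw [norm_mul]
      exact mul_le_mul (hφ i) (norm_integral_le_integral_norm _) (norm_nonneg _) (hM0 i)
    refine h1.trans ?_
    rw [integral_const_mul]
    exact mul_le_mul_of_nonneg_left (hA i) (hM0 i)
  have key := hasSum_integral_of_summable_integral_norm hFi hFs
  have h6 : ∀ i, ∫ x in Ioi (0 : ℝ), Fc i x =
      φ i * ∫ x in Ioi (0 : ℝ), ∫ y, (x : ℂ) ^ (s - 1) * k i x y ∂ν := by
    intro i
    rw [← integral_const_mul]
  have h7 : ∫ x in Ioi (0 : ℝ), ∑' i, Fc i x = mellin f s := by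
    rw [mellin]
    refine setIntegral_congr_fun measurableSet_Ioi fun x hx => ?_
    simp only [Fc, smul_eq_mul]
    rw [← (hf x hx).tsum_eq, ← tsum_mul_left]
    refine tsum_congr fun i => ?_
    rw [integral_const_mul]
    ring
  rw [h7] at key
  simpa only [h6] using key

/-- **The Mellin transform of the theta functions of type `(n, κ)`**, from the unfolding. -/
theorem mellinGStmt_of (hU : UnfoldGStmt K) (hG : GammaGStmt K) : MellinGStmt K := by
  obtain ⟨c, hc, hG⟩ := hG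
  obtain ⟨_, _, hM⟩ := mellinStmt_of' (torusStmt (thetaStmt K)) (decayStmt K) (gammaStmt K)
  refine ⟨c, hc, fun n κ hT hne β hβ 𝔟 𝔠 φ hφ ι g hg s hs => ?_⟩
  have := Mel.gen_countable hg
  obtain ⟨M, hbd⟩ := hφ.bdd
  set d := Module.finrank ℚ K with hd
  have hsr : ((d : ℂ) * s).re = d * s.re := by simp
  have hs0 : 0 < s.re := by linarith
  have hσ : Summable fun i => (((|Algebra.norm ℚ (g i)| : ℚ) : ℂ)) ^ (-(s.re : ℂ)) :=
    (hM β hβ 𝔟 hφ.hb ι g hg (s.re : ℂ) (by rwa [Complex.ofReal_re])).1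
  have hN : ∀ i, (0 : ℝ) < ((|Algebra.norm ℚ (g i)| : ℚ) : ℝ) := by
    intro i
    exact_mod_cast abs_pos.mpr (Algebra.norm_ne_zero_iff.mpr (hg.ne_zero i))
  have hNc : ∀ i, (((|Algebra.norm ℚ (g i)| : ℚ) : ℝ) : ℂ) = ((|Algebra.norm ℚ (g i)| : ℚ) : ℂ) :=
    fun i => Complex.ofReal_ratCast _
  have hsumm : Summable fun i => φ (g i) * chi n κ (g i) *
      (((|Algebra.norm ℚ (g i)| : ℚ) : ℂ)) ^ (-s) := by
    refine Summable.of_norm (Summable.of_nonneg_of_le (fun i => norm_nonneg _) (fun i => ?_)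
      (hσ.norm.mul_left M))
    rw [norm_mul, norm_mul, norm_chi n κ (hg.ne_zero i), mul_one, ← hNc i,
      Complex.norm_cpow_eq_rpow_re_of_pos (hN i), Complex.norm_cpow_eq_rpow_re_of_pos (hN i)]
    simp only [Complex.neg_re, Complex.ofReal_re]
    exact mul_le_mul_of_nonneg_right (hbd _) (Real.rpow_nonneg (hN i).le _)
  refine ⟨hsumm, ?_⟩
  -- the integrals of the norms
  have hre : 0 < ((s.re : ℂ)).re := by rwa [Complex.ofReal_re]
  have hsum0 : ∑ w : InfinitePlace K, (0 : InfinitePlace K → ℝ) w = 0 :=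
    Finset.sum_eq_zero fun _ _ => rfl
  have hnorm : ∀ i, ((∫ x in Ioi (0 : ℝ), ∫ y : logSpace K,
      ‖(x : ℂ) ^ ((d : ℂ) * s - 1) * (EG n (tt x y) (g i) * eI (-lam κ y))‖ : ℝ) : ℂ) =
      c * gamG n (0 : InfinitePlace K → ℝ) (s.re : ℂ) *
        (((|Algebra.norm ℚ (g i)| : ℚ) : ℂ)) ^ (-(s.re : ℂ)) := by
    intro i
    have h1 := (hG n 0 hsum0 (g i) (hg.ne_zero i) (s.re : ℂ) hre).2
    have h2 : ∀ x ∈ Ioi (0 : ℝ), ((∫ y : logSpace K,
        ‖(x : ℂ) ^ ((d : ℂ) * s - 1) * (EG n (tt x y) (g i) * eI (-lam κ y))‖ : ℝ) : ℂ) =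
        conj (aG n (g i)) * ∫ y : logSpace K,
          (x : ℂ) ^ ((d : ℂ) * (s.re : ℂ) - 1) *
            (EG n (tt x y) (g i) * eI (-lam (0 : InfinitePlace K → ℝ) y)) := by
      intro x hx
      rw [← integral_complex_ofReal, ← integral_const_mul]
      refine integral_congr_ae (Filter.Eventually.of_forall fun y => ?_)
      have h3 : lam (0 : InfinitePlace K → ℝ) y = 0 :=
        Finset.sum_eq_zero fun w _ => by rw [Pi.zero_apply, zero_mul]
      have h4 : ((‖(x : ℂ) ^ ((d : ℂ) * s - 1)‖ : ℝ) : ℂ) =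
          (x : ℂ) ^ ((d : ℂ) * (s.re : ℂ) - 1) := by
        rw [Complex.norm_cpow_eq_rpow_re_of_pos hx, Complex.sub_re, hsr, Complex.one_re,
          Complex.ofReal_cpow (le_of_lt hx)]
        push_cast
        rfl
      simp only
      rw [norm_mul, norm_mul, norm_eI, mul_one, Complex.ofReal_mul, h4, norm_EG_eq n _ (hg.ne_zero i),
        h3, neg_zero, eI_zero]
      ring
    rw [← integral_complex_ofReal, setIntegral_congr_fun measurableSet_Ioi h2, integral_const_mul,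
      h1, chi, lK_zero_left, eI_zero, mul_one]
    have h5 := conj_mul_self_of_norm (norm_aG n (hg.ne_zero i))
    linear_combination (c * gamG n (0 : InfinitePlace K → ℝ) (s.re : ℂ) *
        (((|Algebra.norm ℚ (g i)| : ℚ) : ℂ)) ^ (-(s.re : ℂ))) * h5
  have hb : Summable fun i => ∫ x in Ioi (0 : ℝ), ∫ y : logSpace K,
      ‖(x : ℂ) ^ ((d : ℂ) * s - 1) * (EG n (tt x y) (g i) * eI (-lam κ y))‖ := by
    rw [← Complex.summable_ofReal]
    refine (hσ.mul_left (c * gamG n (0 : InfinitePlace K → ℝ) (s.re : ℂ))).congr fun i => ?_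
    rw [hnorm i]
  have key := mellinG_unfold (ν := (volume : Measure (logSpace K)))
    (k := fun i x y => EG n (tt x y) (g i) * eI (-lam κ y)) (φ := fun i => φ (g i))
    (fun i => hbd (g i)) (f := FG n κ β φ) (hU n κ hT hne β hβ 𝔟 𝔠 φ hφ ι g hg)
    (s := (d : ℂ) * s)
    (fun i => by
      rw [← Measure.volume_eq_prod]
      exact (hG n κ hT.sum (g i) (hg.ne_zero i) s hs0).1)
    hb (fun i => le_rfl)
  rw [← key.tsum_eq, ← tsum_mul_left]
  refine tsum_congr fun i => ?_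
  rw [(hG n κ hT.sum (g i) (hg.ne_zero i) s hs0).2]
  ring

end Fermat.Agent.Cor.RayG

end
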