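import Fermat.Agent.Corollaries.RayG.NonVanG
import Fermat.Agent.Corollaries.ZetaK.PsiSum

/-!
# The prime number theorem for Groessencharaktere (RAYG (H))

`primeSumG_of : NonVanGStmt K → PrimeSumGStmt K`: `∑_{NP ≤ x} ψ(P) = o(x / log x)` for a
Groessencharakter `ψ` of infinite order.
-/

set_option autoImplicit false
set_option linter.unusedSectionVars false

noncomputable section

open NumberField NumberField.InfinitePlace nonZeroDivisors Complex Filter Topology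

open scoped Classical ComplexConjugate

namespace Fermat.Agent.Cor.RayG

open Fermat.Agent.ClassL Fermat.Agent.Classic.Zeta Fermat.Agent.Cor.Ray

universe u

variable {K : Type u} [Field K] [NumberField K]

/-- the sum over the primes of norm at most `x`, as a sum over the subtype -/
theorem finsum_primes_eq (ψ : (Ideal (𝓞 K))⁰ →* ℂ) {x : ℝ} (hx : 0 ≤ x) :
    ∑ᶠ P ∈ {P : (Ideal (𝓞 K))⁰ | (P : Ideal (𝓞 K)).IsPrime ∧
      (Ideal.absNorm (P : Ideal (𝓞 K)) : ℝ) ≤ x}, ψ P =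
    ∑' P : {P : Pr K // Ideal.absNorm ((P.1 : (Ideal (𝓞 K))⁰) : Ideal (𝓞 K)) ≤ ⌊x⌋₊},
      ψ P.1.1 := by
  obtain ⟨D, hD⟩ := exists_isCount K
  have h4 : ∑' P : {P : Pr K // Ideal.absNorm ((P.1 : (Ideal (𝓞 K))⁰) : Ideal (𝓞 K)) ≤ ⌊x⌋₊},
      ψ P.1.1 = ∑ P ∈ hD.F ⌊x⌋₊, ψ P.1 := by
    have h5 : {P : Pr K | Ideal.absNorm ((P.1 : (Ideal (𝓞 K))⁰) : Ideal (𝓞 K)) ≤ ⌊x⌋₊} =
        (hD.F ⌊x⌋₊ : Set (Pr K)) := Set.ext fun P => hD.mem_F.symm
    exact (tsum_congr_set_coe (fun P : Pr K => ψ P.1) h5).trans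
      (Finset.tsum_subtype' (hD.F ⌊x⌋₊) fun P : Pr K => ψ P.1)
  have h6 : {P : (Ideal (𝓞 K))⁰ | (P : Ideal (𝓞 K)).IsPrime ∧
      (Ideal.absNorm (P : Ideal (𝓞 K)) : ℝ) ≤ x} =
      (((hD.F ⌊x⌋₊).map (Function.Embedding.subtype _) : Finset (Ideal (𝓞 K))⁰) :
        Set (Ideal (𝓞 K))⁰) := by
    ext P
    rw [Finset.mem_coe, Finset.mem_map, Set.mem_ofPred_eq]
    constructor
    · rintro ⟨h1, h2⟩
      exact ⟨⟨P, (Ideal.prime_iff_isPrime (nonZeroDivisors.coe_ne_zero P)).mpr h1⟩,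
        hD.mem_F.mpr (Nat.le_floor h2), rfl⟩
    · rintro ⟨Q, hQ, rfl⟩
      exact ⟨Ideal.isPrime_of_prime Q.2, (Nat.le_floor_iff hx).mp (hD.mem_F.mp hQ)⟩
  rw [h4, h6, finsum_mem_coe_finset, Finset.sum_map]
  rfl

/-- `log x / x ≤ log ⌊x⌋ / ⌊x⌋` for `x ≥ 3` -/
theorem log_div_le_floor {x : ℝ} (hx : 3 ≤ x) :
    Real.log x / x ≤ Real.log (⌊x⌋₊ : ℝ) / (⌊x⌋₊ : ℝ) := by
  have h1 : (3 : ℝ) ≤ (⌊x⌋₊ : ℝ) := by
    have : 3 ≤ ⌊x⌋₊ := Nat.le_floor (by exact_mod_cast hx)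
    exact_mod_cast this
  have he : Real.exp 1 ≤ 3 := by
    have := Real.exp_one_lt_d9
    linarith
  exact Real.log_div_self_antitoneOn (he.trans h1) (he.trans hx) (Nat.floor_le (by linarith))

/-- **The prime number theorem** for a unitary completely multiplicative function on the ideals
whose `L`-function is entire and has no zeros on `Re s ≥ 1`. -/
theorem tendsto_finsum_primes {ψ : (Ideal (𝓞 K))⁰ →* ℂ} (hψ : Psi.IsUnitary ψ) {L : ℂ → ℂ}
    (hd : Differentiable ℂ L) (hL : ∀ s : ℂ, 1 < s.re → L s = Psi.Lp ψ s)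
    (h0 : ∀ s : ℂ, 1 ≤ s.re → L s ≠ 0) :
    Tendsto (fun x : ℝ => (∑ᶠ P ∈ {P : (Ideal (𝓞 K))⁰ | (P : Ideal (𝓞 K)).IsPrime ∧
      (Ideal.absNorm (P : Ideal (𝓞 K)) : ℝ) ≤ x}, ψ P) * Real.log x / x) atTop (𝓝 0) := by
  have h2 := (Psi.tendsto_sum_primes hψ hd hL h0).comp (tendsto_nat_floor_atTop (α := ℝ))
  refine squeeze_zero_norm' ?_ (tendsto_zero_iff_norm_tendsto_zero.mp h2)
  refine (eventually_ge_atTop (3 : ℝ)).mono fun x hx => ?_
  have hx0 : 0 < x := by linarith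
  rw [finsum_primes_eq ψ hx0.le, mul_div_assoc, ← Complex.ofReal_div, norm_mul, Complex.norm_real,
    Function.comp_apply, norm_mul, Complex.norm_real, mul_comm]
  refine mul_le_mul_of_nonneg_right ?_ (norm_nonneg _)
  have h3 : 0 ≤ Real.log x / x := div_nonneg (Real.log_nonneg (by linarith)) hx0.le
  rw [Real.norm_of_nonneg h3, Real.norm_of_nonneg (h3.trans (log_div_le_floor hx))]
  exact log_div_le_floor hx

/-- (H) **The prime number theorem for Groessencharaktere.** -/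
theorem primeSumG_of (h : NonVanGStmt K) : PrimeSumGStmt K := by
  intro n κ hty hinf 𝔪 h𝔪 ψ hψ
  obtain ⟨L, hd, hL, h0⟩ := h n κ hty hinf 𝔪 h𝔪 ψ hψ
  exact tendsto_finsum_primes (hψ.isUnitary h𝔪) hd hL h0

end Fermat.Agent.Cor.RayG

end
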