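import Fermat.Agent.Corollaries.RayG.UnfoldG

/-!
# A nontrivial character of the norm one torus has mean value zero

(Z) `zeroGStmt` of `RayG/Defs`.
-/

set_option autoImplicit false

noncomputable section

namespace Fermat.Agent.Cor.RayG

open NumberField NumberField.InfinitePlace NumberField.Units MeasureTheory Filter Set
open NumberField.Units.dirichletUnitTheorem
open Fermat.Agent.Classic.Zeta Fermat.Agent.Cor.Ray Fermat.Agent.Cor.RayN
open scoped nonZeroDivisors Classical Topology

universe u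

variable {K : Type u} [Field K] [NumberField K] {β β' : logSpace K → ℝ}

/-- translates of a weight of the units -/
theorem isBeta_trans (hβ : IsBeta β) (z : logSpace K) : IsBeta fun y => β (y + z) where
  meas := hβ.meas.comp (measurable_add_const z)
  nonneg y := hβ.nonneg _
  le_one y := hβ.le_one _
  bdd := by
    obtain ⟨R, hR⟩ := hβ.bdd
    refine ⟨R + ‖z‖, fun y hy => ?_⟩
    have h1 := hR (y + z) hy
    have h2 : ‖y‖ ≤ ‖y + z‖ + ‖z‖ := by
      calc ‖y‖ = ‖(y + z) - z‖ := by rw [add_sub_cancel_right]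
        _ ≤ ‖y + z‖ + ‖z‖ := norm_sub_le _ _
    linarith
  hasSum y := by
    have h := hβ.hasSum (y + z)
    have e : (fun u : (𝓞 K)ˣ => β (y + logEmbedding K (Additive.ofMul u) + z)) =
        fun u : (𝓞 K)ˣ => β (y + z + logEmbedding K (Additive.ofMul u)) := by
      funext u
      rw [add_right_comm]
    simpa only [e] using h

theorem integrable_mul_beta {f : logSpace K → ℂ} (hfc : Continuous f) (hf1 : ∀ y, ‖f y‖ ≤ 1)
    (hβ : IsBeta β) {γ : logSpace K → ℝ} (hγ : Measurable γ) (hγ0 : ∀ y, 0 ≤ γ y)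
    (hγ1 : ∀ y, γ y ≤ 1) : Integrable fun y : logSpace K => f y * ((β y * γ y : ℝ) : ℂ) := by
  refine (Decay.integrable hβ).mono' (hfc.aestronglyMeasurable.mul
    (Complex.measurable_ofReal.comp (hβ.meas.mul hγ)).aestronglyMeasurable)
    (Filter.Eventually.of_forall fun y => ?_)
  rw [norm_mul, Complex.norm_real, Real.norm_of_nonneg (mul_nonneg (hβ.nonneg y) (hγ0 y))]
  calc ‖f y‖ * (β y * γ y) ≤ 1 * (β y * 1) :=
        mul_le_mul (hf1 y) (mul_le_mul_of_nonneg_left (hγ1 y) (hβ.nonneg y))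
          (mul_nonneg (hβ.nonneg y) (hγ0 y)) zero_le_one
    _ = β y := by rw [one_mul, mul_one]

/-- independence of the weight of the units -/
theorem integral_beta_indep {f : logSpace K → ℂ} (hfc : Continuous f) (hf1 : ∀ y, ‖f y‖ ≤ 1)
    (hfp : ∀ (y : logSpace K) (v : (𝓞 K)ˣ), f (y + tr v) = f y) (hβ : IsBeta β)
    (hβ' : IsBeta β') : ∫ y, f y * (β y : ℂ) = ∫ y, f y * (β' y : ℂ) := by
  have hms : ∀ v : (𝓞 K)ˣ, Measurable fun y : logSpace K => β' (y - tr v) := fun v =>
    hβ'.meas.comp (measurable_sub_const (tr v))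
  have hma : ∀ v : (𝓞 K)ˣ, Measurable fun y : logSpace K => β (y + tr v) := fun v =>
    hβ.meas.comp (measurable_add_const (tr v))
  have hA : ∀ v : (𝓞 K)ˣ, Integrable fun y : logSpace K =>
      f y * ((β y * β' (y - tr v) : ℝ) : ℂ) := fun v =>
    integrable_mul_beta hfc hf1 hβ (hms v) (fun y => hβ'.nonneg _) fun y => hβ'.le_one _
  have hB : ∀ v : (𝓞 K)ˣ, Integrable fun y : logSpace K =>
      f y * ((β' y * β (y + tr v) : ℝ) : ℂ) := fun v =>
    integrable_mul_beta hfc hf1 hβ' (hma v) (fun y => hβ.nonneg _) fun y => hβ.le_one _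
  have hR : ∀ v : (𝓞 K)ˣ, Integrable fun y : logSpace K => β y * β' (y - tr v) := fun v => by
    have h1 := integrable_mul_beta (f := fun _ => 1) continuous_const (fun _ => by simp) hβ (hms v)
      (fun y => hβ'.nonneg _) fun y => hβ'.le_one _
    simpa only [one_mul, Complex.norm_real, Real.norm_of_nonneg
      (mul_nonneg (hβ.nonneg _) (hβ'.nonneg _))] using h1.norm
  have hAs : Summable fun v : (𝓞 K)ˣ => ∫ y : logSpace K,
      ‖f y * ((β y * β' (y - tr v) : ℝ) : ℂ)‖ := by
    refine summable_of_sum_le (c := ∫ y, β y) (fun v => integral_nonneg fun y => norm_nonneg _)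
      fun s => ?_
    rw [← integral_finsetSum _ fun v _ => (hA v).norm]
    refine integral_mono (integrable_finsetSum _ fun v _ => (hA v).norm)
      (Decay.integrable hβ) fun y => ?_
    simp only
    have h1 : ∀ v ∈ s, ‖f y * ((β y * β' (y - tr v) : ℝ) : ℂ)‖ ≤ β y * β' (y - tr v) := by
      intro v _
      rw [norm_mul, Complex.norm_real,
        Real.norm_of_nonneg (mul_nonneg (hβ.nonneg y) (hβ'.nonneg _))]
      exact mul_le_of_le_one_left (mul_nonneg (hβ.nonneg y) (hβ'.nonneg _)) (hf1 y)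
    refine (Finset.sum_le_sum h1).trans ?_
    rw [← Finset.mul_sum]
    exact mul_le_of_le_one_right (hβ.nonneg y)
      (sum_le_hasSum s (fun v _ => hβ'.nonneg _) (hasSum_beta_sub hβ' y))
  have e : ∀ v : (𝓞 K)ˣ, ∫ y : logSpace K, f y * ((β y * β' (y - tr v) : ℝ) : ℂ) =
      ∫ y : logSpace K, f y * ((β' y * β (y + tr v) : ℝ) : ℂ) := fun v => by
    rw [← integral_add_right_eq_self (fun y => f y * ((β y * β' (y - tr v) : ℝ) : ℂ)) (tr v)]
    refine integral_congr_ae (Filter.Eventually.of_forall fun y => ?_)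
    simp only
    rw [hfp, add_sub_cancel_right, mul_comm (β (y + tr v))]
  have en : ∀ v : (𝓞 K)ˣ, ∫ y : logSpace K, ‖f y * ((β y * β' (y - tr v) : ℝ) : ℂ)‖ =
      ∫ y : logSpace K, ‖f y * ((β' y * β (y + tr v) : ℝ) : ℂ)‖ := fun v => by
    rw [← integral_add_right_eq_self (fun y => ‖f y * ((β y * β' (y - tr v) : ℝ) : ℂ)‖) (tr v)]
    refine integral_congr_ae (Filter.Eventually.of_forall fun y => ?_)
    simp only
    rw [hfp, add_sub_cancel_right, mul_comm (β (y + tr v))]
  have hBs : Summable fun v : (𝓞 K)ˣ => ∫ y : logSpace K,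
      ‖f y * ((β' y * β (y + tr v) : ℝ) : ℂ)‖ := by
    simpa only [en] using hAs
  have kA := hasSum_integral_of_summable_integral_norm hA hAs
  have kB := hasSum_integral_of_summable_integral_norm hB hBs
  have hA2 : ∫ y : logSpace K, ∑' v : (𝓞 K)ˣ, f y * ((β y * β' (y - tr v) : ℝ) : ℂ) =
      ∫ y, f y * (β y : ℂ) := by
    refine integral_congr_ae (Filter.Eventually.of_forall fun y => ?_)
    simp only
    have h3 : HasSum (fun v : (𝓞 K)ˣ => ((β y * β' (y - tr v) : ℝ) : ℂ)) ((β y * 1 : ℝ) : ℂ) :=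
      Complex.hasSum_ofReal.mpr ((hasSum_beta_sub hβ' y).mul_left (β y))
    rw [tsum_mul_left, h3.tsum_eq, mul_one]
  have hB2 : ∫ y : logSpace K, ∑' v : (𝓞 K)ˣ, f y * ((β' y * β (y + tr v) : ℝ) : ℂ) =
      ∫ y, f y * (β' y : ℂ) := by
    refine integral_congr_ae (Filter.Eventually.of_forall fun y => ?_)
    simp only
    have h3 : HasSum (fun v : (𝓞 K)ˣ => ((β' y * β (y + tr v) : ℝ) : ℂ)) ((β' y * 1 : ℝ) : ℂ) :=
      Complex.hasSum_ofReal.mpr ((hβ.hasSum y).mul_left (β' y))
    rw [tsum_mul_left, h3.tsum_eq, mul_one]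
  rw [hA2] at kA
  rw [hB2] at kB
  simp only [e] at kA
  exact kA.unique kB

/-- a point of `logSpace K` with prescribed value of `lam κ` -/
theorem exists_lam_eq {κ : InfinitePlace K → ℝ} (hs : ∑ w, κ w = 0) (hκ : κ ≠ 0) (r : ℝ) :
    ∃ z : logSpace K, lam κ z = r := by
  have key : ∀ t : ℝ, lam κ (fun w => t * κ w.1 : logSpace K) =
      t * ∑ w : InfinitePlace K, κ w ^ 2 / (mult w : ℝ) := by
    intro t
    unfold lam
    rw [Finset.mul_sum]
    refine Finset.sum_congr rfl fun w _ => ?_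
    have h1 : lg (fun w => t * κ w.1 : logSpace K) w = t * κ w / (mult w : ℝ) := by
      unfold lg
      split_ifs with hw
      · have h2 : ∑ w' : {w : InfinitePlace K // w ≠ w₀}, t * κ w'.1 = -(t * κ w) := by
          rw [← Finset.mul_sum]
          have h3 := Fintype.sum_subtype_add_sum_subtype (fun w : InfinitePlace K => w ≠ w₀) κ
          have h4 : ∑ w' : {w : InfinitePlace K // ¬ (w ≠ w₀)}, κ w'.1 = κ w := by
            have h5 : ∀ w' : {w : InfinitePlace K // ¬ (w ≠ w₀)}, w' = ⟨w, not_not.mpr hw⟩ :=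
              fun w' => Subtype.ext ((not_not.mp w'.2).trans hw.symm)
            have : Unique {w : InfinitePlace K // ¬ (w ≠ w₀)} := ⟨⟨⟨w, not_not.mpr hw⟩⟩, h5⟩
            rw [Fintype.sum_unique]
            exact congrArg κ (congrArg Subtype.val (h5 default))
          rw [h4, hs] at h3
          have h6 : ∑ w' : {w : InfinitePlace K // w ≠ w₀}, κ w'.1 = -κ w := by linarith
          rw [h6]
          ring
        rw [h2, neg_neg]
      · rfl
    rw [h1]
    ring
  have hpos : 0 < ∑ w : InfinitePlace K, κ w ^ 2 / (mult w : ℝ) := by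
    obtain ⟨w, hw⟩ := Function.ne_iff.mp hκ
    refine Finset.sum_pos' (fun w _ => by positivity) ⟨w, Finset.mem_univ w, ?_⟩
    have h1 : (0 : ℝ) < w.mult := by exact_mod_cast w.mult_pos
    have h2 : κ w ≠ 0 := hw
    positivity
  exact ⟨_, (key (r / ∑ w : InfinitePlace K, κ w ^ 2 / (mult w : ℝ))).trans
    (div_mul_cancel₀ r hpos.ne')⟩

/-- **(Z)** -/
theorem zeroGStmt (K : Type u) [Field K] [NumberField K] : ZeroGStmt K := by
  intro κ hs hκ hu β hβ
  obtain ⟨z, hz⟩ := exists_lam_eq hs hκ Real.pi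
  have hc : Continuous fun y : logSpace K => eI (-lam κ y) := continuous_eI_lam κ
  have hp : ∀ (y : logSpace K) (v : (𝓞 K)ˣ), eI (-lam κ (y + tr v)) = eI (-lam κ y) := by
    intro y v
    have h3 : lam κ (tr v) = lK κ ((v : 𝓞 K) : K) := lam_logEmbedding κ v
    rw [lam_add, neg_add, eI_add, h3, eI_neg (lK κ ((v : 𝓞 K) : K)), hu v, map_one, mul_one]
  have h1 := integral_beta_indep hc (fun y => (norm_eI _).le) hp hβ (isBeta_trans hβ z)
  have h2 : ∫ y : logSpace K, eI (-lam κ y) * (β (y + z) : ℂ) =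
      eI Real.pi * ∫ y : logSpace K, eI (-lam κ y) * (β y : ℂ) := by
    rw [← integral_const_mul,
      ← integral_add_right_eq_self (fun y => eI Real.pi * (eI (-lam κ y) * (β y : ℂ))) z]
    refine integral_congr_ae (Filter.Eventually.of_forall fun y => ?_)
    simp only
    have h5 : eI Real.pi * eI (-Real.pi) = 1 := by rw [← eI_add, add_neg_cancel, eI_zero]
    rw [lam_add, hz, neg_add, eI_add]
    linear_combination (-(eI (-lam κ y) * (β (y + z) : ℂ))) * h5
  have h3 : eI Real.pi = -1 := Complex.exp_pi_mul_I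
  rw [h2, h3] at h1
  have h4 : (2 : ℂ) * ∫ y : logSpace K, eI (-lam κ y) * (β y : ℂ) = 0 := by
    linear_combination h1
  exact (mul_eq_zero.mp h4).resolve_left two_ne_zero

/-- (B) unconditionally -/
theorem unfoldGStmt (K : Type u) [Field K] [NumberField K] : UnfoldGStmt K :=
  unfoldGStmt_of (zeroGStmt K)

/-- (B') unconditionally -/
theorem torusGStmt (K : Type u) [Field K] [NumberField K] : TorusGStmt K :=
  torusGStmt_of (zeroGStmt K)

end Fermat.Agent.Cor.RayG
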