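import Fermat.Agent.Corollaries.RayG.FourierC
import Fermat.Agent.Corollaries.RayG.ZeroG
import Fermat.Agent.Corollaries.RayG.DecayG
import Fermat.Agent.Corollaries.RayG.MellinG
import Fermat.Agent.Corollaries.RayG.GammaG
import Fermat.Agent.Corollaries.RayG.EntireG
import Fermat.Agent.Corollaries.RayG.LFunG
import Fermat.Agent.Corollaries.RayG.ExistG
import Fermat.Agent.Corollaries.RayG.PrimeSumG

/-!
# Hecke's Groessencharaktere of every number field: the theorems (RAYG)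

No hypotheses: the analytic continuation, the non-vanishing on `Re s ≥ 1`, the prime number theorem,
and the existence of the Groessencharaktere of a given type.
-/

set_option autoImplicit false
set_option linter.unusedSectionVars false

noncomputable section

open NumberField NumberField.InfinitePlace nonZeroDivisors Complex Filter Topology

open scoped Classical ComplexConjugate

namespace Fermat.Agent.Cor.RayG

open Fermat.Agent.Classic.Zeta Fermat.Agent.Cor.Ray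

universe u

/-! ### The pieces, without hypotheses -/

theorem decayGStmt (K : Type u) [Field K] [NumberField K] : DecayGStmt K :=
  decayGStmt_of (zeroGStmt K)

theorem mellinGStmt (K : Type u) [Field K] [NumberField K] : MellinGStmt K :=
  mellinGStmt_of (unfoldGStmt K) (gammaGStmt K)

theorem entireGStmt (K : Type u) [Field K] [NumberField K] : EntireGStmt K :=
  entireGStmt_of (thetaGStmt K) (torusGStmt K) (decayGStmt K) (mellinGStmt K)

theorem lFunGStmt (K : Type u) [Field K] [NumberField K] : LFunGStmt K := lFunG (entireGStmt K)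

theorem nonVanGStmt (K : Type u) [Field K] [NumberField K] : NonVanGStmt K :=
  nonVanG (lFunGStmt K)

theorem primeSumGStmt (K : Type u) [Field K] [NumberField K] : PrimeSumGStmt K :=
  primeSumG_of (nonVanGStmt K)

/-! ### The theorems -/

variable {K : Type u} [Field K] [NumberField K] {n : InfinitePlace K → ℤ}
  {κ : InfinitePlace K → ℝ} {𝔪 : Ideal (𝓞 K)}

/-- **Hecke (1918/20): the `L`-function of a Groessencharakter of a non-trivial type is entire.** -/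
theorem hecke_entire (hty : IsTy n κ) (hne : n ≠ 0 ∨ κ ≠ 0) (h𝔪 : 𝔪 ≠ ⊥)
    {ψ : (Ideal (𝓞 K))⁰ →* ℂ} (hψ : GChar n κ 𝔪 ψ) :
    ∃ L : ℂ → ℂ, Differentiable ℂ L ∧ ∀ s : ℂ, 1 < s.re →
      L s = ∑' I : (Ideal (𝓞 K))⁰, ψ I * (Ideal.absNorm (I : Ideal (𝓞 K)) : ℂ) ^ (-s) :=
  lFunGStmt K n κ hty hne 𝔪 h𝔪 ψ hψ

/-- **The `L`-function of a Groessencharakter of infinite order has no zeros on `Re s ≥ 1`.** -/
theorem hecke_ne_zero (hty : IsTy n κ) (hinf : IsInf n κ) (h𝔪 : 𝔪 ≠ ⊥)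
    {ψ : (Ideal (𝓞 K))⁰ →* ℂ} (hψ : GChar n κ 𝔪 ψ) :
    ∃ L : ℂ → ℂ, Differentiable ℂ L ∧ (∀ s : ℂ, 1 < s.re →
      L s = ∑' I : (Ideal (𝓞 K))⁰, ψ I * (Ideal.absNorm (I : Ideal (𝓞 K)) : ℂ) ^ (-s)) ∧
      ∀ s : ℂ, 1 ≤ s.re → L s ≠ 0 :=
  nonVanGStmt K n κ hty hinf 𝔪 h𝔪 ψ hψ

/-- **The prime number theorem for Groessencharaktere of infinite order**:
`∑_{NP ≤ x} ψ(P) = o(x / log x)`. -/
theorem hecke_prime_sum (hty : IsTy n κ) (hinf : IsInf n κ) (h𝔪 : 𝔪 ≠ ⊥)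
    {ψ : (Ideal (𝓞 K))⁰ →* ℂ} (hψ : GChar n κ 𝔪 ψ) :
    Tendsto (fun x : ℝ => (∑ᶠ P ∈ {P : (Ideal (𝓞 K))⁰ | (P : Ideal (𝓞 K)).IsPrime ∧
      (Ideal.absNorm (P : Ideal (𝓞 K)) : ℝ) ≤ x}, ψ P) * Real.log x / x) atTop (𝓝 0) :=
  primeSumGStmt K n κ hty hinf 𝔪 h𝔪 ψ hψ

/-- **Existence of Groessencharaktere**: there is a Groessencharakter modulo `𝔪` of type `(n, κ)`
if and only if the character at infinity of type `(n, κ)` is trivial on the units `≡ 1`
modulo `𝔪`. -/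
theorem exists_gchar_iff (h𝔪 : 𝔪 ≠ ⊥) : (∃ ψ : (Ideal (𝓞 K))⁰ →* ℂ, GChar n κ 𝔪 ψ) ↔
    ∀ v : (𝓞 K)ˣ, (v : 𝓞 K) - 1 ∈ 𝔪 → chi n κ ((v : 𝓞 K) : K) = 1 := by
  refine ⟨?_, existG K n κ 𝔪 h𝔪⟩
  rintro ⟨ψ, hψ⟩ v hv
  rw [← hψ.cong (v : 𝓞 K) v.ne_zero hv]
  have h1 : sp (v : 𝓞 K) v.ne_zero = 1 := by
    refine Subtype.ext ?_
    rw [Submonoid.coe_one]
    exact (Ideal.span_singleton_eq_top.mpr v.isUnit).trans Ideal.one_eq_top.symm
  rw [h1, map_one]

/-- **A Groessencharakter has absolute value one at the ideals prime to the modulus.** -/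
theorem norm_gchar (h𝔪 : 𝔪 ≠ ⊥) {ψ : (Ideal (𝓞 K))⁰ →* ℂ} (hψ : GChar n κ 𝔪 ψ)
    {I : (Ideal (𝓞 K))⁰} (hI : IsCoprime (I : Ideal (𝓞 K)) 𝔪) : ‖ψ I‖ = 1 := by
  obtain ⟨m, hm, a, ha, ha1⟩ := exists_pow_eq_span h𝔪 hI
  have ha0 : a ≠ 0 := by
    rintro rfl
    rw [Ideal.span_singleton_eq_bot.mpr rfl] at ha
    exact nonZeroDivisors.coe_ne_zero _ ha
  have h1 : I ^ m = sp a ha0 := Subtype.ext ha
  have h2 : ‖ψ I‖ ^ m = 1 := by
    rw [← norm_pow, ← map_pow, h1, hψ.cong a ha0 ha1]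
    exact norm_chi n κ (by exact_mod_cast ha0)
  exact (pow_eq_one_iff_of_nonneg (norm_nonneg _) hm).mp h2

end Fermat.Agent.Cor.RayG

end
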