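import Fermat.Agent.Corollaries.RayG.Units
import Fermat.Agent.Corollaries.RayG.Final

/-!
# Hecke's equidistribution theorems, without hypotheses

`e2 t = e ^ (2 π i t)`, `haarT ι` the normalised Haar measure of the torus `ι → ℝ / ℤ`.
-/

set_option autoImplicit false
set_option linter.unusedSectionVars false

noncomputable section

open NumberField NumberField.InfinitePlace NumberField.Units nonZeroDivisors Filter Topology
open UnitAddTorus

open scoped Classical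

namespace Fermat.Agent.Cor.RayG

open Fermat.Agent.ClassL Fermat.Agent.Cor.Ray Fermat.Agent.Cor.RayN

/-! ### One Groessencharakter -/

section One

variable {K : Type} [Field K] [NumberField K] {𝔪 : Ideal (𝓞 K)}
  {n : InfinitePlace K → ℤ} {κ : InfinitePlace K → ℝ} {ψ : (Ideal (𝓞 K))⁰ →* ℂ}

/-- **The values `ψ(P)` of a Groessencharakter of infinite order modulo `𝔪` are equidistributed on
the unit circle, in every narrow ray class modulo `𝔪`** (every number field). -/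
theorem hecke_arc_narrow (h𝔪 : 𝔪 ≠ ⊥) (hty : IsTy n κ) (hinf : IsInf n κ)
    (hψ : GChar n κ 𝔪 ψ) {J : (Ideal (𝓞 K))⁰} (hJ : IsCoprime (J : Ideal (𝓞 K)) 𝔪) {α β : ℝ}
    (h1 : α ≤ β) (h2 : β ≤ α + 1) :
    Tendsto (fun x : ℕ => (Nat.card {P : Pr K //
      Ideal.absNorm ((P.1 : (Ideal (𝓞 K))⁰) : Ideal (𝓞 K)) ≤ x ∧ NRayEq 𝔪 P.1 J ∧
      ∃ t ∈ Set.Ioo α β, ψ P.1 = e2 t} : ℝ) * Real.log x / x) atTop
      (𝓝 ((β - α) / nRayNumber 𝔪)) :=
  tendsto_arc_nray (nonVanGStmt K) h𝔪 hty hinf hψ hJ h1 h2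

/-- **All prime ideals prime to `𝔪`.** -/
theorem hecke_arc (h𝔪 : 𝔪 ≠ ⊥) (hty : IsTy n κ) (hinf : IsInf n κ)
    (hψ : GChar n κ 𝔪 ψ) {α β : ℝ} (h1 : α ≤ β) (h2 : β ≤ α + 1) :
    Tendsto (fun x : ℕ => (Nat.card {P : Pr K //
      Ideal.absNorm ((P.1 : (Ideal (𝓞 K))⁰) : Ideal (𝓞 K)) ≤ x ∧
      IsCoprime ((P.1 : (Ideal (𝓞 K))⁰) : Ideal (𝓞 K)) 𝔪 ∧
      ∃ t ∈ Set.Ioo α β, ψ P.1 = e2 t} : ℝ) * Real.log x / x) atTop (𝓝 (β - α)) :=
  tendsto_arc (nonVanGStmt K) h𝔪 hty hinf hψ h1 h2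

/-- **Ideal classes** (`𝔪 = 1`). -/
theorem hecke_arc_class (hty : IsTy n κ) (hinf : IsInf n κ)
    (hψ : GChar n κ (⊤ : Ideal (𝓞 K)) ψ) (C : ClassGroup (𝓞 K)) {α β : ℝ}
    (h1 : α ≤ β) (h2 : β ≤ α + 1) :
    Tendsto (fun x : ℕ => (Nat.card {P : Pr K //
      Ideal.absNorm ((P.1 : (Ideal (𝓞 K))⁰) : Ideal (𝓞 K)) ≤ x ∧ ClassGroup.mk0 P.1 = C ∧
      ∃ t ∈ Set.Ioo α β, ψ P.1 = e2 t} : ℝ) * Real.log x / x) atTop
      (𝓝 ((β - α) / classNumber K)) :=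
  tendsto_arc_class (nonVanGStmt K) hty hinf hψ C h1 h2

end One

/-! ### The torus -/

universe u

variable {K : Type u} [Field K] [NumberField K] {𝔪 : Ideal (𝓞 K)}

/-- **Several Groessencharaktere modulo `𝔪`** of the types `(n i, κ i)`, all nontrivial products of
infinite order: the points `(ψ i (P))_i` are equidistributed on the torus, in every narrow ray
class modulo `𝔪`. -/
theorem hecke_torus_narrow {ι : Type*} [Fintype ι] {n : ι → InfinitePlace K → ℤ}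
    {κ : ι → InfinitePlace K → ℝ} {ψ : ι → (Ideal (𝓞 K))⁰ →* ℂ} (h𝔪 : 𝔪 ≠ ⊥)
    (hty : ∀ i, IsTy (n i) (κ i)) (hψ : ∀ i, GChar (n i) (κ i) 𝔪 (ψ i))
    (hinf : ∀ k : ι → ℤ, k ≠ 0 → IsInf (∑ i, k i • n i) (∑ i, k i • κ i))
    {J : (Ideal (𝓞 K))⁰} (hJ : IsCoprime (J : Ideal (𝓞 K)) 𝔪) {E : Set (UnitAddTorus ι)}
    (hE : haarT ι (frontier E) = 0) :
    Tendsto (fun x : ℕ => (Nat.card {P : Pr K //
      Ideal.absNorm ((P.1 : (Ideal (𝓞 K))⁰) : Ideal (𝓞 K)) ≤ x ∧ NRayEq 𝔪 P.1 J ∧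
      ∃ t : ι → ℝ, (∀ i, ψ i P.1 = e2 (t i)) ∧ (fun i => ((t i : ℝ) : UnitAddCircle)) ∈ E} : ℝ) *
        Real.log x / x) atTop (𝓝 ((haarT ι E).toReal / nRayNumber 𝔪)) :=
  tendsto_torus_nray (nonVanGStmt K) h𝔪 hty hψ hinf hJ hE

/-- **Hecke: the logarithms of the prime elements modulo the unit lattice.** `K` any number field,
`r` the rank of its units; for `π ≠ 0` let `t ∈ ℝ^r` be the vector with
`log |π|_w = ∑ t_j log |ε_j|_w + log |N π| / [K : ℚ]` for all infinite places `w` (`ε_j` Mathlib's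
fundamental units). For every set `E` in the torus `(ℝ / ℤ) ^ r` with boundary of measure zero the
number of the principal prime ideals `(π)` of norm at most `x` with `t mod 1 ∈ E` is asymptotic to
`(μ(E) / h) x / log x`. -/
theorem hecke_units {E : Set (UnitAddTorus (Fin (rank K)))}
    (hE : haarT (Fin (rank K)) (frontier E) = 0) :
    Tendsto (fun x : ℕ => (Nat.card {P : Pr K //
      Ideal.absNorm ((P.1 : (Ideal (𝓞 K))⁰) : Ideal (𝓞 K)) ≤ x ∧
      ∃ (π : 𝓞 K) (t : Fin (rank K) → ℝ),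
        ((P.1 : (Ideal (𝓞 K))⁰) : Ideal (𝓞 K)) = Ideal.span {π} ∧
        (∀ w : InfinitePlace K, Real.log (w (π : K)) =
          ∑ j, t j * Real.log (w ((fundSystem K j : 𝓞 K) : K)) +
            Real.log |(Algebra.norm ℚ (π : K) : ℚ)| / Module.finrank ℚ K) ∧
        (fun j => ((t j : ℝ) : UnitAddCircle)) ∈ E} : ℝ) * Real.log x / x) atTop
      (𝓝 ((haarT (Fin (rank K)) E).toReal / classNumber K)) :=
  tendsto_units (nonVanGStmt K) hE

end Fermat.Agent.Cor.RayG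

end
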