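import Fermat.Agent.Corollaries.RayG.ZerosG
import Fermat.Agent.Corollaries.RayN.Conductor

/-!
# The conductor of a Groessencharakter

Every Groessencharakter `ψ` modulo `𝔪` of type `(n, κ)` is induced by a primitive Groessencharakter
`ψ'` of the same type, modulo its conductor `𝔣 ∣ 𝔪` (`exists_primitiveG`);
`L(s, ψ) = L(s, ψ') ∏_{P ∣ 𝔪} (1 - ψ'(P) N(P)^{-s})`, and `L(s, ψ')` satisfies Hecke's functional
equation (`functional_equation_every`).  So every `L(s, ψ)`, `ψ` of infinite order, has infinitely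
many zeros with `0 < Re s < 1` (`hecke_infinite_zeros`).
-/

set_option autoImplicit false
set_option linter.unusedSectionVars false

noncomputable section

namespace Fermat.Agent.Cor.RayG

open NumberField NumberField.InfinitePlace
open Fermat.Agent.ClassL Fermat.Agent.Classic.Zeta Fermat.Agent.Cor.Ray
open Fermat.Agent.Cor.RayN (exists_congr exists_rep isCoprime_mono isCoprime_of_prime badPr
  mem_badPr Ls_eq_mul_prod NRayEq)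
open scoped nonZeroDivisors Classical ComplexConjugate

universe u

variable {K : Type u} [Field K] [NumberField K] {𝔪 𝔫 : Ideal (𝓞 K)}
  {ψ : (Ideal (𝓞 K))⁰ →* ℂ} {n : InfinitePlace K → ℤ} {κ : InfinitePlace K → ℝ}

/-- an inverse modulo `𝔪`, prime to `𝔪` -/
theorem exists_inv_ne (h𝔪 : 𝔪 ≠ ⊥) {a : 𝓞 K} (hc : IsCoprime (Ideal.span {a}) 𝔪) :
    ∃ z : 𝓞 K, z ≠ 0 ∧ IsCoprime (Ideal.span {z}) 𝔪 ∧ z * a - 1 ∈ 𝔪 := by
  obtain ⟨b, hb⟩ := isCoprime_span_iff.mp hc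
  have hbc : IsCoprime (Ideal.span {b}) 𝔪 := isCoprime_span_iff.mpr ⟨a, by rwa [mul_comm]⟩
  obtain ⟨z, h0, h1, h2, -⟩ := exists_congr h𝔪 h𝔪 hbc ∅
  refine ⟨z, h0, h1, ?_⟩
  have : z * a - 1 = (z - b) * a + (b * a - 1) := by ring
  rw [this]
  exact 𝔪.add_mem (𝔪.mul_mem_right _ h2) hb

/-! ### Moduli of definition -/

variable (n κ) in
/-- `ψ` is defined modulo `𝔫` -/
def IsModG (𝔪 : Ideal (𝓞 K)) (ψ : (Ideal (𝓞 K))⁰ →* ℂ) (𝔫 : Ideal (𝓞 K)) : Prop :=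
  ∀ (a : 𝓞 K) (ha : a ≠ 0), IsCoprime (Ideal.span {a}) 𝔪 → a - 1 ∈ 𝔫 →
    ψ (sp a ha) = chi n κ (a : K)

theorem GChar.isModG (h : GChar n κ 𝔪 ψ) : IsModG n κ 𝔪 ψ 𝔪 := fun a ha _ h1 => h.cong a ha h1

/-- **the gcd of two moduli of definition** -/
theorem IsModG.sup (h𝔪 : 𝔪 ≠ ⊥) (h : GChar n κ 𝔪 ψ) {𝔫₁ 𝔫₂ : Ideal (𝓞 K)} (hle₁ : 𝔪 ≤ 𝔫₁)
    (hle₂ : 𝔪 ≤ 𝔫₂) (h₁ : IsModG n κ 𝔪 ψ 𝔫₁) (h₂ : IsModG n κ 𝔪 ψ 𝔫₂) :
    IsModG n κ 𝔪 ψ (𝔫₁ ⊔ 𝔫₂) := by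
  intro a ha hac h1
  obtain ⟨n₁, hn₁, n₂, hn₂, hn⟩ := Submodule.mem_sup.mp h1
  have h𝔫₁ : 𝔫₁ ≠ ⊥ := fun h0 => h𝔪 (le_bot_iff.mp (h0 ▸ hle₁))
  have h𝔫₂ : 𝔫₂ ≠ ⊥ := fun h0 => h𝔪 (le_bot_iff.mp (h0 ▸ hle₂))
  have hc : IsCoprime (Ideal.span {1 + n₂}) (𝔫₁ * 𝔫₂) := by
    refine IsCoprime.mul_right ?_ ?_
    · obtain ⟨b, hb⟩ := isCoprime_span_iff.mp hac
      refine isCoprime_span_iff.mpr ⟨b, ?_⟩
      have : b * (1 + n₂) - 1 = (b * a - 1) - b * n₁ := by linear_combination b * hn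
      rw [this]
      exact 𝔫₁.sub_mem (hle₁ hb) (𝔫₁.mul_mem_left _ hn₁)
    · refine isCoprime_span_iff.mpr ⟨1, ?_⟩
      have : 1 * (1 + n₂) - 1 = n₂ := by ring
      rwa [this]
  obtain ⟨x, hx0, hxc, hx, -⟩ := exists_congr h𝔪 (mul_ne_zero h𝔫₁ h𝔫₂) hc ∅
  have e1 : ψ (sp x hx0) = chi n κ (x : K) := by
    refine h₂ x hx0 hxc ?_
    have : x - 1 = (x - (1 + n₂)) + n₂ := by ring
    rw [this]
    exact 𝔫₂.add_mem (Ideal.mul_le_right hx) hn₂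
  obtain ⟨z, hz0, hzc, hz⟩ := exists_inv_ne h𝔪 hxc
  have e2 : ψ (sp z hz0) * ψ (sp x hx0) = chi n κ (z : K) * chi n κ (x : K) := by
    rw [← map_mul, ← sp_mul hz0 hx0, ← coe_chi_mul hz0 hx0]
    exact h.cong _ _ hz
  have e3 : ψ (sp z hz0) * ψ (sp a ha) = chi n κ (z : K) * chi n κ (a : K) := by
    rw [← map_mul, ← sp_mul hz0 ha, ← coe_chi_mul hz0 ha]
    refine h₁ _ _ ?_ ?_
    · rw [← Ideal.span_singleton_mul_span_singleton]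
      exact IsCoprime.mul_left hzc hac
    · have : z * a - 1 = z * (n₁ - (x - (1 + n₂))) + (z * x - 1) := by
        linear_combination (-z) * hn
      rw [this]
      exact 𝔫₁.add_mem (𝔫₁.mul_mem_left _ (𝔫₁.sub_mem hn₁ (Ideal.mul_le_left hx))) (hle₁ hz)
  rw [e1] at e2
  have e4 := mul_right_cancel₀ (chi_ne_zero n κ (coe_ne_zeroG hx0)) e2
  rw [e4] at e3
  exact mul_left_cancel₀ (chi_ne_zero n κ (coe_ne_zeroG hz0)) e3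

/-- the greatest modulus of definition -/
theorem exists_greatestG (h𝔪 : 𝔪 ≠ ⊥) (h : GChar n κ 𝔪 ψ) :
    ∃ 𝔣 : Ideal (𝓞 K), 𝔪 ≤ 𝔣 ∧ IsModG n κ 𝔪 ψ 𝔣 ∧
      ∀ 𝔫, 𝔪 ≤ 𝔫 → IsModG n κ 𝔪 ψ 𝔫 → 𝔫 ≤ 𝔣 := by
  obtain ⟨𝔣, ⟨h1, h2⟩, hmax⟩ := WellFounded.has_min
    (wellFounded_gt : WellFounded ((· > ·) : Ideal (𝓞 K) → Ideal (𝓞 K) → Prop))
    {𝔫 | 𝔪 ≤ 𝔫 ∧ IsModG n κ 𝔪 ψ 𝔫} ⟨𝔪, le_rfl, h.isModG⟩
  refine ⟨𝔣, h1, h2, fun 𝔫 h3 h4 => ?_⟩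
  by_contra hcon
  exact hmax (𝔣 ⊔ 𝔫) ⟨h1.trans le_sup_left, h2.sup h𝔪 h h1 h3 h4⟩
    (left_lt_sup.mpr hcon)

/-- if `(a) I = (b) J` with `a ≡ b` modulo a modulus of definition, then
`χ(a) ψ(I) = χ(b) ψ(J)` -/
theorem IsModG.psi_eq (h𝔪 : 𝔪 ≠ ⊥) (h : GChar n κ 𝔪 ψ) (hle : 𝔪 ≤ 𝔫)
    (h1 : IsModG n κ 𝔪 ψ 𝔫) {I J : (Ideal (𝓞 K))⁰} (hI : IsCoprime (I : Ideal (𝓞 K)) 𝔪)
    (hJ : IsCoprime (J : Ideal (𝓞 K)) 𝔪) {a b : 𝓞 K} (ha : a ≠ 0) (hb : b ≠ 0)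
    (hac : IsCoprime (Ideal.span {a}) 𝔫) (hab : a - b ∈ 𝔫)
    (he : Ideal.span {a} * (I : Ideal (𝓞 K)) = Ideal.span {b} * (J : Ideal (𝓞 K))) :
    chi n κ (a : K) * ψ I = chi n κ (b : K) * ψ J := by
  obtain ⟨L, b', hb', hL, hbc', hIL⟩ := exists_mul_eq_span h𝔪 hI
  -- `a b' = b a'`
  have h2 : Ideal.span {a * b'} = Ideal.span {b} * ((J : Ideal (𝓞 K)) * (L : Ideal (𝓞 K))) := by
    rw [← Ideal.span_singleton_mul_span_singleton, ← hIL, ← mul_assoc, he, mul_assoc]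
  obtain ⟨a', haa⟩ : ∃ a' : 𝓞 K, a * b' = b * a' := by
    have h3 : a * b' ∈ Ideal.span {b} := by
      refine Ideal.mul_le_left (I := Ideal.span {b}) (J := (J : Ideal (𝓞 K)) * (L : Ideal (𝓞 K))) ?_
      rw [← h2]
      exact Ideal.mem_span_singleton_self _
    exact Ideal.mem_span_singleton.mp h3
  have ha'0 : a' ≠ 0 := by
    rintro rfl
    rw [mul_zero] at haa
    exact mul_ne_zero ha hb' haa
  have h4 : Ideal.span {a'} = (J : Ideal (𝓞 K)) * (L : Ideal (𝓞 K)) := by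
    rw [haa, ← Ideal.span_singleton_mul_span_singleton] at h2
    refine mul_left_cancel₀ ?_ h2
    rwa [Ne, Ideal.zero_eq_bot, Ideal.span_singleton_eq_bot]
  have hac' : IsCoprime (Ideal.span {a'}) 𝔪 := by
    rw [h4]
    exact IsCoprime.mul_left hJ hL
  have hcongr : a' - b' ∈ 𝔫 := by
    have hbc : IsCoprime (Ideal.span {b}) 𝔫 := by
      obtain ⟨c, hc⟩ := isCoprime_span_iff.mp hac
      refine isCoprime_span_iff.mpr ⟨c, ?_⟩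
      have : c * b - 1 = (c * a - 1) - c * (a - b) := by ring
      rw [this]
      exact 𝔫.sub_mem hc (𝔫.mul_mem_left _ hab)
    obtain ⟨c, hc⟩ := isCoprime_span_iff.mp hbc
    have : a' - b' = c * (b' * (a - b)) - (c * b - 1) * (a' - b') := by
      linear_combination (-c) * haa
    rw [this]
    exact 𝔫.sub_mem (𝔫.mul_mem_left _ (𝔫.mul_mem_left _ hab)) (𝔫.mul_mem_right _ hc)
  obtain ⟨z, hz0, hzc, hz⟩ := exists_inv_ne h𝔪 hac'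
  have e1 : ψ (sp z hz0) * ψ (sp a' ha'0) = chi n κ (z : K) * chi n κ (a' : K) := by
    rw [← map_mul, ← sp_mul hz0 ha'0, ← coe_chi_mul hz0 ha'0]
    exact h.cong _ _ hz
  have e2 : ψ (sp z hz0) * ψ (sp b' hb') = chi n κ (z : K) * chi n κ (b' : K) := by
    rw [← map_mul, ← sp_mul hz0 hb', ← coe_chi_mul hz0 hb']
    refine h1 _ _ ?_ ?_
    · rw [← Ideal.span_singleton_mul_span_singleton]
      exact IsCoprime.mul_left hzc hbc'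
    · have : z * b' - 1 = (z * a' - 1) - z * (a' - b') := by ring
      rw [this]
      exact 𝔫.sub_mem (hle hz) (𝔫.mul_mem_left _ hcongr)
  have e4 : ψ (sp a' ha'0) = ψ J * ψ L := by
    rw [← map_mul]
    exact congrArg ψ (Subtype.ext h4)
  have e5 : ψ (sp b' hb') = ψ I * ψ L := by
    rw [← map_mul]
    exact congrArg ψ (Subtype.ext hIL.symm)
  have e6 : chi n κ (a : K) * chi n κ (b' : K) = chi n κ (b : K) * chi n κ (a' : K) := by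
    rw [← coe_chi_mul ha hb', haa, coe_chi_mul hb ha'0]
  have hL0 : ψ L ≠ 0 := ne_zero_of_coprimeG h𝔪 h hL
  have hz1 : ψ (sp z hz0) ≠ 0 := ne_zero_of_coprimeG h𝔪 h (I := sp z hz0) hzc
  rw [e4] at e1
  rw [e5] at e2
  have hχ : chi n κ (z : K) ≠ 0 := chi_ne_zero n κ (coe_ne_zeroG hz0)
  have hb'0 : chi n κ (b' : K) ≠ 0 := chi_ne_zero n κ (coe_ne_zeroG hb')
  -- cross-multiply
  have e7 : (chi n κ (z : K) * ψ (sp z hz0) * ψ L) * (chi n κ (b' : K) * ψ J) =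
      (chi n κ (z : K) * ψ (sp z hz0) * ψ L) * (chi n κ (a' : K) * ψ I) := by
    linear_combination (chi n κ (z : K) * chi n κ (b' : K)) * e1 -
      (chi n κ (z : K) * chi n κ (a' : K)) * e2
  have e8 := mul_left_cancel₀ (mul_ne_zero (mul_ne_zero hχ hz1) hL0) e7
  refine mul_left_cancel₀ hb'0 ?_
  linear_combination (ψ I) * e6 - (chi n κ (b : K)) * e8

/-! ### The primitive character -/

variable (n κ) in
/-- `v` is the value at `I` of the extension of `ψ` -/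
def IsVal (𝔪 : Ideal (𝓞 K)) (ψ : (Ideal (𝓞 K))⁰ →* ℂ) (𝔫 : Ideal (𝓞 K)) (I : (Ideal (𝓞 K))⁰)
    (v : ℂ) : Prop :=
  ∃ (J : (Ideal (𝓞 K))⁰) (a b : 𝓞 K), IsCoprime (J : Ideal (𝓞 K)) 𝔪 ∧ a ≠ 0 ∧ b ≠ 0 ∧
    IsCoprime (Ideal.span {a}) 𝔫 ∧ a - b ∈ 𝔫 ∧
    Ideal.span {a} * (J : Ideal (𝓞 K)) = Ideal.span {b} * (I : Ideal (𝓞 K)) ∧
    chi n κ (b : K) * v = chi n κ (a : K) * ψ J

theorem isCoprime_of_sub {a b : 𝓞 K} (ha : IsCoprime (Ideal.span {a}) 𝔫) (hab : a - b ∈ 𝔫) :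
    IsCoprime (Ideal.span {b}) 𝔫 := by
  obtain ⟨c, hc⟩ := isCoprime_span_iff.mp ha
  refine isCoprime_span_iff.mpr ⟨c, ?_⟩
  have : c * b - 1 = (c * a - 1) - c * (a - b) := by ring
  rw [this]
  exact 𝔫.sub_mem hc (𝔫.mul_mem_left _ hab)

theorem exists_isVal (h𝔪 : 𝔪 ≠ ⊥) (h𝔫 : 𝔫 ≠ ⊥) {I : (Ideal (𝓞 K))⁰}
    (hI : IsCoprime (I : Ideal (𝓞 K)) 𝔫) : ∃ v : ℂ, IsVal n κ 𝔪 ψ 𝔫 I v := by
  obtain ⟨J, hJ, a, b, ha, hb, hac, hab, -, he⟩ := exists_rep h𝔪 h𝔫 hI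
  refine ⟨(chi n κ (b : K))⁻¹ * (chi n κ (a : K) * ψ J), J, a, b, hJ, ha, hb, hac, hab, he, ?_⟩
  rw [← mul_assoc, mul_inv_cancel₀ (chi_ne_zero n κ (coe_ne_zeroG hb)), one_mul]

theorem IsVal.eq (h𝔪 : 𝔪 ≠ ⊥) (h : GChar n κ 𝔪 ψ) (hle : 𝔪 ≤ 𝔫)
    (h1 : IsModG n κ 𝔪 ψ 𝔫) {I : (Ideal (𝓞 K))⁰} {v v' : ℂ} (hv : IsVal n κ 𝔪 ψ 𝔫 I v)
    (hv' : IsVal n κ 𝔪 ψ 𝔫 I v') : v = v' := by
  obtain ⟨J, a, b, hJ, ha, hb, hac, hab, he, hv⟩ := hv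
  obtain ⟨J', a', b', hJ', ha', hb', hac', hab', he', hv'⟩ := hv'
  have e1 := h1.psi_eq h𝔪 h hle (I := J) (J := J') hJ hJ' (a := a * b') (b := b * a')
    (mul_ne_zero ha hb') (mul_ne_zero hb ha') ?_ ?_ ?_
  · rw [coe_chi_mul ha hb', coe_chi_mul hb ha'] at e1
    refine mul_left_cancel₀ (mul_ne_zero (chi_ne_zero n κ (coe_ne_zeroG hb))
      (chi_ne_zero n κ (coe_ne_zeroG hb'))) ?_
    linear_combination (chi n κ (b' : K)) * hv + e1 - (chi n κ (b : K)) * hv'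
  · rw [← Ideal.span_singleton_mul_span_singleton]
    exact IsCoprime.mul_left hac (isCoprime_of_sub hac' hab')
  · have : a * b' - b * a' = (a - b) * b' - b * (a' - b') := by ring
    rw [this]
    exact 𝔫.sub_mem (𝔫.mul_mem_right _ hab) (𝔫.mul_mem_left _ hab')
  · rw [← Ideal.span_singleton_mul_span_singleton, ← Ideal.span_singleton_mul_span_singleton]
    calc Ideal.span {a} * Ideal.span {b'} * (J : Ideal (𝓞 K))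
        = Ideal.span {b'} * (Ideal.span {a} * (J : Ideal (𝓞 K))) := by ring
      _ = Ideal.span {b} * (Ideal.span {b'} * (I : Ideal (𝓞 K))) := by rw [he]; ring
      _ = Ideal.span {b} * Ideal.span {a'} * (J' : Ideal (𝓞 K)) := by rw [← he']; ring

theorem IsVal.mul {I I' : (Ideal (𝓞 K))⁰} {v v' : ℂ} (hv : IsVal n κ 𝔪 ψ 𝔫 I v)
    (hv' : IsVal n κ 𝔪 ψ 𝔫 I' v') : IsVal n κ 𝔪 ψ 𝔫 (I * I') (v * v') := by
  obtain ⟨J, a, b, hJ, ha, hb, hac, hab, he, hv⟩ := hv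
  obtain ⟨J', a', b', hJ', ha', hb', hac', hab', he', hv'⟩ := hv'
  refine ⟨J * J', a * a', b * b', ?_, mul_ne_zero ha ha', mul_ne_zero hb hb', ?_, ?_, ?_, ?_⟩
  · rw [Submonoid.coe_mul]
    exact IsCoprime.mul_left hJ hJ'
  · rw [← Ideal.span_singleton_mul_span_singleton]
    exact IsCoprime.mul_left hac hac'
  · have : a * a' - b * b' = (a - b) * a' + b * (a' - b') := by ring
    rw [this]
    exact 𝔫.add_mem (𝔫.mul_mem_right _ hab) (𝔫.mul_mem_left _ hab')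
  · rw [Submonoid.coe_mul, Submonoid.coe_mul, ← Ideal.span_singleton_mul_span_singleton,
      ← Ideal.span_singleton_mul_span_singleton]
    calc Ideal.span {a} * Ideal.span {a'} * ((J : Ideal (𝓞 K)) * (J' : Ideal (𝓞 K)))
        = (Ideal.span {a} * (J : Ideal (𝓞 K))) * (Ideal.span {a'} * (J' : Ideal (𝓞 K))) := by ring
      _ = Ideal.span {b} * Ideal.span {b'} * ((I : Ideal (𝓞 K)) * (I' : Ideal (𝓞 K))) := by
        rw [he, he']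
        ring
  · rw [coe_chi_mul ha ha', coe_chi_mul hb hb', map_mul]
    linear_combination (chi n κ (b' : K) * v') * hv + (chi n κ (a : K) * ψ J) * hv'

theorem isVal_self {I : (Ideal (𝓞 K))⁰} (hI : IsCoprime (I : Ideal (𝓞 K)) 𝔪) :
    IsVal n κ 𝔪 ψ 𝔫 I (ψ I) := by
  refine ⟨I, 1, 1, hI, one_ne_zero, one_ne_zero, ?_, ?_, rfl, rfl⟩
  · exact isCoprime_span_iff.mpr ⟨1, by rw [one_mul, sub_self]; exact 𝔫.zero_mem⟩
  · rw [sub_self]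
    exact 𝔫.zero_mem

theorem isVal_sp {a : 𝓞 K} (ha : a ≠ 0) (h1 : a - 1 ∈ 𝔫) :
    IsVal n κ 𝔪 ψ 𝔫 (sp a ha) (chi n κ (a : K)) := by
  refine ⟨1, a, 1, isCoprime_one_left, ha, one_ne_zero, ?_, h1, ?_, ?_⟩
  · exact isCoprime_span_iff.mpr ⟨1, by rwa [one_mul]⟩
  · change Ideal.span {a} * ((1 : (Ideal (𝓞 K))⁰) : Ideal (𝓞 K)) =
      Ideal.span {1} * Ideal.span {a}
    rw [Submonoid.coe_one, mul_one, Ideal.span_singleton_one, ← Ideal.one_eq_top, one_mul]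
  · rw [coe_one_eq, chi_one, one_mul, map_one, mul_one]

section Star

variable (h𝔪 : 𝔪 ≠ ⊥) (h𝔫 : 𝔫 ≠ ⊥) (h : GChar n κ 𝔪 ψ) (hle : 𝔪 ≤ 𝔫)
  (h1 : IsModG n κ 𝔪 ψ 𝔫)

/-- the character modulo `𝔫` -/
def starG : (Ideal (𝓞 K))⁰ →* ℂ where
  toFun I := if hI : IsCoprime (I : Ideal (𝓞 K)) 𝔫 then
    (exists_isVal (n := n) (κ := κ) (ψ := ψ) h𝔪 h𝔫 hI).choose else 0
  map_one' := by
    have h0 : IsCoprime ((1 : (Ideal (𝓞 K))⁰) : Ideal (𝓞 K)) 𝔫 := isCoprime_one_left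
    rw [dif_pos h0]
    have h2 : IsVal n κ 𝔪 ψ 𝔫 1 (ψ 1) := isVal_self isCoprime_one_left
    rw [map_one] at h2
    exact (exists_isVal h𝔪 h𝔫 h0).choose_spec.eq h𝔪 h hle h1 h2
  map_mul' I J := by
    by_cases hI : IsCoprime (I : Ideal (𝓞 K)) 𝔫
    · by_cases hJ : IsCoprime (J : Ideal (𝓞 K)) 𝔫
      · have hIJ : IsCoprime ((I * J : (Ideal (𝓞 K))⁰) : Ideal (𝓞 K)) 𝔫 := by
          rw [Submonoid.coe_mul]
          exact IsCoprime.mul_left hI hJ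
        rw [dif_pos hI, dif_pos hJ, dif_pos hIJ]
        exact (exists_isVal h𝔪 h𝔫 hIJ).choose_spec.eq h𝔪 h hle h1
          ((exists_isVal h𝔪 h𝔫 hI).choose_spec.mul (exists_isVal h𝔪 h𝔫 hJ).choose_spec)
      · have hIJ : ¬ IsCoprime ((I * J : (Ideal (𝓞 K))⁰) : Ideal (𝓞 K)) 𝔫 := by
          rw [Submonoid.coe_mul]
          exact fun h2 => hJ h2.of_mul_left_right
        rw [dif_neg hIJ, dif_neg hJ, mul_zero]
    · have hIJ : ¬ IsCoprime ((I * J : (Ideal (𝓞 K))⁰) : Ideal (𝓞 K)) 𝔫 := by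
        rw [Submonoid.coe_mul]
        exact fun h2 => hI h2.of_mul_left_left
      rw [dif_neg hIJ, dif_neg hI, zero_mul]

theorem isVal_starG {I : (Ideal (𝓞 K))⁰} (hI : IsCoprime (I : Ideal (𝓞 K)) 𝔫) :
    IsVal n κ 𝔪 ψ 𝔫 I (starG h𝔪 h𝔫 h hle h1 I) := by
  have h2 : starG h𝔪 h𝔫 h hle h1 I =
    (exists_isVal (n := n) (κ := κ) (ψ := ψ) h𝔪 h𝔫 hI).choose := dif_pos hI
  rw [h2]
  exact (exists_isVal h𝔪 h𝔫 hI).choose_spec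

theorem starG_of_coprime {I : (Ideal (𝓞 K))⁰} (hI : IsCoprime (I : Ideal (𝓞 K)) 𝔪) :
    starG h𝔪 h𝔫 h hle h1 I = ψ I :=
  (isVal_starG h𝔪 h𝔫 h hle h1 (isCoprime_mono hle hI)).eq h𝔪 h hle h1 (isVal_self hI)

theorem gChar_starG : GChar n κ 𝔫 (starG h𝔪 h𝔫 h hle h1) where
  norm_le I := by
    by_cases hI : IsCoprime (I : Ideal (𝓞 K)) 𝔫
    · obtain ⟨J, a, b, -, ha, hb, -, -, -, hv⟩ := isVal_starG h𝔪 h𝔫 h hle h1 hI
      have h2 := congrArg norm hv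
      rw [norm_mul, norm_mul, norm_chi n κ (coe_ne_zeroG ha), norm_chi n κ (coe_ne_zeroG hb),
        one_mul, one_mul] at h2
      rw [h2]
      exact h.norm_le J
    · have h2 : starG h𝔪 h𝔫 h hle h1 I = 0 := dif_neg hI
      rw [h2, norm_zero]
      exact zero_le_one
  eq_zero I hI := dif_neg hI
  cong a ha ha1 := by
    have hI : IsCoprime ((sp a ha : (Ideal (𝓞 K))⁰) : Ideal (𝓞 K)) 𝔫 :=
      isCoprime_span_iff.mpr ⟨1, by rwa [one_mul]⟩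
    exact (isVal_starG h𝔪 h𝔫 h hle h1 hI).eq h𝔪 h hle h1 (isVal_sp ha ha1)

end Star

/-- **The conductor**: every Groessencharakter modulo `𝔪` of type `(n, κ)` is induced by a
primitive one of the same type. -/
theorem exists_primitiveG (h𝔪 : 𝔪 ≠ ⊥) (h : GChar n κ 𝔪 ψ) :
    ∃ (𝔣 : Ideal (𝓞 K)) (ψ' : (Ideal (𝓞 K))⁰ →* ℂ), 𝔪 ≤ 𝔣 ∧ GChar n κ 𝔣 ψ' ∧
      IsPrimG n κ 𝔣 ψ' ∧
      ∀ I : (Ideal (𝓞 K))⁰, IsCoprime (I : Ideal (𝓞 K)) 𝔪 → ψ I = ψ' I := by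
  obtain ⟨𝔣, hle, hmod, hmax⟩ := exists_greatestG h𝔪 h
  have h𝔣 : 𝔣 ≠ ⊥ := fun h0 => h𝔪 (le_bot_iff.mp (h0 ▸ hle))
  refine ⟨𝔣, starG h𝔪 h𝔣 h hle hmod, hle, gChar_starG h𝔪 h𝔣 h hle hmod, ?_,
    fun I hI => (starG_of_coprime h𝔪 h𝔣 h hle hmod hI).symm⟩
  intro 𝔫 hle' hne
  have h1 : ¬ IsModG n κ 𝔪 ψ 𝔫 := fun h2 => hne (le_antisymm (hmax 𝔫 (hle.trans hle') h2) hle')
  unfold IsModG at h1
  push Not at h1
  obtain ⟨a, ha, hac, ha1, hψ⟩ := h1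
  refine ⟨a, ha, isCoprime_mono hle hac, ha1, ?_⟩
  rwa [starG_of_coprime h𝔪 h𝔣 h hle hmod (I := sp a ha) hac]

/-! ### Euler factors -/

/-- **the `L`-series of an induced Groessencharakter** -/
theorem Ls_inducedG (h𝔪 : 𝔪 ≠ ⊥) (h : GChar n κ 𝔪 ψ) {𝔣 : Ideal (𝓞 K)}
    {ψ' : (Ideal (𝓞 K))⁰ →* ℂ} (h' : GChar n κ 𝔣 ψ')
    (hag : ∀ I : (Ideal (𝓞 K))⁰, IsCoprime (I : Ideal (𝓞 K)) 𝔪 → ψ I = ψ' I) {s : ℂ}
    (hs : 1 < s.re) : Ray.Ls ψ s = Ray.Ls ψ' s *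
      ∏ P ∈ badPr h𝔪, (1 - ψ' P.1 * (Ideal.absNorm (P.1 : Ideal (𝓞 K)) : ℂ) ^ (-s)) := by
  refine Ls_eq_mul_prod h.norm_le h'.norm_le (fun P hP => ?_) (fun P hP => ?_) hs
  · refine h.eq_zero _ fun hc => ?_
    rw [mem_badPr] at hP
    have h1 : (((P.1 : (Ideal (𝓞 K))⁰) : Ideal (𝓞 K)) : Ideal (𝓞 K)) = ⊤ := by
      rw [Ideal.isCoprime_iff_sup_eq, sup_eq_left.mpr (Ideal.le_of_dvd hP)] at hc
      exact hc
    exact P.2.not_isUnit (Ideal.isUnit_iff.mpr h1)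
  · rw [mem_badPr] at hP
    exact hag P.1 (isCoprime_of_prime (Ideal.isPrime_of_prime P.2)
      (nonZeroDivisors.coe_ne_zero P.1) hP)

theorem lFunG_all (K : Type u) [Field K] [NumberField K] : LFunGStmt K :=
  lFunG (entireGStmt_of (thetaGStmt K) (torusGStmt K) (decayGStmt_of (zeroGStmt K))
    (mellinGStmt_of (unfoldGStmt K) (gammaGStmt K)))

/-- **Hecke's functional equation for every Groessencharakter** of type `(n, κ) ≠ (0, 0)`,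
primitive or not. -/
theorem functional_equation_every (hty : IsTy n κ) (h0 : n ≠ 0 ∨ κ ≠ 0) (hm : 𝔪 ≠ ⊥)
    (h : GChar n κ 𝔪 ψ) :
    ∃ (𝔣 : Ideal (𝓞 K)) (ψ' : (Ideal (𝓞 K))⁰ →* ℂ) (τ : ℂ) (L L' Λ : ℂ → ℂ), 𝔪 ≤ 𝔣 ∧
      GChar n κ 𝔣 ψ' ∧ IsPrimG n κ 𝔣 ψ' ∧
      (∀ I : (Ideal (𝓞 K))⁰, IsCoprime (I : Ideal (𝓞 K)) 𝔪 → ψ I = ψ' I) ∧
      IsGaussG n κ 𝔣 ψ' τ ∧ ‖τ‖ = √(Ideal.absNorm 𝔣 : ℝ) ∧
      Differentiable ℂ L ∧ Differentiable ℂ L' ∧ Differentiable ℂ Λ ∧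
      (∀ s : ℂ, 1 < s.re → L s = Ray.Ls ψ s) ∧ (∀ s : ℂ, 1 < s.re → L' s = Ray.Ls ψ' s) ∧
      (∀ s : ℂ, L s = L' s *
        ∏ P ∈ badPr hm, (1 - ψ' P.1 * (Ideal.absNorm (P.1 : Ideal (𝓞 K)) : ℂ) ^ (-s))) ∧
      (∀ s : ℂ, (gamG n κ s)⁻¹ * Λ s =
        ((|(discr K : ℝ)| * (Ideal.absNorm 𝔣 : ℝ) : ℝ) : ℂ) ^ (s / 2) * L' s) ∧
      ∀ s, Λ s = (-Complex.I) ^ (∑ w : InfinitePlace K, (n w).natAbs) * τ /
        ((√(Ideal.absNorm 𝔣 : ℝ) : ℝ) : ℂ) * conj (Λ (1 - conj s)) := by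
  obtain ⟨𝔣, ψ', hle, hψ', hp, hag⟩ := exists_primitiveG hm h
  have hf : 𝔣 ≠ ⊥ := fun h0 => hm (le_bot_iff.mp (h0 ▸ hle))
  obtain ⟨τ, hn, hτ⟩ := exists_gaussG hf hψ' hp
  obtain ⟨Λ, hΛ, hΛs, hfe⟩ := funEq_of_gaussG hty h0 hf hψ' hτ
  obtain ⟨L', hL', hLs⟩ := lFunG_all K n κ hty h0 𝔣 hf ψ' hψ'
  have hD : (((|(discr K : ℝ)| * (Ideal.absNorm 𝔣 : ℝ) : ℝ)) : ℂ) ≠ 0 := by
    rw [Complex.ofReal_ne_zero]
    refine mul_ne_zero (abs_ne_zero.mpr (by exact_mod_cast discr_ne_zero K)) ?_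
    rw [Nat.cast_ne_zero, Ne, Ideal.absNorm_eq_zero_iff]
    exact hf
  refine ⟨𝔣, ψ', τ, fun s => L' s *
    ∏ P ∈ badPr hm, (1 - ψ' P.1 * (Ideal.absNorm (P.1 : Ideal (𝓞 K)) : ℂ) ^ (-s)), L', Λ, hle, hψ',
    hp, hag, hτ, hn, ?_, hL', hΛ, fun s hs => ?_, hLs, fun s => rfl, fun s => ?_, hfe⟩
  · refine hL'.mul (Differentiable.fun_finsetProd fun P _ => ?_)
    refine (differentiable_const _).sub (Differentiable.const_mul ?_ _)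
    exact (differentiable_id.neg).const_cpow (Or.inl (by
      exact_mod_cast (Ideal.absNorm_pos_of_nonZeroDivisors P.1).ne'))
  · beta_reduce
    rw [hLs s hs, Ls_inducedG hm h hψ' hag hs]
  · refine congrFun (eq_of_re_gtG ((differentiable_gGi n κ).mul hΛ)
      (((differentiable_id.div_const 2).const_cpow (Or.inl hD)).mul hL') fun s hs => ?_) s
    have h1 : gamG n κ s ≠ 0 := gamG_ne_zero (by linarith)
    change (gamG n κ s)⁻¹ * Λ s = _ ^ (s / 2) * L' s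
    rw [hΛs s hs, hLs s hs]
    field_simp

/-- **The `L`-function of every Groessencharakter of infinite order has infinitely many zeros in
the critical strip.** `ψ` is a Groessencharakter modulo `𝔪` of type `(n, κ)`, primitive or not, `L`
an entire function with `L(s) = ∑ ψ(I) N(I)^{-s}` for `Re s > 1`. -/
theorem hecke_infinite_zeros (hty : IsTy n κ) (hinf : IsInf n κ) (hm : 𝔪 ≠ ⊥)
    (h : GChar n κ 𝔪 ψ) {L : ℂ → ℂ} (hL : Differentiable ℂ L) (hLs : ∀ s : ℂ, 1 < s.re →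
      L s = ∑' I : (Ideal (𝓞 K))⁰, ψ I * (Ideal.absNorm (I : Ideal (𝓞 K)) : ℂ) ^ (-s)) :
    {s : ℂ | 0 < s.re ∧ s.re < 1 ∧ L s = 0}.Infinite := by
  obtain ⟨𝔣, ψ', τ, L₀, L', Λ, hle, hψ', hp, hag, -, -, hL₀, hL', -, hLs₀, hLs', hprod, -, -⟩ :=
    functional_equation_every hty hinf.or hm h
  have hf : 𝔣 ≠ ⊥ := fun h0 => hm (le_bot_iff.mp (h0 ▸ hle))
  have hLL : L = L₀ := eq_of_re_gtG hL hL₀ fun s hs => by
    rw [hLs s hs, hLs₀ s hs]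
    rfl
  refine (zeros_LG hty hinf hf hψ' hp hL' hLs').2.2.mono ?_
  rintro s ⟨h1, h2, h3⟩
  refine ⟨h1, h2, ?_⟩
  rw [hLL, hprod s, h3, zero_mul]

end Fermat.Agent.Cor.RayG

end
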