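import Fermat.Agent.Corollaries.RayG.ElemG
import Fermat.Agent.Corollaries.ZetaK.QuadDensity

/-!
# The prime values of a positive definite binary quadratic form in an open cone
-/

set_option autoImplicit false
set_option linter.unusedSectionVars false

noncomputable section

open NumberField NumberField.InfinitePlace NumberField.Units nonZeroDivisors Filter Topology Module
open QuadraticAlgebra

open scoped Classical

namespace Fermat.Agent.Cor.RayG

open Fermat.Agent.ClassL Fermat.Agent.Classic.Zeta Fermat.Agent.Cor.Ray Fermat.Agent.Cor.RayN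
open NumberField.Units.dirichletUnitTheorem

theorem continuous_e2 : Continuous e2 := by
  unfold e2
  fun_prop

theorem eq_norm_mul {z : ℂ} (h : z ≠ 0) : z = ((‖z‖ : ℝ) : ℂ) * (z / ((‖z‖ : ℝ) : ℂ)) := by
  have h1 : ((‖z‖ : ℝ) : ℂ) ≠ 0 := by exact_mod_cast norm_ne_zero_iff.mpr h
  rw [mul_div_assoc', mul_comm, mul_div_assoc, div_self h1, mul_one]

/-- a cone of `ℝ²` -/
def IsCone (C : Set (ℝ × ℝ)) : Prop := ∀ t : ℝ, 0 < t → ∀ z ∈ C, t • z ∈ C

section Cone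

/-- coordinates with respect to `a, -τ` -/
def invL (a : ℤ) (τ ζ : ℂ) : ℝ × ℝ :=
  ((ζ.re + (-ζ.im / τ.im) * τ.re) / a, -ζ.im / τ.im)

theorem continuous_invL (a : ℤ) (τ : ℂ) : Continuous (invL a τ) := by
  unfold invL
  fun_prop

theorem invL_apply {a : ℤ} (ha : a ≠ 0) {τ : ℂ} (hτ : τ.im ≠ 0) (x y : ℝ) :
    invL a τ ((x : ℂ) * a - y * τ) = (x, y) := by
  have ha' : (a : ℝ) ≠ 0 := by exact_mod_cast ha
  have h1 : ((x : ℂ) * a - y * τ).re = x * a - y * τ.re := by simp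
  have h2 : ((x : ℂ) * a - y * τ).im = -(y * τ.im) := by simp
  rw [invL, h1, h2]
  refine Prod.ext ?_ ?_
  · field_simp
    ring
  · field_simp

theorem invL_smul (a : ℤ) (τ ζ : ℂ) (r : ℝ) : invL a τ ((r : ℂ) * ζ) = r • invL a τ ζ := by
  have h1 : ((r : ℂ) * ζ).re = r * ζ.re := by simp
  have h2 : ((r : ℂ) * ζ).im = r * ζ.im := by simp
  rw [invL, invL, h1, h2]
  refine Prod.ext ?_ ?_
  · simp only [Prod.smul_fst, smul_eq_mul]
    ring
  · simp only [Prod.smul_snd, smul_eq_mul]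
    ring

/-- an arc of directions of an open cone -/
theorem exists_arc {a : ℤ} (ha : a ≠ 0) {τ : ℂ} (hτ : τ.im ≠ 0) {C : Set (ℝ × ℝ)} (hC : IsOpen C)
    (hne : C.Nonempty) (hcone : IsCone C) : ∃ α β : ℝ, α < β ∧ β ≤ α + 1 ∧
      ∀ t ∈ Set.Ioo α β, ∀ r : ℝ, 0 < r → invL a τ ((r : ℂ) * e2 t) ∈ C := by
  -- a point which is not zero
  obtain ⟨z, hz, hz0⟩ : ∃ z ∈ C, z ≠ 0 := by
    by_contra hcon
    push Not at hcon
    obtain ⟨z, hz⟩ := hne
    have h1 : C = {0} := by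
      ext y
      constructor
      · exact fun h => hcon y h
      · rintro rfl
        exact hcon z hz ▸ hz
    have h2 : IsOpen ({0} : Set (ℝ × ℝ)) := h1 ▸ hC
    exact not_isOpen_singleton (0 : ℝ × ℝ) h2
  set ζ : ℂ := (z.1 : ℂ) * a - z.2 * τ with hζ
  have hinv : invL a τ ζ = z := invL_apply ha hτ z.1 z.2
  have hζ0 : ζ ≠ 0 := by
    intro h0
    apply hz0
    rw [← hinv, h0]
    simp [invL]
  have hn : 0 < ‖ζ‖ := norm_pos_iff.mpr hζ0
  have hn1 : ‖ζ / ((‖ζ‖ : ℝ) : ℂ)‖ = 1 := by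
    rw [norm_div, Complex.norm_real, norm_norm, div_self hn.ne']
  set t₀ : ℝ := th (ζ / ((‖ζ‖ : ℝ) : ℂ)) with ht₀
  have he : e2 t₀ = ζ / ((‖ζ‖ : ℝ) : ℂ) := e2_th hn1
  have hmem : invL a τ (e2 t₀) ∈ C := by
    have h1 : e2 t₀ = ((‖ζ‖⁻¹ : ℝ) : ℂ) * ζ := by
      rw [he, Complex.ofReal_inv]
      ring
    rw [h1, invL_smul, hinv]
    exact hcone _ (inv_pos.mpr hn) _ hz
  have hopen : IsOpen {t : ℝ | invL a τ (e2 t) ∈ C} :=
    hC.preimage ((continuous_invL a τ).comp continuous_e2)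
  obtain ⟨ε, hε, hball⟩ := Metric.isOpen_iff.mp hopen t₀ hmem
  refine ⟨t₀ - min ε (1 / 2), t₀ + min ε (1 / 2), ?_, ?_, fun t ht r hr => ?_⟩
  · have : 0 < min ε (1 / 2) := lt_min hε (by norm_num)
    linarith
  · have : min ε (1 / 2) ≤ 1 / 2 := min_le_right _ _
    linarith
  · rw [invL_smul]
    refine hcone r hr _ (hball ?_)
    rw [Metric.mem_ball, Real.dist_eq, abs_lt]
    have : min ε (1 / 2) ≤ ε := min_le_left _ _
    exact ⟨by linarith [ht.1], by linarith [ht.2]⟩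

end Cone

section Imag

variable {a b c : ℤ} [hF : Fact (∀ r : ℚ, r ^ 2 ≠ -((a : ℚ) * c) + -(b : ℚ) * r)]

theorem emb_theta_sq (φ : QF a b c →+* ℂ) : φ (thetaQ a b c : QF a b c) * φ (thetaQ a b c : QF a b c) =
    -((a : ℂ) * c) - b * φ (thetaQ a b c : QF a b c) := by
  have h := congrArg (fun z : 𝓞 (QF a b c) => φ (z : QF a b c))
    (thetaQ_sq (a := a) (b := b) (c := c))
  simp only [map_mul, map_sub, map_neg, map_intCast] at h
  exact h

theorem im_theta_ne_zero (hD : b ^ 2 - 4 * a * c < 0) (φ : QF a b c →+* ℂ) :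
    (φ (thetaQ a b c : QF a b c)).im ≠ 0 := by
  intro h0
  set τ := φ (thetaQ a b c : QF a b c) with hτ
  have h1 := emb_theta_sq φ
  rw [← hτ] at h1
  have h2 : τ.re * τ.re = -((a : ℝ) * c) - b * τ.re := by
    have h3 := congrArg Complex.re h1
    simp only [Complex.mul_re, Complex.sub_re, Complex.neg_re, Complex.intCast_re,
      Complex.intCast_im, h0] at h3
    linarith
  have h4 : (2 * τ.re + b) ^ 2 = ((b ^ 2 - 4 * a * c : ℤ) : ℝ) := by
    push_cast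
    linear_combination 4 * h2
  have h5 : ((b ^ 2 - 4 * a * c : ℤ) : ℝ) < 0 := by exact_mod_cast hD
  nlinarith [sq_nonneg (2 * τ.re + b)]

theorem isComplex_of_neg (hD : b ^ 2 - 4 * a * c < 0) (w : InfinitePlace (QF a b c)) :
    IsComplex w := by
  by_contra hcon
  rw [not_isComplex_iff_isReal] at hcon
  refine im_theta_ne_zero hD w.embedding ?_
  rw [isReal_iff] at hcon
  have h1 := RingHom.congr_fun hcon (thetaQ a b c : QF a b c)
  rw [ComplexEmbedding.conjugate_coe_eq] at h1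
  exact Complex.conj_eq_iff_im.mp h1

theorem card_place (hD : b ^ 2 - 4 * a * c < 0) : Fintype.card (InfinitePlace (QF a b c)) = 1 := by
  have h1 := sum_mult_eq (K := QF a b c)
  rw [finrank_QF] at h1
  have h2 : ∀ w : InfinitePlace (QF a b c), mult w = 2 := fun w => by
    rw [mult, if_neg (not_isReal_iff_isComplex.mpr (isComplex_of_neg hD w))]
  rw [Finset.sum_congr rfl fun w _ => h2 w, Finset.sum_const, Finset.card_univ, smul_eq_mul] at h1
  omega

theorem prod_place {M : Type*} [CommMonoid M] (hD : b ^ 2 - 4 * a * c < 0)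
    (w : InfinitePlace (QF a b c)) (f : InfinitePlace (QF a b c) → M) :
    ∏ w' : InfinitePlace (QF a b c), f w' = f w := by
  have h1 := card_place hD
  have : Subsingleton (InfinitePlace (QF a b c)) := Fintype.card_le_one_iff_subsingleton.mp h1.le
  exact Fintype.prod_subsingleton f w

/-- the character `ξ / |ξ|` -/
theorem chi_place (hD : b ^ 2 - 4 * a * c < 0) (w : InfinitePlace (QF a b c)) (x : QF a b c) :
    chi (fun _ => 1) (0 : InfinitePlace (QF a b c) → ℝ) x =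
      w.embedding x / ((‖w.embedding x‖ : ℝ) : ℂ) := by
  have h1 : pG (fun _ => 1) x = w.embedding x := by
    rw [pG, prod_place hD w, hz, if_pos zero_le_one, Int.natAbs_one, pow_one]
  rw [chi, lK_zero_left, eI_zero, mul_one, aG, h1]

theorem disc_le (hD : b ^ 2 - 4 * a * c < 0) : b ^ 2 - 4 * a * c ≤ -3 := by
  rcases Int.even_or_odd b with ⟨k, hk⟩ | ⟨k, hk⟩
  · have h1 : b ^ 2 - 4 * a * c = 4 * (k ^ 2 - a * c) := by rw [hk]; ring
    omega
  · have h1 : b ^ 2 - 4 * a * c = 4 * (k ^ 2 + k - a * c) + 1 := by rw [hk]; ring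
    omega

theorem norm_sq_place (hD : b ^ 2 - 4 * a * c < 0) (w : InfinitePlace (QF a b c)) (x : QF a b c) :
    w x ^ 2 = |Algebra.norm ℚ x| := by
  rw [← prod_eq_abs_norm x, prod_place hD w, mult,
    if_neg (not_isReal_iff_isComplex.mpr (isComplex_of_neg hD w))]

theorem unit_eq_one (hD : b ^ 2 - 4 * a * c < 0) {M : ℤ} (hM : M ≠ 0) {v : (𝓞 (QF a b c))ˣ}
    (hv : (v : 𝓞 (QF a b c)) - 1 ∈
      Ideal.span {((2 * (b ^ 2 - 4 * a * c) * M : ℤ) : 𝓞 (QF a b c))}) :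
    (v : 𝓞 (QF a b c)) = 1 := by
  obtain ⟨w⟩ : Nonempty (InfinitePlace (QF a b c)) := inferInstance
  by_contra hne
  obtain ⟨z, hz⟩ := Ideal.mem_span_singleton'.mp hv
  have hz0 : z ≠ 0 := by
    rintro rfl
    rw [zero_mul] at hz
    exact hne (sub_eq_zero.mp hz.symm)
  have h1 : (1 : ℝ) ≤ w (z : QF a b c) := by
    have h2 := norm_sq_place hD w (z : QF a b c)
    have h3 : (1 : ℚ) ≤ |Algebra.norm ℚ (z : QF a b c)| := by
      rw [← Algebra.coe_norm_int, ← Int.cast_abs]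
      exact_mod_cast Int.one_le_abs (Algebra.norm_ne_zero_iff.mpr hz0)
    have h4 : (1 : ℝ) ≤ w (z : QF a b c) ^ 2 := by
      rw [h2]
      exact_mod_cast h3
    have h5 : 0 ≤ w (z : QF a b c) := apply_nonneg _ _
    nlinarith
  have h2 : w ((v : 𝓞 (QF a b c)) : QF a b c) = 1 := by
    have h3 := norm_sq_place hD w ((v : 𝓞 (QF a b c)) : QF a b c)
    have h7 : |Algebra.norm ℚ ((v : 𝓞 (QF a b c)) : QF a b c)| = 1 :=
      NumberField.isUnit_iff_norm.mp v.isUnit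
    rw [h7] at h3
    have h5 : 0 ≤ w ((v : 𝓞 (QF a b c)) : QF a b c) := apply_nonneg _ _
    have h6 : w ((v : 𝓞 (QF a b c)) : QF a b c) ^ 2 = 1 := by
      rw [h3]
      norm_num
    nlinarith
  have h3 : (z : QF a b c) * ((2 * (b ^ 2 - 4 * a * c) * M : ℤ) : QF a b c) =
      ((v : 𝓞 (QF a b c)) : QF a b c) - 1 := by
    have := congrArg (algebraMap (𝓞 (QF a b c)) (QF a b c)) hz
    rw [map_mul, map_intCast, map_sub, map_one] at this
    exact this
  have h4 : w (((v : 𝓞 (QF a b c)) : QF a b c) - 1) ≤ 2 := by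
    have h7 := norm_sub_le (w.embedding ((v : 𝓞 (QF a b c)) : QF a b c)) 1
    rw [NormOneClass.norm_one, norm_embedding_eq, h2] at h7
    rw [← norm_embedding_eq, map_sub, map_one]
    linarith
  rw [← h3, map_mul] at h4
  have h5 : w ((2 * (b ^ 2 - 4 * a * c) * M : ℤ) : QF a b c) =
      |((2 * (b ^ 2 - 4 * a * c) * M : ℤ) : ℝ)| := by
    rw [← norm_embedding_eq, map_intCast]
    exact Complex.norm_intCast _
  have h6 : (6 : ℝ) ≤ |((2 * (b ^ 2 - 4 * a * c) * M : ℤ) : ℝ)| := by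
    rw [← Int.cast_abs]
    have h7 : (6 : ℤ) ≤ |2 * (b ^ 2 - 4 * a * c) * M| := by
      rw [abs_mul, abs_mul]
      have h8 : (3 : ℤ) ≤ |b ^ 2 - 4 * a * c| := by
        rw [abs_of_neg hD]
        linarith [disc_le hD]
      have h9 : (1 : ℤ) ≤ |M| := Int.one_le_abs hM
      have h10 : |(2 : ℤ)| = 2 := rfl
      rw [h10]
      nlinarith
    exact_mod_cast h7
  rw [h5] at h4
  nlinarith

/-- the case of a first coefficient prime to everything, and `(x₀, y₀) = (d, 0)` -/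
theorem cone_coprime (hD : b ^ 2 - 4 * a * c < 0) {M : ℤ} (hM : M ≠ 0)
    (hcop : IsCoprime a (2 * (b ^ 2 - 4 * a * c) * M)) (ha : a ≠ 0) {d : ℤ}
    (hd : IsCoprime d (2 * (b ^ 2 - 4 * a * c) * M)) {C : Set (ℝ × ℝ)} (hC : IsOpen C)
    (hne : C.Nonempty) (hcone : IsCone C) (N : ℕ) :
    ∃ p : ℕ, p.Prime ∧ N < p ∧ ∃ x y : ℤ, M ∣ x - d ∧ M ∣ y ∧ ((x : ℝ), (y : ℝ)) ∈ C ∧
      |a * x ^ 2 + b * x * y + c * y ^ 2| = p := by
  set T : ℤ := 2 * (b ^ 2 - 4 * a * c) * M with hT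
  have hT0 : T ≠ 0 := mul_ne_zero (mul_ne_zero two_ne_zero hD.ne) hM
  have hcop2 : IsCoprime a (2 * (b ^ 2 - 4 * a * c)) := IsCoprime.of_mul_right_left hcop
  have hcopM : IsCoprime a M := IsCoprime.of_mul_right_right hcop
  have h𝔪 : Ideal.span {((T : ℤ) : 𝓞 (QF a b c))} ≠ ⊥ := by
    rw [Ne, Ideal.span_singleton_eq_bot]
    exact_mod_cast hT0
  have hbot : idealQ a b c ≠ ⊥ := by
    intro h
    have h1 := absNorm_idealQ' hcop2
    rw [h, Ideal.absNorm_bot] at h1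
    exact ha (Int.natAbs_eq_zero.mp h1.symm)
  let A : (Ideal (𝓞 (QF a b c)))⁰ := ⟨idealQ a b c, mem_nonZeroDivisors_of_ne_zero hbot⟩
  have haA : ((a : ℤ) : 𝓞 (QF a b c)) ∈ idealQ a b c := Ideal.subset_span (Set.mem_insert _ _)
  have hA : IsCoprime (A : Ideal (𝓞 (QF a b c))) (Ideal.span {((T : ℤ) : 𝓞 (QF a b c))}) := by
    have h1 := isCoprime_span_intCast (a := a) (b := b) (c := c) hcop
    rw [Ideal.isCoprime_iff_sup_eq] at h1 ⊢
    refine top_le_iff.mp (h1.symm.le.trans (sup_le_sup_right ?_ _))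
    rw [Ideal.span_singleton_le_iff_mem]
    exact haA
  have hd0 : d ≠ 0 := by
    rintro rfl
    rw [isCoprime_zero_left] at hd
    have h2 : IsUnit (2 : ℤ) := isUnit_of_dvd_unit ⟨(b ^ 2 - 4 * a * c) * M, by rw [hT]; ring⟩ hd
    rcases Int.isUnit_iff.mp h2 with h3 | h3 <;> omega
  set ξ₀ : 𝓞 (QF a b c) := ((d * a : ℤ) : 𝓞 (QF a b c)) with hξ₀def
  have hξ₀ : ξ₀ ≠ 0 := by
    rw [hξ₀def]
    exact_mod_cast mul_ne_zero hd0 ha
  have hξ₀A : ξ₀ ∈ idealQ a b c := by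
    rw [hξ₀def, Int.cast_mul]
    exact Ideal.mul_mem_left _ _ haA
  obtain ⟨B', hB'⟩ := Ideal.dvd_span_singleton.mpr hξ₀A
  have hB0 : B' ≠ ⊥ := by
    rintro rfl
    rw [Ideal.mul_bot, Ideal.span_singleton_eq_bot] at hB'
    exact hξ₀ hB'
  let B : (Ideal (𝓞 (QF a b c)))⁰ := ⟨B', mem_nonZeroDivisors_of_ne_zero hB0⟩
  have hAB : (A : Ideal (𝓞 (QF a b c))) * (B : Ideal (𝓞 (QF a b c))) = Ideal.span {ξ₀} := hB'.symm
  have hB : IsCoprime (B : Ideal (𝓞 (QF a b c))) (Ideal.span {((T : ℤ) : 𝓞 (QF a b c))}) := by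
    have h1 := isCoprime_span_intCast (a := a) (b := b) (c := c) (hd.mul_left hcop)
    rw [← hξ₀def, ← hAB] at h1
    exact h1.of_mul_left_right
  obtain ⟨w⟩ : Nonempty (InfinitePlace (QF a b c)) := inferInstance
  have hτ := im_theta_ne_zero hD w.embedding
  obtain ⟨α, β, hαβ, hβ, harc⟩ := exists_arc ha hτ hC hne hcone
  have hinf := infinite_arc_ideal (n := fun _ => 1) (κ := 0) h𝔪
    ⟨fun _ _ => le_rfl, by simp⟩ (Or.inr ⟨w, isComplex_of_neg hD w, one_ne_zero⟩)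
    (fun v hv => by
      rw [unit_eq_one hD hM hv]
      exact chi_one _ _) hξ₀ hA hB hAB hαβ hβ
  have hfin : {P : ClassL.Pr (QF a b c) |
      Ideal.absNorm (P.1 : Ideal (𝓞 (QF a b c))) ≤ N}.Finite :=
    (Ideal.finite_setOfPred_absNorm_le₀ (S := 𝓞 (QF a b c)) N).preimage
      (f := fun P : ClassL.Pr (QF a b c) => P.1) Subtype.val_injective.injOn
  obtain ⟨P, ⟨hPp, ξ, hspan, hξ, -, t, ht, hχ⟩, hPB⟩ := (hinf.sdiff hfin).nonempty
  have hPB' : N < Ideal.absNorm (P.1 : Ideal (𝓞 (QF a b c))) := not_le.mp hPB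
  refine ⟨_, hPp, hPB', ?_⟩
  -- the coordinates of `ξ`
  obtain ⟨z, hz⟩ := Ideal.mem_span_singleton'.mp hξ
  obtain ⟨x', y', hxy⟩ := exists_comb_mul z
  have h1 : ξ = ((d * a + M * x' : ℤ) : 𝓞 (QF a b c)) +
      ((M * y' : ℤ) : 𝓞 (QF a b c)) * thetaQ a b c := by
    have h2 : ((T : ℤ) : 𝓞 (QF a b c)) =
        ((2 * (b ^ 2 - 4 * a * c) : ℤ) : 𝓞 (QF a b c)) * ((M : ℤ) : 𝓞 (QF a b c)) := by
      rw [hT, Int.cast_mul]
    rw [h2, hξ₀def] at hz
    push_cast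
    push_cast at hz hxy
    linear_combination -hz + (M : 𝓞 (QF a b c)) * hxy
  have hξA : ξ ∈ idealQ a b c := by
    have h2 : ξ ∈ (A : Ideal (𝓞 (QF a b c))) * (P.1 : Ideal (𝓞 (QF a b c))) := by
      rw [hspan]
      exact Ideal.mem_span_singleton_self ξ
    have h3 : (A : Ideal (𝓞 (QF a b c))) * (P.1 : Ideal (𝓞 (QF a b c))) ≤
      (A : Ideal (𝓞 (QF a b c))) := Ideal.mul_le_left
    exact h3 h2
  rw [h1] at hξA
  have h2 : a ∣ d * a + M * x' := dvd_of_comb_mem hcop2 hξA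
  obtain ⟨k, hk⟩ : a ∣ x' := by
    have h3 : a ∣ M * x' := (dvd_add_right (Dvd.intro_left d rfl)).mp h2
    exact hcopM.dvd_of_dvd_mul_left h3
  have h3 : ξ = (((d + M * k) * a : ℤ) : 𝓞 (QF a b c)) +
      ((M * y' : ℤ) : 𝓞 (QF a b c)) * thetaQ a b c := by
    rw [h1, hk]
    push_cast
    ring
  have h4 : (Algebra.norm ℤ ξ).natAbs =
      Ideal.absNorm (P.1 : Ideal (𝓞 (QF a b c))) * a.natAbs := by
    rw [← Ideal.absNorm_span_singleton, ← hspan, map_mul, ← absNorm_idealQ' hcop2, mul_comm]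
  rw [h3, norm_comb, Int.natAbs_mul, mul_comm] at h4
  have h5 := Nat.eq_of_mul_eq_mul_right (Int.natAbs_pos.mpr ha) h4
  refine ⟨d + M * k, -(M * y'), ⟨k, by ring⟩, ⟨-y', by ring⟩, ?_, ?_⟩
  · -- the cone
    have hξ0 : ξ ≠ 0 := by
      rintro rfl
      rw [Ideal.span_singleton_eq_bot.mpr rfl, ← Ideal.zero_eq_bot, mul_eq_zero] at hspan
      exact hspan.elim (nonZeroDivisors.coe_ne_zero A) (nonZeroDivisors.coe_ne_zero P.1)
    have hξK : w.embedding (ξ : QF a b c) ≠ 0 := by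
      rw [Ne, map_eq_zero]
      exact_mod_cast hξ0
    have hn : 0 < ‖w.embedding (ξ : QF a b c)‖ := norm_pos_iff.mpr hξK
    have h6 : w.embedding (ξ : QF a b c) = ((‖w.embedding (ξ : QF a b c)‖ : ℝ) : ℂ) * e2 t := by
      rw [← hχ, chi_place hD w]
      exact eq_norm_mul hξK
    have h7 : w.embedding (ξ : QF a b c) =
        (((d + M * k : ℤ) : ℝ) : ℂ) * a - (((-(M * y') : ℤ) : ℝ) : ℂ) *
          w.embedding (thetaQ a b c : QF a b c) := by
      have e1 : (ξ : QF a b c) = (((d + M * k) * a : ℤ) : QF a b c) +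
          ((M * y' : ℤ) : QF a b c) * (thetaQ a b c : QF a b c) := by
        rw [h3, RingOfIntegers.coe_eq_algebraMap, map_add, map_mul, map_intCast, map_intCast]
      rw [e1, map_add, map_mul, map_intCast, map_intCast]
      push_cast
      ring
    have h8 := invL_apply ha hτ ((d + M * k : ℤ) : ℝ) ((-(M * y') : ℤ) : ℝ)
    rw [← h7, h6] at h8
    rw [← h8]
    exact harc t ht _ hn
  · rw [← h5, Int.natCast_natAbs]
    congr 1
    ring

end Imag

/-! ### The general form -/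

/-- **The prime values of a positive (or negative) definite form in an open cone**, in every
residue class of points where the value is prime to the modulus. -/
theorem exists_prime_cone {a b c : ℤ}
    (hprim : ∀ q : ℕ, q.Prime → ¬ ((q : ℤ) ∣ a ∧ (q : ℤ) ∣ b ∧ (q : ℤ) ∣ c))
    (hneg : b ^ 2 - 4 * a * c < 0) {M : ℤ} (hM : M ≠ 0) {x₀ y₀ : ℤ}
    (h : IsCoprime (Ray.qf a b c x₀ y₀) M) {C : Set (ℝ × ℝ)} (hC : IsOpen C)
    (hne : C.Nonempty) (hcone : IsCone C) (B : ℕ) :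
    ∃ p : ℕ, p.Prime ∧ B < p ∧ ∃ x y : ℤ, M ∣ x - x₀ ∧ M ∣ y - y₀ ∧ ((x : ℝ), (y : ℝ)) ∈ C ∧
      |Ray.qf a b c x y| = p := by
  set D : ℤ := b ^ 2 - 4 * a * c with hD
  have hD0 : D ≠ 0 := hneg.ne
  have hsq : ¬ IsSquare D := by
    rintro ⟨t, ht⟩
    have := mul_self_nonneg t
    linarith
  -- a point whose value is prime to `2 D M`
  obtain ⟨x₁, y₁, hx, hy, hco⟩ := exists_value_coprime hprim h (2 * D).natAbs
    (Int.natAbs_ne_zero.mpr (mul_ne_zero two_ne_zero hD0))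
  have hco' : IsCoprime (Ray.qf a b c x₁ y₁) (2 * D * M) := by
    rcases Int.natAbs_eq (2 * D) with h1 | h1
    · rwa [← h1] at hco
    · rw [h1]
      have h2 : -(((2 * D).natAbs : ℕ) : ℤ) * M = -((((2 * D).natAbs : ℕ) : ℤ) * M) := by ring
      rw [h2]
      exact hco.neg_right
  set T : ℤ := 2 * D * M with hT
  -- the value is not zero
  have hval : Ray.qf a b c x₁ y₁ ≠ 0 := by
    intro h0
    rw [h0, isCoprime_zero_left] at hco'
    have h2 : IsUnit (2 : ℤ) := by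
      refine isUnit_of_dvd_unit ?_ hco'
      exact ⟨D * M, by rw [hT]; ring⟩
    rcases Int.isUnit_iff.mp h2 with h3 | h3 <;> omega
  -- the primitive vector
  obtain ⟨u, v, d, r, s, hx₁, hy₁, hdet⟩ : ∃ u v d r s : ℤ, x₁ = d * u ∧ y₁ = d * v ∧
      u * s - v * r = 1 := by
    have hne : x₁ ≠ 0 ∨ y₁ ≠ 0 := by
      by_contra hcon
      push Not at hcon
      apply hval
      rw [Ray.qf, hcon.1, hcon.2]
      ring
    obtain ⟨u, hu⟩ := Int.gcd_dvd_left (a := x₁) (b := y₁)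
    obtain ⟨v, hv⟩ := Int.gcd_dvd_right (a := x₁) (b := y₁)
    have hg : ((Int.gcd x₁ y₁ : ℕ) : ℤ) ≠ 0 := by
      rw [Ne, Int.natCast_eq_zero, Int.gcd_eq_zero_iff, not_and_or]
      exact hne
    have hbez := Int.gcd_eq_gcd_ab x₁ y₁
    refine ⟨u, v, (Int.gcd x₁ y₁ : ℕ), -Int.gcdB x₁ y₁, Int.gcdA x₁ y₁, hu, hv, ?_⟩
    refine mul_left_cancel₀ hg ?_
    rw [mul_one]
    conv_rhs => rw [hbez]
    linear_combination (-Int.gcdA x₁ y₁) * hu - (Int.gcdB x₁ y₁) * hv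
  -- the equivalent form
  set a' : ℤ := Ray.qf a b c u v with ha'
  set b' : ℤ := 2 * a * u * r + b * (u * s + v * r) + 2 * c * v * s with hb'
  set c' : ℤ := Ray.qf a b c r s with hc'
  have hdisc : b' ^ 2 - 4 * a' * c' = D := by
    have h1 : b' ^ 2 - 4 * a' * c' = D * (u * s - v * r) ^ 2 := by
      rw [hb', ha', hc', hD, Ray.qf, Ray.qf]
      ring
    rw [h1, hdet]
    ring
  have hval2 : Ray.qf a b c x₁ y₁ = d ^ 2 * a' := by
    rw [ha', Ray.qf, Ray.qf, hx₁, hy₁]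
    ring
  have ha'T : IsCoprime a' T := by
    rw [hval2] at hco'
    exact hco'.of_mul_left_right
  have hdT : IsCoprime d T := by
    rw [hval2, pow_two, mul_assoc] at hco'
    exact hco'.of_mul_left_left
  have ha'0 : a' ≠ 0 := by
    intro h0
    exact hval (by rw [hval2, h0, mul_zero])
  have : Fact (∀ r : ℚ, r ^ 2 ≠ -((a' : ℚ) * c') + -(b' : ℚ) * r) :=
    fact_of_not_isSquare (by rw [hdisc]; exact hsq)
  -- the cone
  let φ : ℝ × ℝ → ℝ × ℝ := fun z => (u * z.1 + r * z.2, v * z.1 + s * z.2)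
  have hφ : Continuous φ := by fun_prop
  have hC' : IsOpen (φ ⁻¹' C) := hC.preimage hφ
  have hne' : (φ ⁻¹' C).Nonempty := by
    obtain ⟨z, hz⟩ := hne
    refine ⟨(s * z.1 - r * z.2, -v * z.1 + u * z.2), ?_⟩
    have hdet' : (u : ℝ) * s - v * r = 1 := by exact_mod_cast hdet
    have h1 : φ (s * z.1 - r * z.2, -v * z.1 + u * z.2) = z := by
      refine Prod.ext ?_ ?_
      · change (u : ℝ) * (s * z.1 - r * z.2) + r * (-v * z.1 + u * z.2) = z.1
        linear_combination z.1 * hdet'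
      · change (v : ℝ) * (s * z.1 - r * z.2) + s * (-v * z.1 + u * z.2) = z.2
        linear_combination z.2 * hdet'
    rw [Set.mem_preimage, h1]
    exact hz
  have hcone' : IsCone (φ ⁻¹' C) := by
    intro t ht z hz
    have h1 : φ (t • z) = t • φ z := by
      refine Prod.ext ?_ ?_
      · change (u : ℝ) * (t * z.1) + r * (t * z.2) = t * (u * z.1 + r * z.2)
        ring
      · change (v : ℝ) * (t * z.1) + s * (t * z.2) = t * (v * z.1 + s * z.2)
        ring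
    rw [Set.mem_preimage, h1]
    exact hcone t ht _ hz
  obtain ⟨p, hp, hB, X, Y, hX, hY, hXYC, hXY⟩ := cone_coprime (a := a') (b := b') (c := c')
    (by rw [hdisc]; exact hneg) hM (by rw [hdisc]; exact ha'T) ha'0
    (d := d) (by rw [hdisc]; exact hdT) hC' hne' hcone' B
  refine ⟨p, hp, hB, u * X + r * Y, v * X + s * Y, ?_, ?_, ?_, ?_⟩
  · have h1 : u * X + r * Y - x₀ = u * (X - d) + (r * Y + (x₁ - x₀)) := by rw [hx₁]; ring
    rw [h1]
    exact dvd_add (Dvd.dvd.mul_left hX _) (dvd_add (Dvd.dvd.mul_left hY _) hx)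
  · have h1 : v * X + s * Y - y₀ = v * (X - d) + (s * Y + (y₁ - y₀)) := by rw [hy₁]; ring
    rw [h1]
    exact dvd_add (Dvd.dvd.mul_left hX _) (dvd_add (Dvd.dvd.mul_left hY _) hy)
  · have h1 : φ ((X : ℝ), (Y : ℝ)) ∈ C := hXYC
    push_cast
    exact h1
  · rw [← hXY]
    congr 1
    rw [hb', ha', hc', Ray.qf, Ray.qf, Ray.qf]
    ring

/-- **Every primitive positive definite binary quadratic form takes infinitely many prime values in
every open cone and in every residue class of points where its value is prime to the modulus.** -/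
theorem infinite_primes_cone {a b c : ℤ}
    (hprim : ∀ q : ℕ, q.Prime → ¬ ((q : ℤ) ∣ a ∧ (q : ℤ) ∣ b ∧ (q : ℤ) ∣ c))
    (ha : 0 < a) (hneg : b ^ 2 - 4 * a * c < 0) {M : ℤ} (hM : M ≠ 0) {x₀ y₀ : ℤ}
    (h : IsCoprime (a * x₀ ^ 2 + b * x₀ * y₀ + c * y₀ ^ 2) M) {C : Set (ℝ × ℝ)} (hC : IsOpen C)
    (hne : C.Nonempty) (hcone : ∀ t : ℝ, 0 < t → ∀ z ∈ C, t • z ∈ C) :
    {p : ℕ | p.Prime ∧ ∃ x y : ℤ, ((x : ℝ), (y : ℝ)) ∈ C ∧ M ∣ x - x₀ ∧ M ∣ y - y₀ ∧
      a * x ^ 2 + b * x * y + c * y ^ 2 = p}.Infinite := by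
  refine Set.infinite_of_forall_exists_gt fun B => ?_
  obtain ⟨p, hp, hB, x, y, hx, hy, hxyC, hxy⟩ :=
    exists_prime_cone hprim hneg hM h hC hne hcone B
  refine ⟨p, ⟨hp, x, y, hxyC, hx, hy, ?_⟩, hB⟩
  rw [← hxy, Ray.qf, abs_of_nonneg (qf_nonneg ha hneg x y)]

/-- **Primes `x² + n y²` with `x / y` in a given interval** and `x ≡ x₀`, `y ≡ y₀` modulo `M`. -/
theorem infinite_primes_slope {n : ℤ} (hn : 0 < n) {M : ℤ} (hM : M ≠ 0) {x₀ y₀ : ℤ}
    (h : IsCoprime (x₀ ^ 2 + n * y₀ ^ 2) M) {α β : ℝ} (hαβ : α < β) :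
    {p : ℕ | p.Prime ∧ ∃ x y : ℤ, 0 < y ∧ α * y < x ∧ (x : ℝ) < β * y ∧ M ∣ x - x₀ ∧ M ∣ y - y₀ ∧
      x ^ 2 + n * y ^ 2 = p}.Infinite := by
  have hopen : IsOpen {z : ℝ × ℝ | 0 < z.2 ∧ α * z.2 < z.1 ∧ z.1 < β * z.2} := by
    have h1 : IsOpen {z : ℝ × ℝ | 0 < z.2} := isOpen_lt continuous_const continuous_snd
    have h2 : IsOpen {z : ℝ × ℝ | α * z.2 < z.1} :=
      isOpen_lt (continuous_const.mul continuous_snd) continuous_fst
    have h3 : IsOpen {z : ℝ × ℝ | z.1 < β * z.2} :=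
      isOpen_lt continuous_fst (continuous_const.mul continuous_snd)
    exact h1.inter (h2.inter h3)
  have h1 := infinite_primes_cone (a := 1) (b := 0) (c := n) (fun q hq hd =>
    (Nat.prime_iff_prime_int.mp hq).not_isUnit (isUnit_of_dvd_one hd.1)) one_pos
    (by linarith) hM (x₀ := x₀) (y₀ := y₀)
    (by rwa [show (1 : ℤ) * x₀ ^ 2 + 0 * x₀ * y₀ + n * y₀ ^ 2 = x₀ ^ 2 + n * y₀ ^ 2 by ring])
    (C := {z : ℝ × ℝ | 0 < z.2 ∧ α * z.2 < z.1 ∧ z.1 < β * z.2})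
    hopen
    ⟨((α + β) / 2, 1), one_pos, by simp; linarith, by simp; linarith⟩
    (by
      rintro t ht z ⟨h1, h2, h3⟩
      refine ⟨mul_pos ht h1, ?_, ?_⟩
      · change α * (t * z.2) < t * z.1
        nlinarith
      · change t * z.1 < β * (t * z.2)
        nlinarith)
  refine h1.mono ?_
  rintro p ⟨hp, x, y, ⟨h2, h3, h4⟩, hx, hy, hxy⟩
  have h2' : (0 : ℝ) < (y : ℝ) := h2
  refine ⟨hp, x, y, by exact_mod_cast h2', h3, h4, hx, hy, ?_⟩
  rw [← hxy]
  ring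

end Fermat.Agent.Cor.RayG

end
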