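import Fermat.Agent.Corollaries.RayG.ThetaG

/-!
# The Fourier transform of a harmonic polynomial times a Gaussian on `ℂ` (piece (A1) of RAYG)

`∫ z^k e^{-b |z|² + a z + a' \bar z} dz = (a' / b)^k ∫ e^{-b |z|² + a z + a' \bar z} dz`, by
integration by parts in the directions `1` and `i`.
-/

set_option autoImplicit false

noncomputable section

namespace Fermat.Agent.Cor.RayG

open MeasureTheory Filter
open scoped Real ComplexConjugate

namespace FC

/-- the exponential -/
def ee (b a a' z : ℂ) : ℂ := Complex.exp (-b * (z * conj z) + (a * z + a' * conj z))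

theorem continuous_ee (b a a' : ℂ) : Continuous (ee b a a') := by
  unfold ee
  have := Complex.continuous_conj
  fun_prop

/-- the derivative in the direction `v` -/
theorem hasLineDerivAt (k : ℕ) (b a a' z v : ℂ) :
    HasLineDerivAt ℝ (fun z => z ^ k * ee b a a' z)
      ((k * z ^ (k - 1) * v + z ^ k * (-b * (v * conj z + z * conj v) + (a * v + a' * conj v))) *
        ee b a a' z) z v := by
  have h1 : HasDerivAt (fun s : ℂ => z + s * v) v 0 := by
    simpa using ((hasDerivAt_id (0 : ℂ)).mul_const v).const_add z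
  have h2 : HasDerivAt (fun s : ℂ => conj z + s * conj v) (conj v) 0 := by
    simpa using ((hasDerivAt_id (0 : ℂ)).mul_const (conj v)).const_add (conj z)
  have h3 : HasDerivAt (fun s : ℂ => (z + s * v) ^ k *
      Complex.exp (-b * ((z + s * v) * (conj z + s * conj v)) +
        (a * (z + s * v) + a' * (conj z + s * conj v))))
      (k * z ^ (k - 1) * v * ee b a a' z + z ^ k * (ee b a a' z *
        (-b * (v * conj z + z * conj v) + (a * v + a' * conj v)))) ((0 : ℝ) : ℂ) := by
    rw [Complex.ofReal_zero]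
    refine ((h1.fun_pow k).mul
      ((((h1.mul h2).const_mul (-b)).add ((h1.const_mul a).add (h2.const_mul a'))).cexp)).congr_deriv
      ?_
    simp only [Pi.mul_apply, Pi.add_apply, ee, zero_mul, add_zero]
  have h4 := h3.comp_ofReal
  have h5 : (fun s : ℝ => (z + s • v) ^ k * ee b a a' (z + s • v)) = fun s : ℝ =>
      (z + (s : ℂ) * v) ^ k *
      Complex.exp (-b * ((z + (s : ℂ) * v) * (conj z + (s : ℂ) * conj v)) +
        (a * (z + (s : ℂ) * v) + a' * (conj z + (s : ℂ) * conj v))) := by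
    funext s
    simp only [ee, Complex.real_smul, map_add, map_mul, Complex.conj_ofReal]
  change HasDerivAt (fun s : ℝ => (z + s • v) ^ k * ee b a a' (z + s • v)) _ 0
  rw [h5]
  exact h4.congr_deriv (by ring)

theorem pow_exp_bound {b : ℝ} (hb : 0 < b) (m : ℕ) : ∃ C : ℝ, 0 ≤ C ∧ ∀ r : ℝ, 0 ≤ r →
    (1 + r) ^ m * Real.exp (-(b * r ^ 2)) ≤ C * Real.exp (-(b / 2 * r ^ 2)) := by
  refine ⟨m.factorial * Real.exp (1 + 1 / (2 * b)), by positivity, fun r hr => ?_⟩
  have h1 : (1 + r) ^ m / m.factorial ≤ Real.exp (1 + r) :=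
    Real.pow_div_factorial_le_exp (1 + r) (by linarith) m
  have h3 : (0 : ℝ) < m.factorial := by exact_mod_cast m.factorial_pos
  rw [div_le_iff₀ h3] at h1
  have h4 : r ≤ 1 / (2 * b) + b / 2 * r ^ 2 := by
    have h5 : 0 ≤ (b * r - 1) ^ 2 / (2 * b) := by positivity
    have h6 : (b * r - 1) ^ 2 / (2 * b) = 1 / (2 * b) + b / 2 * r ^ 2 - r := by
      field_simp
      ring
    linarith
  calc (1 + r) ^ m * Real.exp (-(b * r ^ 2))
      ≤ (Real.exp (1 + r) * m.factorial) * Real.exp (-(b * r ^ 2)) :=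
        mul_le_mul_of_nonneg_right h1 (Real.exp_nonneg _)
    _ = m.factorial * Real.exp (1 + r - b * r ^ 2) := by
        rw [sub_eq_add_neg (1 + r), Real.exp_add (1 + r)]
        ring
    _ ≤ m.factorial * Real.exp ((1 + 1 / (2 * b)) + -(b / 2 * r ^ 2)) := by
        refine mul_le_mul_of_nonneg_left (Real.exp_le_exp.mpr ?_) h3.le
        linarith
    _ = _ := by
        rw [Real.exp_add (1 + 1 / (2 * b))]
        ring

/-- polynomial growth times a Gaussian is integrable -/
theorem integrable_of_le {G : ℂ → ℂ} (hG : Continuous G) {b : ℝ} (hb : 0 < b) (m : ℕ) (A : ℝ)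
    (hA : 0 ≤ A) (h : ∀ z, ‖G z‖ ≤ A * ((1 + ‖z‖) ^ m * Real.exp (-(b * ‖z‖ ^ 2)))) :
    Integrable G := by
  obtain ⟨C, hC, hb2⟩ := pow_exp_bound hb m
  have h1 : Integrable (fun z : ℂ => Complex.exp (-((b / 2 : ℝ) : ℂ) * ‖z‖ ^ 2 +
      0 * ((inner ℝ (0 : ℂ) z : ℝ) : ℂ))) :=
    GaussianFourier.integrable_cexp_neg_mul_sq_norm_add (b := ((b / 2 : ℝ) : ℂ)) (by
      rw [Complex.ofReal_re]
      linarith) 0 (0 : ℂ)
  refine (h1.norm.const_mul (A * C)).mono' hG.aestronglyMeasurable
    (Eventually.of_forall fun z => ?_)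
  have h2 : ‖Complex.exp (-((b / 2 : ℝ) : ℂ) * ‖z‖ ^ 2 + 0 * ((inner ℝ (0 : ℂ) z : ℝ) : ℂ))‖ =
      Real.exp (-(b / 2 * ‖z‖ ^ 2)) := by
    rw [zero_mul, add_zero]
    have h3 : -((b / 2 : ℝ) : ℂ) * (‖z‖ : ℂ) ^ 2 = ((-(b / 2 * ‖z‖ ^ 2) : ℝ) : ℂ) := by
      push_cast
      ring
    rw [h3, Complex.norm_exp_ofReal]
  rw [h2, mul_assoc]
  exact (h z).trans (mul_le_mul_of_nonneg_left (hb2 _ (norm_nonneg z)) hA)

variable {b : ℝ} (hb : 0 < b) (y : ℂ)

/-- the exponential with an imaginary linear part -/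
theorem norm_ee (b : ℝ) (y z : ℂ) :
    ‖ee b (-(2 * π * Complex.I * y)) (-(2 * π * Complex.I * conj y)) z‖ =
      Real.exp (-(b * ‖z‖ ^ 2)) := by
  have h1 : -(b : ℂ) * (z * conj z) + (-(2 * π * Complex.I * y) * z +
      -(2 * π * Complex.I * conj y) * conj z) =
      ((-(b * ‖z‖ ^ 2) : ℝ) : ℂ) + ((-(2 * π * (2 * (y * z).re)) : ℝ) : ℂ) * Complex.I := by
    have h2 : z * conj z = ((‖z‖ ^ 2 : ℝ) : ℂ) := by
      rw [Complex.mul_conj, Complex.normSq_eq_norm_sq]
    have h3 : y * z + conj y * conj z = ((2 * (y * z).re : ℝ) : ℂ) := by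
      rw [← map_mul, Complex.add_conj]
    rw [h2]
    have h4 : ((-(2 * π * (2 * (y * z).re)) : ℝ) : ℂ) = -(2 * π * (y * z + conj y * conj z)) := by
      rw [h3]
      push_cast
      ring
    rw [h4]
    push_cast
    ring
  rw [ee, h1, Complex.norm_exp, Complex.add_re, Complex.ofReal_re, Complex.re_ofReal_mul,
    Complex.I_re, mul_zero, add_zero]

theorem ee_eq (b : ℝ) (y z : ℂ) :
    ee b (-(2 * π * Complex.I * y)) (-(2 * π * Complex.I * conj y)) z =
      Complex.exp (-(2 * π * Complex.I * ((2 * (y * z).re : ℝ) : ℂ))) *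
        ((Real.exp (-(b * ‖z‖ ^ 2)) : ℝ) : ℂ) := by
  have h2 : z * conj z = ((‖z‖ ^ 2 : ℝ) : ℂ) := by
    rw [Complex.mul_conj, Complex.normSq_eq_norm_sq]
  have h3 : y * z + conj y * conj z = ((2 * (y * z).re : ℝ) : ℂ) := by
    rw [← map_mul, Complex.add_conj]
  rw [ee, Complex.ofReal_exp, ← Complex.exp_add, ← h3, h2]
  congr 1
  push_cast
  ring

include hb in
theorem integrable_mon (i j : ℕ) : Integrable fun z : ℂ => z ^ i * conj z ^ j *
    ee b (-(2 * π * Complex.I * y)) (-(2 * π * Complex.I * conj y)) z := by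
  refine integrable_of_le ?_ hb (i + j) 1 zero_le_one fun z => ?_
  · have := continuous_ee b (-(2 * π * Complex.I * y)) (-(2 * π * Complex.I * conj y))
    have := Complex.continuous_conj
    fun_prop
  · rw [norm_mul, norm_mul, norm_pow, norm_pow, RCLike.norm_conj, norm_ee, one_mul, ← pow_add]
    refine mul_le_mul_of_nonneg_right ?_ (Real.exp_nonneg _)
    exact pow_le_pow_left₀ (norm_nonneg _) (by linarith) _

include hb in
/-- the integral of a derivative vanishes -/
theorem integral_deriv_eq_zero (k : ℕ) (v : ℂ) :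
    ∫ z : ℂ, (k * z ^ (k - 1) * v + z ^ k * (-b * (v * conj z + z * conj v) +
      (-(2 * π * Complex.I * y) * v + -(2 * π * Complex.I * conj y) * conj v))) *
        ee b (-(2 * π * Complex.I * y)) (-(2 * π * Complex.I * conj y)) z = 0 := by
  set a : ℂ := -(2 * π * Complex.I * y) with ha
  set a' : ℂ := -(2 * π * Complex.I * conj y) with ha'
  have hint : Integrable fun z : ℂ => (k * z ^ (k - 1) * v + z ^ k *
      (-b * (v * conj z + z * conj v) + (a * v + a' * conj v))) * ee b a a' z := by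
    have e : (fun z : ℂ => (k * z ^ (k - 1) * v + z ^ k *
        (-b * (v * conj z + z * conj v) + (a * v + a' * conj v))) * ee b a a' z) =
        fun z => (k * v) * (z ^ (k - 1) * conj z ^ 0 * ee b a a' z) +
          ((-b * v) * (z ^ k * conj z ^ 1 * ee b a a' z) +
            ((-b * conj v) * (z ^ (k + 1) * conj z ^ 0 * ee b a a' z) +
              (a * v + a' * conj v) * (z ^ k * conj z ^ 0 * ee b a a' z))) := by
      funext z
      ring
    rw [e]
    exact ((integrable_mon hb y _ _).const_mul _).add (((integrable_mon hb y _ _).const_mul _).add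
      (((integrable_mon hb y _ _).const_mul _).add ((integrable_mon hb y _ _).const_mul _)))
  have h0 : Integrable fun z : ℂ => z ^ k * ee b a a' z := by
    have := integrable_mon hb y k 0
    simpa only [pow_zero, mul_one] using this
  have h := integral_bilinear_hasLineDerivAt_right_eq_neg_left_of_integrable (μ := volume)
    (f := fun z : ℂ => z ^ k * ee b a a' z) (g := fun _ : ℂ => (1 : ℂ)) (g' := fun _ => 0)
    (v := v) (B := ContinuousLinearMap.mul ℝ ℂ)
    (f' := fun z => (k * z ^ (k - 1) * v + z ^ k *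
      (-b * (v * conj z + z * conj v) + (a * v + a' * conj v))) * ee b a a' z)
    (by simpa using hint) (by simp) (by simpa using h0)
    (fun z _ => hasLineDerivAt k b a a' z v)
    (fun z _ => by
      unfold HasLineDerivAt
      exact hasDerivAt_const _ _)
  simp only [ContinuousLinearMap.mul_apply', mul_zero, integral_zero, mul_one] at h
  rw [eq_comm, neg_eq_zero] at h
  exact h

include hb in
theorem integral_succ (k : ℕ) :
    ∫ z : ℂ, z ^ (k + 1) * ee b (-(2 * π * Complex.I * y)) (-(2 * π * Complex.I * conj y)) z =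
      (-(2 * π * Complex.I * conj y) / b) *
        ∫ z : ℂ, z ^ k * ee b (-(2 * π * Complex.I * y)) (-(2 * π * Complex.I * conj y)) z := by
  set a : ℂ := -(2 * π * Complex.I * y) with ha
  set a' : ℂ := -(2 * π * Complex.I * conj y) with ha'
  have hb0 : (b : ℂ) ≠ 0 := Complex.ofReal_ne_zero.mpr hb.ne'
  have h1 := integral_deriv_eq_zero hb y k 1
  have h2 := integral_deriv_eq_zero hb y k Complex.I
  have hi : ∀ v : ℂ, Integrable fun z : ℂ => (k * z ^ (k - 1) * v + z ^ k *
      (-b * (v * conj z + z * conj v) + (a * v + a' * conj v))) * ee b a a' z := by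
    intro v
    have e : (fun z : ℂ => (k * z ^ (k - 1) * v + z ^ k *
        (-b * (v * conj z + z * conj v) + (a * v + a' * conj v))) * ee b a a' z) =
        fun z => (k * v) * (z ^ (k - 1) * conj z ^ 0 * ee b a a' z) +
          ((-b * v) * (z ^ k * conj z ^ 1 * ee b a a' z) +
            ((-b * conj v) * (z ^ (k + 1) * conj z ^ 0 * ee b a a' z) +
              (a * v + a' * conj v) * (z ^ k * conj z ^ 0 * ee b a a' z))) := by
      funext z
      ring
    rw [e]
    exact ((integrable_mon hb y _ _).const_mul _).add (((integrable_mon hb y _ _).const_mul _).add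
      (((integrable_mon hb y _ _).const_mul _).add ((integrable_mon hb y _ _).const_mul _)))
  have h3 : ∫ z : ℂ, ((k * z ^ (k - 1) * 1 + z ^ k *
      (-b * (1 * conj z + z * conj 1) + (a * 1 + a' * conj 1))) * ee b a a' z +
      Complex.I * ((k * z ^ (k - 1) * Complex.I + z ^ k *
      (-b * (Complex.I * conj z + z * conj Complex.I) +
        (a * Complex.I + a' * conj Complex.I))) * ee b a a' z)) = 0 := by
    rw [integral_add (hi 1) ((hi Complex.I).const_mul _), integral_const_mul]
    rw [h1, h2, mul_zero, add_zero]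
  have h4 : ∀ z : ℂ, ((k * z ^ (k - 1) * 1 + z ^ k *
      (-b * (1 * conj z + z * conj 1) + (a * 1 + a' * conj 1))) * ee b a a' z +
      Complex.I * ((k * z ^ (k - 1) * Complex.I + z ^ k *
      (-b * (Complex.I * conj z + z * conj Complex.I) +
        (a * Complex.I + a' * conj Complex.I))) * ee b a a' z)) =
      (-(2 * b)) * (z ^ (k + 1) * ee b a a' z) + (2 * a') * (z ^ k * ee b a a' z) := by
    intro z
    rw [map_one, Complex.conj_I]
    have hI := Complex.I_sq
    linear_combination ((k * z ^ (k - 1) + z ^ k * (-b * (conj z - z) + (a - a'))) *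
      ee b a a' z) * hI
  have h5 : Integrable fun z : ℂ => z ^ (k + 1) * ee b a a' z := by
    have := integrable_mon hb y (k + 1) 0
    simpa only [pow_zero, mul_one] using this
  have h6 : Integrable fun z : ℂ => z ^ k * ee b a a' z := by
    have := integrable_mon hb y k 0
    simpa only [pow_zero, mul_one] using this
  simp_rw [h4] at h3
  rw [integral_add (h5.const_mul _) (h6.const_mul _), integral_const_mul, integral_const_mul] at h3
  rw [div_mul_eq_mul_div, eq_div_iff hb0]
  linear_combination (-1 / 2 : ℂ) * h3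

include hb in
theorem integral_pow (k : ℕ) :
    ∫ z : ℂ, z ^ k * ee b (-(2 * π * Complex.I * y)) (-(2 * π * Complex.I * conj y)) z =
      (-(2 * π * Complex.I * conj y) / b) ^ k * (((π / b : ℝ) : ℂ) *
        ((Real.exp (-(4 * π ^ 2 * ‖y‖ ^ 2 / b)) : ℝ) : ℂ)) := by
  induction k with
  | zero =>
    rw [pow_zero, one_mul]
    simp only [pow_zero, one_mul]
    have h1 := GaussianFourier.integral_cexp_neg_mul_sq_norm_add (V := ℂ) (b := (b : ℂ)) (by
      rwa [Complex.ofReal_re]) (-(4 * π * Complex.I)) (conj y)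
    have h2 : ∀ z : ℂ, ee b (-(2 * π * Complex.I * y)) (-(2 * π * Complex.I * conj y)) z =
        Complex.exp (-(b : ℂ) * ‖z‖ ^ 2 + -(4 * π * Complex.I) * ((inner ℝ (conj y) z : ℝ) : ℂ)) := by
      intro z
      rw [ee_eq, Complex.ofReal_exp, ← Complex.exp_add]
      congr 1
      have h3 : (inner ℝ (conj y) z : ℝ) = (y * z).re := by
        rw [Complex.inner, Complex.conj_conj, mul_comm]
      rw [h3]
      push_cast
      ring
    simp_rw [h2]
    rw [h1, Complex.finrank_real_complex]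
    congr 1
    · have : ((2 : ℕ) : ℂ) / 2 = 1 := by norm_num
      rw [this, Complex.cpow_one]
      push_cast
      rfl
    · rw [Complex.ofReal_exp]
      congr 1
      have hb0 : (b : ℂ) ≠ 0 := Complex.ofReal_ne_zero.mpr hb.ne'
      rw [RCLike.norm_conj]
      have hI := Complex.I_sq
      push_cast
      have h4 : (-(4 * (π : ℂ) * Complex.I)) ^ 2 = -(16 * (π : ℂ) ^ 2) := by
        linear_combination (16 * (π : ℂ) ^ 2) * hI
      rw [h4]
      field_simp
      ring
  | succ k ih =>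
    rw [integral_succ hb, ih, pow_succ]
    ring

end FC

open FC

theorem fC_conj (k : ℤ) (t : ℝ) (z : ℂ) : conj (fC k t z) = fC (-k) t z := by
  rw [fC, fC, map_mul, map_mul, map_pow, Complex.conj_ofReal, Complex.conj_ofReal, hz_neg,
    Int.natAbs_neg]

theorem fourierC_nat (k : ℕ) {t : ℝ} (ht : 0 < t) (y : ℂ) :
    ∫ z : ℂ, Complex.exp (-(2 * π * Complex.I * ((2 * (y * z).re : ℝ) : ℂ))) * fC (k : ℤ) t z =
      (-Complex.I) ^ k * ((2⁻¹ * t⁻¹ : ℝ) : ℂ) * fC (-(k : ℤ)) t⁻¹ y := by
  have hb : 0 < 2 * π * t := by positivity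
  have hz1 : ∀ z : ℂ, hz (k : ℤ) z = z ^ k := fun z => by
    rw [hz, if_pos (Int.natCast_nonneg k), Int.natAbs_natCast]
  have h1 : ∀ z : ℂ, Complex.exp (-(2 * π * Complex.I * ((2 * (y * z).re : ℝ) : ℂ))) *
      fC (k : ℤ) t z = ((√t : ℝ) : ℂ) ^ k * (z ^ k *
        ee ((2 * π * t : ℝ) : ℂ) (-(2 * π * Complex.I * y)) (-(2 * π * Complex.I * conj y)) z) := by
    intro z
    rw [ee_eq, fC, hz1, Int.natAbs_natCast]
    have h2 : -(π * (2 * (t * ‖z‖ ^ 2))) = -(2 * π * t * ‖z‖ ^ 2) := by ring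
    rw [h2]
    ring
  simp_rw [h1]
  rw [integral_const_mul, integral_pow hb, fC, hz_neg, hz1, Int.natAbs_neg, Int.natAbs_natCast,
    map_pow]
  have ht0 : (t : ℂ) ≠ 0 := Complex.ofReal_ne_zero.mpr ht.ne'
  have hπ : (π : ℂ) ≠ 0 := Complex.ofReal_ne_zero.mpr Real.pi_ne_zero
  have h3 : (-(2 * π * Complex.I * conj y) / ((2 * π * t : ℝ) : ℂ)) =
      (-Complex.I) * ((t⁻¹ : ℝ) : ℂ) * conj y := by
    push_cast
    field_simp
  have h4 : ((√t : ℝ) : ℂ) * ((t⁻¹ : ℝ) : ℂ) = ((√(t⁻¹) : ℝ) : ℂ) := by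
    rw [← Complex.ofReal_mul, sqrt_inv_eq ht]
  have h5 : (π / (2 * π * t) : ℝ) = 2⁻¹ * t⁻¹ := by
    have := Real.pi_ne_zero
    field_simp
  have h6 : -(4 * π ^ 2 * ‖y‖ ^ 2 / (2 * π * t)) = -(π * (2 * (t⁻¹ * ‖y‖ ^ 2))) := by
    have := Real.pi_ne_zero
    field_simp
    ring
  rw [h3, h5, h6, mul_pow, mul_pow, ← h4, mul_pow]
  ring

/-- **(A1)** -/
theorem fourierC : FourierC := by
  intro k t ht y
  obtain ⟨m, rfl | rfl⟩ := k.eq_nat_or_neg
  · rw [fourierC_nat m ht y, Int.natAbs_natCast]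
  · have h1 : ∀ z : ℂ, Complex.exp (-(2 * π * Complex.I * ((2 * (y * z).re : ℝ) : ℂ))) *
        fC (-(m : ℤ)) t z =
        conj (Complex.exp (-(2 * π * Complex.I * ((2 * (-y * z).re : ℝ) : ℂ))) *
          fC (m : ℤ) t z) := by
      intro z
      rw [map_mul, fC_conj, ← Complex.exp_conj]
      congr 2
      simp only [map_mul, Complex.conj_I, Complex.conj_ofReal, map_ofNat, neg_mul,
        Complex.neg_re, mul_neg, Complex.ofReal_neg, neg_neg]
    simp_rw [h1]
    rw [integral_conj, fourierC_nat m ht (-y), map_mul, map_mul, fC_conj, map_pow, map_neg,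
      Complex.conj_I, neg_neg, neg_neg, Complex.conj_ofReal, Int.natAbs_neg, Int.natAbs_natCast]
    have h2 : fC (m : ℤ) t⁻¹ (-y) = (-1) ^ m * fC (m : ℤ) t⁻¹ y := by
      have h3 : hz (m : ℤ) (-y) = (-1) ^ m * hz (m : ℤ) y := by
        rw [hz, hz, if_pos (Int.natCast_nonneg m), if_pos (Int.natCast_nonneg m),
          Int.natAbs_natCast, ← mul_pow, neg_one_mul]
      rw [fC, fC, h3, norm_neg]
      ring
    rw [h2, neg_pow Complex.I m]
    ring

/-- **Theta inversion, piece (A).** -/
theorem thetaGStmt (K : Type*) [Field K] [NumberField K] : ThetaGStmt K := thetaGStmt_of fourierC K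

end Fermat.Agent.Cor.RayG

end
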