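import Fermat.Agent.Corollaries.RayG.EntireG
import Fermat.Agent.Corollaries.RayG.ZeroG
import Fermat.Agent.Corollaries.RayG.DecayG
import Fermat.Agent.Corollaries.RayG.MellinG
import Fermat.Agent.Corollaries.RayG.GammaG

/-!
# The functional equation of the weighted zeta functions with Groessencharaktere (RAYG (FE))

`feGStmt_of`: `Z(s) = Γ(s) ∑ φ(g_i) χ(g_i) |N g_i| ^ {-s}` (`χ` of nontrivial type `(n, κ)`) is
entire and `Z(s) = (√|d| N𝔠)⁻¹ Z'(1 - s)`, `Z'` the function of the dual weight of type `(-n, -κ)`.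
-/

set_option autoImplicit false

noncomputable section

namespace Fermat.Agent.Cor.RayG

open NumberField NumberField.InfinitePlace NumberField.Units MeasureTheory Set
open NumberField.Units.dirichletUnitTheorem
open Fermat.Agent.Classic.Zeta Fermat.Agent.Cor.Ray Fermat.Agent.Cor.RayN
open scoped nonZeroDivisors Classical Real ComplexConjugate

universe u

/-- from a functional equation pair of weight `m = [K : ℚ]` without poles to entire functions of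
`m s` -/
theorem pair_aux (P : WeakFEPair ℂ) {m : ℕ} (hf : P.f₀ = 0) (hg : P.g₀ = 0)
    (hk : P.k = (m : ℝ)) (c : ℂ) :
    (Differentiable ℂ fun s => c⁻¹ * P.Λ ((m : ℂ) * s)) ∧
    (Differentiable ℂ fun s => c⁻¹ * P.symm.Λ ((m : ℂ) * s)) ∧
    ∀ s : ℂ, c⁻¹ * P.Λ ((m : ℂ) * s) = P.ε * (c⁻¹ * P.symm.Λ ((m : ℂ) * (1 - s))) := by
  have hd : ∀ s : ℂ, DifferentiableAt ℂ (fun s : ℂ => (m : ℂ) * s) s := fun s =>
    differentiableAt_id.const_mul _
  refine ⟨fun s => ?_, fun s => ?_, fun s => ?_⟩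
  · exact (DifferentiableAt.comp s (P.differentiableAt_Λ (Or.inr hf) (Or.inr hg))
      (hd s)).const_mul _
  · exact (DifferentiableAt.comp s (P.symm.differentiableAt_Λ (Or.inr hg) (Or.inr hf))
      (hd s)).const_mul _
  · have h2 := P.functional_equation ((m : ℂ) * (1 - s))
    have h3 : (P.k : ℂ) - (m : ℂ) * (1 - s) = (m : ℂ) * s := by
      rw [hk]
      push_cast
      ring
    rw [h3, smul_eq_mul] at h2
    rw [h2]
    ring

/-- (FE) the functional equation of the weighted zeta functions of nontrivial type -/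
def FEGStmt (K : Type u) [Field K] [NumberField K] : Prop :=
  ∀ (n : InfinitePlace K → ℤ) (κ : InfinitePlace K → ℝ), IsTy n κ → (n ≠ 0 ∨ κ ≠ 0) →
    ∀ (𝔟 𝔠 : FractionalIdeal (𝓞 K)⁰ K) (φ φ' : K → ℂ), IsWtG n κ 𝔟 𝔠 φ →
      IsWtG (-n) (-κ) (dualF 𝔠) (dualF 𝔟) φ' → IsInvG n 𝔠 φ φ' → ∃ Z Z' : ℂ → ℂ,
        Differentiable ℂ Z ∧ Differentiable ℂ Z' ∧
        (∀ (ι : Type u) (g : ι → K), IsGen 𝔟 g → ∀ s : ℂ, 1 < s.re →
          Z s = gamG n κ s * ∑' i, φ (g i) * chi n κ (g i) *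
            (((|Algebra.norm ℚ (g i)| : ℚ) : ℂ)) ^ (-s)) ∧
        (∀ (ι : Type u) (g : ι → K), IsGen (dualF 𝔠) g → ∀ s : ℂ, 1 < s.re →
          Z' s = gamG (-n) (-κ) s * ∑' i, φ' (g i) * chi (-n) (-κ) (g i) *
            (((|Algebra.norm ℚ (g i)| : ℚ) : ℂ)) ^ (-s)) ∧
        ∀ s, Z s = ((√|(discr K : ℝ)| * nF 𝔠 : ℝ) : ℂ)⁻¹ * Z' (1 - s)

variable {K : Type u} [Field K] [NumberField K]

/-- **(FE)** -/
theorem feGStmt_of (hT : TorusGStmt K) (hD : DecayGStmt K) (hM : MellinGStmt K) : FEGStmt K := by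
  intro n κ hty h0 𝔟 𝔠 φ φ' hφ hφ' hI
  obtain ⟨β, hβ⟩ := (torusStmt (thetaStmt K)).1
  obtain ⟨c, hc, hM⟩ := hM
  have hc' : (c : ℂ) ≠ 0 := by exact_mod_cast hc.ne'
  have hk : ∀ {s : ℂ}, 1 < s.re →
      (Module.finrank ℚ K : ℝ) < ((Module.finrank ℚ K : ℂ) * s).re := fun {s} hs => by
    have hn : (0 : ℝ) < (Module.finrank ℚ K : ℝ) := finrank_pos' K
    rw [← Complex.ofReal_natCast, Complex.re_ofReal_mul]
    nlinarith
  set P : WeakFEPair ℂ := feG hβ hty h0 hT hD hφ hφ' hI with hP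
  obtain ⟨h1, h2, h3⟩ := pair_aux P rfl rfl rfl (c : ℂ)
  refine ⟨_, _, h1, h2, ?_, ?_, fun s => ?_⟩
  · intro ι g hg s hs
    obtain ⟨-, hmel⟩ := hM n κ hty h0 β hβ 𝔟 𝔠 φ hφ ι g hg s hs
    have h4 : mellin (fun x : ℝ => FG n κ β φ x - 0) ((Module.finrank ℚ K : ℂ) * s) =
      P.Λ ((Module.finrank ℚ K : ℂ) * s) := (P.hasMellin (hk hs)).2
    simp only [sub_zero] at h4
    rw [← h4, hmel]
    field_simp
  · intro ι g hg s hs
    obtain ⟨-, hmel⟩ := hM (-n) (-κ) hty.neg (neg_ne_zero_or h0) β hβ _ _ φ' hφ' ι g hg s hs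
    have h4 : mellin (fun x : ℝ => FG (-n) (-κ) β φ' x - 0) ((Module.finrank ℚ K : ℂ) * s) =
      P.symm.Λ ((Module.finrank ℚ K : ℂ) * s) := (P.symm.hasMellin (hk hs)).2
    simp only [sub_zero] at h4
    rw [← h4, hmel]
    field_simp
  · have hinv : ((((√|(discr K : ℝ)| * nF 𝔠)⁻¹ : ℝ) : ℂ)) =
        ((√|(discr K : ℝ)| * nF 𝔠 : ℝ) : ℂ)⁻¹ := by push_cast; rfl
    rw [← hinv]
    exact h3 s

/-- **(FE)**, no hypothesis -/
theorem feGStmt (K : Type u) [Field K] [NumberField K] : FEGStmt K :=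
  feGStmt_of (torusGStmt K) (decayGStmt_of (zeroGStmt K))
    (mellinGStmt_of (unfoldGStmt K) (gammaGStmt K))

end Fermat.Agent.Cor.RayG

end
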