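import Fermat.Agent.Corollaries.RayG.LFunG
import Fermat.Agent.Corollaries.RayF.Gauss

/-!
# Gauss sums of primitive Groessencharaktere

The adaptation of `RayF/Gauss` (helper87) to Groessencharaktere: `exists_gaussG`.
-/

set_option autoImplicit false
set_option linter.unusedSectionVars false

noncomputable section

namespace Fermat.Agent.Cor.RayG

open NumberField NumberField.InfinitePlace
open Fermat.Agent.Classic.Zeta Fermat.Agent.Cor.Ray
open Fermat.Agent.Cor.RayN (ThetaSStmt)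
open Fermat.Agent.Cor.RayF (RepsJ GenJ exists_invF ch_smul ch_zero_right conj_ch mem_coe_of_mem
  one_ne_zeroF self_mul_dualF mem_of_mem_mul per_of_sub sum_mulF sum_addF ch_per sum_ch
  isReps_image exists_prim)
open scoped nonZeroDivisors Classical ComplexConjugate

universe u

variable {K : Type u} [Field K] [NumberField K] {m : Ideal (𝓞 K)} {ψ : (Ideal (𝓞 K))⁰ →* ℂ}
  {n : InfinitePlace K → ℤ} {κ : InfinitePlace K → ℝ}

/-- **Primitive Groessencharaktere**: for every proper divisor `𝔫` of `𝔪` there is `a ≡ 1 mod 𝔫`,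
prime to `𝔪`, with `ψ((a)) ≠ χ_∞(a)`. -/
def IsPrimG (n : InfinitePlace K → ℤ) (κ : InfinitePlace K → ℝ) (m : Ideal (𝓞 K))
    (ψ : (Ideal (𝓞 K))⁰ →* ℂ) : Prop :=
  ∀ 𝔫 : Ideal (𝓞 K), m ≤ 𝔫 → 𝔫 ≠ m → ∃ (a : 𝓞 K) (ha : a ≠ 0),
    IsCoprime (Ideal.span {a}) m ∧ a - 1 ∈ 𝔫 ∧ ψ (sp a ha) ≠ chi n κ (a : K)

/-! ### The character on elements -/

theorem elG_top (h : GChar n κ m ψ) (hm : m = ⊤) (x : 𝓞 K) : elG n κ m ψ x = 1 := by
  by_cases hx : x = 0
  · rw [elG, dif_pos hx, if_pos hm]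
  · rw [elG_of_ne hx, h.cong x hx (by rw [hm]; trivial), mul_comm,
      conj_chi_mul n κ (coe_ne_zeroG hx)]

theorem elG_mulF (h : GChar n κ m ψ) {a : 𝓞 K} (ha : a ≠ 0) (x : 𝓞 K) :
    elG n κ m ψ (a * x) = elG n κ m ψ a * elG n κ m ψ x := by
  by_cases hx : x = 0
  · subst hx
    rw [mul_zero]
    by_cases hm : m = ⊤
    · rw [elG_top h hm, elG_top h hm, one_mul]
    · rw [elG, dif_pos rfl, if_neg hm, mul_zero]
  · rw [elG_of_ne ha, elG_of_ne hx, elG_of_ne (mul_ne_zero ha hx), coe_chi_mul ha hx, sp_mul ha hx,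
      map_mul, map_mul]
    ring

theorem coe_one_eq : ((1 : 𝓞 K) : K) = 1 := map_one (algebraMap (𝓞 K) K)

theorem elG_one (h : GChar n κ m ψ) : elG n κ m ψ 1 = 1 := by
  rw [elG_of_ne one_ne_zero, h.cong 1 one_ne_zero (by rw [sub_self]; exact m.zero_mem), mul_comm,
    conj_chi_mul n κ (coe_ne_zeroG one_ne_zero)]

theorem elG_mul_inv (h : GChar n κ m ψ) {a b : 𝓞 K} (hb0 : b ≠ 0)
    (hb : b * a - 1 ∈ m) : elG n κ m ψ b * elG n κ m ψ a = 1 := by
  rw [← elG_mulF h hb0, ← elG_one h]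
  have h1 := elG_add h 1 hb
  rwa [add_sub_cancel] at h1

theorem norm_elG_eq (h : GChar n κ m ψ) {a : 𝓞 K}
    (ha : IsCoprime (Ideal.span {a}) m) : ‖elG n κ m ψ a‖ = 1 := by
  obtain ⟨b, hb0, hb⟩ := exists_invF ha
  have h1 := congrArg norm (elG_mul_inv h hb0 hb)
  rw [norm_mul, norm_one] at h1
  have h2 := norm_elG_le h a
  have h3 := norm_elG_le h b
  nlinarith [norm_nonneg (elG n κ m ψ a), norm_nonneg (elG n κ m ψ b)]

theorem elG_eq_zero (h : GChar n κ m ψ) {a : 𝓞 K} (ha : ¬ IsCoprime (Ideal.span {a}) m) :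
    elG n κ m ψ a = 0 := by
  by_cases h0 : a = 0
  · have hm : m ≠ ⊤ := by
      rintro rfl
      exact ha (Ideal.isCoprime_iff_sup_eq.mpr (sup_top_eq _))
    rw [elG, dif_pos h0, if_neg hm]
  · have h1 : ψ (sp a h0) = 0 := h.eq_zero _ ha
    rw [elG_of_ne h0, h1, zero_mul]

/-- the values of `ψ` have norm one -/
theorem norm_psiG (hm : m ≠ ⊥) (h : GChar n κ m ψ) {J : (Ideal (𝓞 K))⁰}
    (hJ : IsCoprime (J : Ideal (𝓞 K)) m) : ‖ψ J‖ = 1 := by
  obtain ⟨J', a, ha, hJ', hc, hIJ⟩ := exists_mul_eq_span hm hJ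
  have h1 := norm_elG_eq h hc
  have h2 : sp a ha = J * J' := Subtype.ext hIJ.symm
  rw [elG_of_ne ha, norm_mul, Complex.norm_conj, norm_chi n κ (coe_ne_zeroG ha), mul_one, h2,
    map_mul, norm_mul] at h1
  have h3 := h.norm_le J
  have h4 := h.norm_le J'
  nlinarith [norm_nonneg (ψ J), norm_nonneg (ψ J')]

theorem psiG_mul_conj (hm : m ≠ ⊥) (h : GChar n κ m ψ) {J : (Ideal (𝓞 K))⁰}
    (hJ : IsCoprime (J : Ideal (𝓞 K)) m) : ψ J * conj (ψ J) = 1 := by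
  rw [Complex.mul_conj, Complex.normSq_eq_norm_sq, norm_psiG hm h hJ]
  simp

/-! ### Sums over `𝓞 / m` -/

section Sums

variable [Fintype (𝓞 K ⧸ m)]

/-- the Gauss sum with the additive character `e(Tr (z r))` -/
def TG (n : InfinitePlace K → ℤ) (κ : InfinitePlace K → ℝ) (m : Ideal (𝓞 K))
    [Fintype (𝓞 K ⧸ m)] (ψ : (Ideal (𝓞 K))⁰ →* ℂ) (z : K) : ℂ :=
  ∑ q : 𝓞 K ⧸ m, elG n κ m ψ q.out * ch z ((q.out : 𝓞 K) : K)

theorem TG_eq_mul (hm : m ≠ ⊥) (h : GChar n κ m ψ) {z : K}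
    (hz : z ∈ dualF (m : FractionalIdeal (𝓞 K)⁰ K)) {a : 𝓞 K} (ha0 : a ≠ 0)
    (ha : IsCoprime (Ideal.span {a}) m) : TG n κ m ψ z = elG n κ m ψ a * TG n κ m ψ (a * z) := by
  rw [TG, sum_mulF (f := fun x => elG n κ m ψ x * ch z (x : K)) (fun x r hr => by
    rw [elG_add h x hr, ch_per hm hz x hr]) ha, TG, Finset.mul_sum]
  refine Finset.sum_congr rfl fun q _ => ?_
  have h1 : ((a * q.out : 𝓞 K) : K) = (a : K) * ((q.out : 𝓞 K) : K) :=
    map_mul (algebraMap (𝓞 K) K) _ _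
  rw [elG_mulF h ha0, ch_smul, h1]
  ring

/-- the Gauss sum vanishes at the non-primitive additive characters -/
theorem TG_eq_zero (hm : m ≠ ⊥) (h : GChar n κ m ψ) (hp : IsPrimG n κ m ψ) {z : K}
    {A : Ideal (𝓞 K)} (hA : ¬ IsCoprime A m)
    (hz : z ∈ (A : FractionalIdeal (𝓞 K)⁰ K) * dualF (m : FractionalIdeal (𝓞 K)⁰ K)) :
    TG n κ m ψ z = 0 := by
  have hz' := mem_of_mem_mul hz
  obtain ⟨𝔫, hn⟩ : A ⊔ m ∣ m := Ideal.dvd_iff_le.mpr le_sup_right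
  have hlt : m < 𝔫 := by
    refine lt_of_le_of_ne (hn.le.trans Ideal.mul_le_right) fun hmn => hA ?_
    rw [Ideal.isCoprime_iff_sup_eq]
    rw [← hmn] at hn
    have h1 : (A ⊔ m) * m = ⊤ * m := by rw [← hn, Ideal.top_mul]
    exact mul_right_cancel₀ hm h1
  obtain ⟨a, ha, hac, han, hψ⟩ := hp 𝔫 hlt.le hlt.ne'
  have hel : elG n κ m ψ a ≠ 1 := by
    rw [elG_of_ne ha]
    intro h1
    apply hψ
    have h2 := conj_chi_mul n κ (coe_ne_zeroG ha)
    linear_combination (chi n κ (a : K)) * h1 - (ψ (sp a ha)) * h2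
  have hmem : ((a - 1 : 𝓞 K) : K) * z ∈ dualF (1 : FractionalIdeal (𝓞 K)⁰ K) := by
    have h1 := FractionalIdeal.mul_mem_mul (mem_coe_of_mem (K := K) han) hz
    have h2 : (𝔫 : FractionalIdeal (𝓞 K)⁰ K) * ((A : FractionalIdeal (𝓞 K)⁰ K) *
        dualF (m : FractionalIdeal (𝓞 K)⁰ K)) ≤ dualF 1 := by
      rw [← mul_assoc, ← self_mul_dualF hm, ← FractionalIdeal.coeIdeal_mul]
      refine mul_le_mul_left ((FractionalIdeal.coeIdeal_le_coeIdeal K).mpr ?_) _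
      calc 𝔫 * A ≤ 𝔫 * (A ⊔ m) := Ideal.mul_mono_right le_sup_left
        _ = m := by rw [mul_comm, ← hn]
    exact h2 h1
  have hT : TG n κ m ψ (a * z) = TG n κ m ψ z := by
    rw [TG, TG]
    refine Finset.sum_congr rfl fun q _ => ?_
    have h1 : (a : K) * z = z + ((a - 1 : 𝓞 K) : K) * z := by
      have : ((a - 1 : 𝓞 K) : K) = (a : K) - 1 := by
        rw [← map_one (algebraMap (𝓞 K) K), ← map_sub]
      rw [this]
      ring
    have h2 : ((q.out : 𝓞 K) : K) ∈ (1 : FractionalIdeal (𝓞 K)⁰ K) :=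
      (FractionalIdeal.mem_one_iff _).mpr ⟨_, rfl⟩
    rw [h1, ch_add_left, ch_eq_one one_ne_zeroF hmem h2, mul_one]
  have h3 := TG_eq_mul hm h hz' ha hac
  rw [hT] at h3
  have h4 : (1 - elG n κ m ψ a) * TG n κ m ψ z = 0 := by linear_combination h3
  rcases mul_eq_zero.mp h4 with h5 | h5
  · exact absurd (sub_eq_zero.mp h5).symm hel
  · exact h5

/-- the Gauss sum at two primitive additive characters -/
theorem TG_indep (hm : m ≠ ⊥) (h : GChar n κ m ψ) {z₁ z₂ : K}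
    {A₁ A₂ : (Ideal (𝓞 K))⁰} (hA₁ : IsCoprime (A₁ : Ideal (𝓞 K)) m)
    (hA₂ : IsCoprime (A₂ : Ideal (𝓞 K)) m) (hz₁ : z₁ ≠ 0) (hz₂ : z₂ ≠ 0)
    (h₁ : FractionalIdeal.spanSingleton (𝓞 K)⁰ z₁ =
      ((A₁ : Ideal (𝓞 K)) : FractionalIdeal (𝓞 K)⁰ K) * dualF (m : FractionalIdeal (𝓞 K)⁰ K))
    (h₂ : FractionalIdeal.spanSingleton (𝓞 K)⁰ z₂ =
      ((A₂ : Ideal (𝓞 K)) : FractionalIdeal (𝓞 K)⁰ K) * dualF (m : FractionalIdeal (𝓞 K)⁰ K)) :
    TG n κ m ψ z₁ * ψ A₁ * conj (chi n κ z₁) = TG n κ m ψ z₂ * ψ A₂ * conj (chi n κ z₂) := by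
  obtain ⟨J', b, hb, hJ', hbc, hIJ⟩ := exists_mul_eq_span hm hA₁
  have hz₁' : z₁ ∈ dualF (m : FractionalIdeal (𝓞 K)⁰ K) :=
    mem_of_mem_mul (h₁ ▸ FractionalIdeal.mem_spanSingleton_self _ z₁)
  have hz₂' : z₂ ∈ dualF (m : FractionalIdeal (𝓞 K)⁰ K) :=
    mem_of_mem_mul (h₂ ▸ FractionalIdeal.mem_spanSingleton_self _ z₂)
  have h3 : FractionalIdeal.spanSingleton (𝓞 K)⁰ ((b : K) * z₂) =
      FractionalIdeal.spanSingleton (𝓞 K)⁰ z₁ *
        (((J' : Ideal (𝓞 K)) * (A₂ : Ideal (𝓞 K)) : Ideal (𝓞 K)) :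
          FractionalIdeal (𝓞 K)⁰ K) := by
    rw [← FractionalIdeal.spanSingleton_mul_spanSingleton, h₂, h₁,
      ← FractionalIdeal.coeIdeal_span_singleton, ← hIJ, FractionalIdeal.coeIdeal_mul,
      FractionalIdeal.coeIdeal_mul]
    ring
  have h4 : (b : K) * z₂ ∈ FractionalIdeal.spanSingleton (𝓞 K)⁰ z₁ *
        (((J' : Ideal (𝓞 K)) * (A₂ : Ideal (𝓞 K)) : Ideal (𝓞 K)) :
          FractionalIdeal (𝓞 K)⁰ K) := by
    rw [← h3]
    exact FractionalIdeal.mem_spanSingleton_self _ _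
  obtain ⟨a', ha', hab⟩ := FractionalIdeal.mem_singleton_mul.mp h4
  obtain ⟨a, haJ, rfl⟩ := mem_coeIdeal_iff'.mp ha'
  have ha : a ≠ 0 := by
    rintro rfl
    have h5 : ((0 : 𝓞 K) : K) = 0 := map_zero (algebraMap (𝓞 K) K)
    rw [h5, mul_zero] at hab
    exact mul_ne_zero (coe_ne_zeroG hb) hz₂ hab
  have h6 : Ideal.span {a} = (J' : Ideal (𝓞 K)) * (A₂ : Ideal (𝓞 K)) := by
    rw [hab, ← FractionalIdeal.spanSingleton_mul_spanSingleton] at h3
    have h7 := mul_left_cancel₀ (FractionalIdeal.spanSingleton_ne_zero_iff.mpr hz₁) h3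
    rwa [← FractionalIdeal.coeIdeal_span_singleton, FractionalIdeal.coeIdeal_inj] at h7
  have hac : IsCoprime (Ideal.span {a}) m := by
    rw [h6]
    exact IsCoprime.mul_left hJ' hA₂
  have e1 : ψ (sp a ha) = ψ J' * ψ A₂ := by
    rw [← map_mul]
    exact congrArg ψ (Subtype.ext h6)
  have e2 : ψ (sp b hb) = ψ A₁ * ψ J' := by
    rw [← map_mul]
    exact congrArg ψ (Subtype.ext hIJ.symm)
  have e3 : conj (chi n κ (b : K)) * conj (chi n κ z₂) =
      conj (chi n κ (a : K)) * conj (chi n κ z₁) := by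
    rw [← map_mul, ← map_mul, ← chi_mul n κ (coe_ne_zeroG hb) hz₂,
      ← chi_mul n κ (coe_ne_zeroG ha) hz₁, hab, mul_comm z₁]
  have t1 := TG_eq_mul hm h hz₁' ha hac
  have t2 := TG_eq_mul hm h hz₂' hb hbc
  rw [hab, mul_comm z₁] at t2
  rw [t1, t2, elG_of_ne ha, elG_of_ne hb, e1, e2]
  linear_combination (-(ψ J' * ψ A₂ * ψ A₁ * TG n κ m ψ ((a : K) * z₁))) * e3

/-! ### The absolute value -/

/-- Parseval -/
theorem sum_TG (hm : m ≠ ⊥) {z : K} {B : (Ideal (𝓞 K))⁰}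
    (hB : IsCoprime (B : Ideal (𝓞 K)) m)
    (hz : FractionalIdeal.spanSingleton (𝓞 K)⁰ z =
      ((B : Ideal (𝓞 K)) : FractionalIdeal (𝓞 K)⁰ K) * dualF (m : FractionalIdeal (𝓞 K)⁰ K)) :
    ∑ q : 𝓞 K ⧸ m, TG n κ m ψ ((q.out : 𝓞 K) * z) *
      conj (TG n κ m ψ ((q.out : 𝓞 K) * z)) =
    (Fintype.card (𝓞 K ⧸ m) : ℂ) *
      ∑ q : 𝓞 K ⧸ m, elG n κ m ψ q.out * conj (elG n κ m ψ q.out) := by
  have h1 : ∀ q : 𝓞 K ⧸ m, TG n κ m ψ ((q.out : 𝓞 K) * z) *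
      conj (TG n κ m ψ ((q.out : 𝓞 K) * z)) =
      ∑ r : 𝓞 K ⧸ m, ∑ s : 𝓞 K ⧸ m, elG n κ m ψ r.out * conj (elG n κ m ψ s.out) *
        ch z (((r.out - s.out) * q.out : 𝓞 K) : K) := by
    intro q
    rw [TG, map_sum, Finset.sum_mul_sum]
    refine Finset.sum_congr rfl fun r _ => Finset.sum_congr rfl fun s _ => ?_
    rw [map_mul, conj_ch, ch_smul, ch_smul]
    have h2 : ((((r.out - s.out) * q.out : 𝓞 K)) : K) =
        ((q.out : 𝓞 K) : K) * ((r.out : 𝓞 K) : K) + ((q.out : 𝓞 K) : K) * -((s.out : 𝓞 K) : K) := by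
      have h3 : ((((r.out - s.out) * q.out : 𝓞 K)) : K) =
          (((r.out : 𝓞 K) : K) - ((s.out : 𝓞 K) : K)) * ((q.out : 𝓞 K) : K) := by
        rw [← map_sub, ← map_mul]
      rw [h3]
      ring
    rw [h2, ch_add_right]
    ring
  simp_rw [h1]
  rw [Finset.sum_comm]
  have h2 : ∀ r : 𝓞 K ⧸ m, ∑ q : 𝓞 K ⧸ m, ∑ s : 𝓞 K ⧸ m,
      elG n κ m ψ r.out * conj (elG n κ m ψ s.out) *
        ch z (((r.out - s.out) * q.out : 𝓞 K) : K) =
      (Fintype.card (𝓞 K ⧸ m) : ℂ) * (elG n κ m ψ r.out * conj (elG n κ m ψ r.out)) := by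
    intro r
    rw [Finset.sum_comm]
    have h3 : ∀ s : 𝓞 K ⧸ m, ∑ q : 𝓞 K ⧸ m,
        elG n κ m ψ r.out * conj (elG n κ m ψ s.out) *
          ch z (((r.out - s.out) * q.out : 𝓞 K) : K) =
        if s = r then (Fintype.card (𝓞 K ⧸ m) : ℂ) *
          (elG n κ m ψ r.out * conj (elG n κ m ψ r.out)) else 0 := by
      intro s
      rw [← Finset.mul_sum]
      split_ifs with hsr
      · subst hsr
        have h4 : ∀ q : 𝓞 K ⧸ m, ch z (((s.out - s.out) * q.out : 𝓞 K) : K) = 1 := by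
          intro q
          rw [sub_self, zero_mul]
          have : ((0 : 𝓞 K) : K) = 0 := map_zero (algebraMap (𝓞 K) K)
          rw [this, ch_zero_right]
        rw [Finset.sum_congr rfl fun q _ => h4 q, Finset.sum_const, Finset.card_univ, nsmul_eq_mul]
        ring
      · rw [sum_ch hm hB hz, mul_zero]
        intro h5
        apply hsr
        rw [← mk_out s, ← mk_out r, eq_comm, Ideal.Quotient.mk_eq_mk_iff_sub_mem]
        exact h5
    rw [Finset.sum_congr rfl fun s _ => h3 s, Finset.sum_ite_eq' Finset.univ r,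
      if_pos (Finset.mem_univ r)]
  rw [Finset.sum_congr rfl fun r _ => h2 r, Finset.mul_sum]

/-- **The absolute value of the Gauss sum.** -/
theorem norm_TG (hm : m ≠ ⊥) (h : GChar n κ m ψ) (hp : IsPrimG n κ m ψ) {z : K}
    {B : (Ideal (𝓞 K))⁰} (hB : IsCoprime (B : Ideal (𝓞 K)) m)
    (hz : FractionalIdeal.spanSingleton (𝓞 K)⁰ z =
      ((B : Ideal (𝓞 K)) : FractionalIdeal (𝓞 K)⁰ K) * dualF (m : FractionalIdeal (𝓞 K)⁰ K)) :
    ‖TG n κ m ψ z‖ = √(Ideal.absNorm m : ℝ) := by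
  have hz' : z ∈ dualF (m : FractionalIdeal (𝓞 K)⁰ K) :=
    mem_of_mem_mul (hz ▸ FractionalIdeal.mem_spanSingleton_self _ z)
  have hcard : (Fintype.card (𝓞 K ⧸ m) : ℂ) = Ideal.absNorm m := by
    rw [← Nat.card_eq_fintype_card]
    rfl
  have h1 : ∀ q : 𝓞 K ⧸ m, TG n κ m ψ ((q.out : 𝓞 K) * z) *
      conj (TG n κ m ψ ((q.out : 𝓞 K) * z)) =
      (TG n κ m ψ z * conj (TG n κ m ψ z)) *
        (elG n κ m ψ q.out * conj (elG n κ m ψ q.out)) := by
    intro q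
    by_cases hq : IsCoprime (Ideal.span {(q.out : 𝓞 K)}) m
    · have h2 : elG n κ m ψ q.out * conj (elG n κ m ψ q.out) = 1 := by
        rw [Complex.mul_conj, Complex.normSq_eq_norm_sq, norm_elG_eq h hq]
        simp
      by_cases hq0 : (q.out : 𝓞 K) = 0
      · -- `m = ⊤`
        have hmt : m = ⊤ := by
          rw [hq0, Ideal.span_singleton_eq_bot.mpr rfl, Ideal.isCoprime_iff_sup_eq, bot_sup_eq]
            at hq
          exact hq
        have h3 : ∀ y ∈ dualF (m : FractionalIdeal (𝓞 K)⁰ K), TG n κ m ψ y =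
            Fintype.card (𝓞 K ⧸ m) := by
          intro y hy
          rw [TG, ← Finset.card_univ, Finset.cast_card]
          refine Finset.sum_congr rfl fun p _ => ?_
          rw [elG_top h hmt, one_mul]
          exact ch_eq_one (FractionalIdeal.coeIdeal_ne_zero.mpr hm) hy
            (mem_coe_of_mem (hmt.ge Submodule.mem_top))
        rw [h2, mul_one, h3 z hz', h3 _ (mem_smul _ hz')]
      · have h3 := TG_eq_mul hm h hz' hq0 hq
        rw [h3, map_mul]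
        linear_combination (-(TG n κ m ψ ((q.out : 𝓞 K) * z) *
          conj (TG n κ m ψ ((q.out : 𝓞 K) * z)) *
          (elG n κ m ψ q.out * conj (elG n κ m ψ q.out) + 1))) * h2
    · have h2 : TG n κ m ψ ((q.out : 𝓞 K) * z) = 0 := by
        refine TG_eq_zero hm h hp (A := Ideal.span {(q.out : 𝓞 K)} * (B : Ideal (𝓞 K))) ?_ ?_
        · exact fun h3 => hq h3.of_mul_left_left
        · rw [FractionalIdeal.coeIdeal_mul, mul_assoc, ← hz]
          exact FractionalIdeal.mul_mem_mul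
            (mem_coe_of_mem (Ideal.mem_span_singleton_self _))
            (FractionalIdeal.mem_spanSingleton_self _ z)
      rw [h2, elG_eq_zero h hq, zero_mul, mul_zero]
  have h2 := sum_TG (n := n) (κ := κ) (ψ := ψ) hm hB hz
  rw [Finset.sum_congr rfl fun q _ => h1 q, ← Finset.mul_sum] at h2
  have h3 : ∑ q : 𝓞 K ⧸ m, elG n κ m ψ q.out * conj (elG n κ m ψ q.out) ≠ 0 := by
    have h4 : ∑ q : 𝓞 K ⧸ m, elG n κ m ψ q.out * conj (elG n κ m ψ q.out) =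
        ((∑ q : 𝓞 K ⧸ m, ‖elG n κ m ψ q.out‖ ^ 2 : ℝ) : ℂ) := by
      push_cast
      refine Finset.sum_congr rfl fun q _ => ?_
      rw [Complex.mul_conj, Complex.normSq_eq_norm_sq]
      push_cast
      rfl
    rw [h4, Complex.ofReal_ne_zero]
    refine ne_of_gt (Finset.sum_pos' (fun q _ => by positivity)
      ⟨Ideal.Quotient.mk m 1, Finset.mem_univ _, ?_⟩)
    have h5 : elG n κ m ψ (Ideal.Quotient.mk m (1 : 𝓞 K)).out = 1 := by
      rw [← elG_one h]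
      refine per_of_sub (fun x r hr => elG_add h x hr) ?_
      rw [← Ideal.Quotient.mk_eq_mk_iff_sub_mem, mk_out]
    rw [h5, norm_one]
    norm_num
  have h4 : TG n κ m ψ z * conj (TG n κ m ψ z) = Ideal.absNorm m := by
    rw [← hcard]
    exact mul_right_cancel₀ h3 h2
  rw [Complex.mul_conj, Complex.normSq_eq_norm_sq] at h4
  have h5 : ‖TG n κ m ψ z‖ ^ 2 = (Ideal.absNorm m : ℝ) := by exact_mod_cast h4
  rw [← h5, Real.sqrt_sq (norm_nonneg _)]

theorem sum_reps_eqG (hm : m ≠ ⊥) (h : GChar n κ m ψ) {J : Ideal (𝓞 K)}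
    (hJ0 : J ≠ ⊥) (hJ : IsCoprime J m) {j : 𝓞 K} (hj0 : j ≠ 0) (hj : j ∈ J)
    (hjm : IsCoprime (Ideal.span {j}) m) {R : Finset K}
    (hR : IsReps (J : FractionalIdeal (𝓞 K)⁰ K)
      ((J * m : Ideal (𝓞 K)) : FractionalIdeal (𝓞 K)⁰ K) R) {y : K}
    (hy : y ∈ dualF ((J * m : Ideal (𝓞 K)) : FractionalIdeal (𝓞 K)⁰ K)) :
    ∑ r ∈ R, wG n κ m ψ J r * ch y r = elG n κ m ψ j * TG n κ m ψ (j * y) := by
  obtain ⟨b, hb0, hb⟩ := exists_invF hjm
  have hw := isWtG_wG hm h hJ0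
  rw [sum_reps hR (isReps_image hJ hj hb) (g := fun x => wG n κ m ψ J x * ch y x)
    (fun x c hc => by
    rw [hw.per x c hc, ch_add_right, ch_eq_one hw.hc hy hc, mul_one]), Finset.sum_image, TG,
    Finset.mul_sum]
  · refine Finset.sum_congr rfl fun q _ => ?_
    have h1 : ((j * q.out : 𝓞 K) : K) = (j : K) * ((q.out : 𝓞 K) : K) :=
      map_mul (algebraMap (𝓞 K) K) _ _
    rw [wG_coe (J.mul_mem_right _ hj), elG_mulF h hj0, ch_smul, h1]
    ring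
  · intro q _ q' _ hqq
    have h1 : j * (q.out : 𝓞 K) = j * (q'.out : 𝓞 K) := RingOfIntegers.ext hqq
    have h2 := mul_left_cancel₀ hj0 h1
    rw [← mk_out q, ← mk_out q', h2]

end Sums

/-- the Gauss sum of `ψ` on the ideal `J`, `R` representatives of `J / J𝔪` -/
def gsG (n : InfinitePlace K → ℤ) (κ : InfinitePlace K → ℝ) (m : Ideal (𝓞 K))
    (ψ : (Ideal (𝓞 K))⁰ →* ℂ) (J : Ideal (𝓞 K)) (R : Finset K) (y : K) : ℂ :=
  ∑ r ∈ R, wG n κ m ψ J r * ch y r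

/-- `τ` is the Gauss sum of `ψ` -/
def IsGaussG (n : InfinitePlace K → ℤ) (κ : InfinitePlace K → ℝ) (m : Ideal (𝓞 K))
    (ψ : (Ideal (𝓞 K))⁰ →* ℂ) (τ : ℂ) : Prop :=
  ∀ J : (Ideal (𝓞 K))⁰, IsCoprime (J : Ideal (𝓞 K)) m → ∀ R : Finset K, RepsJ m J R →
    ∀ (y : K) (A : (Ideal (𝓞 K))⁰), GenJ m J y A →
      gsG n κ m ψ J R y = τ * ψ J * conj (ψ A) * chi n κ y

/-- **The Gauss sum of a primitive Groessencharakter.** -/
theorem exists_gaussG (hm : m ≠ ⊥) (h : GChar n κ m ψ) (hp : IsPrimG n κ m ψ) :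
    ∃ τ : ℂ, ‖τ‖ = √(Ideal.absNorm m : ℝ) ∧ IsGaussG n κ m ψ τ := by
  have := finite_quot hm
  have := Fintype.ofFinite (𝓞 K ⧸ m)
  obtain ⟨z₀, B, hz₀, hB, hzB⟩ := exists_prim hm
  refine ⟨TG n κ m ψ z₀ * ψ B * conj (chi n κ z₀), ?_, ?_⟩
  · rw [norm_mul, norm_mul, norm_TG hm h hp hB hzB, norm_psiG hm h hB, mul_one,
      Complex.norm_conj, norm_chi n κ hz₀, mul_one]
  · intro J hJ R hR y A hyA
    obtain ⟨J', j, hj0, hJ', hjc, hJJ⟩ := exists_mul_eq_span hm hJ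
    have hjJ : j ∈ (J : Ideal (𝓞 K)) :=
      Ideal.mul_le_left (hJJ ▸ Ideal.mem_span_singleton_self j)
    have hyA' : FractionalIdeal.spanSingleton (𝓞 K)⁰ y =
      ((A : Ideal (𝓞 K)) : FractionalIdeal (𝓞 K)⁰ K) *
        dualF (((J : Ideal (𝓞 K)) * m : Ideal (𝓞 K)) : FractionalIdeal (𝓞 K)⁰ K) := hyA
    have hJm0 : (((J : Ideal (𝓞 K)) * m : Ideal (𝓞 K)) : FractionalIdeal (𝓞 K)⁰ K) ≠ 0 :=
      FractionalIdeal.coeIdeal_ne_zero.mpr (mul_ne_zero (nonZeroDivisors.coe_ne_zero J) hm)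
    have hy0 : y ≠ 0 := by
      rintro rfl
      rw [FractionalIdeal.spanSingleton_zero, eq_comm, mul_eq_zero] at hyA'
      rcases hyA' with h1 | h1
      · exact FractionalIdeal.coeIdeal_ne_zero.mpr (nonZeroDivisors.coe_ne_zero A) h1
      · exact Ray.dualF_ne_zero hJm0 h1
    have hy : y ∈ dualF (((J : Ideal (𝓞 K)) * m : Ideal (𝓞 K)) : FractionalIdeal (𝓞 K)⁰ K) :=
      mem_of_mem_mul (hyA' ▸ FractionalIdeal.mem_spanSingleton_self _ y)
    rw [gsG, sum_reps_eqG hm h (nonZeroDivisors.coe_ne_zero J) hJ hj0 hjJ hjc hR hy]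
    -- the ideal of `j y`
    have hdual : ((J : Ideal (𝓞 K)) : FractionalIdeal (𝓞 K)⁰ K) *
        dualF (((J : Ideal (𝓞 K)) * m : Ideal (𝓞 K)) : FractionalIdeal (𝓞 K)⁰ K) =
        dualF (m : FractionalIdeal (𝓞 K)⁰ K) := by
      have h1 := self_mul_dualF (K := K) (mul_ne_zero (nonZeroDivisors.coe_ne_zero J) hm)
      have h2 : (m : FractionalIdeal (𝓞 K)⁰ K) * (((J : Ideal (𝓞 K)) : FractionalIdeal (𝓞 K)⁰ K) *
          dualF (((J : Ideal (𝓞 K)) * m : Ideal (𝓞 K)) : FractionalIdeal (𝓞 K)⁰ K)) =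
          (m : FractionalIdeal (𝓞 K)⁰ K) * dualF (m : FractionalIdeal (𝓞 K)⁰ K) := by
        rw [self_mul_dualF hm, ← h1, ← mul_assoc, ← FractionalIdeal.coeIdeal_mul, mul_comm m]
      exact mul_left_cancel₀ (FractionalIdeal.coeIdeal_ne_zero.mpr hm) h2
    have hjy : FractionalIdeal.spanSingleton (𝓞 K)⁰ ((j : K) * y) =
        (((J' * A : (Ideal (𝓞 K))⁰) : Ideal (𝓞 K)) : FractionalIdeal (𝓞 K)⁰ K) *
          dualF (m : FractionalIdeal (𝓞 K)⁰ K) := by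
      rw [← FractionalIdeal.spanSingleton_mul_spanSingleton, hyA', ← hdual,
        ← FractionalIdeal.coeIdeal_span_singleton, ← hJJ,
        FractionalIdeal.coeIdeal_mul (J : Ideal (𝓞 K)) (J' : Ideal (𝓞 K)),
        Submonoid.coe_mul, FractionalIdeal.coeIdeal_mul (J' : Ideal (𝓞 K)) (A : Ideal (𝓞 K))]
      ring
    have hjy0 : (j : K) * y ≠ 0 := mul_ne_zero (coe_ne_zeroG hj0) hy0
    by_cases hA : IsCoprime (A : Ideal (𝓞 K)) m
    · have hJA : IsCoprime ((J' * A : (Ideal (𝓞 K))⁰) : Ideal (𝓞 K)) m := by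
        rw [Submonoid.coe_mul]
        exact IsCoprime.mul_left hJ' hA
      have h1 := TG_indep (n := n) (κ := κ) hm h hJA hB hjy0 hz₀ hjy hzB
      have h3 := psiG_mul_conj hm h hA
      have h5 : conj (chi n κ y) * chi n κ y = 1 := conj_chi_mul n κ hy0
      have h6 : conj (chi n κ ((j : K) * y)) = conj (chi n κ (j : K)) * conj (chi n κ y) := by
        rw [chi_mul n κ (coe_ne_zeroG hj0) hy0, map_mul]
      have h7 : ψ (sp j hj0) = ψ J * ψ J' := by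
        rw [← map_mul]
        exact congrArg ψ (Subtype.ext hJJ.symm)
      rw [← h1, map_mul, h6, elG_of_ne hj0, h7]
      linear_combination (-(ψ J * ψ J' * conj (chi n κ (j : K)) * TG n κ m ψ ((j : K) * y) *
        (conj (chi n κ y) * chi n κ y))) * h3 -
        (ψ J * ψ J' * conj (chi n κ (j : K)) * TG n κ m ψ ((j : K) * y)) * h5
    · have h1 : TG n κ m ψ ((j : K) * y) = 0 := by
        refine TG_eq_zero hm h hp (A := ((J' * A : (Ideal (𝓞 K))⁰) : Ideal (𝓞 K))) ?_ ?_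
        · rw [Submonoid.coe_mul]
          exact fun h2 => hA h2.of_mul_left_right
        · rw [← hjy]
          exact FractionalIdeal.mem_spanSingleton_self _ _
      have h2 : conj (ψ A) = 0 := by rw [h.eq_zero A hA, map_zero]
      rw [h1, h2, mul_zero, mul_zero, zero_mul]

end Fermat.Agent.Cor.RayG

end
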