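import Fermat.Agent.Corollaries.RayG.MainG
import Fermat.Agent.Corollaries.RayF.Strip

/-!
# Growth of the completed `L`-functions of Groessencharaktere

`stripBdd_LG`: `Λ(s, ψ)` on `-1 ≤ Re s ≤ 2`; `hasGrowth_LG`: `s (1 - s) Λ(s, ψ)` is an entire
function of order less than two; `exists_lt_norm_LG`: it grows faster than every exponential on the
positive real axis.
-/

set_option autoImplicit false
set_option linter.unusedSectionVars false

noncomputable section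

namespace Fermat.Agent.Cor.RayG

open NumberField NumberField.InfinitePlace NumberField.Units MeasureTheory Set Filter Topology
open NumberField.Units.dirichletUnitTheorem
open Fermat.Agent.Classic.Zeta Fermat.Agent.Cor.Ray
open Fermat.Agent.Cor.RayF (StripBdd stripBdd_pair DC DC_pos one_le_DC norm_cpow_strip re_half
  nF_pos')
open scoped nonZeroDivisors ComplexConjugate Classical

universe u

variable {K : Type u} [Field K] [NumberField K] {m : Ideal (𝓞 K)} {ψ : (Ideal (𝓞 K))⁰ →* ℂ}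
  {n : InfinitePlace K → ℤ} {κ : InfinitePlace K → ℝ}

/-! ### The local factors -/

theorem grw_nat_add_le {r : ℝ} (hr : 0 ≤ r) (k : ℕ) : grw (k + r) ≤ 4 ^ k * grw r := by
  induction k with
  | zero => rw [Nat.cast_zero, zero_add, pow_zero, one_mul]
  | succ k ih =>
    have h1 : ((k + 1 : ℕ) : ℝ) + r = 1 + (k + r) := by push_cast; ring
    rw [h1]
    refine (grw_one_add_le (by positivity)).trans ?_
    rw [pow_succ]
    linarith

theorem re_sgG_half (s : ℂ) (w : InfinitePlace K) :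
    (sgG n κ s w / 2).re = (w.mult * s.re + (n w).natAbs) / 2 := by
  rw [re_half, re_sgG]

theorem one_le_pi_mult (w : InfinitePlace K) : 1 ≤ Real.pi * w.mult := by
  have h1 : (1 : ℝ) ≤ w.mult := by exact_mod_cast w.mult_pos
  have := Real.pi_gt_three
  nlinarith

/-- the upper bound for the local factor -/
theorem norm_locG_le {s : ℂ} (hs : 2 ≤ s.re) (w : InfinitePlace K) :
    ‖((Real.pi * w.mult : ℝ) : ℂ) ^ (-(sgG n κ s w / 2)) * Complex.Gamma (sgG n κ s w / 2)‖ ≤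
      Real.exp (2 * 4 ^ (n w).natAbs * grw ‖s‖) := by
  have h1 : (1 : ℝ) ≤ w.mult := by exact_mod_cast w.mult_pos
  have h1' : (w.mult : ℝ) ≤ 2 := by
    have : w.mult ≤ 2 := by
      unfold InfinitePlace.mult
      split_ifs <;> norm_num
    exact_mod_cast this
  have hN : (0 : ℝ) ≤ (n w).natAbs := Nat.cast_nonneg _
  have hp := one_le_pi_mult w
  have hre := re_sgG_half (n := n) (κ := κ) s w
  have hx1 : 1 ≤ (w.mult * s.re + (n w).natAbs) / 2 := by nlinarith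
  have hs0 := norm_nonneg s
  have hsn : s.re ≤ ‖s‖ := Complex.re_le_norm s
  rw [norm_mul, Complex.norm_cpow_eq_rpow_re_of_pos (by linarith), Complex.neg_re, hre]
  have h2 : (Real.pi * w.mult) ^ (-((w.mult * s.re + (n w).natAbs) / 2)) ≤ 1 :=
    Real.rpow_le_one_of_one_le_of_nonpos hp (by linarith)
  have h3 : ‖Complex.Gamma (sgG n κ s w / 2)‖ ≤ Real.exp (2 * 4 ^ (n w).natAbs * grw ‖s‖) := by
    refine (norm_Gamma_le (by rw [hre]; linarith)).trans ?_
    rw [hre]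
    refine (Gamma_le_exp hx1).trans (Real.exp_le_exp.mpr ?_)
    have h4 := grw_mono (r := (w.mult * s.re + (n w).natAbs) / 2) (s := (n w).natAbs + ‖s‖)
      (by linarith) (by nlinarith)
    have h5 := grw_nat_add_le hs0 (n w).natAbs
    linarith
  calc (Real.pi * w.mult) ^ (-((w.mult * s.re + (n w).natAbs) / 2)) *
        ‖Complex.Gamma (sgG n κ s w / 2)‖ ≤ 1 * Real.exp (2 * 4 ^ (n w).natAbs * grw ‖s‖) := by
        gcongr
    _ = _ := one_mul _

/-- the upper bound for the Gamma factor -/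
theorem norm_gamG_le (n : InfinitePlace K → ℤ) (κ : InfinitePlace K → ℝ) {s : ℂ}
    (hs : 2 ≤ s.re) :
    ‖gamG n κ s‖ ≤ Real.exp ((∑ w : InfinitePlace K, 2 * 4 ^ (n w).natAbs) * grw ‖s‖) := by
  rw [gamG, norm_prod, Finset.sum_mul, Real.exp_sum]
  exact Finset.prod_le_prod (fun _ _ => norm_nonneg _) fun w _ => norm_locG_le hs w

theorem norm_Gamma_add_nat {z : ℂ} (hz : 1 ≤ z.re) (k : ℕ) :
    k.factorial * ‖Complex.Gamma z‖ ≤ ‖Complex.Gamma (z + k)‖ := by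
  induction k with
  | zero => rw [Nat.factorial_zero, Nat.cast_one, one_mul, Nat.cast_zero, add_zero]
  | succ k ih =>
    have hre : (z + k).re = z.re + k := by rw [Complex.add_re, Complex.natCast_re]
    have hk : (0 : ℝ) ≤ k := Nat.cast_nonneg k
    have h0 : z + k ≠ 0 := by
      intro h
      rw [h, Complex.zero_re] at hre
      linarith
    have h1 : z + ((k + 1 : ℕ) : ℂ) = (z + k) + 1 := by push_cast; ring
    rw [h1, Complex.Gamma_add_one _ h0, norm_mul, Nat.factorial_succ, Nat.cast_mul, mul_assoc]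
    refine mul_le_mul ?_ ih (by positivity) (norm_nonneg _)
    have h2 := Complex.re_le_norm (z + k)
    push_cast
    linarith

/-- the lower bound for the local factor -/
theorem eventually_exp_le_locG (w : InfinitePlace K) (B : ℝ) :
    ∀ᶠ j : ℕ in atTop, Real.exp (B * j) ≤
      ‖((Real.pi * w.mult : ℝ) : ℂ) ^ (-(sgG n κ ((2 * j + 2 : ℝ) : ℂ) w / 2)) *
        Complex.Gamma (sgG n κ ((2 * j + 2 : ℝ) : ℂ) w / 2)‖ := by
  have hm1 : 1 ≤ w.mult := w.mult_pos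
  have hm1' : (1 : ℝ) ≤ w.mult := by exact_mod_cast hm1
  have hN : (0 : ℝ) ≤ (n w).natAbs := Nat.cast_nonneg _
  set p : ℝ := Real.pi * w.mult with hp
  have hp1 : 1 ≤ p := one_le_pi_mult w
  have hp0 : 0 < p := by linarith
  set z : ℂ := sgG n κ 2 w / 2 with hz
  have hzre : z.re = (w.mult * 2 + (n w).natAbs) / 2 := by
    rw [hz, re_sgG_half, Complex.re_ofNat]
  have hz1 : 1 ≤ z.re := by rw [hzre]; linarith
  have hG : 0 < ‖Complex.Gamma z‖ :=
    norm_pos_iff.mpr (Complex.Gamma_ne_zero_of_re_pos (by linarith))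
  set c : ℝ := p ^ (-z.re) * ‖Complex.Gamma z‖ with hc
  have hc0 : 0 < c := mul_pos (Real.rpow_pos_of_pos hp0 _) hG
  have hlim := FloorSemiring.tendsto_pow_div_factorial_atTop (Real.exp B * p ^ w.mult)
  filter_upwards [hlim.eventually_lt_const hc0] with j hj
  have hs : sgG n κ ((2 * j + 2 : ℝ) : ℂ) w / 2 = z + ((w.mult * j : ℕ) : ℂ) := by
    rw [hz, sgG, sgG]
    push_cast
    ring
  have hre : (z + ((w.mult * j : ℕ) : ℂ)).re = z.re + (w.mult * j : ℕ) := by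
    rw [Complex.add_re, Complex.natCast_re]
  rw [hs, norm_mul, Complex.norm_cpow_eq_rpow_re_of_pos hp0, Complex.neg_re, hre, neg_add,
    Real.rpow_add hp0, Real.rpow_neg hp0.le ((w.mult * j : ℕ) : ℝ), Real.rpow_natCast, pow_mul]
  have h1 := norm_Gamma_add_nat hz1 (w.mult * j)
  have h2 : (j.factorial : ℝ) ≤ (w.mult * j).factorial := by
    exact_mod_cast Nat.factorial_le (Nat.le_mul_of_pos_left j hm1)
  have hj0 : (0 : ℝ) < j.factorial := by exact_mod_cast j.factorial_pos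
  have hpj : 0 < (p ^ w.mult) ^ j := by positivity
  rw [div_lt_iff₀ hj0, mul_pow, ← Real.exp_nat_mul, mul_comm (j : ℝ) B] at hj
  have h3 : Real.exp (B * j) ≤ c * j.factorial * ((p ^ w.mult) ^ j)⁻¹ := by
    rw [← div_eq_mul_inv, le_div_iff₀ hpj]
    exact hj.le
  calc Real.exp (B * j) ≤ c * j.factorial * ((p ^ w.mult) ^ j)⁻¹ := h3
    _ = p ^ (-z.re) * ((p ^ w.mult) ^ j)⁻¹ * (j.factorial * ‖Complex.Gamma z‖) := by
      rw [hc]
      ring
    _ ≤ p ^ (-z.re) * ((p ^ w.mult) ^ j)⁻¹ * ((w.mult * j).factorial * ‖Complex.Gamma z‖) := by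
      gcongr
    _ ≤ _ := by gcongr

/-- the lower bound for the Gamma factor -/
theorem eventually_exp_le_gamG (n : InfinitePlace K → ℤ) (κ : InfinitePlace K → ℝ) {B : ℝ}
    (hB : 0 ≤ B) :
    ∀ᶠ j : ℕ in atTop, Real.exp (B * j) ≤ ‖gamG n κ ((2 * j + 2 : ℝ) : ℂ)‖ := by
  filter_upwards [Filter.eventually_all.mpr fun w : InfinitePlace K =>
    eventually_exp_le_locG (n := n) (κ := κ) w B] with j hj
  have h5 : (1 : ℝ) ≤ Real.exp (B * j) := Real.one_le_exp (by positivity)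
  rw [gamG, norm_prod]
  calc Real.exp (B * j) = Real.exp (B * j) ^ 1 := (pow_one _).symm
    _ ≤ Real.exp (B * j) ^ (Finset.univ : Finset (InfinitePlace K)).card :=
        pow_le_pow_right₀ h5 (Finset.card_pos.mpr ⟨w₀, Finset.mem_univ _⟩)
    _ = ∏ _w : InfinitePlace K, Real.exp (B * j) := by rw [Finset.prod_const]
    _ ≤ _ := Finset.prod_le_prod (fun _ _ => (Real.exp_pos _).le) fun w _ => hj w

/-! ### The strip -/

/-- the continuation of the weighted zeta functions, with the bound on the strip -/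
theorem exists_stripBddG (hty : IsTy n κ) (h0 : n ≠ 0 ∨ κ ≠ 0)
    (𝔟 𝔠 : FractionalIdeal (𝓞 K)⁰ K) (φ : K → ℂ) (hφ : IsWtG n κ 𝔟 𝔠 φ) :
    ∃ Z : ℂ → ℂ, Differentiable ℂ Z ∧ StripBdd Z ∧
      ∀ (ι : Type u) (g : ι → K), IsGen 𝔟 g → ∀ s : ℂ, 1 < s.re →
        Z s = gamG n κ s * ∑' i, φ (g i) * chi n κ (g i) *
          (((|Algebra.norm ℚ (g i)| : ℚ) : ℂ)) ^ (-s) := by
  obtain ⟨φ', hφ', hI⟩ := thetaGStmt K n κ hty 𝔟 𝔠 φ hφ
  obtain ⟨β, hβ⟩ := (torusStmt (thetaStmt K)).1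
  have hn : Module.finrank ℚ K ≠ 0 := Module.finrank_pos.ne'
  have hk : ∀ {s : ℂ}, 1 < s.re →
      (Module.finrank ℚ K : ℝ) < ((Module.finrank ℚ K : ℂ) * s).re := fun {s} hs => by
    have hn : (0 : ℝ) < (Module.finrank ℚ K : ℝ) := finrank_pos' K
    rw [← Complex.ofReal_natCast, Complex.re_ofReal_mul]
    nlinarith
  obtain ⟨c, hc, hM⟩ := mellinGStmt_of (unfoldGStmt K) (gammaGStmt K)
  have hc' : (c : ℂ) ≠ 0 := by exact_mod_cast hc.ne'
  set P : WeakFEPair ℂ := feG hβ hty h0 (torusGStmt K) (decayGStmt_of (zeroGStmt K)) hφ hφ' hI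
    with hP
  obtain ⟨h1, -, -⟩ := pair_aux P rfl rfl rfl (c : ℂ)
  refine ⟨_, h1, stripBdd_pair P hn rfl (c : ℂ), ?_⟩
  intro ι g hg s hs
  obtain ⟨-, hmel⟩ := hM n κ hty h0 β hβ 𝔟 𝔠 φ hφ ι g hg s hs
  have h4 : mellin (fun x : ℝ => FG n κ β φ x - 0) ((Module.finrank ℚ K : ℂ) * s) =
    P.Λ ((Module.finrank ℚ K : ℂ) * s) := (P.hasMellin (hk hs)).2
  simp only [sub_zero] at h4
  rw [← h4, hmel]
  field_simp

theorem eq_of_re_gtG {f g : ℂ → ℂ} (hf : Differentiable ℂ f) (hg : Differentiable ℂ g)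
    (h : ∀ s : ℂ, 1 < s.re → f s = g s) : f = g := by
  refine AnalyticOnNhd.eq_of_eventuallyEq (𝕜 := ℂ) (z₀ := 2)
    (hf.differentiableOn.analyticOnNhd isOpen_univ)
    (hg.differentiableOn.analyticOnNhd isOpen_univ) ?_
  have hU : {s : ℂ | 1 < s.re} ∈ nhds (2 : ℂ) :=
    (isOpen_lt continuous_const Complex.continuous_re).mem_nhds (by norm_num)
  filter_upwards [hU] with s hs
  exact h s hs

/-- **Bound on the strip** for the completed `L`-function. -/
theorem stripBdd_LG (hty : IsTy n κ) (h0 : n ≠ 0 ∨ κ ≠ 0) (hm : m ≠ ⊥) (h : GChar n κ m ψ)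
    {Λ : ℂ → ℂ} (hΛ : Differentiable ℂ Λ)
    (h1 : ∀ s : ℂ, 1 < s.re → Λ s = (DC m : ℂ) ^ (s / 2) * gamG n κ s * Ray.Ls ψ s) :
    StripBdd Λ := by
  have hJ0 : ∀ C : ClassGroup (𝓞 K), (JC hm C : Ideal (𝓞 K)) ≠ ⊥ := fun C =>
    nonZeroDivisors.coe_ne_zero (JC hm C)
  have hex := fun C : ClassGroup (𝓞 K) => exists_stripBddG hty h0 _ _ _ (isWtG_wG hm h (hJ0 C))
  choose Z hZ hZb hZs using hex
  have hD : 0 < DC m := DC_pos hm
  have hNJ : ∀ C : ClassGroup (𝓞 K), (0 : ℝ) < (Ideal.absNorm (JC hm C : Ideal (𝓞 K)) : ℝ) :=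
    fun C => nF_pos' (hJ0 C)
  let A : ℂ → ℂ := fun s => (DC m : ℂ) ^ (s / 2) * ∑ C : ClassGroup (𝓞 K), ((ψ (JC hm C))⁻¹ *
    ((Ideal.absNorm (JC hm C : Ideal (𝓞 K)) : ℝ) : ℂ) ^ s) * Z C s
  have hAd : Differentiable ℂ A := by
    intro s
    have e1 : DifferentiableAt ℂ (fun s : ℂ => (DC m : ℂ) ^ (s / 2)) s :=
      ((differentiable_id.div_const 2).const_cpow
        (Or.inl (Complex.ofReal_ne_zero.mpr hD.ne'))).differentiableAt
    refine e1.mul (DifferentiableAt.fun_sum fun C _ => ?_)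
    have e2 : DifferentiableAt ℂ (fun s : ℂ =>
        ((Ideal.absNorm (JC hm C : Ideal (𝓞 K)) : ℝ) : ℂ) ^ s) s :=
      (differentiable_id.const_cpow
        (Or.inl (Complex.ofReal_ne_zero.mpr (hNJ C).ne'))).differentiableAt
    exact (e2.const_mul _).mul (hZ C s)
  have hA1 : ∀ s : ℂ, 1 < s.re → A s = Λ s := by
    intro s hs
    rw [h1 s hs, Ls_eq_sumG hm h hs, mul_assoc, Finset.mul_sum]
    change (DC m : ℂ) ^ (s / 2) * _ = _
    congr 1
    refine Finset.sum_congr rfl fun C _ => ?_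
    rw [hZs C _ _ (isGen_gen (FractionalIdeal.mk0 K (JC hm C))) s hs]
    push_cast
    ring
  have hAΛ : A = Λ := eq_of_re_gtG hAd hΛ hA1
  have hAb : StripBdd A := by
    refine StripBdd.mul_bdd (M := Real.exp (|Real.log (DC m)| * 2)) (StripBdd.sum _ fun C => ?_) ?_
    · refine (hZb C).mul_bdd (M := ‖(ψ (JC hm C))⁻¹‖ *
        Real.exp (|Real.log (Ideal.absNorm (JC hm C : Ideal (𝓞 K)) : ℝ)| * 2)) fun s h2 h3 => ?_
      rw [norm_mul]
      exact mul_le_mul_of_nonneg_left (norm_cpow_strip (hNJ C) h2 h3) (norm_nonneg _)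
    · intro s h2 h3
      refine norm_cpow_strip hD ?_ ?_
      · rw [re_half]
        linarith
      · rw [re_half]
        linarith
  rwa [hAΛ] at hAb

/-! ### The right half-plane -/

theorem norm_Ls_term_leG (h : GChar n κ m ψ) (I : (Ideal (𝓞 K))⁰) {s : ℂ} (hs : 2 ≤ s.re) :
    ‖ψ I * (Ideal.absNorm (I : Ideal (𝓞 K)) : ℂ) ^ (-s)‖ ≤
      ‖(Ideal.absNorm (I : Ideal (𝓞 K)) : ℂ) ^ (-(2 : ℂ))‖ := by
  rw [norm_mul]
  exact (mul_le_of_le_one_left (norm_nonneg _) (h.norm_le I)).trans (norm_term_le I hs)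

theorem exists_bound_LsG (h : GChar n κ m ψ) : ∃ Z : ℝ, 0 ≤ Z ∧
    ∀ s : ℂ, 2 ≤ s.re → ‖Ray.Ls ψ s‖ ≤ Z := by
  have h2 : (1 : ℝ) < (2 : ℂ).re := by norm_num
  have hsum := summable_norm_ideals (K := K) h2
  refine ⟨∑' I : (Ideal (𝓞 K))⁰, ‖(Ideal.absNorm (I : Ideal (𝓞 K)) : ℂ) ^ (-(2 : ℂ))‖,
    tsum_nonneg fun _ => norm_nonneg _, fun s hs => ?_⟩
  have hs1 : Summable fun I : (Ideal (𝓞 K))⁰ =>
      ‖ψ I * (Ideal.absNorm (I : Ideal (𝓞 K)) : ℂ) ^ (-s)‖ :=
    Summable.of_nonneg_of_le (fun _ => norm_nonneg _) (fun I => norm_Ls_term_leG h I hs) hsum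
  rw [Ray.Ls]
  exact (norm_tsum_le_tsum_norm hs1).trans
    (Summable.tsum_le_tsum (fun I => norm_Ls_term_leG h I hs) hs1 hsum)

/-- the value of the `L`-series tends to `1` on the right -/
theorem tendsto_LsG (h : GChar n κ m ψ) :
    Tendsto (fun n : ℕ => Ray.Ls ψ ((2 * n + 2 : ℝ) : ℂ)) atTop (𝓝 1) := by
  have h2 : (1 : ℝ) < (2 : ℂ).re := by norm_num
  have key := tendsto_tsum_of_dominated_convergence (𝓕 := (atTop : Filter ℕ))
    (f := fun (n : ℕ) (I : (Ideal (𝓞 K))⁰) =>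
      ψ I * (Ideal.absNorm (I : Ideal (𝓞 K)) : ℂ) ^ (-((2 * n + 2 : ℝ) : ℂ)))
    (g := fun I : (Ideal (𝓞 K))⁰ => ψ I * if I = 1 then (1 : ℂ) else 0)
    (summable_norm_ideals (K := K) h2)
    (fun I => (tendsto_term I).const_mul (ψ I))
    (Eventually.of_forall fun n I => norm_Ls_term_leG h I (by
      rw [Complex.ofReal_re]
      have : (0 : ℝ) ≤ n := Nat.cast_nonneg n
      linarith))
  have hlim : (∑' I : (Ideal (𝓞 K))⁰, ψ I * if I = 1 then (1 : ℂ) else 0) = 1 := by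
    rw [tsum_eq_single (1 : (Ideal (𝓞 K))⁰)]
    · rw [if_pos rfl, map_one, mul_one]
    · intro I hI
      rw [if_neg hI, mul_zero]
  rw [hlim] at key
  exact key

/-! ### Growth -/

/-- **`s (1 - s) Λ(s, ψ)` has order less than two.** -/
theorem hasGrowth_LG (hty : IsTy n κ) (h0 : n ≠ 0 ∨ κ ≠ 0) (hm : m ≠ ⊥) (h : GChar n κ m ψ)
    {Λ : ℂ → ℂ} {W : ℂ} (hΛ : Differentiable ℂ Λ) (hW : ‖W‖ = 1)
    (h1 : ∀ s : ℂ, 1 < s.re → Λ s = (DC m : ℂ) ^ (s / 2) * gamG n κ s * Ray.Ls ψ s)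
    (hfe : ∀ s, Λ s = W * conj (Λ (1 - conj s))) :
    HasGrowth fun s => s * (1 - s) * Λ s := by
  obtain ⟨B, hB0, hB⟩ := stripBdd_LG hty h0 hm h hΛ h1
  obtain ⟨Z, hZ0, hZ⟩ := exists_bound_LsG h
  set L : ℝ := |Real.log (DC m)| with hL
  set g : ℝ := ∑ w : InfinitePlace K, 2 * 4 ^ (n w).natAbs with hg
  have hL0 : 0 ≤ L := abs_nonneg _
  have hg0 : 0 ≤ g := Finset.sum_nonneg fun w _ => by positivity
  set A : ℝ := 2 + L + g with hA
  have hA0 : 0 ≤ A := by linarith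
  have hright : ∀ s : ℂ, 2 ≤ s.re → ‖s * (1 - s) * Λ s‖ ≤ Z * Real.exp (A * grw ‖s‖) := by
    intro s hs
    have hs0 := norm_nonneg s
    have hgr := le_grw hs0
    have hre : s.re ≤ ‖s‖ := Complex.re_le_norm s
    rw [h1 s (by linarith), norm_mul, norm_mul, norm_mul, norm_mul]
    have e1 : ‖s‖ * ‖1 - s‖ ≤ Real.exp (2 * grw ‖s‖) := by
      have h2 : ‖1 - s‖ ≤ 1 + ‖s‖ := by
        refine (norm_sub_le _ _).trans ?_
        rw [norm_one]
      calc ‖s‖ * ‖1 - s‖ ≤ (1 + ‖s‖) * (1 + ‖s‖) := by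
            gcongr
            linarith
        _ = (1 + ‖s‖) ^ 2 := by ring
        _ ≤ _ := one_add_sq_le_exp hs0
    have e2 : ‖(DC m : ℂ) ^ (s / 2)‖ ≤ Real.exp (L * grw ‖s‖) := by
      refine norm_ofReal_cpow_le (DC_pos hm) ?_
      rw [re_half, abs_le]
      constructor <;> linarith
    have e3 : ‖gamG n κ s‖ ≤ Real.exp (g * grw ‖s‖) := norm_gamG_le n κ hs
    have e4 := hZ s hs
    calc ‖s‖ * ‖1 - s‖ * (‖(DC m : ℂ) ^ (s / 2)‖ * ‖gamG n κ s‖ * ‖Ray.Ls ψ s‖)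
        ≤ Real.exp (2 * grw ‖s‖) * (Real.exp (L * grw ‖s‖) * Real.exp (g * grw ‖s‖) * Z) := by
          gcongr
      _ = Z * (Real.exp (2 * grw ‖s‖) * Real.exp (L * grw ‖s‖) * Real.exp (g * grw ‖s‖)) := by
          ring
      _ = Z * Real.exp (A * grw ‖s‖) := by
          rw [← Real.exp_add, ← Real.exp_add]
          congr 2
          rw [hA]
          ring
  refine hasGrowth_of_le (C := B + Z) (A := 2 + 4 * A) fun s => ?_
  have hs0 := norm_nonneg s
  have hg1 := one_le_grw hs0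
  have hgp : 0 ≤ grw ‖s‖ := by linarith
  have hup : ∀ {M A' : ℝ}, 0 ≤ M → M ≤ B + Z → A' ≤ 2 + 4 * A →
      M * Real.exp (A' * grw ‖s‖) ≤ (B + Z) * Real.exp ((2 + 4 * A) * grw ‖s‖) := by
    intro M A' hM hM' hA'
    refine mul_le_mul hM' (Real.exp_le_exp.mpr ?_) (Real.exp_nonneg _) (by linarith)
    exact mul_le_mul_of_nonneg_right hA' hgp
  rcases le_or_gt 2 s.re with h2 | h2
  · exact (hright s h2).trans (hup hZ0 (by linarith) (by linarith))
  rcases le_or_gt (-1) s.re with h3 | h3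
  · have h4 : ‖s * (1 - s) * Λ s‖ ≤ B * (1 + ‖s‖) ^ 2 := by
      by_cases e0 : s = 0
      · subst e0
        rw [zero_mul, zero_mul, norm_zero]
        positivity
      by_cases e1 : s = 1
      · subst e1
        rw [sub_self, mul_zero, zero_mul, norm_zero]
        positivity
      exact hB s e0 e1 h3 h2.le
    refine h4.trans ?_
    refine le_trans ?_ (hup hB0 (by linarith) (by linarith : (2 : ℝ) ≤ 2 + 4 * A))
    exact mul_le_mul_of_nonneg_left (one_add_sq_le_exp hs0) hB0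
  · have h4 : 2 ≤ (1 - conj s).re := by
      rw [Complex.sub_re, Complex.one_re, Complex.conj_re]
      linarith
    have h5 : ‖s * (1 - s) * Λ s‖ =
        ‖(1 - conj s) * (1 - (1 - conj s)) * Λ (1 - conj s)‖ := by
      rw [hfe s, norm_mul, norm_mul, norm_mul, hW, one_mul, RCLike.norm_conj, sub_sub_cancel,
        norm_mul, norm_mul, RCLike.norm_conj]
      have h6 : ‖(1 : ℂ) - conj s‖ = ‖1 - s‖ := by
        rw [← RCLike.norm_conj (1 - s), map_sub, map_one]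
      rw [h6]
      ring
    rw [h5]
    refine (hright _ h4).trans ?_
    refine le_trans ?_ (hup hZ0 (by linarith) (by linarith : 4 * A ≤ 2 + 4 * A))
    refine mul_le_mul_of_nonneg_left (Real.exp_le_exp.mpr ?_) hZ0
    have h6 : ‖1 - conj s‖ ≤ 1 + ‖s‖ := by
      refine (norm_sub_le _ _).trans ?_
      rw [norm_one, RCLike.norm_conj]
    have h7 := (grw_mono (norm_nonneg _) h6).trans (grw_one_add_le hs0)
    calc A * grw ‖1 - conj s‖ ≤ A * (4 * grw ‖s‖) := mul_le_mul_of_nonneg_left h7 hA0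
      _ = 4 * A * grw ‖s‖ := by ring

/-- **Lower bound** on the positive real axis. -/
theorem exists_lt_norm_LG (hm : m ≠ ⊥) (h : GChar n κ m ψ) {Λ : ℂ → ℂ}
    (h1 : ∀ s : ℂ, 1 < s.re → Λ s = (DC m : ℂ) ^ (s / 2) * gamG n κ s * Ray.Ls ψ s) (B : ℝ) :
    ∃ x : ℝ, 0 ≤ x ∧ Real.exp (B * (1 + x)) < ‖(x : ℂ) * (1 - x) * Λ x‖ := by
  set B₀ : ℝ := max B 0 with hB₀
  have hB0 : 0 ≤ B₀ := le_max_right _ _
  have g1 := eventually_exp_le_gamG n κ (B := 5 * B₀ + 1) (by positivity)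
  have g2 := ((tendsto_LsG h).norm).eventually_const_lt (u := 1 / 2) (by rw [norm_one]; norm_num)
  obtain ⟨n, g1, g2, g4⟩ := (g1.and (g2.and (eventually_ge_atTop 2))).exists
  have hn : (2 : ℝ) ≤ n := by exact_mod_cast g4
  refine ⟨2 * n + 2, by positivity, ?_⟩
  have hre : 1 < (((2 * n + 2 : ℝ) : ℂ)).re := by
    rw [Complex.ofReal_re]
    linarith
  rw [h1 _ hre, norm_mul, norm_mul, norm_mul, norm_mul]
  have e1 : (1 : ℝ) ≤ ‖((2 * n + 2 : ℝ) : ℂ)‖ := by
    rw [Complex.norm_real, Real.norm_eq_abs, abs_of_nonneg (by positivity)]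
    linarith
  have e2 : (1 : ℝ) ≤ ‖1 - ((2 * n + 2 : ℝ) : ℂ)‖ := by
    rw [← Complex.ofReal_one, ← Complex.ofReal_sub, Complex.norm_real, Real.norm_eq_abs,
      abs_sub_comm, abs_of_nonneg (by linarith)]
    linarith
  have e3 : (1 : ℝ) ≤ ‖(DC m : ℂ) ^ (((2 * n + 2 : ℝ) : ℂ) / 2)‖ := by
    rw [Complex.norm_cpow_eq_rpow_re_of_pos (DC_pos hm)]
    refine Real.one_le_rpow (one_le_DC hm) ?_
    rw [re_half, Complex.ofReal_re]
    positivity
  have e4 : Real.exp (B * (1 + (2 * n + 2))) ≤ Real.exp (5 * B₀ * n) := by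
    refine Real.exp_le_exp.mpr ?_
    have h5 : B * (1 + (2 * n + 2 : ℝ)) ≤ B₀ * (1 + (2 * n + 2)) :=
      mul_le_mul_of_nonneg_right (le_max_left _ _) (by positivity)
    nlinarith
  have e5 : Real.exp ((5 * B₀ + 1) * n) = Real.exp (5 * B₀ * n) * Real.exp n := by
    rw [← Real.exp_add]
    congr 1
    ring
  rw [e5] at g1
  have e6 : 1 < Real.exp n * (1 / 2) := by
    have := Real.add_one_le_exp (n : ℝ)
    linarith
  have e7 := Real.exp_pos (5 * B₀ * n)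
  calc Real.exp (B * (1 + (2 * n + 2))) ≤ Real.exp (5 * B₀ * n) := e4
    _ < Real.exp (5 * B₀ * n) * (Real.exp n * (1 / 2)) := lt_mul_of_one_lt_right e7 e6
    _ = (1 * 1) * (1 * (Real.exp (5 * B₀ * n) * Real.exp n) * (1 / 2)) := by ring
    _ ≤ _ := by gcongr

end Fermat.Agent.Cor.RayG

end
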