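import Fermat.Agent.Corollaries.Gauss.Weyl
import Mathlib.Analysis.Fourier.AddCircleMulti

/-!
# Weyl's criterion in several dimensions
-/

set_option autoImplicit false
set_option linter.unusedSectionVars false

noncomputable section

open Filter Topology Set MeasureTheory AddCircle

open scoped Classical

namespace Fermat.Agent.Cor.RayG.Weyl

universe u

variable {ι : Type u} {d : Type*} [Fintype d] {θ : ι → d → ℝ} {F : ℕ → Finset ι} {c : ℕ → ℝ}

/-- the Haar measure of the torus -/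
abbrev mu (d : Type*) [Fintype d] : Measure (UnitAddTorus d) :=
  Measure.pi fun _ : d => (haarAddCircle (T := (1 : ℝ)))

/-- the point of the torus -/
def pt (θ : ι → d → ℝ) (i : ι) : UnitAddTorus d := fun j => ((θ i j : ℝ) : UnitAddCircle)

/-- the weighted sum -/
def wS (θ : ι → d → ℝ) (F : ℕ → Finset ι) (c : ℕ → ℝ) (f : UnitAddTorus d → ℂ) (n : ℕ) : ℂ :=
  (c n : ℂ) * ∑ i ∈ F n, f (pt θ i)

theorem integral_mFourier (k : d → ℤ) :
    ∫ x, UnitAddTorus.mFourier k x ∂(mu d) = if k = 0 then 1 else 0 := by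
  have h1 : ∀ x : UnitAddTorus d, UnitAddTorus.mFourier k x = ∏ j, fourier (k j) (x j) :=
    fun _ => rfl
  simp only [h1]
  rw [integral_fintype_prod_eq_prod (μ := fun _ : d => (haarAddCircle (T := (1 : ℝ))))
    (f := fun (j : d) (x : UnitAddCircle) => (fourier (k j) x : ℂ))]
  simp only [Gauss.integral_fourier]
  by_cases hk : k = 0
  · rw [if_pos hk]
    refine Finset.prod_eq_one fun j _ => ?_
    rw [hk, Pi.zero_apply, if_pos rfl]
  · rw [if_neg hk]
    obtain ⟨j, hj⟩ := Function.ne_iff.mp hk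
    exact Finset.prod_eq_zero (Finset.mem_univ j) (if_neg hj)

theorem integrable_mu (f : C(UnitAddTorus d, ℂ)) : Integrable f (mu d) :=
  (map_continuous f).integrable_of_hasCompactSupport (HasCompactSupport.of_compactSpace _)

/-- convergence for all continuous functions -/
theorem tendsto_wS (hc0 : ∀ n, 0 ≤ c n)
    (hcard : Tendsto (fun n => c n * ((F n).card : ℝ)) atTop (𝓝 1))
    (hk : ∀ k : d → ℤ, k ≠ 0 → Tendsto (fun n => (c n : ℂ) *
      ∑ i ∈ F n, Complex.exp (2 * Real.pi * Complex.I * ∑ j, (k j : ℂ) * θ i j)) atTop (𝓝 0))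
    (f : C(UnitAddTorus d, ℂ)) :
    Tendsto (wS θ F c f) atTop (𝓝 (∫ x, f x ∂(mu d))) := by
  have hspan : ∀ g ∈ Submodule.span ℂ (range (UnitAddTorus.mFourier (d := d))),
      Tendsto (wS θ F c g) atTop (𝓝 (∫ x, g x ∂(mu d))) := by
    intro g hg
    induction hg using Submodule.span_induction with
    | mem g hg =>
      obtain ⟨k, rfl⟩ := hg
      rw [integral_mFourier]
      have hval : ∀ i, UnitAddTorus.mFourier k (pt θ i) =
          Complex.exp (2 * Real.pi * Complex.I * ∑ j, (k j : ℂ) * θ i j) := by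
        intro i
        change ∏ j, (fourier (k j) ((θ i j : ℝ) : UnitAddCircle) : ℂ) = _
        rw [Finset.mul_sum, Complex.exp_sum]
        refine Finset.prod_congr rfl fun j _ => ?_
        rw [fourier_coe_apply]
        congr 1
        push_cast
        ring
      by_cases h0 : k = 0
      · rw [if_pos h0]
        have h1 : wS θ F c (UnitAddTorus.mFourier k) =
            fun n => ((c n * ((F n).card : ℝ) : ℝ) : ℂ) := by
          ext n
          unfold wS
          rw [Finset.sum_congr rfl fun i _ => hval i]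
          subst h0
          simp
        rw [h1]
        exact_mod_cast (Complex.continuous_ofReal.tendsto 1).comp hcard
      · rw [if_neg h0]
        refine (hk k h0).congr fun n => ?_
        unfold wS
        rw [Finset.sum_congr rfl fun i _ => hval i]
    | zero =>
      have h1 : wS θ F c (0 : C(UnitAddTorus d, ℂ)) = fun n => 0 := by
        ext n
        unfold wS
        simp
      rw [h1]
      simp
    | add g g' _ _ h h' =>
      have h1 : wS θ F c (g + g' : C(UnitAddTorus d, ℂ)) =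
          fun n => wS θ F c g n + wS θ F c g' n := by
        ext n
        unfold wS
        simp only [ContinuousMap.add_apply, Finset.sum_add_distrib, mul_add]
      rw [h1]
      have h2 : ∫ x, (g + g') x ∂(mu d) = (∫ x, g x ∂(mu d)) + ∫ x, g' x ∂(mu d) := by
        rw [← integral_add (integrable_mu g) (integrable_mu g')]
        rfl
      rw [h2]
      exact h.add h'
    | smul a g _ h =>
      have h1 : wS θ F c (a • g : C(UnitAddTorus d, ℂ)) = fun n => a * wS θ F c g n := by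
        ext n
        unfold wS
        simp only [ContinuousMap.smul_apply, smul_eq_mul]
        rw [← Finset.mul_sum]
        ring
      rw [h1]
      have h2 : ∫ x, (a • g) x ∂(mu d) = a * ∫ x, g x ∂(mu d) := by
        rw [← integral_const_mul]
        rfl
      rw [h2]
      exact h.const_mul a
  have hcl : f ∈ (Submodule.span ℂ (range (UnitAddTorus.mFourier (d := d)))).topologicalClosure := by
    rw [UnitAddTorus.span_mFourier_closure_eq_top]
    trivial
  rw [Metric.tendsto_atTop]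
  intro ε hε
  have hcl' : f ∈ closure ((Submodule.span ℂ (range (UnitAddTorus.mFourier (d := d))) :
    Submodule ℂ C(UnitAddTorus d, ℂ)) : Set C(UnitAddTorus d, ℂ)) := hcl
  obtain ⟨g, hg, hfg⟩ := Metric.mem_closure_iff.mp hcl' (ε / 8) (by positivity)
  have hfg' : ∀ x, ‖f x - g x‖ ≤ ε / 8 := fun x => by
    rw [← dist_eq_norm]
    exact (ContinuousMap.dist_apply_le_dist x).trans hfg.le
  obtain ⟨N, hN⟩ := Metric.tendsto_atTop.mp (hspan g hg) (ε / 4) (by positivity)
  obtain ⟨N', hN'⟩ := eventually_atTop.mp (hcard.eventually (gt_mem_nhds (show (1 : ℝ) < 2 by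
    norm_num)))
  refine ⟨max N N', fun n hn => ?_⟩
  have h1 := hN n ((le_max_left _ _).trans hn)
  have h2 := hN' n ((le_max_right _ _).trans hn)
  rw [dist_eq_norm] at h1 ⊢
  have h3 : ‖wS θ F c f n - wS θ F c g n‖ ≤ ε / 4 := by
    unfold wS
    rw [← mul_sub, ← Finset.sum_sub_distrib, norm_mul, Complex.norm_real,
      Real.norm_of_nonneg (hc0 n)]
    calc c n * ‖∑ i ∈ F n, (f (pt θ i) - g (pt θ i))‖ ≤ c n * ((F n).card * (ε / 8)) := by
          refine mul_le_mul_of_nonneg_left ?_ (hc0 n)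
          refine (norm_sum_le _ _).trans ?_
          rw [← nsmul_eq_mul]
          exact Finset.sum_le_card_nsmul _ _ _ fun i _ => hfg' _
      _ = (c n * (F n).card) * (ε / 8) := by ring
      _ ≤ 2 * (ε / 8) := by gcongr
      _ = ε / 4 := by ring
  have h4 : ‖(∫ x, g x ∂(mu d)) - ∫ x, f x ∂(mu d)‖ ≤ ε / 8 := by
    rw [← integral_sub (integrable_mu g) (integrable_mu f)]
    have h5 := norm_integral_le_of_norm_le_const (μ := mu d)
      (f := fun x => g x - f x) (C := ε / 8) (Eventually.of_forall fun x => by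
        rw [norm_sub_rev]
        exact hfg' x)
    simpa using h5
  have e : wS θ F c f n - ∫ x, f x ∂(mu d) =
      (wS θ F c f n - wS θ F c g n) + (wS θ F c g n - ∫ x, g x ∂(mu d)) +
      ((∫ x, g x ∂(mu d)) - ∫ x, f x ∂(mu d)) := by ring
  rw [e]
  refine (norm_add₃_le).trans_lt ?_
  linarith

/-! ### Products of functions of one variable -/

/-- a continuous function on `[0, 1]` with `f 0 = f 1`, on the circle -/
def lf (f : ℝ → ℝ) : UnitAddCircle → ℂ := liftIoc (1 : ℝ) 0 fun x => ((f x : ℝ) : ℂ)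

theorem continuous_lf {f : ℝ → ℝ} (hf : Continuous f) (h01 : f 0 = f 1) : Continuous (lf f) := by
  refine liftIoc_continuous ?_ (Complex.continuous_ofReal.comp hf).continuousOn
  show ((f 0 : ℝ) : ℂ) = ((f (0 + 1) : ℝ) : ℂ)
  rw [zero_add, h01]

theorem lf_coe {f : ℝ → ℝ} (h01 : f 0 = f 1) {x : ℝ} (h0 : 0 ≤ x) (h1 : x < 1) :
    lf f (x : UnitAddCircle) = ((f x : ℝ) : ℂ) := by
  unfold lf
  rcases h0.eq_or_lt with h | h
  · rw [← h]
    have h1 : ((0 : ℝ) : UnitAddCircle) = ((1 : ℝ) : UnitAddCircle) := by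
      rw [AddCircle.coe_period]
      rfl
    rw [h1, liftIoc_zero_coe_apply (by simp)]
    show ((f 1 : ℝ) : ℂ) = ((f 0 : ℝ) : ℂ)
    rw [h01]
  · exact liftIoc_zero_coe_apply ⟨h, h1.le⟩

theorem integral_lf (f : ℝ → ℝ) :
    ∫ x, lf f x ∂haarAddCircle = ((∫ x in (0 : ℝ)..1, f x : ℝ) : ℂ) := by
  rw [integral_haarAddCircle, inv_one, one_smul]
  unfold lf
  rw [AddCircle.integral_liftIoc_eq_intervalIntegral, zero_add]
  exact intervalIntegral.integral_ofReal

/-- convergence for products of functions of one variable -/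
theorem tendsto_prod (hθ0 : ∀ i j, 0 ≤ θ i j) (hθ1 : ∀ i j, θ i j < 1) (hc0 : ∀ n, 0 ≤ c n)
    (hcard : Tendsto (fun n => c n * ((F n).card : ℝ)) atTop (𝓝 1))
    (hk : ∀ k : d → ℤ, k ≠ 0 → Tendsto (fun n => (c n : ℂ) *
      ∑ i ∈ F n, Complex.exp (2 * Real.pi * Complex.I * ∑ j, (k j : ℂ) * θ i j)) atTop (𝓝 0))
    {f : d → ℝ → ℝ} (hf : ∀ j, Continuous (f j)) (h01 : ∀ j, f j 0 = f j 1) :
    Tendsto (fun n => c n * ∑ i ∈ F n, ∏ j, f j (θ i j)) atTop
      (𝓝 (∏ j, ∫ x in (0 : ℝ)..1, f j x)) := by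
  let g : C(UnitAddTorus d, ℂ) := ⟨fun x => ∏ j, lf (f j) (x j),
    continuous_finsetProd _ fun j _ => (continuous_lf (hf j) (h01 j)).comp (continuous_apply j)⟩
  have h1 := tendsto_wS hc0 hcard hk g
  have h2 : ∫ x, g x ∂(mu d) = ((∏ j, ∫ x in (0 : ℝ)..1, f j x : ℝ) : ℂ) := by
    change ∫ x : UnitAddTorus d, ∏ j, lf (f j) (x j) ∂(mu d) = _
    rw [integral_fintype_prod_eq_prod (μ := fun _ : d => (haarAddCircle (T := (1 : ℝ))))
      (f := fun (j : d) (x : UnitAddCircle) => lf (f j) x), Complex.ofReal_prod]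
    exact Finset.prod_congr rfl fun j _ => integral_lf (f j)
  rw [h2] at h1
  have h3 := (Complex.continuous_re.tendsto _).comp h1
  rw [Complex.ofReal_re] at h3
  refine h3.congr fun n => ?_
  have h4 : wS θ F c g n = ((c n * ∑ i ∈ F n, ∏ j, f j (θ i j) : ℝ) : ℂ) := by
    unfold wS
    rw [Complex.ofReal_mul, Complex.ofReal_sum]
    congr 1
    refine Finset.sum_congr rfl fun i _ => ?_
    rw [Complex.ofReal_prod]
    exact Finset.prod_congr rfl fun j _ => lf_coe (h01 j) (hθ0 i j) (hθ1 i j)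
  rw [Function.comp_apply, h4, Complex.ofReal_re]

/-! ### Boxes -/

/-- the inner function -/
def inn (α β δ : ℝ) : ℝ → ℝ := Gauss.trap α β δ

/-- the outer function -/
def out (α β δ : ℝ) (x : ℝ) : ℝ := 1 - Gauss.trap 0 α δ x - Gauss.trap β 1 δ x

theorem intervalIntegrable_trap (α β δ a b : ℝ) :
    IntervalIntegrable (Gauss.trap α β δ) volume a b :=
  (Gauss.continuous_trap α β δ).intervalIntegrable _ _

theorem le_integral_trap {α β δ : ℝ} (hδ : 0 < δ) (hα : 0 ≤ α) (hβ : β ≤ 1) :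
    β - α - 2 * δ ≤ ∫ x in (0 : ℝ)..1, Gauss.trap α β δ x := by
  by_cases h : α + δ ≤ β - δ
  · have h5 : ∫ x in (α + δ)..(β - δ), Gauss.trap α β δ x = β - δ - (α + δ) := by
      rw [intervalIntegral.integral_congr (g := fun _ => (1 : ℝ))]
      · simp
      · intro x hx
        rw [uIcc_of_le h] at hx
        exact Gauss.trap_eq_one hδ hx.1 hx.2
    have h6 : ∫ x in (α + δ)..(β - δ), Gauss.trap α β δ x ≤
        ∫ x in (0 : ℝ)..1, Gauss.trap α β δ x := by
      refine intervalIntegral.integral_mono_interval (by linarith) h (by linarith)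
        (Eventually.of_forall fun x => Gauss.trap_nonneg _ _ _ _)
        (intervalIntegrable_trap _ _ _ _ _)
    rw [h5] at h6
    linarith
  · have h6 : 0 ≤ ∫ x in (0 : ℝ)..1, Gauss.trap α β δ x :=
      intervalIntegral.integral_nonneg zero_le_one fun x _ => Gauss.trap_nonneg _ _ _ _
    linarith

theorem integral_trap_le {α β δ : ℝ} (hδ : 0 < δ) (hα : 0 ≤ α) (hαβ : α ≤ β) (hβ : β ≤ 1) :
    ∫ x in (0 : ℝ)..1, Gauss.trap α β δ x ≤ β - α := by
  have e : ∫ x in (0 : ℝ)..1, Gauss.trap α β δ x = (∫ x in (0 : ℝ)..α, Gauss.trap α β δ x) +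
      (∫ x in α..β, Gauss.trap α β δ x) + ∫ x in β..1, Gauss.trap α β δ x := by
    rw [intervalIntegral.integral_add_adjacent_intervals (intervalIntegrable_trap _ _ _ _ _)
      (intervalIntegrable_trap _ _ _ _ _), intervalIntegral.integral_add_adjacent_intervals
      (intervalIntegrable_trap _ _ _ _ _) (intervalIntegrable_trap _ _ _ _ _)]
  have h1 : ∫ x in (0 : ℝ)..α, Gauss.trap α β δ x = 0 := by
    rw [intervalIntegral.integral_congr (g := fun _ => (0 : ℝ))]
    · simp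
    · intro x hx
      rw [uIcc_of_le hα] at hx
      exact Gauss.trap_eq_zero hδ (Or.inl hx.2)
  have h2 : ∫ x in β..1, Gauss.trap α β δ x = 0 := by
    rw [intervalIntegral.integral_congr (g := fun _ => (0 : ℝ))]
    · simp
    · intro x hx
      rw [uIcc_of_le hβ] at hx
      exact Gauss.trap_eq_zero hδ (Or.inr hx.1)
  have h3 : ∫ x in α..β, Gauss.trap α β δ x ≤ ∫ _ in α..β, (1 : ℝ) :=
    intervalIntegral.integral_mono_on hαβ (intervalIntegrable_trap _ _ _ _ _)
      intervalIntegrable_const fun x _ => Gauss.trap_le_one _ _ _ _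
  rw [intervalIntegral.integral_const, smul_eq_mul, mul_one] at h3
  rw [e, h1, h2]
  linarith

theorem integral_out_le {α β δ : ℝ} (hδ : 0 < δ) (hα1 : α ≤ 1) (hβ0 : 0 ≤ β) : ∫ x in (0 : ℝ)..1, out α β δ x ≤ β - α + 4 * δ := by
  have e : ∫ x in (0 : ℝ)..1, out α β δ x = 1 - (∫ x in (0 : ℝ)..1, Gauss.trap 0 α δ x) -
      ∫ x in (0 : ℝ)..1, Gauss.trap β 1 δ x := by
    unfold out
    rw [intervalIntegral.integral_sub (intervalIntegrable_const.sub
      (intervalIntegrable_trap _ _ _ _ _)) (intervalIntegrable_trap _ _ _ _ _),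
      intervalIntegral.integral_sub intervalIntegrable_const (intervalIntegrable_trap _ _ _ _ _)]
    simp
  have h1 := le_integral_trap (α := 0) (β := α) hδ le_rfl hα1
  have h2 := le_integral_trap (α := β) (β := 1) hδ hβ0 le_rfl
  rw [e]
  linarith

theorem out_nonneg {α β δ : ℝ} (hδ : 0 < δ) (hαβ : α ≤ β) (x : ℝ) : 0 ≤ out α β δ x := by
  unfold out
  rcases le_or_gt x α with h | h
  · rw [Gauss.trap_eq_zero hδ (Or.inl (h.trans hαβ))]
    have := Gauss.trap_le_one 0 α δ x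
    linarith
  · rw [Gauss.trap_eq_zero (α := 0) hδ (Or.inr h.le)]
    have := Gauss.trap_le_one β 1 δ x
    linarith

theorem out_eq_one {α β δ : ℝ} (hδ : 0 < δ) {x : ℝ} (h1 : α ≤ x) (h2 : x ≤ β) :
    out α β δ x = 1 := by
  unfold out
  rw [Gauss.trap_eq_zero hδ (Or.inr h1), Gauss.trap_eq_zero hδ (Or.inl h2)]
  norm_num

/-- **Weyl's criterion in several dimensions.** -/
theorem weyl_box (hθ0 : ∀ i j, 0 ≤ θ i j) (hθ1 : ∀ i j, θ i j < 1) (hc0 : ∀ n, 0 ≤ c n)
    (hcard : Tendsto (fun n => c n * ((F n).card : ℝ)) atTop (𝓝 1))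
    (hk : ∀ k : d → ℤ, k ≠ 0 → Tendsto (fun n => (c n : ℂ) *
      ∑ i ∈ F n, Complex.exp (2 * Real.pi * Complex.I * ∑ j, (k j : ℂ) * θ i j)) atTop (𝓝 0))
    {α β : d → ℝ} (hα : ∀ j, 0 ≤ α j) (hαβ : ∀ j, α j ≤ β j) (hβ : ∀ j, β j ≤ 1) :
    Tendsto (fun n => c n * (Nat.card {i // i ∈ F n ∧ ∀ j, α j < θ i j ∧ θ i j < β j} : ℝ))
      atTop (𝓝 (∏ j, (β j - α j))) ∧
    Tendsto (fun n => c n * (Nat.card {i // i ∈ F n ∧ ∀ j, α j ≤ θ i j ∧ θ i j ≤ β j} : ℝ))
      atTop (𝓝 (∏ j, (β j - α j))) := by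
  have ho : ∀ n, (Nat.card {i // i ∈ F n ∧ ∀ j, α j < θ i j ∧ θ i j < β j} : ℝ) =
      ∑ i ∈ F n, (if ∀ j, α j < θ i j ∧ θ i j < β j then (1 : ℝ) else 0) := by
    intro n
    rw [Nat.subtype_card ((F n).filter fun i => ∀ j, α j < θ i j ∧ θ i j < β j) fun i =>
      Finset.mem_filter, Finset.sum_boole]
  have hcl : ∀ n, (Nat.card {i // i ∈ F n ∧ ∀ j, α j ≤ θ i j ∧ θ i j ≤ β j} : ℝ) =
      ∑ i ∈ F n, (if ∀ j, α j ≤ θ i j ∧ θ i j ≤ β j then (1 : ℝ) else 0) := by
    intro n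
    rw [Nat.subtype_card ((F n).filter fun i => ∀ j, α j ≤ θ i j ∧ θ i j ≤ β j) fun i =>
      Finset.mem_filter, Finset.sum_boole]
  -- the inequalities
  have hle : ∀ n, c n * (Nat.card {i // i ∈ F n ∧ ∀ j, α j < θ i j ∧ θ i j < β j} : ℝ) ≤
      c n * (Nat.card {i // i ∈ F n ∧ ∀ j, α j ≤ θ i j ∧ θ i j ≤ β j} : ℝ) := by
    intro n
    refine mul_le_mul_of_nonneg_left ?_ (hc0 n)
    rw [ho, hcl]
    refine Finset.sum_le_sum fun i _ => ?_
    by_cases h : ∀ j, α j < θ i j ∧ θ i j < β j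
    · rw [if_pos h, if_pos fun j => ⟨(h j).1.le, (h j).2.le⟩]
    · rw [if_neg h]
      split_ifs <;> norm_num
  have hlow : ∀ δ : ℝ, 0 < δ → ∀ n, c n * ∑ i ∈ F n, ∏ j, Gauss.trap (α j) (β j) δ (θ i j) ≤
      c n * (Nat.card {i // i ∈ F n ∧ ∀ j, α j < θ i j ∧ θ i j < β j} : ℝ) := by
    intro δ hδ n
    refine mul_le_mul_of_nonneg_left ?_ (hc0 n)
    rw [ho]
    refine Finset.sum_le_sum fun i _ => ?_
    by_cases h : ∀ j, α j < θ i j ∧ θ i j < β j
    · rw [if_pos h]
      exact Finset.prod_le_one (fun j _ => Gauss.trap_nonneg _ _ _ _)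
        fun j _ => Gauss.trap_le_one _ _ _ _
    · rw [if_neg h]
      push Not at h
      obtain ⟨j, hj⟩ := h
      refine (Finset.prod_eq_zero (Finset.mem_univ j) (Gauss.trap_eq_zero hδ ?_)).le
      by_cases h1 : θ i j ≤ α j
      · exact Or.inl h1
      · exact Or.inr (hj (not_le.mp h1))
  have hup : ∀ δ : ℝ, 0 < δ → ∀ n,
      c n * (Nat.card {i // i ∈ F n ∧ ∀ j, α j ≤ θ i j ∧ θ i j ≤ β j} : ℝ) ≤
      c n * ∑ i ∈ F n, ∏ j, out (α j) (β j) δ (θ i j) := by
    intro δ hδ n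
    refine mul_le_mul_of_nonneg_left ?_ (hc0 n)
    rw [hcl]
    refine Finset.sum_le_sum fun i _ => ?_
    by_cases h : ∀ j, α j ≤ θ i j ∧ θ i j ≤ β j
    · rw [if_pos h]
      exact (Finset.prod_eq_one fun j _ => out_eq_one hδ (h j).1 (h j).2).ge
    · rw [if_neg h]
      exact Finset.prod_nonneg fun j _ => out_nonneg hδ (hαβ j) _
  -- the limits of the bounds
  have hlim1 : ∀ δ : ℝ, 0 < δ → Tendsto (fun n => c n * ∑ i ∈ F n,
      ∏ j, Gauss.trap (α j) (β j) δ (θ i j)) atTop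
      (𝓝 (∏ j, ∫ x in (0 : ℝ)..1, Gauss.trap (α j) (β j) δ x)) := fun δ hδ =>
    tendsto_prod hθ0 hθ1 hc0 hcard hk (fun j => Gauss.continuous_trap _ _ _) fun j => by
      rw [Gauss.trap_eq_zero hδ (Or.inl (hα j)), Gauss.trap_eq_zero hδ (Or.inr (hβ j))]
  have hlim2 : ∀ δ : ℝ, 0 < δ → Tendsto (fun n => c n * ∑ i ∈ F n,
      ∏ j, out (α j) (β j) δ (θ i j)) atTop
      (𝓝 (∏ j, ∫ x in (0 : ℝ)..1, out (α j) (β j) δ x)) := fun δ hδ =>
    tendsto_prod hθ0 hθ1 hc0 hcard hk (fun j => by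
      unfold out
      exact (continuous_const.sub (Gauss.continuous_trap _ _ _)).sub
        (Gauss.continuous_trap _ _ _)) fun j => by
      unfold out
      rw [Gauss.trap_eq_zero hδ (Or.inl le_rfl),
        Gauss.trap_eq_zero (x := (0 : ℝ)) hδ (Or.inl ((hα j).trans (hαβ j))),
        Gauss.trap_eq_zero (x := (1 : ℝ)) hδ (Or.inr ((hαβ j).trans (hβ j))),
        Gauss.trap_eq_zero (x := (1 : ℝ)) hδ (Or.inr le_rfl)]
  -- the limits of the integrals
  have hI1 : Tendsto (fun δ : ℝ => ∏ j, max 0 (β j - α j - 2 * δ)) (𝓝[>] 0)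
      (𝓝 (∏ j, (β j - α j))) := by
    refine tendsto_finsetProd _ fun j _ => ?_
    have h1 : Tendsto (fun δ : ℝ => max 0 (β j - α j - 2 * δ)) (𝓝 0)
        (𝓝 (max 0 (β j - α j - 2 * 0))) := by
      refine Continuous.tendsto ?_ 0
      fun_prop
    rw [mul_zero, sub_zero, max_eq_right (sub_nonneg.mpr (hαβ j))] at h1
    exact h1.mono_left nhdsWithin_le_nhds
  have hI2 : Tendsto (fun δ : ℝ => ∏ j, (β j - α j + 4 * δ)) (𝓝[>] 0)
      (𝓝 (∏ j, (β j - α j))) := by
    refine tendsto_finsetProd _ fun j _ => ?_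
    have h1 : Tendsto (fun δ : ℝ => β j - α j + 4 * δ) (𝓝 0) (𝓝 (β j - α j + 4 * 0)) := by
      refine Continuous.tendsto ?_ 0
      fun_prop
    rw [mul_zero, add_zero] at h1
    exact h1.mono_left nhdsWithin_le_nhds
  have hev1 : ∀ ℓ : ℝ, ℓ < ∏ j, (β j - α j) → ∀ᶠ n in atTop,
      ℓ < c n * (Nat.card {i // i ∈ F n ∧ ∀ j, α j < θ i j ∧ θ i j < β j} : ℝ) := by
    intro ℓ hℓ
    obtain ⟨δ, h1, hδ'⟩ := ((hI1.eventually (lt_mem_nhds hℓ)).and self_mem_nhdsWithin).exists
    have hδ : 0 < δ := hδ'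
    have h2 : ∏ j, max 0 (β j - α j - 2 * δ) ≤
        ∏ j, ∫ x in (0 : ℝ)..1, Gauss.trap (α j) (β j) δ x :=
      Finset.prod_le_prod (fun j _ => le_max_left _ _) fun j _ => max_le
        (intervalIntegral.integral_nonneg zero_le_one fun x _ => Gauss.trap_nonneg _ _ _ _)
        (le_integral_trap hδ (hα j) (hβ j))
    filter_upwards [(hlim1 δ hδ).eventually (lt_mem_nhds (h1.trans_le h2))] with n hn
    exact hn.trans_le (hlow δ hδ n)
  have hev2 : ∀ ℓ : ℝ, ∏ j, (β j - α j) < ℓ → ∀ᶠ n in atTop,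
      c n * (Nat.card {i // i ∈ F n ∧ ∀ j, α j ≤ θ i j ∧ θ i j ≤ β j} : ℝ) < ℓ := by
    intro ℓ hℓ
    obtain ⟨δ, h1, hδ'⟩ := ((hI2.eventually (gt_mem_nhds hℓ)).and self_mem_nhdsWithin).exists
    have hδ : 0 < δ := hδ'
    have h2 : ∏ j, ∫ x in (0 : ℝ)..1, out (α j) (β j) δ x ≤ ∏ j, (β j - α j + 4 * δ) :=
      Finset.prod_le_prod (fun j _ => intervalIntegral.integral_nonneg zero_le_one
        fun x _ => out_nonneg hδ (hαβ j) _) fun j _ =>
        integral_out_le hδ ((hαβ j).trans (hβ j)) ((hα j).trans (hαβ j))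
    filter_upwards [(hlim2 δ hδ).eventually (gt_mem_nhds (h2.trans_lt h1))] with n hn
    exact (hup δ hδ n).trans_lt hn
  constructor
  · refine tendsto_order.mpr ⟨hev1, fun ℓ hℓ => ?_⟩
    filter_upwards [hev2 ℓ hℓ] with n hn
    exact (hle n).trans_lt hn
  · refine tendsto_order.mpr ⟨fun ℓ hℓ => ?_, hev2⟩
    filter_upwards [hev1 ℓ hℓ] with n hn
    exact hn.trans_le (hle n)

end Fermat.Agent.Cor.RayG.Weyl

end
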