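import Fermat.Agent.Corollaries.RayG.CircleAll
import Fermat.Agent.Corollaries.RayG.WeylTorus

/-!
# Hecke: the prime elements of a number field are equidistributed in the torus of the units

`logMap` is Mathlib's map `mixedSpace K → logSpace K`,
`logMap x w = m_w (log |x|_w - (1 / n) log |N x|)`.
-/

set_option autoImplicit false
set_option linter.unusedSectionVars false

noncomputable section

open NumberField NumberField.InfinitePlace NumberField.Units nonZeroDivisors Complex Filter Topology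
open NumberField.Units.dirichletUnitTheorem

open scoped Classical ComplexConjugate

namespace Fermat.Agent.Cor.RayG

open Fermat.Agent.ClassL Fermat.Agent.Classic.Zeta Fermat.Agent.Cor.Ray

universe u

variable {K : Type u} [Field K] [NumberField K] {𝔪 : Ideal (𝓞 K)}

/-- the log vector of an element -/
def lv (x : K) : logSpace K := mixedEmbedding.logMap (mixedEmbedding K x)

theorem norm_mixed_ne_zero {x : K} (hx : x ≠ 0) : mixedEmbedding.norm (mixedEmbedding K x) ≠ 0 := by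
  rw [mixedEmbedding.norm_eq_norm]
  exact_mod_cast abs_ne_zero.mpr (Algebra.norm_ne_zero_iff.mpr hx)

theorem lv_mul {x y : K} (hx : x ≠ 0) (hy : y ≠ 0) : lv (x * y) = lv x + lv y := by
  unfold lv
  rw [map_mul, mixedEmbedding.logMap_mul (norm_mixed_ne_zero hx) (norm_mixed_ne_zero hy)]

theorem lv_unit (v : (𝓞 K)ˣ) : lv ((v : 𝓞 K) : K) = logEmbedding K (Additive.ofMul v) :=
  mixedEmbedding.logMap_eq_logEmbedding v

theorem sum_mult_log {x : K} (hx : x ≠ 0) :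
    ∑ w : InfinitePlace K, (mult w : ℝ) * Real.log (w x) =
      Real.log (mixedEmbedding.norm (mixedEmbedding K x)) := by
  rw [mixedEmbedding.norm_apply, Real.log_prod fun w _ => pow_ne_zero _ (by
    rw [mixedEmbedding.normAtPlace_apply]
    exact (map_ne_zero _).mpr hx)]
  refine Finset.sum_congr rfl fun w _ => ?_
  rw [Real.log_pow, mixedEmbedding.normAtPlace_apply]

/-! ### Linear forms on the log space -/

/-- the value of a linear form at the basis vector of `w` -/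
def Tw (T : logSpace K →ₗ[ℝ] ℝ) (w : InfinitePlace K) : ℝ :=
  if h : w = w₀ then 0 else T fun w' => if (⟨w, h⟩ : {w : InfinitePlace K // w ≠ w₀}) = w' then 1 else 0

/-- the type attached to a linear form -/
def kapT (T : logSpace K →ₗ[ℝ] ℝ) (w : InfinitePlace K) : ℝ :=
  (mult w : ℝ) * (Tw T w - (∑ w' : InfinitePlace K, (mult w' : ℝ) * Tw T w') /
    (Module.finrank ℚ K : ℝ))

theorem sum_mult_real : ∑ w : InfinitePlace K, (mult w : ℝ) = (Module.finrank ℚ K : ℝ) := by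
  exact_mod_cast sum_mult_eq (K := K)

theorem finrank_ne_zero_real : (Module.finrank ℚ K : ℝ) ≠ 0 := by
  exact_mod_cast (Module.finrank_pos (R := ℚ) (M := K)).ne'

theorem sum_kapT (T : logSpace K →ₗ[ℝ] ℝ) : ∑ w : InfinitePlace K, kapT T w = 0 := by
  unfold kapT
  simp only [mul_sub]
  rw [Finset.sum_sub_distrib, ← Finset.sum_mul, sum_mult_real, mul_div_cancel₀ _
    finrank_ne_zero_real, sub_self]

theorem apply_eq_sum (T : logSpace K →ₗ[ℝ] ℝ) (z : logSpace K) :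
    T z = ∑ w : {w : InfinitePlace K // w ≠ w₀}, z w * Tw T w.1 := by
  rw [LinearMap.pi_apply_eq_sum_univ T z]
  refine Finset.sum_congr rfl fun w _ => ?_
  rw [Tw, dif_neg w.2, smul_eq_mul]

theorem sum_subtype_Tw (T : logSpace K →ₗ[ℝ] ℝ) (g : InfinitePlace K → ℝ) :
    ∑ w : {w : InfinitePlace K // w ≠ w₀}, g w.1 * Tw T w.1 =
      ∑ w : InfinitePlace K, g w * Tw T w := by
  rw [Fintype.sum_eq_add_sum_subtype_ne (fun w : InfinitePlace K => g w * Tw T w) w₀, Tw,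
    dif_pos rfl, mul_zero, zero_add]

theorem lK_kapT (T : logSpace K →ₗ[ℝ] ℝ) {x : K} (hx : x ≠ 0) : lK (kapT T) x = T (lv x) := by
  have h1 : ∀ w : {w : InfinitePlace K // w ≠ w₀}, lv x w * Tw T w.1 =
      (fun w : InfinitePlace K => (mult w : ℝ) * (Real.log (w x) -
        Real.log (mixedEmbedding.norm (mixedEmbedding K x)) * (Module.finrank ℚ K : ℝ)⁻¹)) w.1 *
        Tw T w.1 := by
    intro w
    rw [lv, mixedEmbedding.logMap_apply, mixedEmbedding.normAtPlace_apply]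
  have h0 := sum_subtype_Tw T fun w : InfinitePlace K => (mult w : ℝ) * (Real.log (w x) -
    Real.log (mixedEmbedding.norm (mixedEmbedding K x)) * (Module.finrank ℚ K : ℝ)⁻¹)
  rw [apply_eq_sum, Finset.sum_congr rfl fun w _ => h1 w, h0, ← sum_mult_log hx, lK]
  unfold kapT
  have h2 : ∀ w : InfinitePlace K, (mult w : ℝ) * (Tw T w -
      (∑ w' : InfinitePlace K, (mult w' : ℝ) * Tw T w') / (Module.finrank ℚ K : ℝ)) *
      Real.log (w x) = (mult w : ℝ) * Tw T w * Real.log (w x) -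
      ((mult w : ℝ) * Real.log (w x)) * ((∑ w' : InfinitePlace K, (mult w' : ℝ) * Tw T w') /
        (Module.finrank ℚ K : ℝ)) := fun w => by ring
  have h3 : ∀ w : InfinitePlace K, (mult w : ℝ) * (Real.log (w x) -
      (∑ w' : InfinitePlace K, (mult w' : ℝ) * Real.log (w' x)) * (Module.finrank ℚ K : ℝ)⁻¹) *
      Tw T w = (mult w : ℝ) * Tw T w * Real.log (w x) -
      ((mult w : ℝ) * Tw T w) * ((∑ w' : InfinitePlace K, (mult w' : ℝ) * Real.log (w' x)) *
        (Module.finrank ℚ K : ℝ)⁻¹) := fun w => by ring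
  rw [Finset.sum_congr rfl fun w _ => h2 w, Finset.sum_congr rfl fun w _ => h3 w,
    Finset.sum_sub_distrib, Finset.sum_sub_distrib, ← Finset.sum_mul, ← Finset.sum_mul]
  ring

theorem kapT_ne_zero {T : logSpace K →ₗ[ℝ] ℝ} (hT : T ≠ 0) : kapT T ≠ 0 := by
  intro h
  apply hT
  have hm : ∀ w : InfinitePlace K, (mult w : ℝ) ≠ 0 := fun w => by
    exact_mod_cast w.mult_pos.ne'
  have h1 : ∀ w : InfinitePlace K, Tw T w =
      (∑ w' : InfinitePlace K, (mult w' : ℝ) * Tw T w') / (Module.finrank ℚ K : ℝ) := fun w => by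
    have h2 : kapT T w = 0 := congrFun h w
    exact sub_eq_zero.mp ((mul_eq_zero.mp h2).resolve_left (hm w))
  have h3 : (∑ w' : InfinitePlace K, (mult w' : ℝ) * Tw T w') / (Module.finrank ℚ K : ℝ) = 0 := by
    rw [← h1 w₀, Tw, dif_pos rfl]
  refine LinearMap.ext fun z => ?_
  rw [apply_eq_sum, LinearMap.zero_apply]
  refine Finset.sum_eq_zero fun w _ => ?_
  rw [h1, h3, mul_zero]

/-! ### The equidistribution -/

section

variable {d : Type*} [Fintype d] (b : Module.Basis d ℝ (logSpace K))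

/-- the linear form `2 π ∑ k_j t_j` -/
def Tk (k : d → ℤ) : logSpace K →ₗ[ℝ] ℝ := (2 * Real.pi) • ∑ j, (k j : ℝ) • b.coord j

theorem Tk_apply (k : d → ℤ) (z : logSpace K) :
    Tk b k z = 2 * Real.pi * ∑ j, (k j : ℝ) * b.repr z j := by
  unfold Tk
  rw [LinearMap.smul_apply, LinearMap.sum_apply, smul_eq_mul]
  rfl

theorem Tk_ne_zero {k : d → ℤ} (hk : k ≠ 0) : Tk b k ≠ 0 := by
  obtain ⟨j, hj⟩ := Function.ne_iff.mp hk
  intro h
  have h1 := congrArg (fun T : logSpace K →ₗ[ℝ] ℝ => T (b j)) h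
  simp only [LinearMap.zero_apply] at h1
  rw [Tk_apply] at h1
  have h2 : ∑ j', (k j' : ℝ) * b.repr (b j) j' = k j := by
    rw [Finset.sum_eq_single j]
    · rw [Module.Basis.repr_self, Finsupp.single_eq_same, mul_one]
    · intro j' _ hj'
      rw [Module.Basis.repr_self, Finsupp.single_eq_of_ne hj', mul_zero]
    · intro h
      exact absurd (Finset.mem_univ j) h
  rw [h2] at h1
  have h3 : (2 * Real.pi) ≠ 0 := by positivity
  have h4 : (k j : ℝ) ≠ 0 := by exact_mod_cast hj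
  exact mul_ne_zero h3 h4 h1

theorem eI_two_pi_int (z : ℤ) : eI (2 * Real.pi * z) = 1 := by
  rw [eI]
  have h : ((2 * Real.pi * z : ℝ) : ℂ) * Complex.I = z * (2 * Real.pi * Complex.I) := by
    push_cast
    ring
  rw [h, Complex.exp_int_mul_two_pi_mul_I]

theorem isTy_kapT (T : logSpace K →ₗ[ℝ] ℝ) : IsTy (0 : InfinitePlace K → ℤ) (kapT T) where
  real w _ := by simp
  sum := sum_kapT T

/-- the character at infinity attached to `k` -/
theorem chi_kapT (k : d → ℤ) {x : K} (hx : x ≠ 0) :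
    chi (0 : InfinitePlace K → ℤ) (kapT (Tk b k)) x =
      eI (2 * Real.pi * ∑ j, (k j : ℝ) * b.repr (lv x) j) := by
  rw [chi, aG_zero_left, one_mul, lK_kapT _ hx, Tk_apply]

/-- integrality of the coordinates of the units `≡ 1` modulo `𝔪` -/
def IsIntOn (𝔪 : Ideal (𝓞 K)) : Prop := ∀ v : (𝓞 K)ˣ, (v : 𝓞 K) - 1 ∈ 𝔪 → ∀ j, ∃ z : ℤ,
  b.repr (logEmbedding K (Additive.ofMul v)) j = z

theorem chi_unit {b : Module.Basis d ℝ (logSpace K)} (hb : IsIntOn b 𝔪) (k : d → ℤ) (v : (𝓞 K)ˣ)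
    (hv : (v : 𝓞 K) - 1 ∈ 𝔪) :
    chi (0 : InfinitePlace K → ℤ) (kapT (Tk b k)) ((v : 𝓞 K) : K) = 1 := by
  rw [chi_kapT b k (coe_ne_zeroG v.ne_zero), lv_unit]
  choose z hz using hb v hv
  have h1 : ∑ j, (k j : ℝ) * b.repr (logEmbedding K (Additive.ofMul v)) j =
      ((∑ j, k j * z j : ℤ) : ℝ) := by
    push_cast
    exact Finset.sum_congr rfl fun j _ => by rw [hz]
  rw [h1, eI_two_pi_int]

theorem fract_repr_eq {b : Module.Basis d ℝ (logSpace K)} (hb : IsIntOn b 𝔪) {π π' : 𝓞 K}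
    (h0 : π ≠ 0) (h : Ideal.span {π} = Ideal.span {π'})
    (hco : IsCoprime (Ideal.span {π}) 𝔪) (hs : π' - π ∈ 𝔪) (j : d) :
    Int.fract (b.repr (lv (π' : K)) j) = Int.fract (b.repr (lv (π : K)) j) := by
  obtain ⟨v, hv⟩ := Ideal.span_singleton_eq_span_singleton.mp h
  obtain ⟨c, hc⟩ := isCoprime_span_iff.mp hco
  have hv1 : (v : 𝓞 K) - 1 ∈ 𝔪 := by
    have h1 : (v : 𝓞 K) - 1 = c * (π' - π) - (c * π - 1) * ((v : 𝓞 K) - 1) := by
      rw [← hv]
      ring
    rw [h1]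
    exact 𝔪.sub_mem (𝔪.mul_mem_left _ hs) (𝔪.mul_mem_right _ hc)
  obtain ⟨z, hz⟩ := hb v hv1 j
  have h2 : (π' : K) = (π : K) * ((v : 𝓞 K) : K) := by
    rw [← hv]
    exact map_mul (algebraMap (𝓞 K) K) _ _
  rw [h2, lv_mul (coe_ne_zeroG h0) (coe_ne_zeroG v.ne_zero), map_add, Finsupp.add_apply, lv_unit, hz,
    Int.fract_add_intCast]

/-- **Hecke (1920): the prime elements of a number field are equidistributed in the torus.**
`K` a number field, `b` a basis of `logSpace K` such that the log vectors of the units `≡ 1` modulo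
`𝔪` have integral coordinates, `α` prime to `𝔪`. For `0 ≤ a_j ≤ c_j ≤ 1` the number of the prime
ideals of norm at most `x` which are generated by an element `π ≡ α` modulo `𝔪` such that the
fractional parts of the coordinates of `logMap π` are in the box `∏ (a_j, c_j)` is
`~ ∏ (c_j - a_j) / h_𝔪 * x / log x`. -/
theorem hecke_torus {b : Module.Basis d ℝ (logSpace K)} (h𝔪 : 𝔪 ≠ ⊥) (hb : IsIntOn b 𝔪)
    {α : 𝓞 K} (hα : IsCoprime (Ideal.span {α}) 𝔪) {a c : d → ℝ} (ha : ∀ j, 0 ≤ a j)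
    (hac : ∀ j, a j ≤ c j) (hc : ∀ j, c j ≤ 1) :
    Tendsto (fun x : ℕ => (Nat.card {P : Pr K // nP P ≤ x ∧ ∃ π : 𝓞 K, π - α ∈ 𝔪 ∧
      ((P.1 : (Ideal (𝓞 K))⁰) : Ideal (𝓞 K)) = Ideal.span {π} ∧
      ∀ j, a j < Int.fract (b.repr (lv (π : K)) j) ∧
        Int.fract (b.repr (lv (π : K)) j) < c j} : ℝ) * Real.log x / x) atTop
      (𝓝 ((∏ j, (c j - a j)) / rayNumber 𝔪)) ∧
    Tendsto (fun x : ℕ => (Nat.card {P : Pr K // nP P ≤ x ∧ ∃ π : 𝓞 K, π - α ∈ 𝔪 ∧
      ((P.1 : (Ideal (𝓞 K))⁰) : Ideal (𝓞 K)) = Ideal.span {π} ∧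
      ∀ j, a j ≤ Int.fract (b.repr (lv (π : K)) j) ∧
        Int.fract (b.repr (lv (π : K)) j) ≤ c j} : ℝ) * Real.log x / x) atTop
      (𝓝 ((∏ j, (c j - a j)) / rayNumber 𝔪)) := by
  obtain ⟨β, hβ0, hβ, hβα⟩ : ∃ β : 𝓞 K, β ≠ 0 ∧ IsCoprime (Ideal.span {β}) 𝔪 ∧ β - α ∈ 𝔪 := by
    by_cases h : α = 0
    · refine ⟨1, one_ne_zero, ?_, ?_⟩
      · rw [Ideal.span_singleton_one, ← Ideal.one_eq_top]
        exact isCoprime_one_left
      · obtain ⟨b, hb⟩ := isCoprime_span_iff.mp hα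
        rw [h, mul_zero, zero_sub] at hb
        rw [h, sub_zero]
        have := 𝔪.neg_mem hb
        rwa [neg_neg] at this
    · exact ⟨α, h, hα, by rw [sub_self]; exact 𝔪.zero_mem⟩
  obtain ⟨D, hD⟩ := exists_isCount K
  have hr : (0 : ℝ) < rayNumber 𝔪 := by
    exact_mod_cast rayNumber_pos (entireStmt K) (groupStmt K) h𝔪
  set J : (Ideal (𝓞 K))⁰ := sp β hβ0 with hJdef
  have hJ : IsCoprime (J : Ideal (𝓞 K)) 𝔪 := hβ
  -- the generators
  let gen : Pr K → 𝓞 K := fun P => if h : ∃ π : 𝓞 K, π - β ∈ 𝔪 ∧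
    ((P.1 : (Ideal (𝓞 K))⁰) : Ideal (𝓞 K)) = Ideal.span {π} then h.choose else 1
  have hgen : ∀ P : Pr K, RayEq 𝔪 P.1 J → gen P - β ∈ 𝔪 ∧
      ((P.1 : (Ideal (𝓞 K))⁰) : Ideal (𝓞 K)) = Ideal.span {gen P} := by
    intro P hP
    have h := (rayEq_span_iff hβ hβ0 rfl P.1).mp hP
    change (if h : ∃ π : 𝓞 K, π - β ∈ 𝔪 ∧
      ((P.1 : (Ideal (𝓞 K))⁰) : Ideal (𝓞 K)) = Ideal.span {π} then h.choose else 1) - β ∈ 𝔪 ∧
      ((P.1 : (Ideal (𝓞 K))⁰) : Ideal (𝓞 K)) = Ideal.span {if h : ∃ π : 𝓞 K, π - β ∈ 𝔪 ∧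
      ((P.1 : (Ideal (𝓞 K))⁰) : Ideal (𝓞 K)) = Ideal.span {π} then h.choose else 1}
    rw [dif_pos h]
    exact h.choose_spec
  have hne : ∀ (P : Pr K) (π : 𝓞 K), ((P.1 : (Ideal (𝓞 K))⁰) : Ideal (𝓞 K)) = Ideal.span {π} →
      π ≠ 0 := by
    rintro P π hP rfl
    rw [Ideal.span_singleton_eq_bot.mpr rfl] at hP
    exact nonZeroDivisors.coe_ne_zero _ hP
  have hco : ∀ π : 𝓞 K, π - β ∈ 𝔪 → IsCoprime (Ideal.span {π}) 𝔪 := by
    intro π hπ
    obtain ⟨c, hc⟩ := isCoprime_span_iff.mp hβ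
    refine isCoprime_span_iff.mpr ⟨c, ?_⟩
    have h1 : c * π - 1 = (c * β - 1) + c * (π - β) := by ring
    rw [h1]
    exact 𝔪.add_mem hc (𝔪.mul_mem_left c hπ)
  set θ : Pr K → d → ℝ := fun P j => Int.fract (b.repr (lv (gen P : K)) j) with hθ
  have hmem : ∀ (x : ℕ) (P : Pr K), P ∈ (hD.F x).filter (fun P => RayEq 𝔪 P.1 J) ↔
      nP P ≤ x ∧ RayEq 𝔪 P.1 J := fun x P => by
    rw [Finset.mem_filter, hD.mem_F]
  have hcard : ∀ x : ℕ, ((hD.F x).filter fun P => RayEq 𝔪 P.1 J).card =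
      Nat.card {P : Pr K // nP P ≤ x ∧ RayEq 𝔪 P.1 J} := fun x =>
    (Nat.subtype_card _ (hmem x)).symm
  have hc0 : ∀ x : ℕ, 0 ≤ (rayNumber 𝔪 : ℝ) * (Real.log x / x) := fun x =>
    mul_nonneg hr.le (div_nonneg (Real.log_natCast_nonneg x) (Nat.cast_nonneg _))
  have hF : Tendsto (fun x : ℕ => ((rayNumber 𝔪 : ℝ) * (Real.log x / x)) *
      ((((hD.F x).filter fun P => RayEq 𝔪 P.1 J).card : ℕ) : ℝ)) atTop (𝓝 1) := by
    have h1 := (tendsto_card_ray (entireStmt K) (groupStmt K) h𝔪 hJ).const_mul (rayNumber 𝔪 : ℝ)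
    rw [mul_inv_cancel₀ hr.ne'] at h1
    refine h1.congr fun x => ?_
    rw [hcard]
    ring
  have hW : ∀ k : d → ℤ, k ≠ 0 → Tendsto (fun x : ℕ =>
      (((rayNumber 𝔪 : ℝ) * (Real.log x / x) : ℝ) : ℂ) *
      ∑ P ∈ (hD.F x).filter (fun P => RayEq 𝔪 P.1 J),
        Complex.exp (2 * Real.pi * Complex.I * ∑ j, (k j : ℂ) * θ P j)) atTop (𝓝 0) := by
    intro k hk
    have hT := isTy_kapT (Tk b k)
    have hinf : IsInf (0 : InfinitePlace K → ℤ) (kapT (Tk b k)) :=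
      Or.inl (kapT_ne_zero (Tk_ne_zero b hk))
    obtain ⟨ψ, hψ⟩ := existG K 0 (kapT (Tk b k)) 𝔪 h𝔪 (chi_unit hb k)
    have h1 := (tendsto_class_sum (nonVanGStmt K) (groupStmt K) h𝔪 hT hinf hψ hD hJ
      one_ne_zero).const_mul (((rayNumber 𝔪 : ℝ) : ℂ) *
        conj (elG 0 (kapT (Tk b k)) 𝔪 ψ β))
    rw [mul_zero] at h1
    refine h1.congr fun x => ?_
    have h2 : ∀ P ∈ (hD.F x).filter (fun P => RayEq 𝔪 P.1 J),
        Complex.exp (2 * Real.pi * Complex.I * ∑ j, (k j : ℂ) * θ P j) =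
          conj (elG 0 (kapT (Tk b k)) 𝔪 ψ β) * ψ P.1 ^ 1 := by
      intro P hP
      obtain ⟨hg1, hg2⟩ := hgen P ((hmem x P).mp hP).2
      have hg0 := hne P _ hg2
      have hPs : P.1 = sp (gen P) hg0 := Subtype.ext hg2
      rw [pow_one, hPs, ← chi_eq_of_gen h𝔪 hψ hg1 hg0 (hco _ hg1), chi_kapT b k (coe_ne_zeroG hg0)]
      have h3 : 2 * Real.pi * ∑ j, (k j : ℝ) * b.repr (lv (gen P : K)) j =
          2 * Real.pi * (∑ j, (k j : ℝ) * θ P j) +
            2 * Real.pi * ((∑ j, k j * ⌊b.repr (lv (gen P : K)) j⌋ : ℤ) : ℝ) := by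
        rw [← mul_add]
        congr 1
        push_cast
        rw [← Finset.sum_add_distrib]
        refine Finset.sum_congr rfl fun j _ => ?_
        have h4 := Int.fract_add_floor (b.repr (lv (gen P : K)) j)
        rw [← mul_add]
        congr 1
        exact h4.symm
      rw [h3, eI_add, eI_two_pi_int, mul_one, eI]
      congr 1
      push_cast
      ring
    rw [Finset.sum_congr rfl h2, ← Finset.mul_sum, Complex.ofReal_mul]
    ring
  have key := Weyl.weyl_box (θ := θ) (F := fun x => (hD.F x).filter fun P => RayEq 𝔪 P.1 J)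
    (c := fun x => (rayNumber 𝔪 : ℝ) * (Real.log x / x)) (fun P j => Int.fract_nonneg _)
    (fun P j => Int.fract_lt_one _) hc0 hF hW ha hac hc
  have hfin : ∀ (p : (d → ℝ) → Prop) (x : ℕ),
      Nat.card {P : Pr K // P ∈ (hD.F x).filter (fun P => RayEq 𝔪 P.1 J) ∧ p (θ P)} =
      Nat.card {P : Pr K // nP P ≤ x ∧ ∃ π : 𝓞 K, π - α ∈ 𝔪 ∧
        ((P.1 : (Ideal (𝓞 K))⁰) : Ideal (𝓞 K)) = Ideal.span {π} ∧
        p fun j => Int.fract (b.repr (lv (π : K)) j)} := by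
    intro p x
    refine Nat.card_congr (Equiv.subtypeEquivRight fun P => ?_)
    rw [hmem, and_assoc]
    refine and_congr_right fun _ => ?_
    constructor
    · rintro ⟨hP, hp⟩
      obtain ⟨hg1, hg2⟩ := hgen P hP
      refine ⟨gen P, ?_, hg2, hp⟩
      have := 𝔪.add_mem hg1 hβα
      rwa [sub_add_sub_cancel] at this
    · rintro ⟨π, hπ, hP, hp⟩
      have hπβ : π - β ∈ 𝔪 := by
        have := 𝔪.sub_mem hπ hβα
        rwa [sub_sub_sub_cancel_right] at this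
      have hR : RayEq 𝔪 P.1 J := (rayEq_span_iff hβ hβ0 rfl P.1).mpr ⟨π, hπβ, hP⟩
      refine ⟨hR, ?_⟩
      obtain ⟨hg1, hg2⟩ := hgen P hR
      have h5 : (fun j => Int.fract (b.repr (lv (π : K)) j)) = θ P := by
        funext j
        refine fract_repr_eq hb (hne P _ hg2) (hg2.symm.trans hP) (hco _ hg1) ?_ j
        have := 𝔪.sub_mem hπβ hg1
        rwa [sub_sub_sub_cancel_right] at this
      rwa [h5] at hp
  have h2 := fun x => hfin (fun t => ∀ j, a j < t j ∧ t j < c j) x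
  have h3 := fun x => hfin (fun t => ∀ j, a j ≤ t j ∧ t j ≤ c j) x
  simp only [h2, h3] at key
  constructor
  · have h4 := key.1.const_mul (rayNumber 𝔪 : ℝ)⁻¹
    rw [← div_eq_inv_mul] at h4
    refine h4.congr fun x => ?_
    field_simp
  · have h4 := key.2.const_mul (rayNumber 𝔪 : ℝ)⁻¹
    rw [← div_eq_inv_mul] at h4
    refine h4.congr fun x => ?_
    field_simp

end

/-! ### The fundamental units -/

variable (K) in
/-- Mathlib's basis of `logSpace K` given by a fundamental system of units -/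
def bK : Module.Basis (Fin (rank K)) ℝ (logSpace K) :=
  (basisUnitLattice K).ofZLatticeBasis ℝ (unitLattice K)

variable (K) in
theorem bK_apply (i : Fin (rank K)) :
    bK K i = logEmbedding K (Additive.ofMul (fundSystem K i)) := by
  rw [bK, Module.Basis.ofZLatticeBasis_apply, logEmbedding_fundSystem]

theorem isIntOn_bK (𝔪 : Ideal (𝓞 K)) : IsIntOn (bK K) 𝔪 := by
  intro v _ j
  have h : logEmbedding K (Additive.ofMul v) ∈ unitLattice K := ⟨v, trivial, rfl⟩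
  exact ⟨_, Module.Basis.ofZLatticeBasis_repr_apply ℝ (unitLattice K) (basisUnitLattice K) ⟨_, h⟩ j⟩

/-- **Hecke (1920), fundamental units**: the coordinates `t_j(π)` modulo `1` of the log vectors of
the prime elements `π ≡ α` modulo `𝔪` with respect to a fundamental system of units of `K` are
equidistributed. -/
theorem hecke_torus_units (h𝔪 : 𝔪 ≠ ⊥) {α : 𝓞 K} (hα : IsCoprime (Ideal.span {α}) 𝔪)
    {a c : Fin (rank K) → ℝ} (ha : ∀ j, 0 ≤ a j) (hac : ∀ j, a j ≤ c j) (hc : ∀ j, c j ≤ 1) :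
    Tendsto (fun x : ℕ => (Nat.card {P : Pr K // nP P ≤ x ∧ ∃ π : 𝓞 K, π - α ∈ 𝔪 ∧
      ((P.1 : (Ideal (𝓞 K))⁰) : Ideal (𝓞 K)) = Ideal.span {π} ∧
      ∀ j, a j < Int.fract ((bK K).repr (lv (π : K)) j) ∧
        Int.fract ((bK K).repr (lv (π : K)) j) < c j} : ℝ) * Real.log x / x) atTop
      (𝓝 ((∏ j, (c j - a j)) / rayNumber 𝔪)) ∧
    Tendsto (fun x : ℕ => (Nat.card {P : Pr K // nP P ≤ x ∧ ∃ π : 𝓞 K, π - α ∈ 𝔪 ∧
      ((P.1 : (Ideal (𝓞 K))⁰) : Ideal (𝓞 K)) = Ideal.span {π} ∧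
      ∀ j, a j ≤ Int.fract ((bK K).repr (lv (π : K)) j) ∧
        Int.fract ((bK K).repr (lv (π : K)) j) ≤ c j} : ℝ) * Real.log x / x) atTop
      (𝓝 ((∏ j, (c j - a j)) / rayNumber 𝔪)) :=
  hecke_torus h𝔪 (isIntOn_bK 𝔪) hα ha hac hc

end Fermat.Agent.Cor.RayG

end
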