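import Fermat.Agent.Corollaries.RayG.FunG
import Fermat.Agent.Corollaries.RayG.FourierC
import Fermat.Agent.Corollaries.RayG.GaussG
import Fermat.Agent.Corollaries.RayF.Main
import Fermat.Agent.Corollaries.RayF.Glue

/-!
# Hecke's functional equation for Groessencharaktere

Let `ψ` be a primitive Groessencharakter modulo `𝔪` of non-trivial type `(n, κ)`.  The function
`Λ(s) = (|d| N𝔪)^{s/2} Γ(s) L(s, ψ)`, `Γ(s) = ∏_w (π m_w)^{-σ_w/2} Γ(σ_w / 2)`,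
`σ_w = m_w s + |n_w| - i κ_w`, is entire, and `Λ(s) = W conj Λ(1 - conj s)` with the root number
`W = (-i)^{∑ |n_w|} τ / √N𝔪`, `τ` the Gauss sum of `ψ`, `|τ| = √N𝔪`.
-/

set_option autoImplicit false
set_option linter.unusedSectionVars false

noncomputable section

namespace Fermat.Agent.Cor.RayG

open NumberField NumberField.InfinitePlace NumberField.Units
open Fermat.Agent.Classic.Zeta Fermat.Agent.Cor.Ray
open Fermat.Agent.Cor.RayF (RepsJ GenJ dU coe_dU sum_dual nF_pos' nF_coe term_dual RC RC_spec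
  rootN rootN_eq conj_natCast_cpow conj_ofReal_cpow conj_two tsum_conj)
open scoped nonZeroDivisors Classical ComplexConjugate

universe u

variable {K : Type u} [Field K] [NumberField K] {m : Ideal (𝓞 K)} {ψ : (Ideal (𝓞 K))⁰ →* ℂ}
  {n : InfinitePlace K → ℤ} {κ : InfinitePlace K → ℝ}

/-! ### Conjugation -/

omit [NumberField K] in
theorem conj_sgG (s : ℂ) (w : InfinitePlace K) :
    sgG (-n) (-κ) (conj s) w = conj (sgG n κ s w) := by
  rw [sgG, sgG, Pi.neg_apply, Pi.neg_apply, Int.natAbs_neg, map_sub, map_add, map_mul, map_mul,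
    Complex.conj_I, Complex.conj_ofReal, Complex.conj_natCast, Complex.conj_natCast]
  push_cast
  ring

/-- the Gamma factor of the conjugate type -/
theorem conj_gamG (s : ℂ) : gamG (-n) (-κ) (conj s) = conj (gamG n κ s) := by
  rw [gamG, gamG, map_prod]
  refine Finset.prod_congr rfl fun w _ => ?_
  have h1 : sgG (-n) (-κ) (conj s) w / 2 = conj (sgG n κ s w / 2) := by
    rw [conj_sgG, map_div₀, conj_two]
  have h2 : (0 : ℝ) ≤ Real.pi * w.mult := mul_nonneg Real.pi_pos.le (Nat.cast_nonneg _)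
  rw [h1, map_mul, ← Complex.Gamma_conj, conj_ofReal_cpow h2, map_neg]

/-! ### The dual series -/

/-- a term of the dual series, with the weight -/
theorem term_dualG (hm : m ≠ ⊥) {τ : ℂ} (hτ : IsGaussG n κ m ψ τ)
    (C : ClassGroup (𝓞 K)) (𝔞 : Cls (dU hm C)) (s : ℂ) :
    dwG n (((JC hm C : Ideal (𝓞 K)) * m : Ideal (𝓞 K)) : FractionalIdeal (𝓞 K)⁰ K)
        (wG n κ m ψ (JC hm C : Ideal (𝓞 K))) (RC hm C) (Classes.gen 𝔞 : K) *
      chi (-n) (-κ) (Classes.gen 𝔞 : K) *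
        (((|Algebra.norm ℚ (Classes.gen 𝔞 : K)| : ℚ) : ℂ)) ^ (-s) =
    ((-Complex.I) ^ (∑ w : InfinitePlace K, (n w).natAbs) * τ * ψ (JC hm C) *
      (((Ideal.absNorm (JC hm C : Ideal (𝓞 K)) : ℝ) : ℂ) ^ s *
        ((|(discr K : ℝ)| * Ideal.absNorm m : ℝ) : ℂ) ^ s)) *
      (conj (ψ 𝔞.1) * (Ideal.absNorm (𝔞.1 : Ideal (𝓞 K)) : ℂ) ^ (-s)) := by
  have h1 : (Classes.gen 𝔞 : K) ∈
      dualF (((JC hm C : Ideal (𝓞 K)) * m : Ideal (𝓞 K)) : FractionalIdeal (𝓞 K)⁰ K) := by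
    rw [← coe_dU]
    exact Classes.gen_mem 𝔞
  have h2 : GenJ m (JC hm C) (Classes.gen 𝔞 : K) 𝔞.1 := by
    have := Classes.span_gen 𝔞
    rw [coe_dU] at this
    exact this
  have h3 := hτ (JC hm C) (JC_coprime hm C) (RC hm C) (RC_spec hm C) _ _ h2
  have h4 : dw (((JC hm C : Ideal (𝓞 K)) * m : Ideal (𝓞 K)) : FractionalIdeal (𝓞 K)⁰ K)
      (wG n κ m ψ (JC hm C : Ideal (𝓞 K))) (RC hm C) (Classes.gen 𝔞 : K) =
      gsG n κ m ψ (JC hm C) (RC hm C) (Classes.gen 𝔞 : K) := if_pos h1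
  have h5 : conj (chi n κ (Classes.gen 𝔞 : K)) * chi n κ (Classes.gen 𝔞 : K) = 1 :=
    conj_chi_mul n κ (Classes.gen 𝔞).ne_zero
  rw [dwG, h4, h3, term_dual hm C 𝔞 s, chi_neg_neg]
  linear_combination ((-Complex.I) ^ (∑ w : InfinitePlace K, (n w).natAbs) * τ * ψ (JC hm C) *
    conj (ψ 𝔞.1) * ((((Ideal.absNorm (JC hm C : Ideal (𝓞 K)) : ℝ) : ℂ) ^ s *
        ((|(discr K : ℝ)| * Ideal.absNorm m : ℝ) : ℂ) ^ s) *
          (Ideal.absNorm (𝔞.1 : Ideal (𝓞 K)) : ℂ) ^ (-s))) * h5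

theorem summable_conjG (h : GChar n κ m ψ) {s : ℂ} (hs : 1 < s.re) :
    Summable fun I : (Ideal (𝓞 K))⁰ =>
      conj (ψ I) * (Ideal.absNorm (I : Ideal (𝓞 K)) : ℂ) ^ (-s) := by
  refine Summable.of_norm_bounded (Classes.summable_nrm_ideals hs).norm fun I => ?_
  rw [norm_mul, RCLike.norm_conj]
  exact mul_le_of_le_one_left (norm_nonneg _) (h.norm_le I)

/-- the root number -/
def rootG (n : InfinitePlace K → ℤ) (m : Ideal (𝓞 K)) (τ : ℂ) : ℂ :=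
  (-Complex.I) ^ (∑ w : InfinitePlace K, (n w).natAbs) * τ / ((√(Ideal.absNorm m : ℝ) : ℝ) : ℂ)

theorem rootG_eq (hm : m ≠ ⊥) (τ : ℂ) :
    (-Complex.I) ^ (∑ w : InfinitePlace K, (n w).natAbs) * τ *
    ((|(discr K : ℝ)| * (Ideal.absNorm m : ℝ) : ℝ) : ℂ) ^ (1 / 2 : ℂ) *
      (((√|(discr K : ℝ)| * (Ideal.absNorm m : ℝ) : ℝ)) : ℂ)⁻¹ = rootG n m τ := by
  have h := rootN_eq (K := K) (S := ∅) hm
    ((-Complex.I) ^ (∑ w : InfinitePlace K, (n w).natAbs) * τ)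
  rw [rootN, Finset.card_empty, pow_zero, one_mul] at h
  exact h

theorem norm_rootG (hm : m ≠ ⊥) {τ : ℂ} (hτ : ‖τ‖ = √(Ideal.absNorm m : ℝ)) :
    ‖rootG n m τ‖ = 1 := by
  have hM : (0 : ℝ) < √(Ideal.absNorm m : ℝ) := Real.sqrt_pos.mpr (nF_pos' hm)
  rw [rootG, norm_div, norm_mul, norm_pow, norm_neg, Complex.norm_I, one_pow, one_mul,
    Complex.norm_real, Real.norm_of_nonneg hM.le, hτ, div_self hM.ne']

/-- **Hecke's functional equation with the Gauss sum**. -/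
theorem funEq_of_gaussG (hty : IsTy n κ) (h0 : n ≠ 0 ∨ κ ≠ 0) (hm : m ≠ ⊥)
    (h : GChar n κ m ψ) {τ : ℂ} (hτ : IsGaussG n κ m ψ τ) :
    ∃ Λ : ℂ → ℂ, Differentiable ℂ Λ ∧
      (∀ s : ℂ, 1 < s.re → Λ s =
        ((|(discr K : ℝ)| * (Ideal.absNorm m : ℝ) : ℝ) : ℂ) ^ (s / 2) * gamG n κ s * Ls ψ s) ∧
      ∀ s, Λ s = rootG n m τ * conj (Λ (1 - conj s)) := by
  have hJ0 : ∀ C : ClassGroup (𝓞 K), (JC hm C : Ideal (𝓞 K)) ≠ ⊥ := fun C =>
    nonZeroDivisors.coe_ne_zero (JC hm C)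
  have hex := fun C : ClassGroup (𝓞 K) => feGStmt K n κ hty h0 _ _ _ _
    (isWtG_wG hm h (hJ0 C)) (isWtG_dwG (isWtG_wG hm h (hJ0 C)) (RC_spec hm C))
    (isInvG_dwG fourierC hty.real (isWtG_wG hm h (hJ0 C)) (RC_spec hm C))
  choose Z Z' hZ hZ' hZs hZs' hfe using hex
  set D : ℝ := |(discr K : ℝ)| * (Ideal.absNorm m : ℝ) with hDdef
  have hD : 0 < D := mul_pos (disc_pos K) (nF_pos' hm)
  have hNJ : ∀ C : ClassGroup (𝓞 K), (0 : ℝ) < (Ideal.absNorm (JC hm C : Ideal (𝓞 K)) : ℝ) :=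
    fun C => nF_pos' (hJ0 C)
  have hψJ : ∀ C : ClassGroup (𝓞 K), ψ (JC hm C) ≠ 0 := fun C =>
    ne_zero_of_coprimeG hm h (JC_coprime hm C)
  let A : ℂ → ℂ := fun s => (D : ℂ) ^ (s / 2) * ∑ C : ClassGroup (𝓞 K), (ψ (JC hm C))⁻¹ *
    ((Ideal.absNorm (JC hm C : Ideal (𝓞 K)) : ℝ) : ℂ) ^ s * Z C s
  have hAd : Differentiable ℂ A := by
    intro s
    have e1 : DifferentiableAt ℂ (fun s : ℂ => (D : ℂ) ^ (s / 2)) s :=
      ((differentiable_id.div_const 2).const_cpow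
        (Or.inl (Complex.ofReal_ne_zero.mpr hD.ne'))).differentiableAt
    refine e1.mul (DifferentiableAt.fun_sum fun C _ => ?_)
    have e2 : DifferentiableAt ℂ (fun s : ℂ =>
        ((Ideal.absNorm (JC hm C : Ideal (𝓞 K)) : ℝ) : ℂ) ^ s) s :=
      (differentiable_id.const_cpow
        (Or.inl (Complex.ofReal_ne_zero.mpr (hNJ C).ne'))).differentiableAt
    exact (e2.const_mul _).mul (hZ C s)
  have hA1 : ∀ s : ℂ, 1 < s.re → A s = (D : ℂ) ^ (s / 2) * gamG n κ s * Ls ψ s := by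
    intro s hs
    rw [Ls_eq_sumG hm h hs, mul_assoc, Finset.mul_sum]
    change (D : ℂ) ^ (s / 2) * _ = _
    congr 1
    refine Finset.sum_congr rfl fun C _ => ?_
    rw [hZs C _ _ (isGen_gen (FractionalIdeal.mk0 K (JC hm C))) s hs]
    push_cast
    ring
  have hA2 : ∀ s : ℂ, s.re < 0 → A s = rootG n m τ * conj (A (1 - conj s)) := by
    intro s hs
    have hs' : 1 < (1 - s).re := by
      rw [Complex.sub_re, Complex.one_re]
      linarith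
    have hsc : 1 < (1 - conj s).re := by
      rw [Complex.sub_re, Complex.one_re, Complex.conj_re]
      linarith
    have hcc : 1 - conj s = conj (1 - s) := by rw [map_sub, map_one]
    have hAc : conj (A (1 - conj s)) = (D : ℂ) ^ ((1 - s) / 2) * gamG (-n) (-κ) (1 - s) *
        ∑' I : (Ideal (𝓞 K))⁰, conj (ψ I) * (Ideal.absNorm (I : Ideal (𝓞 K)) : ℂ) ^ (-(1 - s)) := by
      have e1 : conj ((D : ℂ) ^ (conj (1 - s) / 2)) = (D : ℂ) ^ ((1 - s) / 2) := by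
        rw [conj_ofReal_cpow hD.le, map_div₀, Complex.conj_conj, conj_two]
      have e2 : conj (gamG n κ (conj (1 - s))) = gamG (-n) (-κ) (1 - s) := by
        rw [← conj_gamG, Complex.conj_conj]
      rw [hA1 _ hsc, tsum_conj, map_mul, map_mul, hcc, e1, e2]
    rw [hAc, ← sum_dual hm (summable_conjG h hs'), ← rootG_eq (K := K) hm τ]
    change (D : ℂ) ^ (s / 2) * ∑ C : ClassGroup (𝓞 K), (ψ (JC hm C))⁻¹ *
      ((Ideal.absNorm (JC hm C : Ideal (𝓞 K)) : ℝ) : ℂ) ^ s * Z C s = _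
    rw [Finset.mul_sum, Finset.mul_sum, Finset.mul_sum]
    refine Finset.sum_congr rfl fun C _ => ?_
    have e1 := hZs' C _ _ (isGen_gen (dU hm C)) (1 - s) hs'
    rw [tsum_congr fun 𝔞 => term_dualG hm hτ C 𝔞 (1 - s), tsum_mul_left] at e1
    have e2 : nF (((JC hm C : Ideal (𝓞 K)) * m : Ideal (𝓞 K)) : FractionalIdeal (𝓞 K)⁰ K) =
        (Ideal.absNorm (JC hm C : Ideal (𝓞 K)) : ℝ) * (Ideal.absNorm m : ℝ) := by
      rw [nF_coe, map_mul]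
      push_cast
      rfl
    rw [hfe C s, e1, e2]
    have hN0 : ((Ideal.absNorm (JC hm C : Ideal (𝓞 K)) : ℝ) : ℂ) ≠ 0 :=
      Complex.ofReal_ne_zero.mpr (hNJ C).ne'
    have hD0 : (D : ℂ) ≠ 0 := Complex.ofReal_ne_zero.mpr hD.ne'
    have k1 : ((Ideal.absNorm (JC hm C : Ideal (𝓞 K)) : ℝ) : ℂ) ^ s *
        ((Ideal.absNorm (JC hm C : Ideal (𝓞 K)) : ℝ) : ℂ) ^ (1 - s) =
        ((Ideal.absNorm (JC hm C : Ideal (𝓞 K)) : ℝ) : ℂ) := by
      rw [← Complex.cpow_add _ _ hN0, add_sub_cancel, Complex.cpow_one]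
    have k2 : (D : ℂ) ^ (s / 2) * (D : ℂ) ^ (1 - s) =
        (D : ℂ) ^ (1 / 2 : ℂ) * (D : ℂ) ^ ((1 - s) / 2) := by
      rw [← Complex.cpow_add _ _ hD0, ← Complex.cpow_add _ _ hD0]
      congr 1
      ring
    have k3 : (ψ (JC hm C))⁻¹ * ψ (JC hm C) = 1 := inv_mul_cancel₀ (hψJ C)
    have k4 : ((Ideal.absNorm (JC hm C : Ideal (𝓞 K)) : ℝ) : ℂ) *
        ((Ideal.absNorm (JC hm C : Ideal (𝓞 K)) : ℝ) : ℂ)⁻¹ = 1 := mul_inv_cancel₀ hN0
    rw [Complex.ofReal_mul (√|(discr K : ℝ)|), Complex.ofReal_mul (√|(discr K : ℝ)|),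
      Complex.ofReal_mul (Ideal.absNorm (JC hm C : Ideal (𝓞 K)) : ℝ), mul_inv, mul_inv, mul_inv]
    generalize ∑' 𝔞 : Cls (dU hm C), conj (ψ 𝔞.1) *
      (Ideal.absNorm (𝔞.1 : Ideal (𝓞 K)) : ℂ) ^ (-(1 - s)) = T
    generalize ((Ideal.absNorm (JC hm C : Ideal (𝓞 K)) : ℝ) : ℂ) ^ s = a at k1 ⊢
    generalize ((Ideal.absNorm (JC hm C : Ideal (𝓞 K)) : ℝ) : ℂ) ^ (1 - s) = b at k1 ⊢
    generalize ((Ideal.absNorm (JC hm C : Ideal (𝓞 K)) : ℝ) : ℂ) = N at k1 k4 ⊢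
    generalize (D : ℂ) ^ (s / 2) = p at k2 ⊢
    generalize (D : ℂ) ^ (1 - s) = q at k2 ⊢
    generalize (D : ℂ) ^ (1 / 2 : ℂ) = r at k2 ⊢
    generalize (D : ℂ) ^ ((1 - s) / 2) = u at k2 ⊢
    generalize (ψ (JC hm C))⁻¹ = v at k3 ⊢
    generalize ψ (JC hm C) = v' at k3 ⊢
    generalize (((√|(discr K : ℝ)| : ℝ)) : ℂ)⁻¹ = d
    generalize (((Ideal.absNorm m : ℝ)) : ℂ)⁻¹ = M
    generalize gamG (-n) (-κ) (1 - s) = g
    generalize (-Complex.I) ^ (∑ w : InfinitePlace K, (n w).natAbs) = i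
    generalize N⁻¹ = N' at k4 ⊢
    calc p * (v * a * (d * (N' * M) * (g * (i * τ * v' * (b * q) * T))))
        = (p * q) * (a * b * N') * (v * v') * (d * M * g * i * τ * T) := by ring
      _ = i * τ * r * (d * M) * (u * g * T) := by
        rw [k2, k1, k4, k3]
        ring
  refine ⟨A, hAd, hA1, fun s => ?_⟩
  have hB : Differentiable ℂ fun s => rootG n m τ * conj (A (1 - conj s)) :=
    (RayF.Glue.differentiable_star hAd).const_mul _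
  have h1 : A = fun s => rootG n m τ * conj (A (1 - conj s)) := by
    refine AnalyticOnNhd.eq_of_eventuallyEq (𝕜 := ℂ) (z₀ := -1)
      (hAd.differentiableOn.analyticOnNhd isOpen_univ)
      (hB.differentiableOn.analyticOnNhd isOpen_univ) ?_
    refine Filter.eventuallyEq_of_mem ((RayF.Glue.isOpen_re_lt 0).mem_nhds ?_)
      fun s hs => hA2 s hs
    simp
  exact congrFun h1 s

/-- **Hecke (1920): the functional equation of the `L`-function of a primitive Groessencharakter**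
modulo `𝔪` of type `(n, κ) ≠ (0, 0)`: `Λ(s) = (|d| N𝔪)^{s/2} Γ(s) L(s, ψ)` is entire and
`Λ(s) = W conj Λ(1 - conj s)` with `W = (-i)^{∑ |n_w|} τ / √N𝔪`, `|W| = 1`, `τ` the Gauss sum. -/
theorem hecke_functional_equation (hty : IsTy n κ) (h0 : n ≠ 0 ∨ κ ≠ 0) (hm : m ≠ ⊥)
    (h : GChar n κ m ψ) (hp : IsPrimG n κ m ψ) :
    ∃ τ : ℂ, ‖τ‖ = √(Ideal.absNorm m : ℝ) ∧ IsGaussG n κ m ψ τ ∧ ‖rootG n m τ‖ = 1 ∧
      ∃ Λ : ℂ → ℂ, Differentiable ℂ Λ ∧ (∀ s : ℂ, 1 < s.re → Λ s =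
        ((|(discr K : ℝ)| * (Ideal.absNorm m : ℝ) : ℝ) : ℂ) ^ (s / 2) * gamG n κ s *
          ∑' I : (Ideal (𝓞 K))⁰, ψ I * (Ideal.absNorm (I : Ideal (𝓞 K)) : ℂ) ^ (-s)) ∧
      ∀ s, Λ s = rootG n m τ * conj (Λ (1 - conj s)) := by
  obtain ⟨τ, hτ, hG⟩ := exists_gaussG hm h hp
  exact ⟨τ, hτ, hG, norm_rootG hm hτ, funEq_of_gaussG hty h0 hm h hG⟩

end Fermat.Agent.Cor.RayG

end
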