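import Fermat.Agent.Corollaries.RayG.Defs
import Fermat.Agent.Corollaries.Ray.NonVan

/-!
# Non-vanishing of the L-functions of Groessencharaktere of infinite order on `Re s ≥ 1`

`nonVanG : LFunGStmt K → NonVanGStmt K`.  The square of a Groessencharakter `ψ` of type `(n, κ)` is
a Groessencharakter of type `(n₂, 2 κ)` with `n₂ w = 0` at the real places, `n₂ w = 2 n w` at the
complex places; if `ψ` is of infinite order, this type is not trivial, so `L(s, ψ²)` is entire and
the classical argument of de la Vallée Poussin and Hadamard applies.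
-/

set_option autoImplicit false
set_option linter.unusedSectionVars false

noncomputable section

open NumberField NumberField.InfinitePlace nonZeroDivisors Complex Filter Topology

open scoped Classical ComplexConjugate

namespace Fermat.Agent.Cor.RayG

open Fermat.Agent.ClassL Fermat.Agent.Classic.Zeta Fermat.Agent.Cor.Ray

universe u

variable {K : Type u} [Field K] [NumberField K] {𝔪 : Ideal (𝓞 K)}
  {n : InfinitePlace K → ℤ} {κ : InfinitePlace K → ℝ}

/-! ### The square of the type -/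

/-- the angular part of the square -/
def sqN (n : InfinitePlace K → ℤ) (w : InfinitePlace K) : ℤ := if IsReal w then 0 else 2 * n w

theorem hz_sq (k : ℤ) (z : ℂ) : hz k z ^ 2 = hz (2 * k) z := by
  unfold hz
  have h1 : (2 * k).natAbs = k.natAbs * 2 := by omega
  by_cases h : 0 ≤ k
  · rw [if_pos h, if_pos (by omega), h1, pow_mul]
  · rw [if_neg h, if_neg (by omega), h1, pow_mul]

theorem aG_eq_prod (n : InfinitePlace K → ℤ) (x : K) :
    aG n x = ∏ w : InfinitePlace K, hz (n w) (w.embedding x) /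
      ((‖hz (n w) (w.embedding x)‖ : ℝ) : ℂ) := by
  rw [aG, pG, Finset.prod_div_distrib, norm_prod, Complex.ofReal_prod]

theorem aG_sq (n : InfinitePlace K → ℤ) {x : K} (hx : x ≠ 0) : aG n x ^ 2 = aG (sqN n) x := by
  rw [aG_eq_prod, aG_eq_prod, ← Finset.prod_pow]
  refine Finset.prod_congr rfl fun w _ => ?_
  rw [div_pow, ← Complex.ofReal_pow, ← norm_pow, hz_sq, sqN]
  split_ifs with hw
  · rw [hz_zero_left, norm_one, Complex.ofReal_one, div_one, ← hz_sq]
    have h1 : conj (w.embedding x) = w.embedding x := by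
      have h2 := (isReal_iff.mp hw)
      exact RingHom.congr_fun h2 x
    have h0 : w.embedding x ≠ 0 := (map_ne_zero _).mpr hx
    have h3 : conj (hz (n w) (w.embedding x)) = hz (n w) (w.embedding x) := by
      unfold hz
      split_ifs
      · rw [map_pow, h1]
      · rw [map_pow, h1, h1]
    have h4 : hz (n w) (w.embedding x) ≠ 0 := by
      rw [← norm_ne_zero_iff, norm_hz]
      exact pow_ne_zero _ (norm_ne_zero_iff.mpr h0)
    have h5 : hz (n w) (w.embedding x) ^ 2 = ((‖hz (n w) (w.embedding x) ^ 2‖ : ℝ) : ℂ) := by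
      rw [norm_pow, ← Complex.normSq_eq_norm_sq, Complex.normSq_eq_conj_mul_self, h3, sq]
    rw [← h5, div_self (pow_ne_zero 2 h4)]
  · rfl

theorem chi_sq {x : K} (hx : x ≠ 0) : chi n κ x ^ 2 = chi (sqN n) (2 • κ) x := by
  have h1 : lK (2 • κ) x = lK κ x + lK κ x := by
    unfold lK
    rw [← Finset.sum_add_distrib]
    refine Finset.sum_congr rfl fun w _ => ?_
    rw [Pi.smul_apply, nsmul_eq_mul, Nat.cast_two]
    ring
  rw [chi, chi, mul_pow, aG_sq n hx, h1, eI_add, sq]

theorem IsTy.sq (h : IsTy n κ) : IsTy (sqN n) (2 • κ) where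
  real w hw := by
    rw [sqN, if_pos hw]
    norm_num
  sum := by
    have h1 : ∀ w : InfinitePlace K, (2 • κ) w = 2 * κ w := fun w => by
      rw [Pi.smul_apply, nsmul_eq_mul, Nat.cast_two]
    simp only [h1]
    rw [← Finset.mul_sum, h.sum, mul_zero]

theorem IsInf.or (h : IsInf n κ) : n ≠ 0 ∨ κ ≠ 0 := by
  rcases h with h | ⟨w, -, hn⟩
  · exact Or.inr h
  · exact Or.inl fun h0 => hn (congrFun h0 w)

theorem IsInf.sq (h : IsInf n κ) : IsInf (sqN n) (2 • κ) := by
  rcases h with h | ⟨w, hw, hn⟩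
  · refine Or.inl fun h0 => h (funext fun w => ?_)
    have h1 : (2 • κ) w = 0 := congrFun h0 w
    rw [Pi.smul_apply, nsmul_eq_mul, Nat.cast_two] at h1
    have h2 : κ w = 0 := by linarith
    exact h2
  · refine Or.inr ⟨w, hw, ?_⟩
    rw [sqN, if_neg (not_isReal_iff_isComplex.mpr hw)]
    omega

/-! ### Groessencharaktere -/

/-- **A Groessencharakter has absolute value one at the ideals prime to the modulus.** -/
theorem GChar.isUnitary (h𝔪 : 𝔪 ≠ ⊥) {ψ : (Ideal (𝓞 K))⁰ →* ℂ} (hψ : GChar n κ 𝔪 ψ) :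
    Psi.IsUnitary ψ := by
  intro I
  by_cases hI : IsCoprime (I : Ideal (𝓞 K)) 𝔪
  · left
    obtain ⟨m, hm, a, ha, ha1⟩ := exists_pow_eq_span h𝔪 hI
    have ha0 : a ≠ 0 := by
      rintro rfl
      rw [Ideal.span_singleton_eq_bot.mpr rfl] at ha
      exact nonZeroDivisors.coe_ne_zero _ ha
    have h1 : I ^ m = sp a ha0 := Subtype.ext ha
    have h2 : ‖ψ I‖ ^ m = 1 := by
      rw [← norm_pow, ← map_pow, h1, hψ.cong a ha0 ha1]
      exact norm_chi n κ (by exact_mod_cast ha0)
    exact (pow_eq_one_iff_of_nonneg (norm_nonneg _) hm).mp h2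
  · exact Or.inr (hψ.eq_zero I hI)

/-- **The square of a Groessencharakter.** -/
theorem GChar.sq {ψ : (Ideal (𝓞 K))⁰ →* ℂ} (hψ : GChar n κ 𝔪 ψ) :
    GChar (sqN n) (2 • κ) 𝔪 (ψ ^ 2) where
  norm_le I := by
    rw [MonoidHom.pow_apply, norm_pow]
    exact pow_le_one₀ (norm_nonneg _) (hψ.norm_le I)
  eq_zero I hI := by
    rw [MonoidHom.pow_apply, hψ.eq_zero I hI, zero_pow two_ne_zero]
  cong a ha ha1 := by
    rw [MonoidHom.pow_apply, hψ.cong a ha ha1]
    exact chi_sq (by exact_mod_cast ha)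

/-- (G) **The L-functions of the Groessencharaktere of infinite order do not vanish on
`Re s ≥ 1`.** -/
theorem nonVanG (hE : LFunGStmt K) : NonVanGStmt K := by
  intro n κ hty hinf 𝔪 h𝔪 ψ hψ
  obtain ⟨L, hLd, hL⟩ := hE n κ hty hinf.or 𝔪 h𝔪 ψ hψ
  obtain ⟨L₂, hd₂, hL₂⟩ := hE (sqN n) (2 • κ) hty.sq hinf.sq.or 𝔪 h𝔪 (ψ ^ 2) hψ.sq
  have hu := hψ.isUnitary h𝔪
  refine ⟨L, hLd, hL, fun s hs => ?_⟩
  rcases hs.eq_or_lt with h1 | h1
  · have hs' : s = 1 + I * s.im := by
      conv_lhs => rw [← Complex.re_add_im s, ← h1, Complex.ofReal_one, mul_comm]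
    rw [hs']
    exact Psi.ne_zero_of_continuation hu hL hL₂ (hLd _) (hd₂ _).continuousAt
  · rw [hL s h1]
    exact Psi.Lp_ne_zero hu.le h1

end Fermat.Agent.Cor.RayG

end
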