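import Fermat.Agent.Corollaries.RayG.ConeOne

/-!
# Norm forms represent infinitely many primes in every open cone of `ℝⁿ`
-/

set_option autoImplicit false
set_option linter.unusedSectionVars false

noncomputable section

open NumberField NumberField.InfinitePlace nonZeroDivisors Filter Topology
open NumberField.mixedEmbedding

open scoped Classical

namespace Fermat.Agent.Cor.RayG

namespace Cone

variable {K : Type} [Field K] [NumberField K] {ι : Type} [Fintype ι]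

/-- the integers and the integer lattice -/
def isoZ (K : Type) [Field K] [NumberField K] : 𝓞 K ≃ₗ[ℤ] mixedEmbedding.integerLattice K :=
  LinearEquiv.ofInjective ((mixedEmbedding K).comp (algebraMap (𝓞 K) K)).toIntAlgHom.toLinearMap
    fun _ _ h => RingOfIntegers.ext (mixedEmbedding_injective K h)

theorem isoZ_apply (x : 𝓞 K) : (isoZ K x : mixedSpace K) = mixedEmbedding K (x : K) := rfl

/-- the real basis of the mixed space given by an integral basis -/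
def bR (ω : Module.Basis ι ℤ (𝓞 K)) : Module.Basis ι ℝ (mixedSpace K) :=
  (ω.map (isoZ K)).ofZLatticeBasis ℝ (mixedEmbedding.integerLattice K)

theorem bR_repr (ω : Module.Basis ι ℤ (𝓞 K)) (x : 𝓞 K) :
    (bR ω).equivFun (mixedEmbedding K (x : K)) = fun i => ((ω.repr x i : ℤ) : ℝ) := by
  funext i
  have h := (ω.map (isoZ K)).ofZLatticeBasis_repr_apply ℝ (mixedEmbedding.integerLattice K)
    (isoZ K x) i
  rw [isoZ_apply] at h
  rw [Module.Basis.equivFun_apply, bR]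
  refine h.trans ?_
  rw [Module.Basis.map_repr, LinearEquiv.trans_apply, LinearEquiv.symm_apply_apply]

/-- **Norm forms represent infinitely many primes**, with the variables in a given residue class
and in a given open cone: `K` a number field, `ω` an integral basis, `U ⊆ ℝⁿ` open, non-empty,
with `c • x ∈ U` for `x ∈ U` and `c > 0`, and `N(∑ a_i ω_i)` prime to `m`. Then there are
infinitely many prime numbers `p` with `|N(∑ x_i ω_i)| = p` for some `x ∈ ℤⁿ ∩ U`, `x ≡ a`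
modulo `m`. -/
theorem norm_form_primes (ω : Module.Basis ι ℤ (𝓞 K)) {U : Set (ι → ℝ)} (hU : IsOpen U)
    (hne : U.Nonempty) (hc : ∀ x ∈ U, ∀ c : ℝ, 0 < c → c • x ∈ U) {m : ℕ} (hm : m ≠ 0)
    {a : ι → ℤ} (ha : IsCoprime (Algebra.norm ℤ (∑ i, a i • ω i)) (m : ℤ)) :
    {p : ℕ | p.Prime ∧ ∃ x : ι → ℤ, (∀ i, x i ≡ a i [ZMOD m]) ∧ (fun i => (x i : ℝ)) ∈ U ∧
      (Algebra.norm ℤ (∑ i, x i • ω i)).natAbs = p}.Infinite := by
  set α : 𝓞 K := ∑ i, a i • ω i with hα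
  have hm0 : Ideal.span {((m : ℕ) : 𝓞 K)} ≠ ⊥ := by
    rw [Ne, Ideal.span_singleton_eq_bot]
    exact_mod_cast hm
  have hco : IsCoprime (Ideal.span {α}) (Ideal.span {((m : ℕ) : 𝓞 K)}) := by
    obtain ⟨u, v, huv⟩ := ha
    rw [Ideal.isCoprime_iff_exists]
    refine ⟨((u * Algebra.norm ℤ α : ℤ) : 𝓞 K), ?_, ((v * m : ℤ) : 𝓞 K), ?_, ?_⟩
    · have h1 := Ideal.absNorm_mem (Ideal.span {α})
      rw [Ideal.absNorm_span_singleton] at h1
      have h2 : ((Algebra.norm ℤ α : ℤ) : 𝓞 K) ∈ Ideal.span {α} := by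
        rcases Int.natAbs_eq (Algebra.norm ℤ α) with h | h
        · have h3 := congrArg (fun z : ℤ => (z : 𝓞 K)) h
          simp only [Int.cast_natCast] at h3
          exact h3 ▸ h1
        · have h3 := congrArg (fun z : ℤ => (z : 𝓞 K)) h
          simp only [Int.cast_neg, Int.cast_natCast] at h3
          exact h3 ▸ (Ideal.span {α}).neg_mem h1
      rw [Int.cast_mul]
      exact Ideal.mul_mem_left _ _ h2
    · push_cast
      exact Ideal.mul_mem_left _ _ (Ideal.mem_span_singleton_self _)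
    · rw [← Int.cast_add, huv, Int.cast_one]
  set e : mixedSpace K ≃L[ℝ] (ι → ℝ) := (bR ω).equivFun.toContinuousLinearEquiv with he
  have hinf := hecke_cone_one hm0 hco (U := e ⁻¹' U) (hU.preimage e.continuous)
    (by
      obtain ⟨x, hx⟩ := hne
      exact ⟨e.symm x, by rwa [Set.mem_preimage, e.apply_symm_apply]⟩)
    (fun x hx c hc0 => by
      rw [Set.mem_preimage, map_smul]
      exact hc _ hx c hc0)
  intro hfin
  refine hinf ((hfin.biUnion fun p _ => Ideal.finite_setOfPred_absNorm_eq (S := 𝓞 K) p).subset ?_)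
  rintro I ⟨hI, π, hπ, rfl, hπα, hπU⟩
  rw [Set.mem_iUnion₂]
  refine ⟨Ideal.absNorm (Ideal.span {π}), ⟨hI, fun i => ω.repr π i, fun i => ?_, ?_, ?_⟩, rfl⟩
  · obtain ⟨y, hy⟩ := Ideal.mem_span_singleton.mp hπα
    have h1 : ω.repr (π - α) i = (m : ℤ) * ω.repr y i := by
      rw [hy, ← nsmul_eq_mul, map_nsmul, Finsupp.smul_apply, nsmul_eq_mul]
    have h2 : ω.repr α i = a i := by rw [hα, ω.repr_sum_self]
    rw [map_sub, Finsupp.sub_apply, h2] at h1
    exact (Int.modEq_iff_dvd.mpr ⟨-ω.repr y i, by linarith⟩)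
  · have h1 : (bR ω).equivFun (mixedEmbedding K (π : K)) ∈ U := hπU
    rwa [bR_repr] at h1
  · rw [Ideal.absNorm_span_singleton, ω.sum_repr]

/-! ### Signs -/

/-- the norm form of an integral basis, on `ℝⁿ` -/
def nF (ω : Module.Basis ι ℤ (𝓞 K)) (x : ι → ℝ) : ℝ :=
  (∑ i, x i • (Algebra.leftMulMatrix ω (ω i)).map (Int.cast : ℤ → ℝ)).det

theorem nF_intCast (ω : Module.Basis ι ℤ (𝓞 K)) (x : ι → ℤ) :
    nF ω (fun i => (x i : ℝ)) = ((Algebra.norm ℤ (∑ i, x i • ω i) : ℤ) : ℝ) := by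
  have h1 : ∀ M : Matrix ι ι ℤ, ((M.det : ℤ) : ℝ) = (M.map (Int.cast : ℤ → ℝ)).det := fun M =>
    RingHom.map_det (Int.castRingHom ℝ) M
  rw [nF, Algebra.norm_eq_matrix_det ω, h1]
  congr 1
  ext j k
  simp only [Matrix.map_apply, Matrix.sum_apply, map_smul, Matrix.smul_apply, smul_eq_mul, map_sum,
    Int.cast_sum, Int.cast_mul]

theorem continuous_nF (ω : Module.Basis ι ℤ (𝓞 K)) : Continuous (nF ω) := by
  unfold nF
  refine Continuous.matrix_det (continuous_finsetSum _ fun i _ => ?_)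
  exact (continuous_apply i).smul continuous_const

theorem nF_smul (ω : Module.Basis ι ℤ (𝓞 K)) (c : ℝ) (x : ι → ℝ) :
    nF ω (c • x) = c ^ Fintype.card ι * nF ω x := by
  unfold nF
  rw [← Matrix.det_smul, Finset.smul_sum]
  congr 1
  exact Finset.sum_congr rfl fun i _ => by rw [Pi.smul_apply, smul_eq_mul, mul_smul]

/-- **the primes `p = N(∑ x_i ω_i)`**, with sign: if the norm form takes a positive value on `U` -/
theorem norm_form_primes_pos (ω : Module.Basis ι ℤ (𝓞 K)) {U : Set (ι → ℝ)} (hU : IsOpen U)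
    (hc : ∀ x ∈ U, ∀ c : ℝ, 0 < c → c • x ∈ U) (hpos : ∃ u ∈ U, 0 < nF ω u) {m : ℕ} (hm : m ≠ 0)
    {a : ι → ℤ} (ha : IsCoprime (Algebra.norm ℤ (∑ i, a i • ω i)) (m : ℤ)) :
    {p : ℕ | p.Prime ∧ ∃ x : ι → ℤ, (∀ i, x i ≡ a i [ZMOD m]) ∧ (fun i => (x i : ℝ)) ∈ U ∧
      Algebra.norm ℤ (∑ i, x i • ω i) = p}.Infinite := by
  obtain ⟨u, hu, hu0⟩ := hpos
  refine (norm_form_primes ω (U := U ∩ nF ω ⁻¹' Set.Ioi 0)
    (hU.inter (isOpen_Ioi.preimage (continuous_nF ω))) ⟨u, hu, hu0⟩ (fun x hx c hc0 =>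
      ⟨hc x hx.1 c hc0, ?_⟩) hm ha).mono ?_
  · rw [Set.mem_preimage, Set.mem_Ioi, nF_smul]
    exact mul_pos (pow_pos hc0 _) hx.2
  · rintro p ⟨hp, x, hx, ⟨hxU, hx0⟩, hN⟩
    refine ⟨hp, x, hx, hxU, ?_⟩
    rw [Set.mem_preimage, Set.mem_Ioi, nF_intCast] at hx0
    have h1 : 0 < Algebra.norm ℤ (∑ i, x i • ω i) := by exact_mod_cast hx0
    omega

/-- **the primes `p = -N(∑ x_i ω_i)`**, if the norm form takes a negative value on `U` -/
theorem norm_form_primes_neg (ω : Module.Basis ι ℤ (𝓞 K)) {U : Set (ι → ℝ)} (hU : IsOpen U)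
    (hc : ∀ x ∈ U, ∀ c : ℝ, 0 < c → c • x ∈ U) (hneg : ∃ u ∈ U, nF ω u < 0) {m : ℕ} (hm : m ≠ 0)
    {a : ι → ℤ} (ha : IsCoprime (Algebra.norm ℤ (∑ i, a i • ω i)) (m : ℤ)) :
    {p : ℕ | p.Prime ∧ ∃ x : ι → ℤ, (∀ i, x i ≡ a i [ZMOD m]) ∧ (fun i => (x i : ℝ)) ∈ U ∧
      Algebra.norm ℤ (∑ i, x i • ω i) = -p}.Infinite := by
  obtain ⟨u, hu, hu0⟩ := hneg
  refine (norm_form_primes ω (U := U ∩ nF ω ⁻¹' Set.Iio 0)
    (hU.inter (isOpen_Iio.preimage (continuous_nF ω))) ⟨u, hu, hu0⟩ (fun x hx c hc0 =>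
      ⟨hc x hx.1 c hc0, ?_⟩) hm ha).mono ?_
  · rw [Set.mem_preimage, Set.mem_Iio, nF_smul]
    exact mul_neg_of_pos_of_neg (pow_pos hc0 _) hx.2
  · rintro p ⟨hp, x, hx, ⟨hxU, hx0⟩, hN⟩
    refine ⟨hp, x, hx, hxU, ?_⟩
    rw [Set.mem_preimage, Set.mem_Iio, nF_intCast] at hx0
    have h1 : Algebra.norm ℤ (∑ i, x i • ω i) < 0 := by exact_mod_cast hx0
    omega

end Cone

end Fermat.Agent.Cor.RayG

end
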