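import Fermat.Agent.Corollaries.RayG.ConeIdeal
import Fermat.Agent.Corollaries.RayG.NormForm

/-!
# The norm form of every ideal represents infinitely many primes in every open cone of `ℝⁿ`
-/

set_option autoImplicit false
set_option linter.unusedSectionVars false

noncomputable section

open NumberField NumberField.InfinitePlace nonZeroDivisors Filter Topology
open NumberField.mixedEmbedding

open scoped Classical

namespace Fermat.Agent.Cor.RayG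

open Fermat.Agent.ClassL Fermat.Agent.Classic.Zeta Fermat.Agent.Cor.Ray Fermat.Agent.Cor.RayN

namespace Cone

variable {K : Type} [Field K] [NumberField K] {ι : Type} [Fintype ι] {A : Ideal (𝓞 K)}

/-- `A` as a fractional ideal -/
def frI (hA : A ≠ ⊥) : (FractionalIdeal (𝓞 K)⁰ K)ˣ :=
  Units.mk0 (A : FractionalIdeal (𝓞 K)⁰ K) (FractionalIdeal.coeIdeal_ne_zero.mpr hA)

/-- the embedding of `A` -/
def embA (A : Ideal (𝓞 K)) : A →ₗ[ℤ] mixedSpace K :=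
  ((mixedEmbedding K).comp (algebraMap (𝓞 K) K)).toIntAlgHom.toLinearMap ∘ₗ
    (Submodule.subtype A).restrictScalars ℤ

theorem embA_apply (x : A) : embA A x = mixedEmbedding K ((x : 𝓞 K) : K) := rfl

theorem embA_injective : Function.Injective (embA A) := fun _ _ h =>
  Subtype.ext (RingOfIntegers.ext (mixedEmbedding_injective K h))

theorem range_embA (hA : A ≠ ⊥) : LinearMap.range (embA A) = idealLattice K (frI hA) := by
  ext x
  rw [mem_idealLattice, LinearMap.mem_range]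
  constructor
  · rintro ⟨y, rfl⟩
    exact ⟨((y : 𝓞 K) : K), (FractionalIdeal.mem_coeIdeal (𝓞 K)⁰).mpr ⟨y, y.2, rfl⟩, rfl⟩
  · rintro ⟨y, hy, rfl⟩
    obtain ⟨a, ha, rfl⟩ := (FractionalIdeal.mem_coeIdeal (𝓞 K)⁰).mp hy
    exact ⟨⟨a, ha⟩, rfl⟩

/-- `A` and its lattice -/
def isoA (hA : A ≠ ⊥) : A ≃ₗ[ℤ] idealLattice K (frI hA) :=
  (LinearEquiv.ofInjective (embA A) embA_injective).trans (LinearEquiv.ofEq _ _ (range_embA hA))

theorem isoA_apply (hA : A ≠ ⊥) (x : A) :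
    (isoA hA x : mixedSpace K) = mixedEmbedding K ((x : 𝓞 K) : K) := rfl

/-- the real basis of the mixed space given by a basis of `A` -/
def bA (hA : A ≠ ⊥) (ω : Module.Basis ι ℤ A) : Module.Basis ι ℝ (mixedSpace K) :=
  (ω.map (isoA hA)).ofZLatticeBasis ℝ (idealLattice K (frI hA))

theorem bA_repr (hA : A ≠ ⊥) (ω : Module.Basis ι ℤ A) (x : A) :
    (bA hA ω).equivFun (mixedEmbedding K ((x : 𝓞 K) : K)) = fun i => ((ω.repr x i : ℤ) : ℝ) := by
  funext i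
  have h := (ω.map (isoA hA)).ofZLatticeBasis_repr_apply ℝ (idealLattice K (frI hA))
    (isoA hA x) i
  rw [isoA_apply] at h
  rw [Module.Basis.equivFun_apply, bA]
  refine h.trans ?_
  rw [Module.Basis.map_repr, LinearEquiv.trans_apply, LinearEquiv.symm_apply_apply]

theorem repr_modEq (ω : Module.Basis ι ℤ A) {m : ℕ}
    (hco : IsCoprime A (Ideal.span {((m : ℕ) : 𝓞 K)})) (γ α : A)
    (h : (γ : 𝓞 K) - α ∈ Ideal.span {((m : ℕ) : 𝓞 K)}) (i : ι) :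
    ω.repr γ i ≡ ω.repr α i [ZMOD m] := by
  obtain ⟨y, hy⟩ := Ideal.mem_span_singleton.mp h
  have hyA : y ∈ A := by
    obtain ⟨s, hs, t, ht, hst⟩ := Ideal.isCoprime_iff_exists.mp hco
    obtain ⟨t', rfl⟩ := Ideal.mem_span_singleton.mp ht
    have h1 : y = s * y + t' * ((m : 𝓞 K) * y) := by
      calc y = (s + (m : 𝓞 K) * t') * y := by rw [hst, one_mul]
        _ = s * y + t' * ((m : 𝓞 K) * y) := by ring
    rw [h1, ← hy]
    exact A.add_mem (A.mul_mem_right _ hs) (A.mul_mem_left _ (A.sub_mem γ.2 α.2))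
  have h0 : γ - α = m • (⟨y, hyA⟩ : A) := by
    refine Subtype.ext ?_
    change (γ : 𝓞 K) - α = m • y
    rw [hy, nsmul_eq_mul]
  have h1 : ω.repr (γ - α) i = (m : ℤ) * ω.repr ⟨y, hyA⟩ i := by
    rw [h0, map_nsmul, Finsupp.smul_apply, nsmul_eq_mul]
  rw [map_sub, Finsupp.sub_apply] at h1
  exact (Int.modEq_iff_dvd.mpr ⟨-ω.repr ⟨y, hyA⟩ i, by linarith⟩)

theorem isCoprime_of_norm {α : 𝓞 K} {m : ℕ} (ha : IsCoprime (Algebra.norm ℤ α) (m : ℤ)) :
    IsCoprime (Ideal.span {α}) (Ideal.span {((m : ℕ) : 𝓞 K)}) := by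
  obtain ⟨u, v, huv⟩ := ha
  rw [Ideal.isCoprime_iff_exists]
  refine ⟨((u * Algebra.norm ℤ α : ℤ) : 𝓞 K), ?_, ((v * m : ℤ) : 𝓞 K), ?_, ?_⟩
  · have h1 := Ideal.absNorm_mem (Ideal.span {α})
    rw [Ideal.absNorm_span_singleton] at h1
    have h2 : ((Algebra.norm ℤ α : ℤ) : 𝓞 K) ∈ Ideal.span {α} := by
      rcases Int.natAbs_eq (Algebra.norm ℤ α) with h | h
      · have h3 := congrArg (fun z : ℤ => (z : 𝓞 K)) h
        simp only [Int.cast_natCast] at h3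
        exact h3 ▸ h1
      · have h3 := congrArg (fun z : ℤ => (z : 𝓞 K)) h
        simp only [Int.cast_neg, Int.cast_natCast] at h3
        exact h3 ▸ (Ideal.span {α}).neg_mem h1
    rw [Int.cast_mul]
    exact Ideal.mul_mem_left _ _ h2
  · push_cast
    exact Ideal.mul_mem_left _ _ (Ideal.mem_span_singleton_self _)
  · rw [← Int.cast_add, huv, Int.cast_one]

theorem isCoprime_of_absNorm {m : ℕ} (hAm : (Ideal.absNorm A).Coprime m) :
    IsCoprime A (Ideal.span {((m : ℕ) : 𝓞 K)}) := by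
  obtain ⟨u, v, huv⟩ := Nat.isCoprime_iff_coprime.mpr hAm
  rw [Ideal.isCoprime_iff_exists]
  refine ⟨((u * (Ideal.absNorm A : ℕ) : ℤ) : 𝓞 K), ?_, ((v * m : ℤ) : 𝓞 K), ?_, ?_⟩
  · push_cast
    exact Ideal.mul_mem_left _ _ (Ideal.absNorm_mem A)
  · push_cast
    exact Ideal.mul_mem_left _ _ (Ideal.mem_span_singleton_self _)
  · rw [← Int.cast_add, huv, Int.cast_one]

/-- **The norm form of an ideal represents infinitely many primes**, with the variables in a given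
residue class and in a given open cone: `K` a number field, `A` a non-zero ideal, `ω` a basis of
`A` over `ℤ`, `N(A)` and `N(∑ a_i ω_i)` prime to `m`, `U ⊆ ℝⁿ` open, non-empty, with `c • x ∈ U` for
`x ∈ U` and `c > 0`. Then there are infinitely many prime numbers `p` with
`|N(∑ x_i ω_i)| = N(A) p` for some `x ∈ ℤⁿ ∩ U`, `x ≡ a` modulo `m`. -/
theorem norm_form_primes_ideal (hA : A ≠ ⊥) (ω : Module.Basis ι ℤ A) {U : Set (ι → ℝ)}
    (hU : IsOpen U) (hne : U.Nonempty) (hc : ∀ x ∈ U, ∀ c : ℝ, 0 < c → c • x ∈ U) {m : ℕ}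
    (hm : m ≠ 0) (hAm : (Ideal.absNorm A).Coprime m) {a : ι → ℤ}
    (ha : IsCoprime (Algebra.norm ℤ ((∑ i, a i • ω i : A) : 𝓞 K)) (m : ℤ)) :
    {p : ℕ | p.Prime ∧ ∃ x : ι → ℤ, (∀ i, x i ≡ a i [ZMOD m]) ∧ (fun i => (x i : ℝ)) ∈ U ∧
      (Algebra.norm ℤ ((∑ i, x i • ω i : A) : 𝓞 K)).natAbs = Ideal.absNorm A * p}.Infinite := by
  have hm0 : Ideal.span {((m : ℕ) : 𝓞 K)} ≠ ⊥ := by
    rw [Ne, Ideal.span_singleton_eq_bot]
    exact_mod_cast hm
  have hcoA := isCoprime_of_absNorm hAm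
  have hco := isCoprime_of_norm ha
  have hrepr : ∀ i, ω.repr (∑ i, a i • ω i) i = a i := fun i => by rw [ω.repr_sum_self]
  generalize (∑ i, a i • ω i : A) = α at hco hrepr
  let A0 : (Ideal (𝓞 K))⁰ := ⟨A, mem_nonZeroDivisors_of_ne_zero (by
    rwa [Ne, Ideal.zero_eq_bot])⟩
  have hinf := hecke_cone_ideal (A := A0) hm0 hcoA hco
    (U := (bA hA ω).equivFun.toContinuousLinearEquiv ⁻¹' U)
    (hU.preimage (bA hA ω).equivFun.toContinuousLinearEquiv.continuous)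
    (by
      obtain ⟨x, hx⟩ := hne
      exact ⟨(bA hA ω).equivFun.toContinuousLinearEquiv.symm x, by
        rwa [Set.mem_preimage, ContinuousLinearEquiv.apply_symm_apply]⟩)
    (fun x hx c hc0 => by
      rw [Set.mem_preimage, map_smul]
      exact hc _ hx c hc0)
  intro hfin
  refine hinf ((hfin.biUnion fun p _ => Ideal.finite_setOfPred_absNorm_eq (S := 𝓞 K) p).subset ?_)
  rintro P ⟨hP, γ, hPA, hγα, hγU⟩
  change P * A = Ideal.span {γ} at hPA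
  have hγA : γ ∈ A := by
    have h1 : γ ∈ P * A := by
      rw [hPA]
      exact Ideal.mem_span_singleton_self _
    exact (Ideal.mul_le_right (I := P) (J := A)) h1
  rw [Set.mem_iUnion₂]
  refine ⟨Ideal.absNorm P, ⟨hP, fun i => ω.repr ⟨γ, hγA⟩ i, fun i => ?_, ?_, ?_⟩, rfl⟩
  · have h1 := repr_modEq ω hcoA ⟨γ, hγA⟩ α hγα i
    rwa [hrepr] at h1
  · have h1 : (bA hA ω).equivFun (mixedEmbedding K (((⟨γ, hγA⟩ : A) : 𝓞 K) : K)) ∈ U := hγU
    rwa [bA_repr] at h1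
  · rw [ω.sum_repr, ← Ideal.absNorm_span_singleton, ← hPA, map_mul, mul_comm]

/-! ### Signs -/

/-- the norm form of a family of integers, on `ℝⁿ` -/
def nG (η : ι → 𝓞 K) (x : ι → ℝ) : ℝ :=
  (∑ i, x i • (Algebra.leftMulMatrix (RingOfIntegers.basis K) (η i)).map (Int.cast : ℤ → ℝ)).det

theorem nG_intCast (η : ι → 𝓞 K) (x : ι → ℤ) :
    nG η (fun i => (x i : ℝ)) = ((Algebra.norm ℤ (∑ i, x i • η i) : ℤ) : ℝ) := by
  have h1 : ∀ M : Matrix (Module.Free.ChooseBasisIndex ℤ (𝓞 K))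
      (Module.Free.ChooseBasisIndex ℤ (𝓞 K)) ℤ,
      ((M.det : ℤ) : ℝ) = (M.map (Int.cast : ℤ → ℝ)).det := fun M =>
    RingHom.map_det (Int.castRingHom ℝ) M
  rw [nG, Algebra.norm_eq_matrix_det (RingOfIntegers.basis K), h1]
  congr 1
  ext j k
  simp only [Matrix.map_apply, Matrix.sum_apply, map_smul, Matrix.smul_apply, smul_eq_mul, map_sum,
    Int.cast_sum, Int.cast_mul]

theorem continuous_nG (η : ι → 𝓞 K) : Continuous (nG η) := by
  unfold nG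
  refine Continuous.matrix_det (continuous_finsetSum _ fun i _ => ?_)
  exact (continuous_apply i).smul continuous_const

theorem nG_smul (η : ι → 𝓞 K) (c : ℝ) (x : ι → ℝ) :
    nG η (c • x) = c ^ Fintype.card (Module.Free.ChooseBasisIndex ℤ (𝓞 K)) * nG η x := by
  unfold nG
  rw [← Matrix.det_smul, Finset.smul_sum]
  congr 1
  exact Finset.sum_congr rfl fun i _ => by rw [Pi.smul_apply, smul_eq_mul, mul_smul]

theorem coe_sum_smul (ω : ι → A) (x : ι → ℤ) :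
    ((∑ i, x i • ω i : A) : 𝓞 K) = ∑ i, x i • (ω i : 𝓞 K) := by
  rw [Submodule.coe_sum]
  rfl

/-- **the primes `p = N(∑ x_i ω_i) / N(A)`**, if the norm form takes a positive value on `U` -/
theorem norm_form_primes_ideal_pos (hA : A ≠ ⊥) (ω : Module.Basis ι ℤ A) {U : Set (ι → ℝ)}
    (hU : IsOpen U) (hc : ∀ x ∈ U, ∀ c : ℝ, 0 < c → c • x ∈ U)
    (hpos : ∃ u ∈ U, 0 < nG (fun i => (ω i : 𝓞 K)) u) {m : ℕ}
    (hm : m ≠ 0) (hAm : (Ideal.absNorm A).Coprime m) {a : ι → ℤ}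
    (ha : IsCoprime (Algebra.norm ℤ ((∑ i, a i • ω i : A) : 𝓞 K)) (m : ℤ)) :
    {p : ℕ | p.Prime ∧ ∃ x : ι → ℤ, (∀ i, x i ≡ a i [ZMOD m]) ∧ (fun i => (x i : ℝ)) ∈ U ∧
      Algebra.norm ℤ ((∑ i, x i • ω i : A) : 𝓞 K) = Ideal.absNorm A * p}.Infinite := by
  obtain ⟨u, hu, hu0⟩ := hpos
  refine (norm_form_primes_ideal hA ω (U := U ∩ nG (fun i => (ω i : 𝓞 K)) ⁻¹' Set.Ioi 0)
    (hU.inter (isOpen_Ioi.preimage (continuous_nG _))) ⟨u, hu, hu0⟩ (fun x hx c hc0 =>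
      ⟨hc x hx.1 c hc0, ?_⟩) hm hAm ha).mono ?_
  · rw [Set.mem_preimage, Set.mem_Ioi, nG_smul]
    exact mul_pos (pow_pos hc0 _) hx.2
  · rintro p ⟨hp, x, hx, ⟨hxU, hx0⟩, hN⟩
    refine ⟨hp, x, hx, hxU, ?_⟩
    rw [Set.mem_preimage, Set.mem_Ioi, nG_intCast, ← coe_sum_smul] at hx0
    have h1 : 0 < Algebra.norm ℤ ((∑ i, x i • ω i : A) : 𝓞 K) := by exact_mod_cast hx0
    rw [← Int.natAbs_of_nonneg h1.le, hN, Nat.cast_mul]

/-- **the primes `p = -N(∑ x_i ω_i) / N(A)`**, if the norm form takes a negative value on `U` -/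
theorem norm_form_primes_ideal_neg (hA : A ≠ ⊥) (ω : Module.Basis ι ℤ A) {U : Set (ι → ℝ)}
    (hU : IsOpen U) (hc : ∀ x ∈ U, ∀ c : ℝ, 0 < c → c • x ∈ U)
    (hneg : ∃ u ∈ U, nG (fun i => (ω i : 𝓞 K)) u < 0) {m : ℕ}
    (hm : m ≠ 0) (hAm : (Ideal.absNorm A).Coprime m) {a : ι → ℤ}
    (ha : IsCoprime (Algebra.norm ℤ ((∑ i, a i • ω i : A) : 𝓞 K)) (m : ℤ)) :
    {p : ℕ | p.Prime ∧ ∃ x : ι → ℤ, (∀ i, x i ≡ a i [ZMOD m]) ∧ (fun i => (x i : ℝ)) ∈ U ∧
      Algebra.norm ℤ ((∑ i, x i • ω i : A) : 𝓞 K) = -(Ideal.absNorm A * p)}.Infinite := by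
  obtain ⟨u, hu, hu0⟩ := hneg
  refine (norm_form_primes_ideal hA ω (U := U ∩ nG (fun i => (ω i : 𝓞 K)) ⁻¹' Set.Iio 0)
    (hU.inter (isOpen_Iio.preimage (continuous_nG _))) ⟨u, hu, hu0⟩ (fun x hx c hc0 =>
      ⟨hc x hx.1 c hc0, ?_⟩) hm hAm ha).mono ?_
  · rw [Set.mem_preimage, Set.mem_Iio, nG_smul]
    exact mul_neg_of_pos_of_neg (pow_pos hc0 _) hx.2
  · rintro p ⟨hp, x, hx, ⟨hxU, hx0⟩, hN⟩
    refine ⟨hp, x, hx, hxU, ?_⟩
    rw [Set.mem_preimage, Set.mem_Iio, nG_intCast, ← coe_sum_smul] at hx0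
    have h1 : Algebra.norm ℤ ((∑ i, x i • ω i : A) : 𝓞 K) < 0 := by exact_mod_cast hx0
    have h2 := Int.ofNat_natAbs_of_nonpos h1.le
    rw [hN, Nat.cast_mul] at h2
    linarith

end Cone

end Fermat.Agent.Cor.RayG

end
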