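import Fermat.Agent.Corollaries.RayG.NonVanG
import Fermat.Agent.Corollaries.RayN.InfType

/-!
# Powers of Groessencharaktere and products with narrow ray class characters

If `ψ` is a Groessencharakter modulo `𝔪` of infinite order, `j ≠ 0` and `χ` a narrow ray class
character modulo `𝔪`, then `ψ ^ j * χ` is a Groessencharakter modulo `𝔪` of infinite order
(`GChar.exists_pow_mul`).
-/

set_option autoImplicit false
set_option linter.unusedSectionVars false

noncomputable section

open NumberField NumberField.InfinitePlace nonZeroDivisors Complex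

open scoped Classical ComplexConjugate

namespace Fermat.Agent.Cor.RayG

open Fermat.Agent.Classic.Zeta Fermat.Agent.Cor.Ray Fermat.Agent.Cor.RayN

universe u

/-- `z / |z|` -/
def un (z : ℂ) : ℂ := z / ((‖z‖ : ℝ) : ℂ)

theorem norm_un {z : ℂ} (hz : z ≠ 0) : ‖un z‖ = 1 := by
  rw [un, norm_div, Complex.norm_real, norm_norm, div_self (norm_ne_zero_iff.mpr hz)]

theorem un_ne_zero {z : ℂ} (hz : z ≠ 0) : un z ≠ 0 := by
  rw [← norm_ne_zero_iff, norm_un hz]
  exact one_ne_zero

theorem hz_div (k : ℤ) {z : ℂ} (h0 : z ≠ 0) :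
    hz k z / ((‖hz k z‖ : ℝ) : ℂ) = un z ^ k := by
  unfold hz
  split_ifs with hk
  · conv_rhs => rw [← Int.natAbs_of_nonneg hk, zpow_natCast, un, div_pow]
    rw [norm_pow, Complex.ofReal_pow]
  · have h1 : k = -(k.natAbs : ℤ) := by omega
    conv_rhs => rw [h1, zpow_neg, zpow_natCast, ← inv_pow, Complex.inv_eq_conj (norm_un h0), un,
      map_div₀, Complex.conj_ofReal, div_pow]
    rw [norm_pow, Complex.norm_conj, Complex.ofReal_pow]

variable {K : Type u} [Field K] [NumberField K] {𝔪 : Ideal (𝓞 K)}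
  {n : InfinitePlace K → ℤ} {κ : InfinitePlace K → ℝ}

theorem aG_eq_zpow (n : InfinitePlace K → ℤ) {x : K} (hx : x ≠ 0) :
    aG n x = ∏ w : InfinitePlace K, un (w.embedding x) ^ n w := by
  rw [aG_eq_prod]
  exact Finset.prod_congr rfl fun w _ => hz_div _ ((map_ne_zero _).mpr hx)

theorem aG_add (n n' : InfinitePlace K → ℤ) {x : K} (hx : x ≠ 0) :
    aG (n + n') x = aG n x * aG n' x := by
  rw [aG_eq_zpow _ hx, aG_eq_zpow _ hx, aG_eq_zpow _ hx, ← Finset.prod_mul_distrib]
  exact Finset.prod_congr rfl fun w _ => zpow_add₀ (un_ne_zero ((map_ne_zero _).mpr hx)) _ _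

theorem aG_nsmul (j : ℕ) (n : InfinitePlace K → ℤ) {x : K} (hx : x ≠ 0) :
    aG (j • n) x = aG n x ^ j := by
  rw [aG_eq_zpow _ hx, aG_eq_zpow _ hx, ← Finset.prod_pow]
  refine Finset.prod_congr rfl fun w _ => ?_
  rw [Pi.smul_apply, nsmul_eq_mul, mul_comm, zpow_mul, zpow_natCast]

theorem un_mul_self_of_real {w : InfinitePlace K} (hw : IsReal w) {x : K} (hx : x ≠ 0) :
    un (w.embedding x) * un (w.embedding x) = 1 := by
  have h1 : conj (w.embedding x) = w.embedding x := RingHom.congr_fun (isReal_iff.mp hw) x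
  have h2 : conj (un (w.embedding x)) = un (w.embedding x) := by
    rw [un, map_div₀, Complex.conj_ofReal, h1]
  have h3 := conj_mul_self_of_norm (norm_un ((map_ne_zero w.embedding).mpr hx))
  rwa [h2] at h3

/-- the exponents at the real places modulo two -/
def redG (n : InfinitePlace K → ℤ) (w : InfinitePlace K) : ℤ := if IsReal w then n w % 2 else n w

theorem aG_redG (n : InfinitePlace K → ℤ) {x : K} (hx : x ≠ 0) : aG (redG n) x = aG n x := by
  rw [aG_eq_zpow _ hx, aG_eq_zpow _ hx]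
  refine Finset.prod_congr rfl fun w _ => ?_
  rw [redG]
  split_ifs with hw
  · have h0 : un (w.embedding x) ≠ 0 := un_ne_zero ((map_ne_zero _).mpr hx)
    have h1 : un (w.embedding x) ^ (2 : ℤ) = 1 := by
      rw [zpow_two]
      exact un_mul_self_of_real hw hx
    conv_rhs => rw [← Int.emod_add_mul_ediv (n w) 2, zpow_add₀ h0, zpow_mul, h1, one_zpow, mul_one]
  · rfl

theorem lK_nsmul (j : ℕ) (κ : InfinitePlace K → ℝ) (x : K) : lK (j • κ) x = j * lK κ x := by
  unfold lK
  rw [Finset.mul_sum]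
  refine Finset.sum_congr rfl fun w _ => ?_
  rw [Pi.smul_apply, nsmul_eq_mul, mul_assoc]

theorem eI_nat_mul (j : ℕ) (r : ℝ) : eI (j * r) = eI r ^ j := by
  rw [eI, eI, ← Complex.exp_nat_mul]
  congr 1
  push_cast
  ring

/-- the type of a sign character -/
def nS (S : Finset (RP K)) (w : InfinitePlace K) : ℤ :=
  if w ∈ S.map (Function.Embedding.subtype _) then 1 else 0

theorem un_real (w : RP K) {x : K} (hx : x ≠ 0) :
    un (w.1.embedding x) = (((if em w x < 0 then (-1 : ℝ) else 1) : ℝ) : ℂ) := by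
  have h1 : w.1.embedding x = ((em w x : ℝ) : ℂ) := (embedding_of_isReal_apply w.2 x).symm
  have h2 : em w x ≠ 0 := (map_ne_zero (em w)).mpr hx
  rw [un, h1, Complex.norm_real, Real.norm_eq_abs]
  split_ifs with h
  · rw [abs_of_neg h, Complex.ofReal_neg, div_neg, div_self (by exact_mod_cast h2),
      Complex.ofReal_neg, Complex.ofReal_one]
  · rw [abs_of_nonneg (not_lt.mp h), div_self (by exact_mod_cast h2), Complex.ofReal_one]

theorem aG_nS (S : Finset (RP K)) {x : K} (hx : x ≠ 0) : aG (nS S) x = ((sg S x : ℝ) : ℂ) := by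
  rw [aG_eq_zpow _ hx, sg_eq_prod S hx, Complex.ofReal_prod]
  have h1 : ∀ w : InfinitePlace K, un (w.embedding x) ^ nS S w =
      if w ∈ S.map (Function.Embedding.subtype _) then un (w.embedding x) else 1 := by
    intro w
    rw [nS]
    split_ifs
    · rw [zpow_one]
    · rw [zpow_zero]
  rw [Finset.prod_congr rfl fun w _ => h1 w, Finset.prod_ite_mem, Finset.univ_inter,
    Finset.prod_map]
  exact Finset.prod_congr rfl fun w _ => un_real w hx

/-- **The type of `ψ ^ j * χ`.** -/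
theorem chi_comb (j : ℕ) (S : Finset (RP K)) {x : K} (hx : x ≠ 0) :
    chi (redG (j • n + nS S)) (j • κ) x = chi n κ x ^ j * ((sg S x : ℝ) : ℂ) := by
  rw [chi, chi, aG_redG _ hx, aG_add _ _ hx, aG_nsmul _ _ hx, aG_nS S hx, lK_nsmul, eI_nat_mul,
    mul_pow]
  ring

theorem isTy_comb (h : IsTy n κ) (j : ℕ) (S : Finset (RP K)) :
    IsTy (redG (j • n + nS S)) (j • κ) where
  real w hw := by
    rw [redG, if_pos hw]
    omega
  sum := by
    have h1 : ∀ w : InfinitePlace K, (j • κ) w = j * κ w := fun w => by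
      rw [Pi.smul_apply, nsmul_eq_mul]
    simp only [h1]
    rw [← Finset.mul_sum, h.sum, mul_zero]

theorem isInf_comb (h : IsInf n κ) {j : ℕ} (hj : j ≠ 0) (S : Finset (RP K)) :
    IsInf (redG (j • n + nS S)) (j • κ) := by
  rcases h with h | ⟨w, hw, hn⟩
  · refine Or.inl fun h0 => h (funext fun w => ?_)
    have h1 : (j • κ) w = 0 := congrFun h0 w
    rw [Pi.smul_apply, nsmul_eq_mul, mul_eq_zero] at h1
    exact h1.resolve_left (by exact_mod_cast hj)
  · refine Or.inr ⟨w, hw, ?_⟩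
    have h2 : nS S w = 0 := by
      rw [nS, if_neg]
      intro h3
      obtain ⟨w', -, rfl⟩ := Finset.mem_map.mp h3
      exact not_isReal_iff_isComplex.mpr hw w'.2
    rw [redG, if_neg (not_isReal_iff_isComplex.mpr hw), Pi.add_apply, h2, add_zero,
      Pi.smul_apply, nsmul_eq_mul]
    exact mul_ne_zero (by exact_mod_cast hj) hn

/-- **Powers of Groessencharaktere of infinite order times narrow ray class characters.** -/
theorem GChar.exists_pow_mul (h𝔪 : 𝔪 ≠ ⊥) (hty : IsTy n κ) (hinf : IsInf n κ)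
    {ψ χ : (Ideal (𝓞 K))⁰ →* ℂ} (hψ : GChar n κ 𝔪 ψ) (hχ : NRayChar 𝔪 χ) {j : ℕ} (hj : j ≠ 0) :
    ∃ (n' : InfinitePlace K → ℤ) (κ' : InfinitePlace K → ℝ), IsTy n' κ' ∧ IsInf n' κ' ∧
      GChar n' κ' 𝔪 (ψ ^ j * χ) := by
  obtain ⟨S, hS⟩ := hχ.exists_S h𝔪
  refine ⟨_, _, isTy_comb hty j S, isInf_comb hinf hj S, ?_, fun I hI => ?_, fun a ha ha1 => ?_⟩
  · intro I
    rw [MonoidHom.mul_apply, MonoidHom.pow_apply, norm_mul, norm_pow]
    exact mul_le_one₀ (pow_le_one₀ (norm_nonneg _) (hψ.norm_le I)) (norm_nonneg _) (hχ.norm_le I)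
  · rw [MonoidHom.mul_apply, hχ.eq_zero I hI, mul_zero]
  · have ha' : ((a : 𝓞 K) : K) ≠ 0 := coe_ne_zeroF ha
    rw [MonoidHom.mul_apply, MonoidHom.pow_apply, hψ.cong a ha ha1, hS a ha ha1,
      chi_comb j S ha']

end Fermat.Agent.Cor.RayG

end
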