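import Fermat.Agent.Corollaries.RayG.Narrow

/-!
# Hecke's theorem for real quadratic fields, with signs

Prime elements `π ≡ α` modulo `𝔪`, of the signs of `α`, with `log|σ(π)/τ(π)|` in an interval.
-/

set_option autoImplicit false
set_option linter.unusedSectionVars false

noncomputable section

open NumberField NumberField.InfinitePlace nonZeroDivisors Complex Filter Topology

open scoped Classical ComplexConjugate

namespace Fermat.Agent.Cor.RayG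

open Fermat.Agent.ClassL Fermat.Agent.Classic.Zeta Fermat.Agent.Cor.Ray Fermat.Agent.Cor.RayN

universe u

variable {K : Type u} [Field K] [NumberField K] {𝔪 : Ideal (𝓞 K)} {α : 𝓞 K}

/-- the values of a linear form at the totally positive units `≡ 1` modulo `𝔪` -/
def unitValuesN (𝔪 : Ideal (𝓞 K)) (κ : InfinitePlace K → ℝ) : AddSubgroup ℝ where
  carrier := {t | ∃ v : (𝓞 K)ˣ, (v : 𝓞 K) - 1 ∈ 𝔪 ∧ (∀ w : RP K, 0 < em w ((v : 𝓞 K) : K)) ∧
    lK κ ((v : 𝓞 K) : K) = t}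
  zero_mem' := ⟨1, by rw [Units.val_one, sub_self]; exact 𝔪.zero_mem, fun w => by
    rw [Units.val_one]
    have h1 : ((1 : 𝓞 K) : K) = 1 := rfl
    rw [h1, map_one]
    exact one_pos, by
    rw [Units.val_one]; exact lK_one κ⟩
  add_mem' := by
    rintro _ _ ⟨v, hv, hs, rfl⟩ ⟨v', hv', hs', rfl⟩
    have h0 : (((v * v' : (𝓞 K)ˣ) : 𝓞 K) : K) = ((v : 𝓞 K) : K) * ((v' : 𝓞 K) : K) := rfl
    refine ⟨v * v', ?_, fun w => ?_, ?_⟩
    · have h1 : ((v * v' : (𝓞 K)ˣ) : 𝓞 K) - 1 = (v : 𝓞 K) * ((v' : 𝓞 K) - 1) +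
          ((v : 𝓞 K) - 1) := by
        push_cast
        ring
      rw [h1]
      exact 𝔪.add_mem (𝔪.mul_mem_left _ hv') hv
    · rw [h0, map_mul]
      exact mul_pos (hs w) (hs' w)
    · rw [h0]
      exact lK_mul κ (by exact_mod_cast v.ne_zero) (by exact_mod_cast v'.ne_zero)
  neg_mem' := by
    rintro _ ⟨v, hv, hs, rfl⟩
    have h2 : ((v⁻¹ : (𝓞 K)ˣ) : 𝓞 K) * (v : 𝓞 K) = 1 := Units.inv_mul v
    have h0 : (((v⁻¹ : (𝓞 K)ˣ) : 𝓞 K) : K) * ((v : 𝓞 K) : K) = 1 := by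
      have h3 : ((((v⁻¹ : (𝓞 K)ˣ) : 𝓞 K) * (v : 𝓞 K) : 𝓞 K) : K) =
        (((v⁻¹ : (𝓞 K)ˣ) : 𝓞 K) : K) * ((v : 𝓞 K) : K) := rfl
      rw [← h3, h2]
      rfl
    refine ⟨v⁻¹, ?_, fun w => ?_, ?_⟩
    · have h1 : ((v⁻¹ : (𝓞 K)ˣ) : 𝓞 K) - 1 = -(((v⁻¹ : (𝓞 K)ˣ) : 𝓞 K) * ((v : 𝓞 K) - 1)) := by
        rw [mul_sub, Units.inv_mul, mul_one, neg_sub]
      rw [h1]
      exact 𝔪.neg_mem (𝔪.mul_mem_left _ hv)
    · have h3 := congrArg (em w) h0
      rw [map_mul, map_one] at h3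
      by_contra hc
      have h4 := mul_nonpos_of_nonpos_of_nonneg (not_lt.mp hc) (hs w).le
      rw [h3] at h4
      exact absurd h4 (by norm_num)
    · have h4 := lK_mul κ (x := (((v⁻¹ : (𝓞 K)ˣ) : 𝓞 K) : K)) (y := ((v : 𝓞 K) : K))
        (by exact_mod_cast (v⁻¹).ne_zero) (by exact_mod_cast v.ne_zero)
      rw [h0, lK_one] at h4
      linarith

/-- **The period of the totally positive units `≡ 1` modulo `𝔪`.** -/
theorem exists_period_narrow (h2 : Fintype.card (InfinitePlace K) = 2) {w₁ w₂ : InfinitePlace K}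
    (hw : w₁ ≠ w₂) (h𝔪 : 𝔪 ≠ ⊥) : ∃ L : ℝ, 0 < L ∧ ∀ t : ℝ,
      (∃ v : (𝓞 K)ˣ, (v : 𝓞 K) - 1 ∈ 𝔪 ∧ (∀ w : RP K, 0 < em w ((v : 𝓞 K) : K)) ∧
        lK (kap w₁ w₂) ((v : 𝓞 K) : K) = t) ↔ ∃ j : ℤ, t = j * L := by
  obtain ⟨L₀, hL₀, h0⟩ := exists_period h2 hw h𝔪
  have hmem : ∀ t : ℝ, t ∈ unitValuesN 𝔪 (kap w₁ w₂) ↔
      ∃ v : (𝓞 K)ˣ, (v : 𝓞 K) - 1 ∈ 𝔪 ∧ (∀ w : RP K, 0 < em w ((v : 𝓞 K) : K)) ∧
        lK (kap w₁ w₂) ((v : 𝓞 K) : K) = t := fun t => Iff.rfl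
  have hsub : ∀ t ∈ unitValuesN 𝔪 (kap w₁ w₂), ∃ j : ℤ, t = j * L₀ := fun t ht => by
    obtain ⟨v, hv, -, hvt⟩ := (hmem t).mp ht
    exact (h0 t).mp ⟨v, hv, hvt⟩
  have hz : ∀ t ∈ unitValuesN 𝔪 (kap w₁ w₂), ∀ j : ℤ, (j : ℝ) * t ∈ unitValuesN 𝔪 (kap w₁ w₂) :=
    fun t ht j => by
      rw [← zsmul_eq_mul]
      exact AddSubgroup.zsmul_mem _ ht j
  have htwo : 2 * L₀ ∈ unitValuesN 𝔪 (kap w₁ w₂) := by
    obtain ⟨v, hv, hvt⟩ := (h0 L₀).mpr ⟨1, by rw [Int.cast_one, one_mul]⟩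
    have h3 : (((v * v : (𝓞 K)ˣ) : 𝓞 K) : K) = ((v : 𝓞 K) : K) * ((v : 𝓞 K) : K) := rfl
    refine (hmem _).mpr ⟨v * v, ?_, fun w => ?_, ?_⟩
    · have h1 : ((v * v : (𝓞 K)ˣ) : 𝓞 K) - 1 = (v : 𝓞 K) * ((v : 𝓞 K) - 1) +
          ((v : 𝓞 K) - 1) := by
        push_cast
        ring
      rw [h1]
      exact 𝔪.add_mem (𝔪.mul_mem_left _ hv) hv
    · rw [h3, map_mul]
      exact mul_self_pos.mpr (em_ne_zero v.ne_zero w)
    · rw [h3, lK_mul _ (by exact_mod_cast v.ne_zero) (by exact_mod_cast v.ne_zero), hvt]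
      ring
  by_cases hA : L₀ ∈ unitValuesN 𝔪 (kap w₁ w₂)
  · refine ⟨L₀, hL₀, fun t => ?_⟩
    rw [← hmem]
    constructor
    · exact hsub t
    · rintro ⟨j, rfl⟩
      exact hz _ hA j
  · refine ⟨2 * L₀, by positivity, fun t => ?_⟩
    rw [← hmem]
    constructor
    · intro ht
      obtain ⟨j, hj⟩ := hsub t ht
      rcases Int.even_or_odd j with ⟨k, hk⟩ | ⟨k, hk⟩
      · refine ⟨k, ?_⟩
        rw [hj, hk]
        push_cast
        ring
      · exfalso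
        refine hA ?_
        have h3 : L₀ = t - (k : ℝ) * (2 * L₀) := by
          rw [hj, hk]
          push_cast
          ring
        rw [h3]
        exact AddSubgroup.sub_mem _ ht (hz _ htwo k)
    · rintro ⟨j, rfl⟩
      exact hz _ htwo j

/-- **Hecke's theorem with signs, for the fields with two infinite places.** -/
theorem hecke_two_places_signs (h2 : Fintype.card (InfinitePlace K) = 2)
    {w₁ w₂ : InfinitePlace K} (hw : w₁ ≠ w₂) (h𝔪 : 𝔪 ≠ ⊥) : ∃ L : ℝ, 0 < L ∧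
      (∀ t : ℝ, (∃ v : (𝓞 K)ˣ, (v : 𝓞 K) - 1 ∈ 𝔪 ∧ (∀ w : RP K, 0 < em w ((v : 𝓞 K) : K)) ∧
        Real.log (w₁ ((v : 𝓞 K) : K)) - Real.log (w₂ ((v : 𝓞 K) : K)) = t) ↔
          ∃ j : ℤ, t = j * L) ∧
      ∀ α : 𝓞 K, α ≠ 0 → IsCoprime (Ideal.span {α}) 𝔪 → ∀ a b : ℝ, a ≤ b → b ≤ a + L →
        Tendsto (fun x : ℕ => (Nat.card {I : Ideal (𝓞 K) // Ideal.absNorm I ≤ x ∧
          ∃ π : 𝓞 K, Prime π ∧ π - α ∈ 𝔪 ∧ I = Ideal.span {π} ∧
            (∀ w : RP K, 0 < em w (π : K) * em w (α : K)) ∧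
            a < Real.log (w₁ (π : K)) - Real.log (w₂ (π : K)) ∧
            Real.log (w₁ (π : K)) - Real.log (w₂ (π : K)) < b} : ℝ) * Real.log x / x) atTop
          (𝓝 ((b - a) / (L * nRayNumber 𝔪))) := by
  obtain ⟨L, hL, hu⟩ := exists_period_narrow h2 hw h𝔪
  refine ⟨L, hL, ?_, fun α hα0 hα a b hab hb => ?_⟩
  · simpa only [lK_kap] using hu
  · have key := equidistribution_log_signs h𝔪 (sum_kap w₁ w₂) (kap_ne_zero hw) hL hu hα hα0 hab hb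
    simp only [lK_kap] at key
    refine key.congr fun x => ?_
    have h3 := card_primes_eq (𝔪 := 𝔪) (α := α) (fun π : 𝓞 K => SameSigns π α ∧
      a < Real.log (w₁ (π : K)) - Real.log (w₂ (π : K)) ∧
      Real.log (w₁ (π : K)) - Real.log (w₂ (π : K)) < b) x
    rw [h3]
    rfl

/-! ### The real places of a real quadratic field -/

theorem isReal_mk_real (σ : K →+* ℝ) :
    (InfinitePlace.mk (Complex.ofRealHom.comp σ)).IsReal := by
  rw [InfinitePlace.isReal_mk_iff, ComplexEmbedding.isReal_iff]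
  ext z
  exact Complex.conj_ofReal _

theorem em_mk_real (σ : K →+* ℝ) (x : K) :
    em ⟨InfinitePlace.mk (Complex.ofRealHom.comp σ), isReal_mk_real σ⟩ x = σ x := by
  have h1 : ComplexEmbedding.IsReal (Complex.ofRealHom.comp σ) :=
    InfinitePlace.isReal_mk_iff.mp (isReal_mk_real σ)
  have h2 : ((em ⟨InfinitePlace.mk (Complex.ofRealHom.comp σ), isReal_mk_real σ⟩ x : ℝ) : ℂ) =
      ((σ x : ℝ) : ℂ) := by
    rw [RayN.em, InfinitePlace.embedding_of_isReal_apply, InfinitePlace.embedding_mk_eq_of_isReal h1]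
    rfl
  exact Complex.ofReal_injective h2

/-- a statement for all real places of a real quadratic field -/
theorem forall_RP_iff (h2 : Module.finrank ℚ K = 2) {σ τ : K →+* ℝ} (hστ : σ ≠ τ)
    {p : (K →+* ℝ) → Prop} : (∀ w : RP K, p (em w)) ↔ p σ ∧ p τ := by
  have hw := mk_real_ne hστ
  have hσ : em ⟨InfinitePlace.mk (Complex.ofRealHom.comp σ), isReal_mk_real σ⟩ = σ :=
    RingHom.ext (em_mk_real σ)
  have hτ : em ⟨InfinitePlace.mk (Complex.ofRealHom.comp τ), isReal_mk_real τ⟩ = τ :=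
    RingHom.ext (em_mk_real τ)
  constructor
  · intro h
    have h3 := h ⟨InfinitePlace.mk (Complex.ofRealHom.comp σ), isReal_mk_real σ⟩
    have h4 := h ⟨InfinitePlace.mk (Complex.ofRealHom.comp τ), isReal_mk_real τ⟩
    rw [hσ] at h3
    rw [hτ] at h4
    exact ⟨h3, h4⟩
  · rintro ⟨h3, h4⟩ ⟨w, hr⟩
    rcases eq_or_eq_of_card (card_places_real_quadratic h2 hw) hw w with h5 | h5
    · subst h5
      rw [← hσ] at h3
      exact h3
    · subst h5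
      rw [← hτ] at h4
      exact h4

/-- **Hecke's theorem on the prime elements of real quadratic fields, with signs.** Let `K` be a
real quadratic field, `σ ≠ τ` its embeddings in `ℝ`, `𝔪 ≠ 0` an ideal. Then there is `L > 0` such
that the numbers `log (σ(v)/τ(v))`, `v` a totally positive unit `≡ 1` modulo `𝔪`, are the multiples
of `L`, and for every `α ≠ 0` prime to `𝔪` and `a ≤ b ≤ a + L` the number of the prime ideals `(π)`
with norm at most `x`, `π ≡ α` modulo `𝔪`, `σ(π) σ(α) > 0`, `τ(π) τ(α) > 0`,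
`a < log |σ(π)/τ(π)| < b` is `~ (b - a) / (L h_𝔪⁺) * x / log x`. -/
theorem hecke_real_quadratic_signs (h2 : Module.finrank ℚ K = 2) {σ τ : K →+* ℝ} (hστ : σ ≠ τ)
    (h𝔪 : 𝔪 ≠ ⊥) : ∃ L : ℝ, 0 < L ∧
      (∀ t : ℝ, (∃ v : (𝓞 K)ˣ, (v : 𝓞 K) - 1 ∈ 𝔪 ∧ (0 < σ ((v : 𝓞 K) : K) ∧
        0 < τ ((v : 𝓞 K) : K)) ∧
        Real.log |σ ((v : 𝓞 K) : K) / τ ((v : 𝓞 K) : K)| = t) ↔ ∃ j : ℤ, t = j * L) ∧
      ∀ α : 𝓞 K, α ≠ 0 → IsCoprime (Ideal.span {α}) 𝔪 → ∀ a b : ℝ, a ≤ b → b ≤ a + L →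
        Tendsto (fun x : ℕ => (Nat.card {I : Ideal (𝓞 K) // Ideal.absNorm I ≤ x ∧
          ∃ π : 𝓞 K, Prime π ∧ π - α ∈ 𝔪 ∧ I = Ideal.span {π} ∧
            (0 < σ (π : K) * σ (α : K) ∧ 0 < τ (π : K) * τ (α : K)) ∧
            a < Real.log |σ (π : K) / τ (π : K)| ∧ Real.log |σ (π : K) / τ (π : K)| < b} : ℝ) *
          Real.log x / x) atTop (𝓝 ((b - a) / (L * nRayNumber 𝔪))) := by
  have hw := mk_real_ne hστ
  obtain ⟨L, hL, h3, h4⟩ := hecke_two_places_signs (card_places_real_quadratic h2 hw) hw h𝔪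
  have hlog : ∀ x : 𝓞 K, x ≠ 0 → Real.log |σ (x : K) / τ (x : K)| =
      Real.log (InfinitePlace.mk (Complex.ofRealHom.comp σ) (x : K)) -
        Real.log (InfinitePlace.mk (Complex.ofRealHom.comp τ) (x : K)) := by
    intro x hx
    have hx' : (x : K) ≠ 0 := by exact_mod_cast hx
    rw [mk_real_apply, mk_real_apply, abs_div, Real.log_div (abs_ne_zero.mpr
      ((map_ne_zero σ).mpr hx')) (abs_ne_zero.mpr ((map_ne_zero τ).mpr hx'))]
  refine ⟨L, hL, fun t => ?_, fun α hα0 hα a b hab hb => ?_⟩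
  · rw [← h3 t]
    refine exists_congr fun v => and_congr_right fun _ => ?_
    rw [hlog _ v.ne_zero, forall_RP_iff h2 hστ (p := fun e => 0 < e ((v : 𝓞 K) : K))]
  · refine (h4 α hα0 hα a b hab hb).congr fun x => ?_
    congr 3
    refine Nat.card_congr (Equiv.subtypeEquivRight fun I => and_congr_right fun _ =>
      exists_congr fun π => and_congr_right fun hπ => ?_)
    rw [hlog π hπ.ne_zero, forall_RP_iff h2 hστ (p := fun e => 0 < e (π : K) * e (α : K))]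

end Fermat.Agent.Cor.RayG

end
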