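import Fermat.Agent.Corollaries.RayG.RealQuad

/-!
# Hecke's theorem for the fields with two infinite places, in particular real quadratic fields

`hecke_real_quadratic`: prime elements `π ≡ α` modulo `𝔪` with `log|σ(π)/τ(π)|` in an interval.
-/

set_option autoImplicit false
set_option linter.unusedSectionVars false

noncomputable section

open NumberField NumberField.InfinitePlace nonZeroDivisors Complex Filter Topology

open scoped Classical ComplexConjugate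

namespace Fermat.Agent.Cor.RayG

open Fermat.Agent.ClassL Fermat.Agent.Classic.Zeta Fermat.Agent.Cor.Ray

universe u

variable {K : Type u} [Field K] [NumberField K] {𝔪 : Ideal (𝓞 K)} {α : 𝓞 K}

/-! ### Fields with two infinite places -/

/-- `κ = δ_{w₁} - δ_{w₂}` -/
def kap (w₁ w₂ : InfinitePlace K) (w : InfinitePlace K) : ℝ :=
  (if w = w₁ then 1 else 0) - (if w = w₂ then 1 else 0)

theorem sum_kap (w₁ w₂ : InfinitePlace K) : ∑ w, kap w₁ w₂ w = 0 := by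
  unfold kap
  rw [Finset.sum_sub_distrib, Finset.sum_ite_eq', Finset.sum_ite_eq', if_pos (Finset.mem_univ _),
    if_pos (Finset.mem_univ _), sub_self]

theorem kap_ne_zero {w₁ w₂ : InfinitePlace K} (h : w₁ ≠ w₂) : kap w₁ w₂ ≠ 0 := by
  intro h0
  have h1 := congrFun h0 w₁
  rw [kap, if_pos rfl, if_neg h, sub_zero] at h1
  exact one_ne_zero h1

theorem lK_kap (w₁ w₂ : InfinitePlace K) (x : K) :
    lK (kap w₁ w₂) x = Real.log (w₁ x) - Real.log (w₂ x) := by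
  unfold lK kap
  simp only [sub_mul, ite_mul, one_mul, zero_mul]
  rw [Finset.sum_sub_distrib, Finset.sum_ite_eq', Finset.sum_ite_eq', if_pos (Finset.mem_univ _),
    if_pos (Finset.mem_univ _)]

theorem eq_or_eq_of_card (h2 : Fintype.card (InfinitePlace K) = 2) {w₁ w₂ : InfinitePlace K}
    (hw : w₁ ≠ w₂) (w : InfinitePlace K) : w = w₁ ∨ w = w₂ := by
  by_contra h
  push Not at h
  have h3 : ({w₁, w₂, w} : Finset (InfinitePlace K)).card = 3 := by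
    rw [Finset.card_insert_of_notMem, Finset.card_insert_of_notMem, Finset.card_singleton]
    · rw [Finset.mem_singleton]
      exact h.2.symm
    · rw [Finset.mem_insert, Finset.mem_singleton, not_or]
      exact ⟨hw, h.1.symm⟩
  have h4 := Finset.card_le_univ ({w₁, w₂, w} : Finset (InfinitePlace K))
  omega

theorem sum_eq_of_card (h2 : Fintype.card (InfinitePlace K) = 2) {w₁ w₂ : InfinitePlace K}
    (hw : w₁ ≠ w₂) (f : InfinitePlace K → ℝ) : ∑ w, f w = f w₁ + f w₂ := by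
  have h3 : (Finset.univ : Finset (InfinitePlace K)) = {w₁, w₂} := by
    ext w
    simp only [Finset.mem_univ, Finset.mem_insert, Finset.mem_singleton, true_iff]
    exact eq_or_eq_of_card h2 hw w
  rw [h3, Finset.sum_pair hw]

/-- only finitely many units have a small `log |v|_{w₁} - log |v|_{w₂}` -/
theorem finite_small_units (h2 : Fintype.card (InfinitePlace K) = 2) {w₁ w₂ : InfinitePlace K}
    (hw : w₁ ≠ w₂) : {v : (𝓞 K)ˣ | |lK (kap w₁ w₂) ((v : 𝓞 K) : K)| < 1}.Finite := by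
  have hfin := Embeddings.finite_of_norm_le K ℂ (Real.exp 1)
  refine Set.Finite.of_injOn (f := fun v : (𝓞 K)ˣ => ((v : 𝓞 K) : K)) (fun v hv => ?_)
    (fun v _ v' _ h => Units.ext (RingOfIntegers.ext h)) hfin
  refine ⟨RingOfIntegers.isIntegral_coe _, (InfinitePlace.le_iff_le _ _).mp fun w => ?_⟩
  have hv' : |Real.log (w₁ ((v : 𝓞 K) : K)) - Real.log (w₂ ((v : 𝓞 K) : K))| < 1 := by
    rw [← lK_kap]
    exact hv
  have h3 := NumberField.Units.sum_mult_mul_log v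
  rw [sum_eq_of_card h2 hw] at h3
  have hm1 : (1 : ℝ) ≤ w₁.mult := by exact_mod_cast w₁.mult_pos
  have hm2 : (1 : ℝ) ≤ w₂.mult := by exact_mod_cast w₂.mult_pos
  have hpos : ∀ w : InfinitePlace K, 0 < w ((v : 𝓞 K) : K) := fun w =>
    w.pos_iff.mpr (by exact_mod_cast v.ne_zero)
  rw [abs_lt] at hv'
  obtain ⟨h4, h5⟩ := hv'
  have h6 : Real.log (w ((v : 𝓞 K) : K)) ≤ 1 := by
    rcases eq_or_eq_of_card h2 hw w with rfl | rfl
    · by_contra hc
      push Not at hc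
      have h7 : 0 < Real.log (w₂ ((v : 𝓞 K) : K)) := by linarith
      have h8 : 0 < (w.mult : ℝ) * Real.log (w ((v : 𝓞 K) : K)) := by positivity
      have h9 : 0 < (w₂.mult : ℝ) * Real.log (w₂ ((v : 𝓞 K) : K)) := by positivity
      have h10 : (w.mult : ℝ) * Real.log (w ((v : 𝓞 K) : K)) +
        (w₂.mult : ℝ) * Real.log (w₂ ((v : 𝓞 K) : K)) = 0 := h3
      linarith
    · by_contra hc
      push Not at hc
      have h7 : 0 < Real.log (w₁ ((v : 𝓞 K) : K)) := by linarith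
      have h8 : 0 < (w.mult : ℝ) * Real.log (w ((v : 𝓞 K) : K)) := by positivity
      have h9 : 0 < (w₁.mult : ℝ) * Real.log (w₁ ((v : 𝓞 K) : K)) := by positivity
      have h10 : (w₁.mult : ℝ) * Real.log (w₁ ((v : 𝓞 K) : K)) +
        (w.mult : ℝ) * Real.log (w ((v : 𝓞 K) : K)) = 0 := h3
      linarith
  rw [← Real.exp_log (hpos w)]
  exact Real.exp_le_exp.mpr h6

/-- the values of a linear form at the units `≡ 1` modulo `𝔪` -/
def unitValues (𝔪 : Ideal (𝓞 K)) (κ : InfinitePlace K → ℝ) : AddSubgroup ℝ where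
  carrier := {t | ∃ v : (𝓞 K)ˣ, (v : 𝓞 K) - 1 ∈ 𝔪 ∧ lK κ ((v : 𝓞 K) : K) = t}
  zero_mem' := ⟨1, by rw [Units.val_one, sub_self]; exact 𝔪.zero_mem, by
    rw [Units.val_one]; exact lK_one κ⟩
  add_mem' := by
    rintro _ _ ⟨v, hv, rfl⟩ ⟨v', hv', rfl⟩
    refine ⟨v * v', ?_, ?_⟩
    · have h1 : ((v * v' : (𝓞 K)ˣ) : 𝓞 K) - 1 = (v : 𝓞 K) * ((v' : 𝓞 K) - 1) +
          ((v : 𝓞 K) - 1) := by
        push_cast
        ring
      rw [h1]
      exact 𝔪.add_mem (𝔪.mul_mem_left _ hv') hv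
    · have h1 : (((v * v' : (𝓞 K)ˣ) : 𝓞 K) : K) = ((v : 𝓞 K) : K) * ((v' : 𝓞 K) : K) := rfl
      rw [h1]
      exact lK_mul κ (by exact_mod_cast v.ne_zero) (by exact_mod_cast v'.ne_zero)
  neg_mem' := by
    rintro _ ⟨v, hv, rfl⟩
    refine ⟨v⁻¹, ?_, ?_⟩
    · have h1 : ((v⁻¹ : (𝓞 K)ˣ) : 𝓞 K) - 1 = -(((v⁻¹ : (𝓞 K)ˣ) : 𝓞 K) * ((v : 𝓞 K) - 1)) := by
        rw [mul_sub, Units.inv_mul, mul_one, neg_sub]
      rw [h1]
      exact 𝔪.neg_mem (𝔪.mul_mem_left _ hv)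
    · have h2 : ((v⁻¹ : (𝓞 K)ˣ) : 𝓞 K) * (v : 𝓞 K) = 1 := Units.inv_mul v
      have h1 : (((v⁻¹ : (𝓞 K)ˣ) : 𝓞 K) : K) * ((v : 𝓞 K) : K) = 1 := by
        have h3 : ((((v⁻¹ : (𝓞 K)ˣ) : 𝓞 K) * (v : 𝓞 K) : 𝓞 K) : K) =
          (((v⁻¹ : (𝓞 K)ˣ) : 𝓞 K) : K) * ((v : 𝓞 K) : K) := rfl
        rw [← h3, h2]
        rfl
      have h4 := lK_mul κ (x := (((v⁻¹ : (𝓞 K)ˣ) : 𝓞 K) : K)) (y := ((v : 𝓞 K) : K))
        (by exact_mod_cast (v⁻¹).ne_zero) (by exact_mod_cast v.ne_zero)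
      rw [h1, lK_one] at h4
      linarith

/-- a power of a unit is `≡ 1` modulo `𝔪` -/
theorem exists_pow_sub_one_mem (h𝔪 : 𝔪 ≠ ⊥) (v : (𝓞 K)ˣ) :
    ∃ N : ℕ, 0 < N ∧ ((v ^ N : (𝓞 K)ˣ) : 𝓞 K) - 1 ∈ 𝔪 := by
  have : Finite (𝓞 K ⧸ 𝔪) := Ideal.finiteQuotientOfFreeOfNeBot 𝔪 h𝔪
  refine ⟨Nat.card (𝓞 K ⧸ 𝔪)ˣ, Nat.card_pos, ?_⟩
  rw [← Ideal.Quotient.eq, map_one]
  have h1 : (Units.map (Ideal.Quotient.mk 𝔪 : 𝓞 K →* 𝓞 K ⧸ 𝔪) v) ^ Nat.card (𝓞 K ⧸ 𝔪)ˣ = 1 :=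
    pow_card_eq_one'
  rw [← map_pow] at h1
  exact congrArg Units.val h1

/-- **The period**: in a field with two infinite places the values of `log |v|_{w₁} - log |v|_{w₂}`
at the units `≡ 1` modulo `𝔪` are the multiples of some `L > 0`. -/
theorem exists_period (h2 : Fintype.card (InfinitePlace K) = 2) {w₁ w₂ : InfinitePlace K}
    (hw : w₁ ≠ w₂) (h𝔪 : 𝔪 ≠ ⊥) : ∃ L : ℝ, 0 < L ∧ ∀ t : ℝ,
      (∃ v : (𝓞 K)ˣ, (v : 𝓞 K) - 1 ∈ 𝔪 ∧ lK (kap w₁ w₂) ((v : 𝓞 K) : K) = t) ↔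
        ∃ j : ℤ, t = j * L := by
  have hmem : ∀ t : ℝ, t ∈ unitValues 𝔪 (kap w₁ w₂) ↔
      ∃ v : (𝓞 K)ˣ, (v : 𝓞 K) - 1 ∈ 𝔪 ∧ lK (kap w₁ w₂) ((v : 𝓞 K) : K) = t := fun t => Iff.rfl
  -- not dense
  have hnd : ¬ Dense (unitValues 𝔪 (kap w₁ w₂) : Set ℝ) := by
    intro hd
    set T : Set ℝ := (fun v : (𝓞 K)ˣ => lK (kap w₁ w₂) ((v : 𝓞 K) : K)) ''
      {v : (𝓞 K)ˣ | |lK (kap w₁ w₂) ((v : 𝓞 K) : K)| < 1} with hT
    have hTf : T.Finite := (finite_small_units h2 hw).image _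
    have hopen : IsOpen (Set.Ioo (0 : ℝ) 1 \ T) := isOpen_Ioo.sdiff hTf.isClosed
    have hne : (Set.Ioo (0 : ℝ) 1 \ T).Nonempty :=
      ((Set.Ioo_infinite zero_lt_one).sdiff hTf).nonempty
    obtain ⟨t, ht1, ht2⟩ := hd.inter_open_nonempty _ hopen hne
    obtain ⟨v, hv, rfl⟩ := ht2
    refine ht1.2 ⟨v, ?_, rfl⟩
    rw [Set.mem_ofPred_eq, abs_lt]
    exact ⟨by linarith [ht1.1.1], ht1.1.2⟩
  obtain ⟨g, hg⟩ := (AddSubgroup.dense_or_cyclic (unitValues 𝔪 (kap w₁ w₂))).resolve_left hnd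
  have hiff : ∀ t : ℝ, (∃ v : (𝓞 K)ˣ, (v : 𝓞 K) - 1 ∈ 𝔪 ∧ lK (kap w₁ w₂) ((v : 𝓞 K) : K) = t) ↔
      ∃ j : ℤ, t = j * g := by
    intro t
    rw [← hmem, hg, AddSubgroup.mem_closure_singleton]
    refine exists_congr fun j => ?_
    rw [zsmul_eq_mul, eq_comm]
  -- not zero
  have hg0 : g ≠ 0 := by
    obtain ⟨v, hv⟩ := NumberField.Units.dirichletUnitTheorem.exists_unit K w₁
    obtain ⟨N, hN, hN1⟩ := exists_pow_sub_one_mem h𝔪 v
    have h3 : 0 < lK (kap w₁ w₂) ((v : 𝓞 K) : K) := by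
      rw [lK_kap]
      have h4 := NumberField.Units.sum_mult_mul_log v
      rw [sum_eq_of_card h2 hw] at h4
      have h5 := hv w₂ hw.symm
      have hm1 : (0 : ℝ) < w₁.mult := by exact_mod_cast w₁.mult_pos
      have hm2 : (0 : ℝ) < w₂.mult := by exact_mod_cast w₂.mult_pos
      have h6 : (w₂.mult : ℝ) * Real.log (w₂ ((v : 𝓞 K) : K)) < 0 := mul_neg_of_pos_of_neg hm2 h5
      have h7 : 0 < (w₁.mult : ℝ) * Real.log (w₁ ((v : 𝓞 K) : K)) := by
        have h8 : (w₁.mult : ℝ) * Real.log (w₁ ((v : 𝓞 K) : K)) +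
          (w₂.mult : ℝ) * Real.log (w₂ ((v : 𝓞 K) : K)) = 0 := h4
        linarith
      have h9 : 0 < Real.log (w₁ ((v : 𝓞 K) : K)) := (pos_iff_pos_of_mul_pos h7).mp hm1
      have h10 : Real.log (w₂ ((v : 𝓞 K) : K)) < 0 := h5
      linarith
    have h4 : ∀ m : ℕ, lK (kap w₁ w₂) (((v ^ m : (𝓞 K)ˣ) : 𝓞 K) : K) =
        m * lK (kap w₁ w₂) ((v : 𝓞 K) : K) := by
      intro m
      induction m with
      | zero =>
        rw [pow_zero, Units.val_one, Nat.cast_zero, zero_mul]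
        exact lK_one _
      | succ m ih =>
        have h5 : (((v ^ (m + 1) : (𝓞 K)ˣ) : 𝓞 K) : K) =
            (((v ^ m : (𝓞 K)ˣ) : 𝓞 K) : K) * ((v : 𝓞 K) : K) := by
          rw [pow_succ]
          rfl
        rw [h5, lK_mul _ (by exact_mod_cast (v ^ m).ne_zero) (by exact_mod_cast v.ne_zero), ih]
        push_cast
        ring
    rintro rfl
    obtain ⟨j, hj⟩ := (hiff _).mp ⟨v ^ N, hN1, rfl⟩
    rw [h4, mul_zero] at hj
    have h5 : (0 : ℝ) < N := by exact_mod_cast hN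
    have := mul_pos h5 h3
    linarith
  refine ⟨|g|, abs_pos.mpr hg0, fun t => (hiff t).trans ?_⟩
  rcases abs_choice g with h | h
  · rw [h]
  · rw [h]
    constructor
    · rintro ⟨j, rfl⟩
      exact ⟨-j, by push_cast; ring⟩
    · rintro ⟨j, rfl⟩
      exact ⟨-j, by push_cast; ring⟩

/-! ### The theorems -/

/-- prime ideals generated by an element, and prime elements -/
theorem card_primes_eq (q : 𝓞 K → Prop) (x : ℕ) :
    Nat.card {P : Pr K // nP P ≤ x ∧ ∃ π : 𝓞 K, π - α ∈ 𝔪 ∧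
      ((P.1 : (Ideal (𝓞 K))⁰) : Ideal (𝓞 K)) = Ideal.span {π} ∧ q π} =
    Nat.card {I : Ideal (𝓞 K) // Ideal.absNorm I ≤ x ∧ ∃ π : 𝓞 K, Prime π ∧ π - α ∈ 𝔪 ∧
      I = Ideal.span {π} ∧ q π} := by
  refine Nat.card_congr (Equiv.ofBijective (fun P => ⟨((P.1.1 : (Ideal (𝓞 K))⁰) : Ideal (𝓞 K)),
    P.2.1, ?_⟩) ⟨?_, ?_⟩)
  · obtain ⟨π, h1, h2, h3⟩ := P.2.2
    refine ⟨π, ?_, h1, h2, h3⟩
    have hπ0 : π ≠ 0 := by
      rintro rfl
      rw [Ideal.span_singleton_eq_bot.mpr rfl] at h2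
      exact nonZeroDivisors.coe_ne_zero _ h2
    rw [← Ideal.span_singleton_prime hπ0, ← h2]
    exact Ideal.isPrime_of_prime P.1.2
  · intro P Q h
    exact Subtype.ext (Subtype.ext (Subtype.ext (Subtype.mk.inj h)))
  · rintro ⟨I, h1, π, hπ, h2, rfl, h3⟩
    have hI0 : Ideal.span {π} ≠ 0 := by
      rw [Ideal.zero_eq_bot, Ne, Ideal.span_singleton_eq_bot]
      exact hπ.ne_zero
    have hp : (Ideal.span {π}).IsPrime := (Ideal.span_singleton_prime hπ.ne_zero).mpr hπ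
    exact ⟨⟨⟨⟨Ideal.span {π}, mem_nonZeroDivisors_of_ne_zero hI0⟩,
      (Ideal.prime_iff_isPrime hI0).mpr hp⟩, h1, π, h2, rfl, h3⟩, rfl⟩

/-- **Hecke's theorem for the fields with two infinite places** (real quadratic fields, cubic
fields with a complex place, totally complex quartic fields): the values of
`log |π|_{w₁} - log |π|_{w₂}` at the units `≡ 1` modulo `𝔪` are the multiples of some `L > 0`, and
the number of the prime ideals `(π)` of norm at most `x`, `π ≡ α` modulo `𝔪`,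
`a < log |π|_{w₁} - log |π|_{w₂} < b`, is `~ (b - a) / (L h_𝔪) * x / log x`, for
`a ≤ b ≤ a + L`. -/
theorem hecke_two_places (h2 : Fintype.card (InfinitePlace K) = 2) {w₁ w₂ : InfinitePlace K}
    (hw : w₁ ≠ w₂) (h𝔪 : 𝔪 ≠ ⊥) : ∃ L : ℝ, 0 < L ∧
      (∀ t : ℝ, (∃ v : (𝓞 K)ˣ, (v : 𝓞 K) - 1 ∈ 𝔪 ∧
        Real.log (w₁ ((v : 𝓞 K) : K)) - Real.log (w₂ ((v : 𝓞 K) : K)) = t) ↔
          ∃ j : ℤ, t = j * L) ∧
      ∀ α : 𝓞 K, IsCoprime (Ideal.span {α}) 𝔪 → ∀ a b : ℝ, a ≤ b → b ≤ a + L →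
        Tendsto (fun x : ℕ => (Nat.card {I : Ideal (𝓞 K) // Ideal.absNorm I ≤ x ∧
          ∃ π : 𝓞 K, Prime π ∧ π - α ∈ 𝔪 ∧ I = Ideal.span {π} ∧
            a < Real.log (w₁ (π : K)) - Real.log (w₂ (π : K)) ∧
            Real.log (w₁ (π : K)) - Real.log (w₂ (π : K)) < b} : ℝ) * Real.log x / x) atTop
          (𝓝 ((b - a) / (L * rayNumber 𝔪))) := by
  obtain ⟨L, hL, hu⟩ := exists_period h2 hw h𝔪
  refine ⟨L, hL, ?_, fun α hα a b hab hb => ?_⟩
  · simpa only [lK_kap] using hu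
  · have key := equidistribution_log' h𝔪 (sum_kap w₁ w₂) (kap_ne_zero hw) hL hu hα hab hb
    simp only [lK_kap] at key
    refine key.congr fun x => ?_
    have h3 := card_primes_eq (𝔪 := 𝔪) (α := α) (fun π : 𝓞 K =>
      a < Real.log (w₁ (π : K)) - Real.log (w₂ (π : K)) ∧
      Real.log (w₁ (π : K)) - Real.log (w₂ (π : K)) < b) x
    rw [h3]

/-- a real embedding as an infinite place -/
theorem mk_real_apply (σ : K →+* ℝ) (x : K) :
    InfinitePlace.mk (Complex.ofRealHom.comp σ) x = |σ x| := by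
  rw [InfinitePlace.apply, RingHom.comp_apply, Complex.ofRealHom_eq_coe, Complex.norm_real,
    Real.norm_eq_abs]

theorem mk_real_ne {σ τ : K →+* ℝ} (h : σ ≠ τ) :
    InfinitePlace.mk (Complex.ofRealHom.comp σ) ≠ InfinitePlace.mk (Complex.ofRealHom.comp τ) := by
  intro h1
  refine h (RingHom.ext fun x => ?_)
  rcases InfinitePlace.mk_eq_iff.mp h1 with h2 | h2
  · have h3 := RingHom.congr_fun h2 x
    rw [RingHom.comp_apply, RingHom.comp_apply, Complex.ofRealHom_eq_coe,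
      Complex.ofRealHom_eq_coe] at h3
    exact_mod_cast h3
  · have h3 := RingHom.congr_fun h2 x
    rw [ComplexEmbedding.conjugate_coe_eq, RingHom.comp_apply, RingHom.comp_apply,
      Complex.ofRealHom_eq_coe, Complex.ofRealHom_eq_coe, Complex.conj_ofReal] at h3
    exact_mod_cast h3

theorem card_places_real_quadratic (h2 : Module.finrank ℚ K = 2) {w₁ w₂ : InfinitePlace K}
    (hw : w₁ ≠ w₂) : Fintype.card (InfinitePlace K) = 2 := by
  have h3 := InfinitePlace.card_add_two_mul_card_eq_rank K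
  have h4 := InfinitePlace.card_eq_nrRealPlaces_add_nrComplexPlaces K
  have h5 : ({w₁, w₂} : Finset (InfinitePlace K)).card = 2 := Finset.card_pair hw
  have h6 := Finset.card_le_univ ({w₁, w₂} : Finset (InfinitePlace K))
  omega

/-- **Hecke's theorem on the prime elements of real quadratic fields** (1918, 1920). Let `K` be a
real quadratic field, `σ ≠ τ` its embeddings in `ℝ`, `𝔪 ≠ 0` an ideal. Then there is `L > 0` such
that the numbers `log |σ(v)/τ(v)|`, `v` a unit `≡ 1` modulo `𝔪`, are the multiples of `L`, and for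
every `α` prime to `𝔪` and `a ≤ b ≤ a + L` the number of the prime ideals `(π)` with norm at most
`x`, `π ≡ α` modulo `𝔪`, `a < log |σ(π)/τ(π)| < b` is `~ (b - a) / (L h_𝔪) * x / log x`. -/
theorem hecke_real_quadratic (h2 : Module.finrank ℚ K = 2) {σ τ : K →+* ℝ} (hστ : σ ≠ τ)
    (h𝔪 : 𝔪 ≠ ⊥) : ∃ L : ℝ, 0 < L ∧
      (∀ t : ℝ, (∃ v : (𝓞 K)ˣ, (v : 𝓞 K) - 1 ∈ 𝔪 ∧
        Real.log |σ ((v : 𝓞 K) : K) / τ ((v : 𝓞 K) : K)| = t) ↔ ∃ j : ℤ, t = j * L) ∧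
      ∀ α : 𝓞 K, IsCoprime (Ideal.span {α}) 𝔪 → ∀ a b : ℝ, a ≤ b → b ≤ a + L →
        Tendsto (fun x : ℕ => (Nat.card {I : Ideal (𝓞 K) // Ideal.absNorm I ≤ x ∧
          ∃ π : 𝓞 K, Prime π ∧ π - α ∈ 𝔪 ∧ I = Ideal.span {π} ∧
            a < Real.log |σ (π : K) / τ (π : K)| ∧ Real.log |σ (π : K) / τ (π : K)| < b} : ℝ) *
          Real.log x / x) atTop (𝓝 ((b - a) / (L * rayNumber 𝔪))) := by
  have hw := mk_real_ne hστ
  obtain ⟨L, hL, h3, h4⟩ := hecke_two_places (card_places_real_quadratic h2 hw) hw h𝔪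
  have hlog : ∀ x : 𝓞 K, x ≠ 0 → Real.log |σ (x : K) / τ (x : K)| =
      Real.log (InfinitePlace.mk (Complex.ofRealHom.comp σ) (x : K)) -
        Real.log (InfinitePlace.mk (Complex.ofRealHom.comp τ) (x : K)) := by
    intro x hx
    have hx' : (x : K) ≠ 0 := by exact_mod_cast hx
    rw [mk_real_apply, mk_real_apply, abs_div, Real.log_div (abs_ne_zero.mpr
      ((map_ne_zero σ).mpr hx')) (abs_ne_zero.mpr ((map_ne_zero τ).mpr hx'))]
  refine ⟨L, hL, fun t => ?_, fun α hα a b hab hb => ?_⟩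
  · rw [← h3 t]
    refine exists_congr fun v => and_congr_right fun _ => ?_
    rw [hlog _ v.ne_zero]
  · refine (h4 α hα a b hab hb).congr fun x => ?_
    congr 3
    refine Nat.card_congr (Equiv.subtypeEquivRight fun I => and_congr_right fun _ =>
      exists_congr fun π => and_congr_right fun hπ => ?_)
    rw [hlog π hπ.ne_zero]

/-- **Prime elements in a cone**: `K` real quadratic, `α` prime to `𝔪`, `0 < a < b`: there are
infinitely many prime ideals generated by some `π ≡ α` modulo `𝔪` with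
`a < |σ(π)/τ(π)| < b`. -/
theorem infinite_primes_in_cone (h2 : Module.finrank ℚ K = 2) {σ τ : K →+* ℝ} (hστ : σ ≠ τ)
    (h𝔪 : 𝔪 ≠ ⊥) (hα : IsCoprime (Ideal.span {α}) 𝔪) {a b : ℝ} (ha : 0 < a) (hab : a < b) :
    {I : Ideal (𝓞 K) | ∃ π : 𝓞 K, Prime π ∧ π - α ∈ 𝔪 ∧ I = Ideal.span {π} ∧
      a < |σ (π : K) / τ (π : K)| ∧ |σ (π : K) / τ (π : K)| < b}.Infinite := by
  intro hfin
  obtain ⟨L, hL, -, h4⟩ := hecke_real_quadratic h2 hστ h𝔪
  set b' : ℝ := min (Real.log b) (Real.log a + L) with hb'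
  have hlt : Real.log a < b' := lt_min (Real.log_lt_log ha hab) (by linarith)
  have key := h4 α hα (Real.log a) b' hlt.le (min_le_right _ _)
  have hr : (0 : ℝ) < rayNumber 𝔪 := by
    exact_mod_cast Nat.pos_of_ne_zero (rayNumber_ne_zero h𝔪)
  have hpos : 0 < (b' - Real.log a) / (L * rayNumber 𝔪) :=
    div_pos (sub_pos.mpr hlt) (mul_pos hL hr)
  set S : Set (Ideal (𝓞 K)) := {I : Ideal (𝓞 K) | ∃ π : 𝓞 K, Prime π ∧ π - α ∈ 𝔪 ∧
    I = Ideal.span {π} ∧ a < |σ (π : K) / τ (π : K)| ∧ |σ (π : K) / τ (π : K)| < b} with hS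
  have hN : ∀ x : ℕ, (Nat.card {I : Ideal (𝓞 K) // Ideal.absNorm I ≤ x ∧
      ∃ π : 𝓞 K, Prime π ∧ π - α ∈ 𝔪 ∧ I = Ideal.span {π} ∧
        Real.log a < Real.log |σ (π : K) / τ (π : K)| ∧
        Real.log |σ (π : K) / τ (π : K)| < b'} : ℝ) ≤ (Nat.card S : ℝ) := by
    intro x
    have := hfin.to_subtype
    refine Nat.cast_le.mpr (Nat.card_le_card_of_injective (fun I => (⟨I.1, ?_⟩ : S))
      fun I J h => Subtype.ext (Subtype.mk.inj h))
    obtain ⟨-, π, h5, h6, h7, h8, h9⟩ := I.2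
    have hπ : (π : K) ≠ 0 := by exact_mod_cast h5.ne_zero
    have h10 : 0 < |σ (π : K) / τ (π : K)| :=
      abs_pos.mpr (div_ne_zero ((map_ne_zero σ).mpr hπ) ((map_ne_zero τ).mpr hπ))
    exact ⟨π, h5, h6, h7, (Real.log_lt_log_iff ha h10).mp h8,
      (Real.log_lt_log_iff h10 (ha.trans hab)).mp (h9.trans_le (min_le_left _ _))⟩
  have hlog0 : Tendsto (fun x : ℕ => (Nat.card S : ℝ) * (Real.log x / x)) atTop (𝓝 0) := by
    have h5 : Tendsto (fun x : ℕ => Real.log x / (x : ℝ)) atTop (𝓝 0) :=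
      (Real.isLittleO_log_id_atTop.tendsto_div_nhds_zero).comp tendsto_natCast_atTop_atTop
    have h6 := h5.const_mul (Nat.card S : ℝ)
    rwa [mul_zero] at h6
  have h0 : (b' - Real.log a) / (L * rayNumber 𝔪) ≤ 0 := by
    refine le_of_tendsto_of_tendsto key hlog0 (Eventually.of_forall fun x => ?_)
    have h6 : 0 ≤ Real.log (x : ℝ) / x := div_nonneg (Real.log_natCast_nonneg x) (Nat.cast_nonneg _)
    have h7 := mul_le_mul_of_nonneg_right (hN x) h6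
    simp only
    rw [mul_div_assoc]
    exact h7
  linarith

end Fermat.Agent.Cor.RayG

end
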