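import Fermat.Agent.Corollaries.RayG.Circle
import Fermat.Agent.Corollaries.RayG.Final
import Fermat.Agent.Corollaries.Ray.Final

/-!
# Hecke's theorem on the prime elements of real quadratic fields

Equidistribution of `θ(π)` modulo `1` for the prime elements `π ≡ α` modulo `𝔪`, where
`exp(2πiθ)` is a character at infinity of infinite order which is trivial on the units `≡ 1`; in
particular `K` real quadratic, `θ(π) = log|σ(π)/τ(π)| / L` (Hecke 1918, 1920).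
-/

set_option autoImplicit false
set_option linter.unusedSectionVars false

noncomputable section

open NumberField NumberField.InfinitePlace nonZeroDivisors Complex Filter Topology

open scoped Classical ComplexConjugate

namespace Fermat.Agent.Cor.RayG

open Fermat.Agent.ClassL Fermat.Agent.Classic.Zeta Fermat.Agent.Cor.Ray

universe u

variable {K : Type u} [Field K] [NumberField K] {𝔪 : Ideal (𝓞 K)}
  {n : InfinitePlace K → ℤ} {κ : InfinitePlace K → ℝ}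

/-! ### Arcs in general position -/

theorem fract_sub_iff {r a b : ℝ} (hb : b ≤ a + 1) :
    (0 < Int.fract (r - a) ∧ Int.fract (r - a) < b - a) ↔ ∃ j : ℤ, a < r + j ∧ r + j < b := by
  constructor
  · rintro ⟨h1, h2⟩
    refine ⟨-⌊r - a⌋, ?_, ?_⟩
    · have h3 := Int.self_sub_floor (r - a)
      push_cast
      linarith
    · have h3 := Int.self_sub_floor (r - a)
      push_cast
      linarith
  · rintro ⟨j, h1, h2⟩
    have h3 : Int.fract (r - a) = r + j - a := by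
      rw [Int.fract_eq_iff]
      refine ⟨by linarith, by linarith, -j, ?_⟩
      push_cast
      ring
    rw [h3]
    exact ⟨by linarith, by linarith⟩

theorem exp_fract_sub (r a : ℝ) (k : ℤ) :
    Complex.exp (2 * Real.pi * Complex.I * k * Int.fract (r - a)) =
      Complex.exp (2 * Real.pi * Complex.I * k * r) *
        Complex.exp (-(2 * Real.pi * Complex.I * k * a)) := by
  rw [← Complex.exp_add, Int.fract]
  have h1 : 2 * Real.pi * Complex.I * k * ((r - a - ⌊r - a⌋ : ℝ) : ℂ) =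
      2 * Real.pi * Complex.I * k * r + -(2 * Real.pi * Complex.I * k * a) -
        ((k * ⌊r - a⌋ : ℤ) : ℂ) * (2 * Real.pi * Complex.I) := by
    push_cast
    ring
  rw [h1, Complex.exp_sub, Complex.exp_int_mul_two_pi_mul_I, div_one]

/-- **Equidistribution of the values of a Groessencharakter in a ray class**, arcs in general
position. -/
theorem tendsto_card_arc (h𝔪 : 𝔪 ≠ ⊥) (hT : IsTy n κ) (hinf : IsInf n κ)
    {ψ : (Ideal (𝓞 K))⁰ →* ℂ} (hψ : GChar n κ 𝔪 ψ)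
    {J : (Ideal (𝓞 K))⁰} (hJ : IsCoprime (J : Ideal (𝓞 K)) 𝔪)
    {a b : ℝ} (hab : a ≤ b) (hb : b ≤ a + 1) :
    Tendsto (fun x : ℕ => (Nat.card {P : Pr K // nP P ≤ x ∧ RayEq 𝔪 P.1 J ∧
      ∃ j : ℤ, a < ang (ψ P.1) + j ∧ ang (ψ P.1) + j < b} : ℝ) * Real.log x / x) atTop
      (𝓝 ((b - a) / rayNumber 𝔪)) := by
  obtain ⟨D, hD⟩ := exists_isCount K
  have hr : (0 : ℝ) < rayNumber 𝔪 := by exact_mod_cast rayNumber_pos (entireStmt K) (groupStmt K) h𝔪
  have : Countable (Pr K) := by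
    have h1 : (Set.univ : Set (Pr K)) = ⋃ x : ℕ, (hD.F x : Set (Pr K)) := by
      ext P
      simp only [Set.mem_univ, Set.mem_iUnion, Finset.mem_coe, true_iff]
      exact ⟨nP P, hD.mem_F.mpr le_rfl⟩
    rw [← Set.countable_univ_iff, h1]
    exact Set.countable_iUnion fun x => (Finset.countable_toSet _)
  have hmem : ∀ (x : ℕ) (P : Pr K), P ∈ (hD.F x).filter (fun P => RayEq 𝔪 P.1 J) ↔
      nP P ≤ x ∧ RayEq 𝔪 P.1 J := fun x P => by
    rw [Finset.mem_filter, hD.mem_F]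
  have hcard : ∀ x : ℕ, ((hD.F x).filter fun P => RayEq 𝔪 P.1 J).card =
      Nat.card {P : Pr K // nP P ≤ x ∧ RayEq 𝔪 P.1 J} := fun x =>
    (Nat.subtype_card _ (hmem x)).symm
  have hone : ∀ (x : ℕ), ∀ P ∈ (hD.F x).filter (fun P => RayEq 𝔪 P.1 J), ‖ψ P.1‖ = 1 :=
    fun x P hP => norm_psi_eq_one h𝔪 hψ (((hmem x P).mp hP).2.coprime hJ)
  have hc0 : ∀ x : ℕ, 0 ≤ (rayNumber 𝔪 : ℝ) * (Real.log x / x) := fun x =>
    mul_nonneg hr.le (div_nonneg (Real.log_natCast_nonneg x) (Nat.cast_nonneg _))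
  have hF : Tendsto (fun x : ℕ => ((rayNumber 𝔪 : ℝ) * (Real.log x / x)) *
      ((((hD.F x).filter fun P => RayEq 𝔪 P.1 J).card : ℕ) : ℝ)) atTop (𝓝 1) := by
    have h1 := (tendsto_card_ray (entireStmt K) (groupStmt K) h𝔪 hJ).const_mul (rayNumber 𝔪 : ℝ)
    rw [mul_inv_cancel₀ hr.ne'] at h1
    refine h1.congr fun x => ?_
    rw [hcard]
    ring
  have hpos : ∀ m : ℕ, m ≠ 0 → Tendsto (fun x : ℕ =>
      (((rayNumber 𝔪 : ℝ) * (Real.log x / x) : ℝ) : ℂ) *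
      ∑ P ∈ (hD.F x).filter (fun P => RayEq 𝔪 P.1 J), ψ P.1 ^ m) atTop (𝓝 0) := by
    intro m hm
    have h1 := (tendsto_class_sum (nonVanGStmt K) (groupStmt K) h𝔪 hT hinf hψ hD hJ hm).const_mul
      ((rayNumber 𝔪 : ℝ) : ℂ)
    rw [mul_zero] at h1
    refine h1.congr fun x => ?_
    rw [Complex.ofReal_mul]
    ring
  have hW0 : ∀ k : ℤ, k ≠ 0 → Tendsto (fun x : ℕ =>
      (((rayNumber 𝔪 : ℝ) * (Real.log x / x) : ℝ) : ℂ) *
      ∑ P ∈ (hD.F x).filter (fun P => RayEq 𝔪 P.1 J),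
        Complex.exp (2 * Real.pi * Complex.I * k * ang (ψ P.1))) atTop (𝓝 0) := by
    intro k hk
    obtain ⟨m, rfl | rfl⟩ := Int.eq_nat_or_neg k
    · refine (hpos m (by exact_mod_cast hk)).congr fun x => ?_
      congr 1
      refine Finset.sum_congr rfl fun P hP => ?_
      rw [Int.cast_natCast, exp_ang_pow (hone x P hP)]
    · have hm : m ≠ 0 := by
        rintro rfl
        exact hk (by simp)
      have h1 := (Complex.continuous_conj.tendsto 0).comp (hpos m hm)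
      rw [map_zero] at h1
      refine h1.congr fun x => ?_
      rw [Function.comp_apply, map_mul, Complex.conj_ofReal, map_sum]
      congr 1
      refine Finset.sum_congr rfl fun P hP => ?_
      rw [← exp_ang_pow (hone x P hP), ← Complex.exp_conj]
      congr 1
      simp only [map_mul, Complex.conj_I, Complex.conj_ofReal, map_natCast, map_ofNat]
      push_cast
      ring
  have hW : ∀ k : ℤ, k ≠ 0 → Tendsto (fun x : ℕ =>
      (((rayNumber 𝔪 : ℝ) * (Real.log x / x) : ℝ) : ℂ) *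
      ∑ P ∈ (hD.F x).filter (fun P => RayEq 𝔪 P.1 J),
        Complex.exp (2 * Real.pi * Complex.I * k * Int.fract (ang (ψ P.1) - a))) atTop (𝓝 0) := by
    intro k hk
    have h1 := (hW0 k hk).mul_const (Complex.exp (-(2 * Real.pi * Complex.I * k * a)))
    rw [zero_mul] at h1
    refine h1.congr fun x => ?_
    rw [mul_assoc, Finset.sum_mul]
    simp only [exp_fract_sub]
  have key := (weyl_countable (fun P : Pr K => Int.fract (ang (ψ P.1) - a))
    (fun x => (hD.F x).filter fun P => RayEq 𝔪 P.1 J)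
    (fun x => (rayNumber 𝔪 : ℝ) * (Real.log x / x)) (fun P => Int.fract_nonneg _)
    (fun P => Int.fract_lt_one _) hc0 hF hW le_rfl (sub_nonneg.mpr hab) (by linarith)).1
  rw [sub_zero] at key
  have hfin : ∀ x : ℕ,
      Nat.card {P : Pr K // P ∈ (hD.F x).filter (fun P => RayEq 𝔪 P.1 J) ∧
        0 < Int.fract (ang (ψ P.1) - a) ∧ Int.fract (ang (ψ P.1) - a) < b - a} =
      Nat.card {P : Pr K // nP P ≤ x ∧ RayEq 𝔪 P.1 J ∧
        ∃ j : ℤ, a < ang (ψ P.1) + j ∧ ang (ψ P.1) + j < b} := fun x =>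
    Nat.card_congr (Equiv.subtypeEquivRight fun P => by rw [hmem, and_assoc, fract_sub_iff hb])
  simp only [hfin] at key
  have h4 := key.const_mul (rayNumber 𝔪 : ℝ)⁻¹
  rw [← div_eq_inv_mul] at h4
  refine h4.congr fun x => ?_
  field_simp

/-! ### Prime elements in a residue class -/

variable {α : 𝓞 K}

theorem exists_ne_zero_sub_mem (hα : IsCoprime (Ideal.span {α}) 𝔪) :
    ∃ β : 𝓞 K, β ≠ 0 ∧ IsCoprime (Ideal.span {β}) 𝔪 ∧ β - α ∈ 𝔪 := by
  by_cases h : α = 0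
  · refine ⟨1, one_ne_zero, ?_, ?_⟩
    · rw [Ideal.span_singleton_one, ← Ideal.one_eq_top]
      exact isCoprime_one_left
    · obtain ⟨b, hb⟩ := isCoprime_span_iff.mp hα
      rw [h, mul_zero, zero_sub] at hb
      rw [h, sub_zero]
      have := 𝔪.neg_mem hb
      rwa [neg_neg] at this
  · exact ⟨α, h, hα, by rw [sub_self]; exact 𝔪.zero_mem⟩

theorem exists_inv_mod (hα : IsCoprime (Ideal.span {α}) 𝔪) :
    ∃ b : 𝓞 K, b ≠ 0 ∧ b * α - 1 ∈ 𝔪 := by
  obtain ⟨c, hc⟩ := isCoprime_span_iff.mp hα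
  by_cases h : c = 0
  · have h1 : (1 : 𝓞 K) ∈ 𝔪 := by
      rw [h, zero_mul, zero_sub] at hc
      have := 𝔪.neg_mem hc
      rwa [neg_neg] at this
    exact ⟨1, one_ne_zero, by rw [(Ideal.eq_top_iff_one 𝔪).2 h1]; exact Submodule.mem_top⟩
  · exact ⟨c, h, hc⟩

/-- `ψ((π)) = e(t) χ(π)` for all `π ≡ α`, with a constant `t` -/
theorem exists_shift (h𝔪 : 𝔪 ≠ ⊥) {ψ : (Ideal (𝓞 K))⁰ →* ℂ} (hψ : GChar n κ 𝔪 ψ)
    (hα : IsCoprime (Ideal.span {α}) 𝔪) : ∃ t : ℝ, ∀ (π : 𝓞 K) (hπ : π ≠ 0), π - α ∈ 𝔪 →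
      ψ (sp π hπ) = chi n κ (π : K) * Complex.exp (2 * Real.pi * Complex.I * t) := by
  obtain ⟨b, hb0, hb⟩ := exists_inv_mod hα
  have hbc : IsCoprime (Ideal.span {b}) 𝔪 := isCoprime_span_iff.mpr ⟨α, by rwa [mul_comm]⟩
  have hbK : (b : K) ≠ 0 := by exact_mod_cast hb0
  have h1 : ‖ψ (sp b hb0)‖ = 1 := norm_gchar h𝔪 hψ hbc
  have h2 : ψ (sp b hb0) ≠ 0 := norm_ne_zero_iff.mp (by rw [h1]; exact one_ne_zero)
  have h3 : ‖chi n κ (b : K) / ψ (sp b hb0)‖ = 1 := by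
    rw [norm_div, h1, norm_chi n κ hbK, div_one]
  refine ⟨ang (chi n κ (b : K) / ψ (sp b hb0)), fun π hπ hπα => ?_⟩
  have h4 : ψ (sp (π * b) (mul_ne_zero hπ hb0)) = chi n κ ((π * b : 𝓞 K) : K) := by
    refine hψ.cong _ _ ?_
    have h5 : π * b - 1 = b * (π - α) + (b * α - 1) := by ring
    rw [h5]
    exact 𝔪.add_mem (𝔪.mul_mem_left _ hπα) hb
  have h6 : ((π * b : 𝓞 K) : K) = (π : K) * (b : K) := rfl
  rw [sp_mul hπ hb0, map_mul, h6, chi_mul n κ (by exact_mod_cast hπ) hbK] at h4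
  rw [exp_ang h3, mul_div_assoc', eq_div_iff h2, h4]

/-- **Equidistribution of prime elements**: let `χ = exp(2πiθ)` be a character at infinity of
infinite order which is trivial on the units `≡ 1` modulo `𝔪`. Then the numbers `θ(π)` modulo `1`,
for the prime elements `π ≡ α` modulo `𝔪` (one for every prime ideal), are equidistributed. -/
theorem equidistribution_elements (h𝔪 : 𝔪 ≠ ⊥) (hT : IsTy n κ) (hinf : IsInf n κ)
    (hu : ∀ v : (𝓞 K)ˣ, (v : 𝓞 K) - 1 ∈ 𝔪 → chi n κ ((v : 𝓞 K) : K) = 1) {θ : 𝓞 K → ℝ}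
    (hθ : ∀ x : 𝓞 K, x ≠ 0 → Complex.exp (2 * Real.pi * Complex.I * θ x) = chi n κ (x : K))
    (hα : IsCoprime (Ideal.span {α}) 𝔪) {a b : ℝ} (hab : a ≤ b) (hb : b ≤ a + 1) :
    Tendsto (fun x : ℕ => (Nat.card {P : Pr K // nP P ≤ x ∧ ∃ π : 𝓞 K, π - α ∈ 𝔪 ∧
      ((P.1 : (Ideal (𝓞 K))⁰) : Ideal (𝓞 K)) = Ideal.span {π} ∧
      ∃ j : ℤ, a < θ π + j ∧ θ π + j < b} : ℝ) * Real.log x / x) atTop
      (𝓝 ((b - a) / rayNumber 𝔪)) := by
  obtain ⟨ψ, hψ⟩ := existG K n κ 𝔪 h𝔪 hu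
  obtain ⟨t, ht⟩ := exists_shift h𝔪 hψ hα
  obtain ⟨β, hβ0, hβ, hβα⟩ := exists_ne_zero_sub_mem hα
  have key := tendsto_card_arc h𝔪 hT hinf hψ (J := sp β hβ0) hβ (a := a + t) (b := b + t)
    (by linarith) (by linarith)
  rw [add_sub_add_right_eq_sub] at key
  refine key.congr fun x => ?_
  congr 3
  refine Nat.card_congr (Equiv.subtypeEquivRight fun P => and_congr_right fun _ => ?_)
  have hang : ∀ π : 𝓞 K, π - α ∈ 𝔪 → ((P.1 : (Ideal (𝓞 K))⁰) : Ideal (𝓞 K)) = Ideal.span {π} →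
      ∃ m : ℤ, ang (ψ P.1) = θ π + t + m := by
    intro π hπ hP
    have hπ0 : π ≠ 0 := by
      rintro rfl
      rw [Ideal.span_singleton_eq_bot.mpr rfl] at hP
      exact nonZeroDivisors.coe_ne_zero _ hP
    have h1 : P.1 = sp π hπ0 := Subtype.ext hP
    have h2 := ht π hπ0 hπ
    have hn : ‖ψ P.1‖ = 1 := by
      rw [h1, h2, norm_mul, norm_chi n κ (by exact_mod_cast hπ0), one_mul]
      have h3 : 2 * Real.pi * Complex.I * t = ((2 * Real.pi * t : ℝ) : ℂ) * Complex.I := by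
        push_cast
        ring
      rw [h3, Complex.norm_exp_ofReal_mul_I]
    have h4 : Complex.exp (2 * Real.pi * Complex.I * ang (ψ P.1)) =
        Complex.exp (2 * Real.pi * Complex.I * (θ π + t)) := by
      rw [exp_ang hn, mul_add, Complex.exp_add, hθ π hπ0, ← h2, h1]
    obtain ⟨m, hm⟩ := Complex.exp_eq_exp_iff_exists_int.mp h4
    refine ⟨m, ?_⟩
    have h5 : (2 * Real.pi * Complex.I) ≠ 0 := Complex.two_pi_I_ne_zero
    have h6 : ((ang (ψ P.1) : ℝ) : ℂ) = ((θ π + t + m : ℝ) : ℂ) := by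
      push_cast
      refine mul_left_cancel₀ h5 ?_
      rw [hm]
      ring
    exact_mod_cast h6
  rw [rayEq_span_iff hβ hβ0 rfl]
  constructor
  · rintro ⟨⟨π, hπ, hP⟩, j, h1, h2⟩
    have hπα : π - α ∈ 𝔪 := by
      have := 𝔪.add_mem hπ hβα
      rwa [sub_add_sub_cancel] at this
    obtain ⟨m, hm⟩ := hang π hπα hP
    refine ⟨π, hπα, hP, m + j, ?_, ?_⟩
    · push_cast
      linarith
    · push_cast
      linarith
  · rintro ⟨π, hπα, hP, j, h1, h2⟩
    obtain ⟨m, hm⟩ := hang π hπα hP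
    refine ⟨⟨π, ?_, hP⟩, j - m, ?_, ?_⟩
    · have := 𝔪.sub_mem hπα hβα
      rwa [sub_sub_sub_cancel_right] at this
    · push_cast
      linarith
    · push_cast
      linarith

/-! ### Linear forms in the logarithms -/

/-- **Equidistribution of `∑ κ_w log |π|_w` modulo `L`**, for every number field, if the values at
the units `≡ 1` modulo `𝔪` are in `L ℤ`. -/
theorem equidistribution_log (h𝔪 : 𝔪 ≠ ⊥) (hκ : ∑ w, κ w = 0) (hκ0 : κ ≠ 0) {L : ℝ} (hL : 0 < L)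
    (hu : ∀ v : (𝓞 K)ˣ, (v : 𝓞 K) - 1 ∈ 𝔪 → ∃ j : ℤ, lK κ ((v : 𝓞 K) : K) = j * L)
    (hα : IsCoprime (Ideal.span {α}) 𝔪) {a b : ℝ} (hab : a ≤ b) (hb : b ≤ a + 1) :
    Tendsto (fun x : ℕ => (Nat.card {P : Pr K // nP P ≤ x ∧ ∃ π : 𝓞 K, π - α ∈ 𝔪 ∧
      ((P.1 : (Ideal (𝓞 K))⁰) : Ideal (𝓞 K)) = Ideal.span {π} ∧
      ∃ j : ℤ, a < lK κ (π : K) / L + j ∧ lK κ (π : K) / L + j < b} : ℝ) *
      Real.log x / x) atTop (𝓝 ((b - a) / rayNumber 𝔪)) := by
  have hchi : ∀ x : K, chi (0 : InfinitePlace K → ℤ) (fun w => 2 * Real.pi / L * κ w) x =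
      Complex.exp (2 * Real.pi * Complex.I * (lK κ x / L : ℝ)) := by
    intro x
    have h1 : lK (fun w => 2 * Real.pi / L * κ w) x = 2 * Real.pi / L * lK κ x := by
      unfold lK
      rw [Finset.mul_sum]
      exact Finset.sum_congr rfl fun w _ => by ring
    rw [chi, aG_zero_left, one_mul, h1, eI]
    congr 1
    push_cast
    ring
  have hpi : 2 * Real.pi / L ≠ 0 := div_ne_zero Real.two_pi_pos.ne' hL.ne'
  refine equidistribution_elements (n := 0) (κ := fun w => 2 * Real.pi / L * κ w) h𝔪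
    ⟨fun w _ => by simp, by rw [← Finset.mul_sum, hκ, mul_zero]⟩
    (Or.inl fun h => hκ0 (funext fun w => ?_)) (fun v hv => ?_) (θ := fun π => lK κ (π : K) / L)
    (fun x _ => (hchi _).symm) hα hab hb
  · exact (mul_eq_zero.mp (congrFun h w)).resolve_left hpi
  · obtain ⟨j, hj⟩ := hu v hv
    rw [hchi, hj, mul_div_cancel_right₀ _ hL.ne', Complex.ofReal_intCast, mul_comm]
    exact Complex.exp_int_mul_two_pi_mul_I j

/-- the same, with all the generators `π ≡ α` of the prime ideals -/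
theorem equidistribution_log' (h𝔪 : 𝔪 ≠ ⊥) (hκ : ∑ w, κ w = 0) (hκ0 : κ ≠ 0) {L : ℝ} (hL : 0 < L)
    (hu : ∀ t : ℝ, (∃ v : (𝓞 K)ˣ, (v : 𝓞 K) - 1 ∈ 𝔪 ∧ lK κ ((v : 𝓞 K) : K) = t) ↔
      ∃ j : ℤ, t = j * L)
    (hα : IsCoprime (Ideal.span {α}) 𝔪) {a b : ℝ} (hab : a ≤ b) (hb : b ≤ a + L) :
    Tendsto (fun x : ℕ => (Nat.card {P : Pr K // nP P ≤ x ∧ ∃ π : 𝓞 K, π - α ∈ 𝔪 ∧
      ((P.1 : (Ideal (𝓞 K))⁰) : Ideal (𝓞 K)) = Ideal.span {π} ∧
      a < lK κ (π : K) ∧ lK κ (π : K) < b} : ℝ) *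
      Real.log x / x) atTop (𝓝 ((b - a) / (L * rayNumber 𝔪))) := by
  have key := equidistribution_log h𝔪 hκ hκ0 hL (fun v hv => (hu _).mp ⟨v, hv, rfl⟩) hα
    (a := a / L) (b := b / L) (div_le_div_of_nonneg_right hab hL.le)
    (by rw [div_le_iff₀ hL, add_mul, div_mul_cancel₀ _ hL.ne', one_mul]; exact hb)
  rw [← sub_div, div_div] at key
  refine key.congr fun x => ?_
  congr 3
  refine Nat.card_congr (Equiv.subtypeEquivRight fun P => and_congr_right fun _ => ?_)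
  constructor
  · rintro ⟨π, hπ, hP, j, h1, h2⟩
    obtain ⟨v, hv, hvj⟩ := (hu (j * L)).mpr ⟨j, rfl⟩
    have hπ0 : π ≠ 0 := by
      rintro rfl
      rw [Ideal.span_singleton_eq_bot.mpr rfl] at hP
      exact nonZeroDivisors.coe_ne_zero _ hP
    have h3 : lK κ (((v : 𝓞 K) * π : 𝓞 K) : K) = j * L + lK κ (π : K) := by
      have h4 : (((v : 𝓞 K) * π : 𝓞 K) : K) = ((v : 𝓞 K) : K) * (π : K) := rfl
      rw [h4, lK_mul κ (by exact_mod_cast v.ne_zero) (by exact_mod_cast hπ0), hvj]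
    refine ⟨(v : 𝓞 K) * π, ?_, ?_, ?_, ?_⟩
    · have h4 : (v : 𝓞 K) * π - α = (v : 𝓞 K) * (π - α) + α * ((v : 𝓞 K) - 1) := by ring
      rw [h4]
      exact 𝔪.add_mem (𝔪.mul_mem_left _ hπ) (𝔪.mul_mem_left _ hv)
    · rw [hP, Ideal.span_singleton_eq_span_singleton]
      exact ⟨v, mul_comm _ _⟩
    · rw [div_add' _ _ _ hL.ne', div_lt_div_iff_of_pos_right hL] at h1
      rw [h3]
      linarith
    · rw [div_add' _ _ _ hL.ne', div_lt_div_iff_of_pos_right hL] at h2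
      rw [h3]
      linarith
  · rintro ⟨π, hπ, hP, h1, h2⟩
    refine ⟨π, hπ, hP, 0, ?_, ?_⟩
    · rw [Int.cast_zero, add_zero]
      exact div_lt_div_of_pos_right h1 hL
    · rw [Int.cast_zero, add_zero]
      exact div_lt_div_of_pos_right h2 hL

end Fermat.Agent.Cor.RayG

end
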