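import Fermat.Agent.Corollaries.RayG.Defs
import Fermat.Agent.Corollaries.RayN.ThetaS

/-!
# Theta inversion with weights and harmonic polynomials (piece (A) of the block RAYG)

`K` any number field, `(n, κ)` an admissible type, `φ` a weight of this type. The dual weight is
`φ'(y) = (-i)^(∑ |n_w|) ∑_{r ∈ 𝔟 / 𝔠} φ(r) e(Tr (y r))` on `𝔠*`, `0` elsewhere.
-/

set_option autoImplicit false
set_option linter.unusedSectionVars false

noncomputable section

namespace Fermat.Agent.Cor.RayG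

open NumberField NumberField.InfinitePlace NumberField.mixedEmbedding Module MeasureTheory
open Fermat.Agent.LT.Poisson Fermat.Agent.Classic.Zeta Fermat.Agent.Cor.Ray Fermat.Agent.Cor.RayN
open scoped nonZeroDivisors Real ComplexConjugate

universe u

/-! ### The local kernels -/

/-- the kernel at a real place -/
def fR (k : ℕ) (t x : ℝ) : ℂ :=
  ((√t : ℝ) : ℂ) ^ k * (x : ℂ) ^ k * ((Real.exp (-(π * (t * x ^ 2))) : ℝ) : ℂ)

/-- the kernel at a complex place -/
def fC (k : ℤ) (t : ℝ) (z : ℂ) : ℂ :=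
  ((√t : ℝ) : ℂ) ^ k.natAbs * hz k z * ((Real.exp (-(π * (2 * (t * ‖z‖ ^ 2)))) : ℝ) : ℂ)

/-- (A1) the Fourier transform at a complex place -/
def FourierC : Prop := ∀ (k : ℤ) (t : ℝ), 0 < t → ∀ y : ℂ,
  ∫ z : ℂ, Complex.exp (-(2 * π * Complex.I * ((2 * (y * z).re : ℝ) : ℂ))) * fC k t z =
    (-Complex.I) ^ k.natAbs * ((2⁻¹ * t⁻¹ : ℝ) : ℂ) * fC (-k) t⁻¹ y

theorem continuous_fR (k : ℕ) (t : ℝ) : Continuous (fR k t) := by
  unfold fR
  fun_prop

theorem continuous_fC (k : ℤ) (t : ℝ) : Continuous (fC k t) := by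
  unfold fC
  have := continuous_hz k
  fun_prop

theorem sqrt_inv_eq {t : ℝ} (ht : 0 < t) : √t * t⁻¹ = √(t⁻¹) := by
  rw [Real.sqrt_inv]
  have h2 : √t ≠ 0 := (Real.sqrt_pos.mpr ht).ne'
  have h3 : √t * √t = t := Real.mul_self_sqrt ht.le
  rw [← div_eq_mul_inv, inv_eq_one_div, div_eq_div_iff ht.ne' h2, one_mul, h3]

/-- the Fourier transform at a real place -/
theorem integral_fR {k : ℕ} (hk : k ≤ 1) {t : ℝ} (ht : 0 < t) (y : ℝ) :
    ∫ x : ℝ, Complex.exp (-(2 * π * Complex.I * ((y * x : ℝ) : ℂ))) * fR k t x =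
      (-Complex.I) ^ k * (((t ^ (1 / 2 : ℝ))⁻¹ : ℝ) : ℂ) * fR k t⁻¹ y := by
  have ht0 : (t : ℂ) ≠ 0 := Complex.ofReal_ne_zero.mpr ht.ne'
  have hπ : (π : ℂ) ≠ 0 := Complex.ofReal_ne_zero.mpr Real.pi_ne_zero
  have hb : 0 < ((π : ℂ) * t).re := by
    rw [Complex.re_ofReal_mul, Complex.ofReal_re]
    positivity
  set c : ℂ := -(2 * π * Complex.I * (y : ℂ)) with hc
  have hexp : ∀ x : ℝ, Complex.exp (-(2 * π * Complex.I * ((y * x : ℝ) : ℂ))) *
      ((Real.exp (-(π * (t * x ^ 2))) : ℝ) : ℂ) =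
      Complex.exp (-((π : ℂ) * t) * (x : ℂ) ^ 2 + c * x) := by
    intro x
    rw [Complex.ofReal_exp, ← Complex.exp_add, hc]
    congr 1
    push_cast
    ring
  have h0 : ∫ x : ℝ, Complex.exp (-((π : ℂ) * t) * (x : ℂ) ^ 2 + c * x) =
      (((t ^ (1 / 2 : ℝ))⁻¹ : ℝ) : ℂ) * ((Real.exp (-(π * (t⁻¹ * y ^ 2))) : ℝ) : ℂ) := by
    have h1 := integral_cexp_quadratic (b := -((π : ℂ) * t)) (by
      rw [Complex.neg_re]
      linarith) c 0
    simp only [add_zero, zero_sub] at h1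
    rw [h1]
    congr 1
    · have h2 : (π : ℂ) / -(-((π : ℂ) * t)) = ((t⁻¹ : ℝ) : ℂ) := by
        push_cast
        field_simp
      have h3 : (1 / 2 : ℂ) = ((1 / 2 : ℝ) : ℂ) := by push_cast; rfl
      rw [h2, h3, ← Complex.ofReal_cpow (inv_nonneg.mpr ht.le), Real.inv_rpow ht.le]
    · rw [Complex.ofReal_exp]
      congr 1
      rw [hc]
      push_cast
      have hI := Complex.I_sq
      have h4 : (-(2 * (π : ℂ) * Complex.I * (y : ℂ))) ^ 2 = -(4 * (π : ℂ) ^ 2 * (y : ℂ) ^ 2) := by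
        linear_combination (4 * (π : ℂ) ^ 2 * (y : ℂ) ^ 2) * hI
      rw [h4]
      field_simp
  interval_cases k
  · simp only [fR, pow_zero, one_mul, hexp]
    exact h0
  · have h1 : ∀ x : ℝ, Complex.exp (-(2 * π * Complex.I * ((y * x : ℝ) : ℂ))) * fR 1 t x =
        ((√t : ℝ) : ℂ) * ((x : ℂ) * Complex.exp (-((π : ℂ) * t) * (x : ℂ) ^ 2 + c * x)) := by
      intro x
      rw [← hexp, fR]
      ring
    simp_rw [h1]
    rw [integral_const_mul, integral_mul_cexp hb, h0, fR, hc, ← sqrt_inv_eq ht]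
    push_cast
    field_simp

/-! ### The bound -/

theorem pow_le_exp_aux (k : ℕ) {r : ℝ} (hr : 0 ≤ r) :
    r ^ k ≤ (k.factorial * Real.exp 1) * Real.exp (π * (r ^ 2 / 2)) := by
  have h1 : r ^ k / k.factorial ≤ Real.exp r := Real.pow_div_factorial_le_exp r hr k
  have h2 : Real.exp r ≤ Real.exp (1 + π * (r ^ 2 / 2)) := by
    refine Real.exp_le_exp.mpr ?_
    have := Real.pi_gt_three
    nlinarith [sq_nonneg (r - 1), sq_nonneg r]
  rw [Real.exp_add] at h2
  have h3 : (0 : ℝ) < k.factorial := by exact_mod_cast k.factorial_pos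
  rw [div_le_iff₀ h3] at h1
  calc r ^ k ≤ Real.exp r * k.factorial := h1
    _ ≤ (Real.exp 1 * Real.exp (π * (r ^ 2 / 2))) * k.factorial :=
      mul_le_mul_of_nonneg_right h2 h3.le
    _ = _ := by ring

theorem norm_fR_le (k : ℕ) {t : ℝ} (ht : 0 ≤ t) (x : ℝ) : ‖fR k t x‖ ≤
    (k.factorial * Real.exp 1) * Real.exp (-(π * (t / 2 * x ^ 2))) := by
  rw [fR, norm_mul, norm_mul, norm_pow, norm_pow, Complex.norm_real, Complex.norm_real,
    Complex.norm_real, Real.norm_of_nonneg (Real.sqrt_nonneg _),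
    Real.norm_of_nonneg (Real.exp_nonneg _), ← mul_pow]
  have h1 := pow_le_exp_aux k (r := √t * ‖x‖) (by positivity)
  have h2 : (√t * ‖x‖) ^ 2 = t * x ^ 2 := by
    rw [mul_pow, Real.sq_sqrt ht, Real.norm_eq_abs, sq_abs]
  rw [h2] at h1
  refine (mul_le_mul_of_nonneg_right h1 (Real.exp_nonneg _)).trans (le_of_eq ?_)
  rw [mul_assoc, ← Real.exp_add]
  congr 2
  ring

theorem norm_fC_le (k : ℤ) {t : ℝ} (ht : 0 ≤ t) (z : ℂ) : ‖fC k t z‖ ≤
    (k.natAbs.factorial * Real.exp 1) * Real.exp (-(π * (2 * (t / 2 * ‖z‖ ^ 2)))) := by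
  rw [fC, norm_mul, norm_mul, norm_pow, norm_hz, Complex.norm_real, Complex.norm_real,
    Real.norm_of_nonneg (Real.sqrt_nonneg _), Real.norm_of_nonneg (Real.exp_nonneg _), ← mul_pow]
  have h1 := pow_le_exp_aux k.natAbs (r := √t * ‖z‖) (by positivity)
  have h2 : (√t * ‖z‖) ^ 2 = t * ‖z‖ ^ 2 := by
    rw [mul_pow, Real.sq_sqrt ht]
  rw [h2] at h1
  refine (mul_le_mul_of_nonneg_right h1 (Real.exp_nonneg _)).trans ?_
  rw [mul_assoc, ← Real.exp_add]
  refine mul_le_mul_of_nonneg_left (Real.exp_le_exp.mpr ?_) (by positivity)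
  have h3 : 0 ≤ π * (t * ‖z‖ ^ 2) := by positivity
  linarith

/-! ### The kernel on the mixed space -/

variable {K : Type u} [Field K] [NumberField K]

section Kernel

open scoped Classical

/-- the complex places -/
abbrev CP (K : Type u) [Field K] : Type u := {w : InfinitePlace K // IsComplex w}

/-- the kernel on the mixed space -/
def fG (n : InfinitePlace K → ℤ) (t : InfinitePlace K → ℝ) (v : mixedSpace K) : ℂ :=
  (∏ w : {w : InfinitePlace K // IsReal w}, fR (n w.1).natAbs (t w.1) (v.1 w)) *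
    ∏ w : {w : InfinitePlace K // IsComplex w}, fC (n w.1) (t w.1) (v.2 w)

theorem continuous_fG (n : InfinitePlace K → ℤ) (t : InfinitePlace K → ℝ) :
    Continuous (fG n t) := by
  unfold fG
  refine Continuous.mul ?_ ?_
  · refine continuous_finsetProd _ fun w _ => ?_
    exact (continuous_fR _ _).comp ((continuous_apply w).comp continuous_fst)
  · refine continuous_finsetProd _ fun w _ => ?_
    exact (continuous_fC _ _).comp ((continuous_apply w).comp continuous_snd)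

theorem hz_ofReal (k : ℤ) (r : ℝ) : hz k (r : ℂ) = (r : ℂ) ^ k.natAbs := by
  unfold hz
  split_ifs
  · rfl
  · rw [Complex.conj_ofReal]

theorem fG_mixedEmbedding (n : InfinitePlace K → ℤ) (t : InfinitePlace K → ℝ) (x : K) :
    fG n t (mixedEmbedding K x) = EG n t x := by
  have hE : ((E t x : ℝ) : ℂ) = ∏ w : InfinitePlace K,
      ((Real.exp (-(π * ((w.mult : ℝ) * (t w * w x ^ 2)))) : ℝ) : ℂ) := by
    rw [← Complex.ofReal_prod, ← Real.exp_sum, E, Finset.sum_neg_distrib, ← Finset.mul_sum]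
    congr 2
    ring
  rw [EG, hE, pG, Complex.ofReal_prod, ← Finset.prod_mul_distrib, ← Finset.prod_mul_distrib,
    prod_eq_prod_mul_prod, fG]
  congr 1
  · refine Finset.prod_congr rfl fun w _ => ?_
    rw [mixedEmbedding_apply_isReal, fR, mult, if_pos w.2, ← embedding_of_isReal_apply w.2,
      hz_ofReal]
    have h : (embedding_of_isReal w.2 x : ℝ) ^ 2 = w.1 x ^ 2 := by
      rw [← norm_embedding_of_isReal w.2, Real.norm_eq_abs, sq_abs]
    rw [h]
    push_cast
    rw [one_mul]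
  · refine Finset.prod_congr rfl fun w _ => ?_
    rw [mixedEmbedding_apply_isComplex, fC, mult, if_neg (not_isReal_iff_isComplex.mpr w.2),
      norm_embedding_eq]
    push_cast
    rfl

theorem norm_gau_eK (t : InfinitePlace K → ℝ) (v : mixedSpace K) :
    ‖gau (eK K) (wtK t) v‖ =
      (∏ w : {w : InfinitePlace K // IsReal w}, Real.exp (-(π * (t w.1 * v.1 w ^ 2)))) *
        ∏ w : {w : InfinitePlace K // IsComplex w},
          Real.exp (-(π * (2 * (t w.1 * ‖v.2 w‖ ^ 2)))) := by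
  rw [norm_gau, ← Real.exp_sum, ← Real.exp_sum, ← Real.exp_add, Fintype.sum_sum_type,
    Fintype.sum_prod_type, Finset.sum_neg_distrib, Finset.sum_neg_distrib, ← neg_add,
    ← Finset.mul_sum, ← Finset.mul_sum, ← mul_add]
  congr 4
  · refine Finset.sum_congr rfl fun w _ => ?_
    rw [eK_repr_inl, wtK, Sum.elim_inl, Complex.ofReal_re]
  · refine Finset.sum_congr rfl fun w _ => ?_
    rw [Fin.sum_univ_two, eK_repr_inr0, eK_repr_inr1, wtK, Sum.elim_inr, Sum.elim_inr,
      Complex.ofReal_re, ← Complex.normSq_eq_norm_sq, Complex.normSq_apply]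
    have h2 : (√2 : ℝ) ^ 2 = 2 := Real.sq_sqrt (by norm_num)
    linear_combination (t w.1 * ((v.2 w).re ^ 2 + (v.2 w).im ^ 2)) * h2

theorem exists_decayG (n : InfinitePlace K → ℤ) {t : InfinitePlace K → ℝ} (ht : ∀ w, 0 < t w) :
    ∃ C : ℝ, ∀ v : mixedSpace K,
      ‖fG n t v‖ ≤ C * (1 + ‖v‖) ^ (-((finrank ℚ K + 1 : ℕ) : ℝ)) := by
  obtain ⟨C, hC⟩ := exists_decay (K := K) (t := fun w => t w / 2) fun w => half_pos (ht w)
  set A : ℝ := (∏ w : {w : InfinitePlace K // IsReal w},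
    (((n w.1).natAbs.factorial : ℝ) * Real.exp 1)) *
      ∏ w : {w : InfinitePlace K // IsComplex w}, (((n w.1).natAbs.factorial : ℝ) * Real.exp 1)
    with hA
  have hA0 : 0 ≤ A := by positivity
  refine ⟨A * C, fun v => ?_⟩
  have h1 : ‖fG n t v‖ ≤ A * ‖gau (eK K) (wtK fun w => t w / 2) v‖ := by
    rw [norm_gau_eK, fG, norm_mul, norm_prod, norm_prod, hA, mul_mul_mul_comm,
      ← Finset.prod_mul_distrib, ← Finset.prod_mul_distrib]
    refine mul_le_mul ?_ ?_ (Finset.prod_nonneg fun _ _ => norm_nonneg _)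
      (Finset.prod_nonneg fun _ _ => by positivity)
    · exact Finset.prod_le_prod (fun _ _ => norm_nonneg _) fun w _ =>
        norm_fR_le _ (ht w.1).le _
    · exact Finset.prod_le_prod (fun _ _ => norm_nonneg _) fun w _ =>
        norm_fC_le _ (ht w.1).le _
  refine h1.trans ((mul_le_mul_of_nonneg_left (hC v) hA0).trans (le_of_eq ?_))
  ring

/-- **The Fourier transform of the kernel.** -/
theorem fB_fG (hC : FourierC) {n : InfinitePlace K → ℤ}
    (hn : ∀ w : InfinitePlace K, IsReal w → (n w).natAbs ≤ 1) {t : InfinitePlace K → ℝ}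
    (ht : ∀ w, 0 < t w) (y : mixedSpace K) :
    fB volume (trB K) (fG n t) y =
      (-Complex.I) ^ (∑ w : InfinitePlace K, (n w).natAbs) *
        (volume : Measure (mixedSpace K)).real (parallelepiped (eK K)) *
        (((∏ w : InfinitePlace K, t w ^ ((w.mult : ℝ) / 2))⁻¹ : ℝ) : ℂ) *
        fG (-n) (fun w => (t w)⁻¹) y := by
  have h1 : ∀ v : mixedSpace K, Complex.exp (-(2 * π * Complex.I * (trB K y v : ℝ))) * fG n t v =
      (∏ w : {w : InfinitePlace K // IsReal w},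
        (Complex.exp (-(2 * π * Complex.I * ((y.1 w * v.1 w : ℝ) : ℂ))) *
          fR (n w.1).natAbs (t w.1) (v.1 w))) *
      ∏ w : {w : InfinitePlace K // IsComplex w},
        (Complex.exp (-(2 * π * Complex.I * ((2 * (y.2 w * v.2 w).re : ℝ) : ℂ))) *
          fC (n w.1) (t w.1) (v.2 w)) := by
    intro v
    have e1 : ((trB K y v : ℝ) : ℂ) =
        ∑ w : {w : InfinitePlace K // IsReal w}, ((y.1 w * v.1 w : ℝ) : ℂ) +
        ∑ w : {w : InfinitePlace K // IsComplex w}, ((2 * (y.2 w * v.2 w).re : ℝ) : ℂ) := by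
      rw [trB_apply]
      push_cast
      rfl
    rw [Finset.prod_mul_distrib, Finset.prod_mul_distrib, ← Complex.exp_sum, ← Complex.exp_sum,
      mul_mul_mul_comm, ← Complex.exp_add, fG, e1, Finset.sum_neg_distrib,
      Finset.sum_neg_distrib, ← neg_add, mul_add, Finset.mul_sum, Finset.mul_sum]
  rw [fB]
  simp_rw [h1]
  have h2 : ∫ v : mixedSpace K, (∏ w : {w : InfinitePlace K // IsReal w},
        (Complex.exp (-(2 * π * Complex.I * ((y.1 w * v.1 w : ℝ) : ℂ))) *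
          fR (n w.1).natAbs (t w.1) (v.1 w))) *
      ∏ w : {w : InfinitePlace K // IsComplex w},
        (Complex.exp (-(2 * π * Complex.I * ((2 * (y.2 w * v.2 w).re : ℝ) : ℂ))) *
          fC (n w.1) (t w.1) (v.2 w)) =
      (∏ w : {w : InfinitePlace K // IsReal w}, ∫ x : ℝ,
        Complex.exp (-(2 * π * Complex.I * ((y.1 w * x : ℝ) : ℂ))) *
          fR (n w.1).natAbs (t w.1) x) *
      ∏ w : {w : InfinitePlace K // IsComplex w}, ∫ z : ℂ,
        Complex.exp (-(2 * π * Complex.I * ((2 * (y.2 w * z).re : ℝ) : ℂ))) *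
          fC (n w.1) (t w.1) z := by
    rw [← integral_fintype_prod_volume_eq_prod
      (f := fun (w : {w : InfinitePlace K // IsReal w}) (x : ℝ) =>
        Complex.exp (-(2 * π * Complex.I * ((y.1 w * x : ℝ) : ℂ))) *
          fR (n w.1).natAbs (t w.1) x),
      ← integral_fintype_prod_volume_eq_prod
      (f := fun (w : {w : InfinitePlace K // IsComplex w}) (z : ℂ) =>
        Complex.exp (-(2 * π * Complex.I * ((2 * (y.2 w * z).re : ℝ) : ℂ))) *
          fC (n w.1) (t w.1) z), ← integral_prod_mul]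
    rfl
  rw [h2]
  have h3 : ∀ w : {w : InfinitePlace K // IsReal w}, ∫ x : ℝ,
        Complex.exp (-(2 * π * Complex.I * ((y.1 w * x : ℝ) : ℂ))) *
          fR (n w.1).natAbs (t w.1) x =
      (-Complex.I) ^ (n w.1).natAbs * (((t w.1 ^ (((w.1).mult : ℝ) / 2))⁻¹ : ℝ) : ℂ) *
        fR ((-n) w.1).natAbs (t w.1)⁻¹ (y.1 w) := by
    intro w
    rw [integral_fR (hn w.1 w.2) (ht w.1), mult, if_pos w.2, Pi.neg_apply, Int.natAbs_neg]
    push_cast
    rfl
  have h4 : ∀ w : {w : InfinitePlace K // IsComplex w}, ∫ z : ℂ,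
        Complex.exp (-(2 * π * Complex.I * ((2 * (y.2 w * z).re : ℝ) : ℂ))) *
          fC (n w.1) (t w.1) z =
      (-Complex.I) ^ (n w.1).natAbs * (2⁻¹ : ℂ) * (((t w.1 ^ (((w.1).mult : ℝ) / 2))⁻¹ : ℝ) : ℂ) *
        fC ((-n) w.1) (t w.1)⁻¹ (y.2 w) := by
    intro w
    rw [hC _ _ (ht w.1), mult, if_neg (not_isReal_iff_isComplex.mpr w.2), Pi.neg_apply]
    push_cast
    rw [div_self (two_ne_zero), Real.rpow_one]
    ring
  rw [Finset.prod_congr rfl fun w _ => h3 w, Finset.prod_congr rfl fun w _ => h4 w,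
    Finset.prod_mul_distrib, Finset.prod_mul_distrib, Finset.prod_mul_distrib,
    Finset.prod_mul_distrib, Finset.prod_mul_distrib, volume_eK, fG,
    ← Finset.prod_pow_eq_pow_sum, prod_eq_prod_mul_prod, ← Finset.prod_inv_distrib,
    Complex.ofReal_prod, prod_eq_prod_mul_prod, Finset.prod_const]
  have h5 : (Finset.univ : Finset {w : InfinitePlace K // IsComplex w}).card =
      nrComplexPlaces K := rfl
  rw [h5]
  push_cast
  ring

variable {t : InfinitePlace K → ℝ}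

/-- convergence of the shifted theta series. -/
theorem summable_shiftG (n : InfinitePlace K → ℤ) (ht : ∀ w, 0 < t w)
    {𝔠 : FractionalIdeal (𝓞 K)⁰ K} (h𝔠 : 𝔠 ≠ 0) (r : K) :
    Summable fun x : 𝔠 => EG n t (r + (x : K)) := by
  obtain ⟨C, hC⟩ := exists_decayG (K := K) n ht
  have h1 := (isRealModel K).summable_of_decay (LK_eq (Units.mk0 𝔠 h𝔠)) lt_beta hC (jK K r)
  refine h1.congr fun x => ?_
  rw [← map_add, jK_apply, fG_mixedEmbedding]

/-- **Shifted theta inversion.** -/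
theorem hasSum_shiftG (hF : FourierC) {n : InfinitePlace K → ℤ}
    (hn : ∀ w : InfinitePlace K, IsReal w → (n w).natAbs ≤ 1) (ht : ∀ w, 0 < t w)
    {𝔠 : FractionalIdeal (𝓞 K)⁰ K} (h𝔠 : 𝔠 ≠ 0) (r : K) :
    HasSum (fun y : dualF 𝔠 => (cΘ 𝔠 t : ℂ) * ((-Complex.I) ^ (∑ w : InfinitePlace K,
      (n w).natAbs) * EG (-n) (fun w => (t w)⁻¹) (y : K) * ch (y : K) r))
      (∑' x : 𝔠, EG n t (r + (x : K))) := by
  set I : (FractionalIdeal (𝓞 K)⁰ K)ˣ := Units.mk0 𝔠 h𝔠 with hI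
  have hI' : (I : FractionalIdeal (𝓞 K)⁰ K) = 𝔠 := rfl
  obtain ⟨C, hC⟩ := exists_decayG (K := K) n ht
  have ht' : ∀ w, 0 < (t w)⁻¹ := fun w => inv_pos.mpr (ht w)
  obtain ⟨C', hC'⟩ := exists_decayG (K := K) (t := fun w => (t w)⁻¹) (-n) ht'
  have hB : ∀ y : K, fB volume (trB K) (fG n t) (jK K y) =
      (-Complex.I) ^ (∑ w : InfinitePlace K, (n w).natAbs) *
        (volume : Measure (mixedSpace K)).real (parallelepiped (eK K)) *
        (((∏ w : InfinitePlace K, t w ^ ((w.mult : ℝ) / 2))⁻¹ : ℝ) : ℂ) *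
        EG (-n) (fun w => (t w)⁻¹) y := by
    intro y
    rw [fB_fG hF hn ht, jK_apply, fG_mixedEmbedding]
  have hs : Summable fun y : (Algebra.traceForm ℚ K).dualSubmodule (LK I) =>
      fB volume (trB K) (fG n t) (jK K y) := by
    simp_rw [hB]
    have h1 := (isRealModel K).summable_dual_of_decay (LK_eq I) lt_beta hC' 0
    refine Summable.mul_left _ (h1.congr fun y => ?_)
    rw [zero_add, jK_apply, fG_mixedEmbedding]
  have h := (isRealModel K).hasSum_poisson volume (LK_eq I) (continuous_fG _ _) lt_beta hC hs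
    (jK K r)
  have hb : (isRealModel K).realBasis (basisOfFractionalIdeal K I) =
      fractionalIdealLatticeBasis K I := by
    apply Basis.eq_of_apply_eq
    intro i
    rw [IsRealModel.realBasis_apply, fractionalIdealLatticeBasis_apply, jK_apply]
  rw [hb] at h
  have h5 : ∑' x : LK I, fG n t (jK K r + jK K x) = ∑' x : 𝔠, EG n t (r + (x : K)) := by
    refine tsum_congr fun x => ?_
    rw [← map_add, jK_apply, fG_mixedEmbedding]
  rw [h5] at h
  have h6 : HasSum (fun y : (Algebra.traceForm ℚ K).dualSubmodule (LK I) =>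
      (cΘ 𝔠 t : ℂ) * ((-Complex.I) ^ (∑ w : InfinitePlace K, (n w).natAbs) *
        EG (-n) (fun w => (t w)⁻¹) (y : K) * ch (y : K) r))
      (∑' x : 𝔠, EG n t (r + (x : K))) := by
    refine (congrArg (fun F => HasSum F _) (funext fun y => ?_)).mpr h
    rw [hB, (isRealModel K).map, Algebra.traceForm_apply, ← hI', cΘ_eq, ch]
    push_cast
    ring
  exact (Equiv.subtypeEquivRight (mem_dualSubmodule_iff I)).hasSum_iff.mp h6

end Kernel

/-! ### The dual weight -/

section Dual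

variable {n : InfinitePlace K → ℤ} {κ : InfinitePlace K → ℝ} {𝔟 𝔠 : FractionalIdeal (𝓞 K)⁰ K}

/-- **The dual weight.** -/
def dwG (n : InfinitePlace K → ℤ) (𝔠 : FractionalIdeal (𝓞 K)⁰ K) (φ : K → ℂ) (R : Finset K)
    (y : K) : ℂ :=
  (-Complex.I) ^ (∑ w : InfinitePlace K, (n w).natAbs) * dw 𝔠 φ R y

theorem isWtG_dwG {φ : K → ℂ} (h : IsWtG n κ 𝔟 𝔠 φ) {R : Finset K} (hR : IsReps 𝔟 𝔠 R) :
    IsWtG (-n) (-κ) (dualF 𝔠) (dualF 𝔟) (dwG n 𝔠 φ R) where
  hb := dualF_ne_zero h.hc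
  hc := dualF_ne_zero h.hb
  le := dual_le h.hb h.hc h.le
  supp y hy := by rw [dwG, dw, if_neg hy, mul_zero]
  per y c hc := by
    have hle := dual_le h.hb h.hc h.le
    rw [dwG, dwG]
    congr 1
    by_cases hy : y ∈ dualF 𝔠
    · have hyc : y + c ∈ dualF 𝔠 := mem_add hy (hle hc)
      rw [dw, dw, if_pos hy, if_pos hyc]
      refine Finset.sum_congr rfl fun r hr => ?_
      rw [ch_add_left, ch_eq_one h.hb hc (hR.mem r hr), mul_one]
    · have hyc : y + c ∉ dualF 𝔠 := fun h1 => hy (by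
        have := mem_sub h1 (hle hc)
        rwa [add_sub_cancel_right] at this)
      rw [dw, dw, if_neg hy, if_neg hyc]
  unit v y := by
    have hv0 : ((v : 𝓞 K) : K) ≠ 0 := by simp
    have hv : (((v⁻¹ : (𝓞 K)ˣ) : 𝓞 K) : K) * ((v : 𝓞 K) : K) = 1 := by
      have h1 : (((v⁻¹ : (𝓞 K)ˣ) : 𝓞 K)) * ((v : 𝓞 K)) = 1 := by simp
      exact_mod_cast congrArg (algebraMap (𝓞 K) K) h1
    have hchi : conj (chi n κ ((v : 𝓞 K) : K)) * chi n κ ((v : 𝓞 K) : K) = 1 :=
      conj_chi_mul n κ hv0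
    rw [chi_neg_neg, Complex.conj_conj, dwG, dwG]
    by_cases hy : y ∈ dualF 𝔠
    · have hvy : ((v : 𝓞 K) : K) * y ∈ dualF 𝔠 := mem_smul _ hy
      have h1 := sum_reps hR (hR.unit_smul v) (g := fun x => φ x * ch y x) (fun x c hc => by
        rw [h.per x c hc, ch_add_right, ch_eq_one h.hc hy hc, mul_one])
      have h2 : dw 𝔠 φ R y = conj (chi n κ ((v : 𝓞 K) : K)) * dw 𝔠 φ R (((v : 𝓞 K) : K) * y) := by
        rw [dw, dw, if_pos hy, if_pos hvy, h1, Finset.sum_map, Finset.mul_sum]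
        refine Finset.sum_congr rfl fun r _ => ?_
        simp only [Function.Embedding.coeFn_mk]
        rw [h.unit, ch, ch, mul_comm ((v : 𝓞 K) : K) y, mul_assoc y, mul_assoc]
      rw [h2]
      linear_combination (-(-Complex.I) ^ (∑ w : InfinitePlace K, (n w).natAbs) *
        dw 𝔠 φ R (((v : 𝓞 K) : K) * y)) * hchi
    · have hvy : ((v : 𝓞 K) : K) * y ∉ dualF 𝔠 := fun h1 => hy (by
        have := mem_smul ((v⁻¹ : (𝓞 K)ˣ) : 𝓞 K) h1
        rwa [← mul_assoc, hv, one_mul] at this)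
      rw [dw, dw, if_neg hy, if_neg hvy, mul_zero, mul_zero]
  bdd := by
    refine ⟨∑ r ∈ R, ‖φ r‖, fun y => ?_⟩
    rw [dwG, norm_mul, norm_pow, norm_neg, Complex.norm_I, one_pow, one_mul, dw]
    split_ifs
    · refine (norm_sum_le _ _).trans_eq (Finset.sum_congr rfl fun r _ => ?_)
      rw [norm_mul, norm_ch, mul_one]
    · rw [norm_zero]
      exact Finset.sum_nonneg fun r _ => norm_nonneg _

end Dual

/-! ### Theta inversion -/

section Inv

variable {n : InfinitePlace K → ℤ} {κ : InfinitePlace K → ℝ} {𝔟 𝔠 : FractionalIdeal (𝓞 K)⁰ K}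
  {t : InfinitePlace K → ℝ}

/-- Decomposition of the weighted theta series into classes modulo `𝔠`. -/
theorem hasSum_ΘG (ht : ∀ w, 0 < t w) {φ : K → ℂ} (h : IsWtG n κ 𝔟 𝔠 φ) {R : Finset K}
    (hR : IsReps 𝔟 𝔠 R) : HasSum (fun x : K => φ x * EG n t x)
      (∑ r ∈ R, φ r * ∑' x : 𝔠, EG n t (r + (x : K))) := by
  classical
  have h1 : ∀ r ∈ R, HasSum (fun x : K => if x - r ∈ 𝔠 then φ r * EG n t x else 0)
      (φ r * ∑' x : 𝔠, EG n t (r + (x : K))) := by
    intro r _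
    have hinj : Function.Injective fun x : 𝔠 => r + (x : K) := fun x y hxy =>
      Subtype.ext (add_left_cancel hxy)
    rw [← hinj.hasSum_iff]
    · have h3 := (summable_shiftG n ht h.hc r).hasSum.mul_left (φ r)
      have h4 : ((fun x : K => if x - r ∈ 𝔠 then φ r * EG n t x else 0) ∘
          fun x : 𝔠 => r + (x : K)) = fun x : 𝔠 => φ r * EG n t (r + (x : K)) := by
        funext x
        simp only [Function.comp_apply]
        rw [if_pos]
        rw [add_sub_cancel_left]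
        exact x.2
      rw [h4]
      exact h3
    · intro x hx
      rw [if_neg]
      exact fun hxr => hx ⟨⟨x - r, hxr⟩, by simp⟩
  convert hasSum_sum h1 using 1
  funext x
  by_cases hx : x ∈ 𝔟
  · obtain ⟨r, ⟨hr, hxr⟩, huniq⟩ := hR.ex x hx
    rw [Finset.sum_eq_single_of_mem r hr, if_pos hxr]
    · have h2 := h.per r (x - r) hxr
      rw [add_sub_cancel] at h2
      rw [h2]
    · intro s hs hsr
      rw [if_neg]
      exact fun hxs => hsr (huniq s ⟨hs, hxs⟩)
  · rw [h.supp x hx, zero_mul, Finset.sum_eq_zero]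
    intro r hr
    rw [if_neg]
    intro hxr
    have h2 := mem_add (hR.mem r hr) (h.le hxr)
    rw [add_sub_cancel] at h2
    exact hx h2

/-- **Theta inversion with weights and harmonic polynomials.** -/
theorem isInvG_dwG (hF : FourierC) (hn : ∀ w : InfinitePlace K, IsReal w → (n w).natAbs ≤ 1)
    {φ : K → ℂ} (h : IsWtG n κ 𝔟 𝔠 φ) {R : Finset K} (hR : IsReps 𝔟 𝔠 R) :
    IsInvG n 𝔠 φ (dwG n 𝔠 φ R) := by
  classical
  intro t ht
  have h1 := (hasSum_ΘG ht h hR).tsum_eq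
  have h2 : HasSum (fun y : dualF 𝔠 => ∑ r ∈ R, φ r * ((cΘ 𝔠 t : ℂ) *
      ((-Complex.I) ^ (∑ w : InfinitePlace K, (n w).natAbs) *
        EG (-n) (fun w => (t w)⁻¹) (y : K) * ch (y : K) r)))
      (∑ r ∈ R, φ r * ∑' x : 𝔠, EG n t (r + (x : K))) :=
    hasSum_sum fun r _ => (hasSum_shiftG hF hn ht h.hc r).mul_left (φ r)
  have h3 : HasSum (fun y : K => (cΘ 𝔠 t : ℂ) *
      (dwG n 𝔠 φ R y * EG (-n) (fun w => (t w)⁻¹) y))
      (∑ r ∈ R, φ r * ∑' x : 𝔠, EG n t (r + (x : K))) := by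
    have hinj : Function.Injective fun y : dualF 𝔠 => (y : K) := Subtype.val_injective
    rw [← hinj.hasSum_iff]
    · convert h2 using 1
      funext y
      simp only [Function.comp_apply]
      rw [dwG, dw, if_pos y.2, Finset.mul_sum, Finset.sum_mul, Finset.mul_sum]
      refine Finset.sum_congr rfl fun r _ => ?_
      ring
    · intro y hy
      have hy' : y ∉ dualF 𝔠 := fun h4 => hy ⟨⟨y, h4⟩, rfl⟩
      rw [dwG, dw, if_neg hy', mul_zero, zero_mul, mul_zero]
  rw [ΘG, h1, ← h3.tsum_eq, tsum_mul_left]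
  rfl

end Inv

/-- **Piece (A2).** -/
theorem thetaGStmt_of (hF : FourierC) (K : Type u) [Field K] [NumberField K] : ThetaGStmt K := by
  intro n κ hty 𝔟 𝔠 φ h
  obtain ⟨R, hR⟩ := exists_reps (𝔟 := 𝔟) h.hc
  exact ⟨dwG n 𝔠 φ R, isWtG_dwG h hR, isInvG_dwG hF hty.real h hR⟩

end Fermat.Agent.Cor.RayG

end
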