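import Fermat.Agent.Corollaries.Gauss.Weyl
import Mathlib.Analysis.Fourier.AddCircleMulti
import Mathlib.MeasureTheory.Measure.Portmanteau

/-!
# Weyl's criterion on the torus `(ℝ / ℤ) ^ d`

`weyl_continuous`: if the Weyl sums tend to zero, the averages of every continuous function tend to
its integral. `weyl_set`: the same for the indicator functions of the sets with boundary of measure
zero. `weyl_box`: boxes.
-/

set_option autoImplicit false
set_option linter.unusedSectionVars false

noncomputable section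

open Filter Topology MeasureTheory Set AddCircle UnitAddTorus

open scoped Classical

namespace Fermat.Agent.Cor.RayG

variable {d : Type*} [Fintype d]

/-- the Haar measure of the torus, of total mass one -/
abbrev haarT (d : Type*) [Fintype d] : Measure (UnitAddTorus d) :=
  Measure.pi fun _ : d => haarAddCircle

theorem integral_mFourier (k : d → ℤ) :
    ∫ x, mFourier k x ∂(haarT d) = if k = 0 then 1 else 0 := by
  have h1 : ∫ x, mFourier k x ∂(haarT d) =
      ∏ i, ∫ x : UnitAddCircle, fourier (k i) x ∂haarAddCircle :=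
    integral_fintype_prod_eq_prod (fun i (x : UnitAddCircle) => (fourier (k i) x : ℂ))
  rw [h1]
  simp only [Gauss.integral_fourier]
  by_cases hk : k = 0
  · rw [if_pos hk, hk]
    simp
  · rw [if_neg hk]
    obtain ⟨i, hi⟩ := Function.ne_iff.mp hk
    refine Finset.prod_eq_zero (Finset.mem_univ i) ?_
    exact if_neg hi

variable {X : Type*} {θ : X → UnitAddTorus d} {F : ℕ → Finset X} {c : ℕ → ℝ}

/-- the weighted sum of `f` over the points `θ i`, `i ∈ F n` -/
def tSum (θ : X → UnitAddTorus d) (F : ℕ → Finset X) (c : ℕ → ℝ) (f : UnitAddTorus d → ℂ)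
    (n : ℕ) : ℂ :=
  (c n : ℂ) * ∑ i ∈ F n, f (θ i)

theorem integrable_torus (g : C(UnitAddTorus d, ℂ)) : Integrable g (haarT d) :=
  (map_continuous g).integrable_of_hasCompactSupport (HasCompactSupport.of_compactSpace _)

/-- **Weyl's criterion on the torus**, continuous functions. -/
theorem weyl_continuous (hc0 : ∀ n, 0 ≤ c n)
    (hcard : Tendsto (fun n => c n * ((F n).card : ℝ)) atTop (𝓝 1))
    (hk : ∀ k : d → ℤ, k ≠ 0 → Tendsto (tSum θ F c (mFourier k)) atTop (𝓝 0))
    (f : C(UnitAddTorus d, ℂ)) :
    Tendsto (tSum θ F c f) atTop (𝓝 (∫ x, f x ∂(haarT d))) := by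
  -- the span
  have hspan : ∀ g ∈ Submodule.span ℂ (range (mFourier (d := d))),
      Tendsto (tSum θ F c g) atTop (𝓝 (∫ x, g x ∂(haarT d))) := by
    intro g hg
    induction hg using Submodule.span_induction with
    | mem g hg =>
      obtain ⟨k, rfl⟩ := hg
      rw [integral_mFourier]
      by_cases h0 : k = 0
      · subst h0
        rw [if_pos rfl]
        have h1 : tSum θ F c (mFourier 0) = fun n => ((c n * ((F n).card : ℝ) : ℝ) : ℂ) := by
          ext n
          unfold tSum
          simp [mFourier_zero]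
        rw [h1]
        exact_mod_cast (Complex.continuous_ofReal.tendsto 1).comp hcard
      · rw [if_neg h0]
        exact hk k h0
    | zero =>
      have h1 : tSum θ F c (0 : C(UnitAddTorus d, ℂ)) = fun n => 0 := by
        ext n
        unfold tSum
        simp
      rw [h1]
      simp
    | add g g' _ _ h h' =>
      have h1 : tSum θ F c (g + g' : C(UnitAddTorus d, ℂ)) =
          fun n => tSum θ F c g n + tSum θ F c g' n := by
        ext n
        unfold tSum
        simp only [ContinuousMap.add_apply, Finset.sum_add_distrib, mul_add]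
      rw [h1]
      have h2 : ∫ x, (g + g') x ∂(haarT d) =
          (∫ x, g x ∂(haarT d)) + ∫ x, g' x ∂(haarT d) := by
        rw [← integral_add (integrable_torus g) (integrable_torus g')]
        rfl
      rw [h2]
      exact h.add h'
    | smul a g _ h =>
      have h1 : tSum θ F c (a • g : C(UnitAddTorus d, ℂ)) = fun n => a * tSum θ F c g n := by
        ext n
        unfold tSum
        simp only [ContinuousMap.smul_apply, smul_eq_mul]
        rw [← Finset.mul_sum]
        ring
      rw [h1]
      have h2 : ∫ x, (a • g) x ∂(haarT d) = a * ∫ x, g x ∂(haarT d) := by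
        rw [← integral_const_mul]
        rfl
      rw [h2]
      exact h.const_mul a
  have hcl : f ∈ (Submodule.span ℂ (range (mFourier (d := d)))).topologicalClosure := by
    rw [span_mFourier_closure_eq_top]
    trivial
  rw [Metric.tendsto_atTop]
  intro ε hε
  have hcl' : f ∈ closure ((Submodule.span ℂ (range (mFourier (d := d))) :
    Submodule ℂ C(UnitAddTorus d, ℂ)) : Set C(UnitAddTorus d, ℂ)) := hcl
  obtain ⟨g, hg, hfg⟩ := Metric.mem_closure_iff.mp hcl' (ε / 8) (by positivity)
  have hfg' : ∀ x, ‖f x - g x‖ ≤ ε / 8 := fun x => by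
    rw [← dist_eq_norm]
    exact (ContinuousMap.dist_apply_le_dist x).trans hfg.le
  obtain ⟨N, hN⟩ := Metric.tendsto_atTop.mp (hspan g hg) (ε / 4) (by positivity)
  obtain ⟨N', hN'⟩ := eventually_atTop.mp (hcard.eventually (gt_mem_nhds (show (1 : ℝ) < 2 by
    norm_num)))
  refine ⟨max N N', fun n hn => ?_⟩
  have h1 := hN n ((le_max_left _ _).trans hn)
  have h2 := hN' n ((le_max_right _ _).trans hn)
  rw [dist_eq_norm] at h1 ⊢
  have h3 : ‖tSum θ F c f n - tSum θ F c g n‖ ≤ ε / 4 := by
    unfold tSum
    rw [← mul_sub, ← Finset.sum_sub_distrib, norm_mul, Complex.norm_real,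
      Real.norm_of_nonneg (hc0 n)]
    calc c n * ‖∑ i ∈ F n, (f (θ i) - g (θ i))‖ ≤ c n * ((F n).card * (ε / 8)) := by
          refine mul_le_mul_of_nonneg_left ?_ (hc0 n)
          refine (norm_sum_le _ _).trans ?_
          rw [← nsmul_eq_mul]
          exact Finset.sum_le_card_nsmul _ _ _ fun i _ => hfg' _
      _ = (c n * (F n).card) * (ε / 8) := by ring
      _ ≤ 2 * (ε / 8) := by gcongr
      _ = ε / 4 := by ring
  have h4 : ‖(∫ x, g x ∂(haarT d)) - ∫ x, f x ∂(haarT d)‖ ≤ ε / 8 := by
    rw [← integral_sub (integrable_torus g) (integrable_torus f)]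
    have h5 := norm_integral_le_of_norm_le_const (μ := haarT d)
      (f := fun x => g x - f x) (C := ε / 8) (Eventually.of_forall fun x => by
        rw [norm_sub_rev]
        exact hfg' x)
    simpa using h5
  have e : tSum θ F c f n - ∫ x, f x ∂(haarT d) =
      (tSum θ F c f n - tSum θ F c g n) + (tSum θ F c g n - ∫ x, g x ∂(haarT d)) +
      ((∫ x, g x ∂(haarT d)) - ∫ x, f x ∂(haarT d)) := by ring
  rw [e]
  refine (norm_add₃_le).trans_lt ?_
  linarith

/-! ### Sets -/

/-- the normalised counting measure of the points `θ i`, `i ∈ S` -/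
def emp (θ : X → UnitAddTorus d) (S : Finset X) : Measure (UnitAddTorus d) :=
  if S.Nonempty then ((S.card : ENNReal)⁻¹) • ∑ i ∈ S, Measure.dirac (θ i) else Measure.dirac 0

theorem isProbabilityMeasure_emp (θ : X → UnitAddTorus d) (S : Finset X) :
    IsProbabilityMeasure (emp θ S) := by
  unfold emp
  split_ifs with h
  · refine ⟨?_⟩
    rw [Measure.smul_apply, Measure.finsetSum_apply]
    simp only [measure_univ, Finset.sum_const, nsmul_eq_mul, mul_one, smul_eq_mul]
    refine ENNReal.inv_mul_cancel ?_ (ENNReal.natCast_ne_top _)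
    exact_mod_cast h.card_pos.ne'
  · infer_instance

theorem emp_apply (θ : X → UnitAddTorus d) {S : Finset X} (h : S.Nonempty)
    (E : Set (UnitAddTorus d)) :
    (emp θ S E).toReal = (S.card : ℝ)⁻¹ * ((S.filter fun i => θ i ∈ E).card : ℝ) := by
  unfold emp
  rw [if_pos h, Measure.smul_apply, Measure.finsetSum_apply, smul_eq_mul, ENNReal.toReal_mul,
    ENNReal.toReal_inv, ENNReal.toReal_natCast]
  congr 1
  simp only [Measure.dirac_apply]
  have h1 : ∀ i ∈ S, E.indicator (1 : UnitAddTorus d → ENNReal) (θ i) =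
      if θ i ∈ E then 1 else 0 := fun i _ => rfl
  rw [Finset.sum_congr rfl h1, Finset.sum_boole, ENNReal.toReal_natCast]

theorem integral_emp (θ : X → UnitAddTorus d) {S : Finset X} (h : S.Nonempty)
    (f : BoundedContinuousFunction (UnitAddTorus d) ℝ) :
    ∫ x, f x ∂(emp θ S) = (S.card : ℝ)⁻¹ * ∑ i ∈ S, f (θ i) := by
  unfold emp
  rw [if_pos h, integral_smul_measure, integral_finsetSum_measure]
  · simp only [integral_dirac, ENNReal.toReal_inv, ENNReal.toReal_natCast, smul_eq_mul]
  · intro i _
    exact f.integrable _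

/-- **Weyl's criterion on the torus**, sets with boundary of measure zero. -/
theorem weyl_set (hc0 : ∀ n, 0 ≤ c n)
    (hcard : Tendsto (fun n => c n * ((F n).card : ℝ)) atTop (𝓝 1))
    (hk : ∀ k : d → ℤ, k ≠ 0 → Tendsto (tSum θ F c (mFourier k)) atTop (𝓝 0))
    {E : Set (UnitAddTorus d)} (hE : haarT d (frontier E) = 0) :
    Tendsto (fun n => c n * (((F n).filter fun i => θ i ∈ E).card : ℝ)) atTop
      (𝓝 (haarT d E).toReal) := by
  have hpos : ∀ᶠ n in atTop, 0 < c n * ((F n).card : ℝ) :=
    hcard.eventually (lt_mem_nhds zero_lt_one)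
  have hne : ∀ᶠ n in atTop, (F n).Nonempty ∧ 0 < c n ∧ 0 < ((F n).card : ℝ) := by
    filter_upwards [hpos] with n hn
    have h1 : 0 < ((F n).card : ℝ) := by
      by_contra h
      have h2 : ((F n).card : ℝ) = 0 := le_antisymm (not_lt.mp h) (Nat.cast_nonneg _)
      rw [h2, mul_zero] at hn
      exact lt_irrefl _ hn
    refine ⟨Finset.card_pos.mp (by exact_mod_cast h1), ?_, h1⟩
    exact (pos_iff_pos_of_mul_pos hn).mpr h1
  let μs : ℕ → ProbabilityMeasure (UnitAddTorus d) := fun n =>
    ⟨emp θ (F n), isProbabilityMeasure_emp θ (F n)⟩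
  let μ : ProbabilityMeasure (UnitAddTorus d) := ⟨haarT d, inferInstance⟩
  have hlim : Tendsto μs atTop (𝓝 μ) := by
    rw [ProbabilityMeasure.tendsto_iff_forall_integral_tendsto]
    intro f
    change Tendsto (fun n => ∫ x, f x ∂(emp θ (F n))) atTop (𝓝 (∫ x, f x ∂(haarT d)))
    let g : C(UnitAddTorus d, ℂ) := ⟨fun x => (f x : ℂ), Complex.continuous_ofReal.comp f.continuous⟩
    have h1 := weyl_continuous hc0 hcard hk g
    have h2 : ∫ x, g x ∂(haarT d) = ((∫ x, f x ∂(haarT d) : ℝ) : ℂ) :=
      integral_ofReal (f := fun x => f x)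
    rw [h2] at h1
    have h3 : Tendsto (fun n => c n * ∑ i ∈ F n, f (θ i)) atTop (𝓝 (∫ x, f x ∂(haarT d))) := by
      have h4 := (Complex.continuous_re.tendsto _).comp h1
      rw [Complex.ofReal_re] at h4
      refine h4.congr fun n => ?_
      rw [Function.comp_apply, tSum]
      have h5 : ∑ i ∈ F n, g (θ i) = ((∑ i ∈ F n, f (θ i) : ℝ) : ℂ) := by
        rw [Complex.ofReal_sum]
        rfl
      rw [h5, ← Complex.ofReal_mul, Complex.ofReal_re]
    have h6 := h3.div hcard one_ne_zero
    rw [div_one] at h6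
    refine h6.congr' ?_
    filter_upwards [hne] with n hn
    rw [integral_emp θ hn.1 f]
    have h7 := hn.2.1.ne'
    have h8 := hn.2.2.ne'
    rw [Pi.div_apply]
    field_simp
  have h1 := ProbabilityMeasure.tendsto_measure_of_null_frontier_of_tendsto' hlim (E := E) hE
  have h2 := (ENNReal.tendsto_toReal (measure_ne_top (haarT d) E)).comp h1
  have h3 := h2.mul hcard
  rw [mul_one] at h3
  refine h3.congr' ?_
  filter_upwards [hne] with n hn
  rw [Function.comp_apply]
  change (emp θ (F n) E).toReal * _ = _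
  rw [emp_apply θ hn.1 E]
  have h8 := hn.2.2.ne'
  field_simp

end Fermat.Agent.Cor.RayG

end
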