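import Fermat.Agent.Corollaries.RayG.Equi
import Fermat.Agent.Corollaries.RayG.Torus

/-!
# Several Groessencharaktere: equidistribution on the torus

`ψ i`, `i ∈ ι` finite, Groessencharaktere modulo `𝔪` of the types `(n i, κ i)` such that every
nontrivial product of powers is of infinite order. Then the points `(ψ i (P))_i` are equidistributed
on the torus, in every narrow ray class modulo `𝔪` (`tendsto_torus_nray`) and in every ideal class
(`𝔪 = 1`, `tendsto_torus_class`): every number field, all sets with boundary of measure zero.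
-/

set_option autoImplicit false
set_option linter.unusedSectionVars false

noncomputable section

open NumberField NumberField.InfinitePlace nonZeroDivisors Complex Filter Topology
open UnitAddTorus

open scoped Classical ComplexConjugate

namespace Fermat.Agent.Cor.RayG

open Fermat.Agent.ClassL Fermat.Agent.Classic.Zeta Fermat.Agent.Cor.Ray Fermat.Agent.Cor.RayN

universe u v

variable {K : Type u} [Field K] [NumberField K] {𝔪 : Ideal (𝓞 K)}

/-! ### Types -/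

theorem chi_add (n n' : InfinitePlace K → ℤ) (κ κ' : InfinitePlace K → ℝ) {x : K} (hx : x ≠ 0) :
    chi (n + n') (κ + κ') x = chi n κ x * chi n' κ' x := by
  have h : lK (κ + κ') x = lK κ x + lK κ' x := by
    unfold lK
    rw [← Finset.sum_add_distrib]
    exact Finset.sum_congr rfl fun w _ => by rw [Pi.add_apply, add_mul]
  rw [chi, chi, chi, aG_add _ _ hx, h, eI_add]
  ring

theorem chi_zsmul (k : ℤ) (n : InfinitePlace K → ℤ) (κ : InfinitePlace K → ℝ) {x : K}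
    (hx : x ≠ 0) : chi (k • n) (k • κ) x = chi n κ x ^ k := by
  have h : lK (k • κ) x = k * lK κ x := by
    unfold lK
    rw [Finset.mul_sum]
    refine Finset.sum_congr rfl fun w _ => ?_
    rw [Pi.smul_apply, zsmul_eq_mul, mul_assoc]
  have h2 : eI (k * lK κ x) = eI (lK κ x) ^ k := by
    rw [eI, eI, ← Complex.exp_int_mul]
    congr 1
    push_cast
    ring
  rw [chi, chi, h, h2, mul_zpow, aG_eq_zpow _ hx, aG_eq_zpow _ hx, ← Finset.prod_zpow]
  congr 1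
  refine Finset.prod_congr rfl fun w _ => ?_
  rw [Pi.smul_apply, smul_eq_mul, mul_comm, zpow_mul]

theorem chi_sum {ι : Type*} (s : Finset ι) (n : ι → InfinitePlace K → ℤ)
    (κ : ι → InfinitePlace K → ℝ) {x : K} (hx : x ≠ 0) :
    chi (∑ i ∈ s, n i) (∑ i ∈ s, κ i) x = ∏ i ∈ s, chi (n i) (κ i) x := by
  induction s using Finset.induction_on with
  | empty => rw [Finset.sum_empty, Finset.sum_empty, Finset.prod_empty, chi_zero_zero]
  | insert i s hi ih =>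
    rw [Finset.sum_insert hi, Finset.sum_insert hi, Finset.prod_insert hi, chi_add _ _ _ _ hx, ih]

theorem chi_redG (n : InfinitePlace K → ℤ) (κ : InfinitePlace K → ℝ) {x : K} (hx : x ≠ 0) :
    chi (redG n) κ x = chi n κ x := by
  rw [chi, chi, aG_redG n hx]

theorem IsInf.redG {n : InfinitePlace K → ℤ} {κ : InfinitePlace K → ℝ} (h : IsInf n κ) :
    IsInf (redG n) κ := by
  rcases h with h | ⟨w, hw, hn⟩
  · exact Or.inl h
  · refine Or.inr ⟨w, hw, ?_⟩
    rwa [RayG.redG, if_neg (not_isReal_iff_isComplex.mpr hw)]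

/-! ### The products -/

variable {ι : Type*} [Fintype ι] {n : ι → InfinitePlace K → ℤ} {κ : ι → InfinitePlace K → ℝ}
  {ψ : ι → (Ideal (𝓞 K))⁰ →* ℂ}

/-- the product of the powers, extended by zero -/
def prodG (𝔪 : Ideal (𝓞 K)) (ψ : ι → (Ideal (𝓞 K))⁰ →* ℂ) (k : ι → ℤ) :
    (Ideal (𝓞 K))⁰ →* ℂ where
  toFun I := if IsCoprime (I : Ideal (𝓞 K)) 𝔪 then ∏ i, ψ i I ^ k i else 0
  map_one' := by
    rw [if_pos (by rw [OneMemClass.coe_one]; exact isCoprime_one_left)]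
    exact Finset.prod_eq_one fun i _ => by rw [map_one, one_zpow]
  map_mul' I J := by
    have hco : IsCoprime ((I * J : (Ideal (𝓞 K))⁰) : Ideal (𝓞 K)) 𝔪 ↔
        IsCoprime (I : Ideal (𝓞 K)) 𝔪 ∧ IsCoprime (J : Ideal (𝓞 K)) 𝔪 := by
      rw [Submonoid.coe_mul]
      exact ⟨fun h => ⟨h.of_mul_left_left, h.of_mul_left_right⟩, fun h => h.1.mul_left h.2⟩
    by_cases hI : IsCoprime (I : Ideal (𝓞 K)) 𝔪
    · by_cases hJ : IsCoprime (J : Ideal (𝓞 K)) 𝔪
      · rw [if_pos hI, if_pos hJ, if_pos (hco.mpr ⟨hI, hJ⟩), ← Finset.prod_mul_distrib]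
        exact Finset.prod_congr rfl fun i _ => by rw [map_mul, mul_zpow]
      · rw [if_neg hJ, mul_zero, if_neg fun h => hJ (hco.mp h).2]
    · rw [if_neg hI, zero_mul, if_neg fun h => hI (hco.mp h).1]

theorem prodG_apply (k : ι → ℤ) {I : (Ideal (𝓞 K))⁰} (hI : IsCoprime (I : Ideal (𝓞 K)) 𝔪) :
    prodG 𝔪 ψ k I = ∏ i, ψ i I ^ k i := if_pos hI

theorem prodG_zero (k : ι → ℤ) {I : (Ideal (𝓞 K))⁰} (hI : ¬ IsCoprime (I : Ideal (𝓞 K)) 𝔪) :
    prodG 𝔪 ψ k I = 0 := if_neg hI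

theorem gChar_prodG (h𝔪 : 𝔪 ≠ ⊥) (hψ : ∀ i, GChar (n i) (κ i) 𝔪 (ψ i)) (k : ι → ℤ) :
    GChar (redG (∑ i, k i • n i)) (∑ i, k i • κ i) 𝔪 (prodG 𝔪 ψ k) where
  norm_le I := by
    by_cases hI : IsCoprime (I : Ideal (𝓞 K)) 𝔪
    · rw [prodG_apply k hI, norm_prod]
      refine (Finset.prod_eq_one fun i _ => ?_).le
      rw [norm_zpow, (hψ i).norm_eq_one h𝔪 hI, one_zpow]
    · rw [prodG_zero k hI, norm_zero]
      exact zero_le_one
  eq_zero I hI := prodG_zero k hI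
  cong a ha ha1 := by
    have hI : IsCoprime ((sp a ha : (Ideal (𝓞 K))⁰) : Ideal (𝓞 K)) 𝔪 :=
      isCoprime_span_iff.mpr ⟨1, by rwa [one_mul]⟩
    have ha' : ((a : 𝓞 K) : K) ≠ 0 := coe_ne_zeroF ha
    rw [prodG_apply k hI, chi_redG _ _ ha', chi_sum _ _ _ ha']
    refine Finset.prod_congr rfl fun i _ => ?_
    rw [(hψ i).cong a ha ha1, chi_zsmul _ _ _ ha']

theorem isTy_prodG (hty : ∀ i, IsTy (n i) (κ i)) (k : ι → ℤ) :
    IsTy (redG (∑ i, k i • n i)) (∑ i, k i • κ i) where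
  real w hw := by
    rw [redG, if_pos hw]
    omega
  sum := by
    simp only [Finset.sum_apply]
    rw [Finset.sum_comm]
    refine Finset.sum_eq_zero fun i _ => ?_
    have h : ∀ w, (k i • κ i) w = k i * κ i w := fun w => by rw [Pi.smul_apply, zsmul_eq_mul]
    simp only [h]
    rw [← Finset.mul_sum, (hty i).sum, mul_zero]

/-! ### Equidistribution -/

/-- the point of the torus -/
def pt (ψ : ι → (Ideal (𝓞 K))⁰ →* ℂ) (I : (Ideal (𝓞 K))⁰) : UnitAddTorus ι :=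
  fun i => ((th (ψ i I) : ℝ) : UnitAddCircle)

theorem fourier_th {z : ℂ} (hz : ‖z‖ = 1) (k : ℤ) :
    fourier k ((th z : ℝ) : UnitAddCircle) = z ^ k := by
  rw [fourier_coe_apply]
  have h : (2 * Real.pi * Complex.I * k * (th z : ℝ) / ((1 : ℝ) : ℂ) : ℂ) =
      2 * Real.pi * Complex.I * k * (th z : ℝ) := by
    rw [Complex.ofReal_one, div_one]
  rw [h, e2_zpow, e2_th hz]

theorem mFourier_pt (h𝔪 : 𝔪 ≠ ⊥) (hψ : ∀ i, GChar (n i) (κ i) 𝔪 (ψ i)) (k : ι → ℤ)
    {I : (Ideal (𝓞 K))⁰} (hI : IsCoprime (I : Ideal (𝓞 K)) 𝔪) :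
    mFourier k (pt ψ I) = prodG 𝔪 ψ k I := by
  rw [prodG_apply k hI]
  change ∏ i, fourier (k i) (pt ψ I i) = _
  exact Finset.prod_congr rfl fun i _ => fourier_th ((hψ i).norm_eq_one h𝔪 hI) _

theorem exists_iff_pt (h𝔪 : 𝔪 ≠ ⊥) (hψ : ∀ i, GChar (n i) (κ i) 𝔪 (ψ i))
    {I : (Ideal (𝓞 K))⁰} (hI : IsCoprime (I : Ideal (𝓞 K)) 𝔪) (E : Set (UnitAddTorus ι)) :
    (∃ t : ι → ℝ, (∀ i, ψ i I = e2 (t i)) ∧ (fun i => ((t i : ℝ) : UnitAddCircle)) ∈ E) ↔
      pt ψ I ∈ E := by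
  constructor
  · rintro ⟨t, ht, hE⟩
    have h1 : pt ψ I = fun i => ((t i : ℝ) : UnitAddCircle) := by
      funext i
      have h2 : e2 (th (ψ i I)) = e2 (t i) := by
        rw [e2_th ((hψ i).norm_eq_one h𝔪 hI), ht i]
      obtain ⟨k, hk⟩ := e2_eq_iff.mp h2
      change ((th (ψ i I) : ℝ) : UnitAddCircle) = _
      rw [hk, AddCircle.coe_add]
      have h3 : ((k : ℝ) : UnitAddCircle) = 0 := by
        rw [AddCircle.coe_eq_zero_iff]
        exact ⟨k, by simp⟩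
      rw [h3, add_zero]
    rwa [h1]
  · intro h
    exact ⟨fun i => th (ψ i I), fun i => (e2_th ((hψ i).norm_eq_one h𝔪 hI)).symm, h⟩

variable {G : Type v} [CommGroup G] [Finite G] {cl : (Ideal (𝓞 K))⁰ →* WithZero G}

/-- **Equidistribution on the torus, in a class**, general form. -/
theorem tendsto_torus_group (hN : NonVanGStmt K) (h𝔪 : 𝔪 ≠ ⊥) (hty : ∀ i, IsTy (n i) (κ i))
    (hψ : ∀ i, GChar (n i) (κ i) 𝔪 (ψ i))
    (hinf : ∀ k : ι → ℤ, k ≠ 0 → IsInf (∑ i, k i • n i) (∑ i, k i • κ i))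
    (hcl : ∀ χ : G →* ℂˣ, NRayChar 𝔪 (Psi.psi cl χ)) (g : G)
    (hcard : Tendsto (fun x : ℕ => (Nat.card {P : Pr K // nP P ≤ x ∧ cl P.1 = (g : WithZero G)} : ℝ) *
      Real.log x / x) atTop (𝓝 (Nat.card G : ℝ)⁻¹)) {E : Set (UnitAddTorus ι)}
    (hE : haarT ι (frontier E) = 0) :
    Tendsto (fun x : ℕ => (Nat.card {P : Pr K // nP P ≤ x ∧ cl P.1 = (g : WithZero G) ∧
      ∃ t : ι → ℝ, (∀ i, ψ i P.1 = e2 (t i)) ∧ (fun i => ((t i : ℝ) : UnitAddCircle)) ∈ E} : ℝ) *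
        Real.log x / x) atTop (𝓝 ((haarT ι E).toReal / Nat.card G)) := by
  obtain ⟨D, hD⟩ := exists_isCount K
  have hG0 : (Nat.card G : ℝ) ≠ 0 := by exact_mod_cast Nat.card_pos.ne'
  have hco : ∀ P : Pr K, cl P.1 = (g : WithZero G) →
      IsCoprime ((P.1 : (Ideal (𝓞 K))⁰) : Ideal (𝓞 K)) 𝔪 := by
    intro P hP
    by_contra hI
    have h3 := (hcl 1).eq_zero P.1 hI
    have h4 : Psi.psi cl (1 : G →* ℂˣ) P.1 = 1 := by
      change Psi.chi0 1 (cl P.1) = 1
      rw [hP, Psi.chi0_coe, MonoidHom.one_apply, Units.val_one]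
    rw [h4] at h3
    exact one_ne_zero h3
  have hFc : ∀ x : ℕ, (((hD.F x).filter fun P => cl P.1 = (g : WithZero G)).card : ℝ) =
      (Nat.card {P : Pr K // nP P ≤ x ∧ cl P.1 = (g : WithZero G)} : ℝ) := by
    intro x
    rw [← Nat.card_eq_finsetCard]
    congr 1
    exact Nat.card_congr (Equiv.subtypeEquivRight fun P => by rw [Finset.mem_filter, hD.mem_F])
  have hw := weyl_set (θ := fun P : Pr K => pt ψ P.1)
    (F := fun x => (hD.F x).filter fun P => cl P.1 = (g : WithZero G))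
    (c := fun x => (Nat.card G : ℝ) * (Real.log x / x))
    (fun x => mul_nonneg (Nat.cast_nonneg _)
      (div_nonneg (Real.log_natCast_nonneg x) (Nat.cast_nonneg x))) ?_ ?_ hE
  · have h3 := hw.const_mul (Nat.card G : ℝ)⁻¹
    rw [show (Nat.card G : ℝ)⁻¹ * (haarT ι E).toReal = (haarT ι E).toReal / Nat.card G by
      rw [div_eq_mul_inv, mul_comm]] at h3
    refine h3.congr fun x => ?_
    have h4 : (((hD.F x).filter fun P => cl P.1 = (g : WithZero G)).filter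
        fun P => pt ψ P.1 ∈ E).card =
        Nat.card {P : Pr K // nP P ≤ x ∧ cl P.1 = (g : WithZero G) ∧
          ∃ t : ι → ℝ, (∀ i, ψ i P.1 = e2 (t i)) ∧
            (fun i => ((t i : ℝ) : UnitAddCircle)) ∈ E} := by
      rw [← Nat.card_eq_finsetCard]
      refine Nat.card_congr (Equiv.subtypeEquivRight fun P => ?_)
      rw [Finset.mem_filter, Finset.mem_filter, hD.mem_F, and_assoc]
      refine and_congr_right fun _ => and_congr_right fun hP => ?_
      exact (exists_iff_pt h𝔪 hψ (hco P hP) E).symm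
    rw [h4]
    field_simp
  · have h3 := hcard.const_mul (Nat.card G : ℝ)
    rw [mul_inv_cancel₀ hG0] at h3
    refine h3.congr fun x => ?_
    rw [hFc]
    ring
  · intro k hk
    have h3 := (tendsto_sum_class hN h𝔪 (isTy_prodG hty k) (hinf k hk).redG
      (gChar_prodG h𝔪 hψ k) hcl one_ne_zero hD g).const_mul (Nat.card G : ℂ)
    rw [mul_zero] at h3
    refine h3.congr fun x => ?_
    rw [tSum]
    have h4 : ∀ P ∈ (hD.F x).filter (fun P => cl P.1 = (g : WithZero G)),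
        mFourier k (pt ψ P.1) = prodG 𝔪 ψ k P.1 ^ 1 := fun P hP => by
      rw [pow_one]
      exact mFourier_pt h𝔪 hψ k (hco P (Finset.mem_filter.mp hP).2)
    rw [Finset.sum_congr rfl h4]
    push_cast
    ring

/-- **Hecke: several Groessencharaktere modulo `𝔪`, independent up to characters of finite order:
the points `(ψ i (P))_i` are equidistributed on the torus, in every narrow ray class modulo `𝔪`.** -/
theorem tendsto_torus_nray (hN : NonVanGStmt K) (h𝔪 : 𝔪 ≠ ⊥) (hty : ∀ i, IsTy (n i) (κ i))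
    (hψ : ∀ i, GChar (n i) (κ i) 𝔪 (ψ i))
    (hinf : ∀ k : ι → ℤ, k ≠ 0 → IsInf (∑ i, k i • n i) (∑ i, k i • κ i))
    {J : (Ideal (𝓞 K))⁰} (hJ : IsCoprime (J : Ideal (𝓞 K)) 𝔪) {E : Set (UnitAddTorus ι)}
    (hE : haarT ι (frontier E) = 0) :
    Tendsto (fun x : ℕ => (Nat.card {P : Pr K // nP P ≤ x ∧ NRayEq 𝔪 P.1 J ∧
      ∃ t : ι → ℝ, (∀ i, ψ i P.1 = e2 (t i)) ∧ (fun i => ((t i : ℝ) : UnitAddCircle)) ∈ E} : ℝ) *
        Real.log x / x) atTop (𝓝 ((haarT ι E).toReal / nRayNumber 𝔪)) := by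
  obtain ⟨G, _, _, cl, hsurj, hcl⟩ := groupNStmt K 𝔪 h𝔪
  have h3 : ∀ P : Pr K, (cl0 cl P.1 = (cl ⟨J, hJ⟩ : WithZero G)) ↔ NRayEq 𝔪 P.1 J := fun P => by
    rw [cl0_eq_iff_n cl hcl hJ]
    exact ⟨fun h => h.2, fun h => ⟨h.coprime hJ, h⟩⟩
  have h4 : Tendsto (fun x : ℕ => (Nat.card {P : Pr K // nP P ≤ x ∧
      cl0 cl P.1 = (cl ⟨J, hJ⟩ : WithZero G)} : ℝ) * Real.log x / x) atTop
      (𝓝 (Nat.card G : ℝ)⁻¹) := by
    rw [natCard_eq_nRayNumber cl hsurj hcl]
    simp only [h3]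
    exact tendsto_card_nray (entireNStmt K) (groupNStmt K) h𝔪 hJ
  have key := tendsto_torus_group hN h𝔪 hty hψ hinf (nRayChar_psi cl hcl) (cl ⟨J, hJ⟩) h4 hE
  rw [natCard_eq_nRayNumber cl hsurj hcl] at key
  simp only [h3] at key
  exact key

/-- **Ideal classes**, `𝔪 = 1`. -/
theorem tendsto_torus_class (hN : NonVanGStmt K) (hty : ∀ i, IsTy (n i) (κ i))
    (hψ : ∀ i, GChar (n i) (κ i) (⊤ : Ideal (𝓞 K)) (ψ i))
    (hinf : ∀ k : ι → ℤ, k ≠ 0 → IsInf (∑ i, k i • n i) (∑ i, k i • κ i))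
    (C : ClassGroup (𝓞 K)) {E : Set (UnitAddTorus ι)} (hE : haarT ι (frontier E) = 0) :
    Tendsto (fun x : ℕ => (Nat.card {P : Pr K // nP P ≤ x ∧ ClassGroup.mk0 P.1 = C ∧
      ∃ t : ι → ℝ, (∀ i, ψ i P.1 = e2 (t i)) ∧ (fun i => ((t i : ℝ) : UnitAddCircle)) ∈ E} : ℝ) *
        Real.log x / x) atTop (𝓝 ((haarT ι E).toReal / classNumber K)) := by
  have hcard : Nat.card (ClassGroup (𝓞 K)) = classNumber K := by
    rw [Nat.card_eq_fintype_card]
    rfl
  let cl : (Ideal (𝓞 K))⁰ →* WithZero (ClassGroup (𝓞 K)) :=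
    { toFun := fun I => ((ClassGroup.mk0 I : ClassGroup (𝓞 K)) : WithZero (ClassGroup (𝓞 K)))
      map_one' := by rw [map_one, WithZero.coe_one]
      map_mul' := fun I J => by rw [map_mul, WithZero.coe_mul] }
  have hcl : ∀ χ : ClassGroup (𝓞 K) →* ℂˣ, NRayChar (⊤ : Ideal (𝓞 K)) (Psi.psi cl χ) := by
    intro χ
    refine ⟨(Psi.isUnitary_psi cl χ).le, fun I hI => absurd ?_ hI, fun I a hI _ _ => ?_⟩
    · rw [← Ideal.one_eq_top]
      exact isCoprime_one_right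
    · have h3 : ClassGroup.mk0 I = 1 :=
        (ClassGroup.mk0_eq_one_iff I.2).mpr ⟨⟨a, hI⟩⟩
      change Psi.chi0 χ ((ClassGroup.mk0 I : ClassGroup (𝓞 K)) : WithZero _) = 1
      rw [h3, Psi.chi0_coe, map_one, Units.val_one]
  have h4 : ∀ P : Pr K, cl P.1 = (C : WithZero (ClassGroup (𝓞 K))) ↔ ClassGroup.mk0 P.1 = C :=
    fun P => WithZero.coe_inj
  have h5 := tendsto_torus_group hN (by exact top_ne_bot) hty hψ hinf hcl C (by
    simp only [h4]
    rw [← one_div]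
    exact prime_ideal_theorem_class K C) hE
  simp only [h4] at h5
  rw [hcard] at h5
  exact h5

end Fermat.Agent.Cor.RayG

end
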