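import Fermat.Agent.Corollaries.RayG.TorusG
import Fermat.Agent.Corollaries.RayG.ExistG

/-!
# The logarithms of the prime elements modulo the unit lattice

`K` any number field, `r` the rank of the units, `ε_1, ..., ε_r` Mathlib's fundamental units.  For
`π ≠ 0` there are unique real numbers `t_1, ..., t_r` with
`log |π|_w = ∑ t_j log |ε_j|_w + log |N π| / [K : ℚ]` for all infinite places `w`.  The points
`(t_j)` modulo one of the generators of the principal prime ideals are equidistributed on the torus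
of dimension `r` (Hecke; `tendsto_units`).
-/

set_option autoImplicit false
set_option linter.unusedSectionVars false

noncomputable section

open NumberField NumberField.InfinitePlace NumberField.Units nonZeroDivisors Filter Topology
open NumberField.Units.dirichletUnitTheorem UnitAddTorus

open scoped Classical ComplexConjugate

namespace Fermat.Agent.Cor.RayG

open Fermat.Agent.ClassL Fermat.Agent.Classic.Zeta Fermat.Agent.Cor.Ray Fermat.Agent.Cor.RayN

universe u

variable (K : Type u) [Field K] [NumberField K]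

/-- the logarithms of the fundamental units, a basis of the logarithmic space -/
def bU : Module.Basis (Fin (rank K)) ℝ (logSpace K) :=
  (basisUnitLattice K).ofZLatticeBasis ℝ (unitLattice K)

theorem bU_apply (i : Fin (rank K)) :
    bU K i = logEmbedding K (Additive.ofMul (fundSystem K i)) := by
  rw [bU, Module.Basis.ofZLatticeBasis_apply, logEmbedding_fundSystem]

/-- the coefficients of the coordinate functions -/
def cU (j : Fin (rank K)) (w : InfinitePlace K) : ℝ :=
  if h : w = w₀ then 0 else (bU K).coord j (fun w' => if ⟨w, h⟩ = w' then 1 else 0)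

/-- their mean value -/
def mU (j : Fin (rank K)) : ℝ :=
  (∑ w : InfinitePlace K, (w.mult : ℝ) * cU K j w) / Module.finrank ℚ K

/-- the exponents of the Groessencharakter with `ε_i ↦ exp (2 π i δ_ij)` -/
def κU (j : Fin (rank K)) (w : InfinitePlace K) : ℝ :=
  2 * Real.pi * (w.mult * (cU K j w - mU K j))

variable {K}

/-- the logarithmic vector of norm zero -/
def yU (x : K) : logSpace K := fun w =>
  (w.1.mult : ℝ) * (Real.log (w.1 x) - Real.log |(Algebra.norm ℚ x : ℚ)| / Module.finrank ℚ K)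

theorem log_norm {x : K} (hx : x ≠ 0) :
    Real.log |(Algebra.norm ℚ x : ℚ)| = ∑ w : InfinitePlace K, (w.mult : ℝ) * Real.log (w x) := by
  have h1 := prod_eq_abs_norm x
  have h2 : ((|(Algebra.norm ℚ x : ℚ)| : ℚ) : ℝ) = |((Algebra.norm ℚ x : ℚ) : ℝ)| := Rat.cast_abs _
  rw [← h2, ← h1, Real.log_prod]
  · exact Finset.sum_congr rfl fun w _ => Real.log_pow _ _
  · intro w _
    exact pow_ne_zero _ (w.pos_iff.mpr hx).ne'

theorem finrank_pos' : (0 : ℝ) < Module.finrank ℚ K := by
  exact_mod_cast (Module.finrank_pos (R := ℚ) (M := K))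

theorem sum_mult' : ∑ w : InfinitePlace K, (w.mult : ℝ) = Module.finrank ℚ K := by
  rw [← sum_mult_eq (K := K)]
  push_cast
  rfl

theorem coord_eq (j : Fin (rank K)) (y : logSpace K) :
    (bU K).coord j y = ∑ w : InfinitePlace K, (if h : w = w₀ then 0 else y ⟨w, h⟩) * cU K j w := by
  rw [Fintype.sum_eq_add_sum_subtype_ne _ (w₀ : InfinitePlace K), dif_pos rfl, zero_mul, zero_add,
    LinearMap.pi_apply_eq_sum_univ]
  refine Finset.sum_congr rfl fun w _ => ?_
  rw [dif_neg w.2, cU, dif_neg w.2, smul_eq_mul]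

theorem lK_κU (j : Fin (rank K)) {x : K} (hx : x ≠ 0) :
    lK (κU K j) x = 2 * Real.pi * (bU K).coord j (yU x) := by
  have hn := (finrank_pos' (K := K)).ne'
  have h1 : (bU K).coord j (yU x) = ∑ w : InfinitePlace K, (w.mult : ℝ) * (Real.log (w x) -
      Real.log |(Algebra.norm ℚ x : ℚ)| / Module.finrank ℚ K) * cU K j w := by
    rw [coord_eq]
    refine Finset.sum_congr rfl fun w _ => ?_
    by_cases h : w = w₀
    · rw [dif_pos h, zero_mul, cU, dif_pos h, mul_zero]
    · rw [dif_neg h]
      rfl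
  have h2 : lK (κU K j) x = 2 * Real.pi * (∑ w : InfinitePlace K,
      (w.mult : ℝ) * cU K j w * Real.log (w x) - mU K j *
        ∑ w : InfinitePlace K, (w.mult : ℝ) * Real.log (w x)) := by
    unfold lK κU
    rw [Finset.mul_sum, ← Finset.sum_sub_distrib, Finset.mul_sum]
    exact Finset.sum_congr rfl fun w _ => by ring
  rw [h1, h2, ← log_norm hx, mU]
  congr 1
  have h3 : ∀ w : InfinitePlace K, (w.mult : ℝ) * (Real.log (w x) -
      Real.log |(Algebra.norm ℚ x : ℚ)| / Module.finrank ℚ K) * cU K j w =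
      (w.mult : ℝ) * cU K j w * Real.log (w x) -
        Real.log |(Algebra.norm ℚ x : ℚ)| / Module.finrank ℚ K * ((w.mult : ℝ) * cU K j w) :=
    fun w => by ring
  rw [Finset.sum_congr rfl fun w _ => h3 w, Finset.sum_sub_distrib, ← Finset.mul_sum]
  ring

theorem norm_unit (v : (𝓞 K)ˣ) : Real.log |(Algebra.norm ℚ ((v : 𝓞 K) : K) : ℚ)| = 0 := by
  rw [log_norm (by exact_mod_cast v.ne_zero)]
  exact sum_mult_mul_log v

theorem yU_unit (v : (𝓞 K)ˣ) : yU ((v : 𝓞 K) : K) = logEmbedding K (Additive.ofMul v) := by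
  funext w
  rw [yU, norm_unit, zero_div, sub_zero]
  rfl

theorem coord_unit (j : Fin (rank K)) (v : (𝓞 K)ˣ) :
    ∃ k : ℤ, (bU K).coord j (yU ((v : 𝓞 K) : K)) = k := by
  have h1 : logEmbedding K (Additive.ofMul v) ∈ unitLattice K := ⟨Additive.ofMul v, trivial, rfl⟩
  refine ⟨(basisUnitLattice K).repr ⟨_, h1⟩ j, ?_⟩
  rw [yU_unit, Module.Basis.coord_apply, bU]
  exact Module.Basis.ofZLatticeBasis_repr_apply ℝ (unitLattice K) (basisUnitLattice K) ⟨_, h1⟩ j

theorem coord_fund (i j : Fin (rank K)) :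
    (bU K).coord j (yU ((fundSystem K i : 𝓞 K) : K)) = if i = j then 1 else 0 := by
  rw [yU_unit, ← bU_apply, Module.Basis.coord_apply, Module.Basis.repr_self, Finsupp.single_apply]

/-! ### Coordinates -/

/-- **The coordinates of the logarithmic vector.** -/
theorem log_eq_sum {x : K} (hx : x ≠ 0) (w : InfinitePlace K) :
    Real.log (w x) = ∑ j, (bU K).coord j (yU x) * Real.log (w ((fundSystem K j : 𝓞 K) : K)) +
      Real.log |(Algebra.norm ℚ x : ℚ)| / Module.finrank ℚ K := by
  have hm : ∀ w : InfinitePlace K, (w.mult : ℝ) ≠ 0 := fun w => by exact_mod_cast w.mult_pos.ne'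
  have h1 : ∀ w : {w : InfinitePlace K // w ≠ w₀}, Real.log (w.1 x) =
      ∑ j, (bU K).coord j (yU x) * Real.log (w.1 ((fundSystem K j : 𝓞 K) : K)) +
        Real.log |(Algebra.norm ℚ x : ℚ)| / Module.finrank ℚ K := by
    intro w
    have h2 := congrFun ((bU K).sum_repr (yU x)) w
    rw [Finset.sum_apply] at h2
    have h3 : ∀ j, ((bU K).repr (yU x) j • bU K j) w =
        (w.1.mult : ℝ) * ((bU K).coord j (yU x) *
          Real.log (w.1 ((fundSystem K j : 𝓞 K) : K))) := by
      intro j
      rw [Pi.smul_apply, bU_apply, logEmbedding_component, smul_eq_mul, Module.Basis.coord_apply]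
      ring
    rw [Finset.sum_congr rfl fun j _ => h3 j, ← Finset.mul_sum] at h2
    have h4 := mul_left_cancel₀ (hm w.1) h2
    rw [h4]
    ring
  by_cases hw : w = w₀
  · subst hw
    -- the sum with multiplicities
    have h5 : ∑ w : InfinitePlace K, (w.mult : ℝ) * (Real.log (w x) -
        (∑ j, (bU K).coord j (yU x) * Real.log (w ((fundSystem K j : 𝓞 K) : K)) +
          Real.log |(Algebra.norm ℚ x : ℚ)| / Module.finrank ℚ K)) = 0 := by
      have hn := (finrank_pos' (K := K)).ne'
      have h6 : ∑ w : InfinitePlace K, (w.mult : ℝ) * ∑ j, (bU K).coord j (yU x) *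
          Real.log (w ((fundSystem K j : 𝓞 K) : K)) = 0 := by
        simp only [Finset.mul_sum]
        rw [Finset.sum_comm]
        refine Finset.sum_eq_zero fun j _ => ?_
        have h7 := sum_mult_mul_log (fundSystem K j)
        calc ∑ w : InfinitePlace K, (w.mult : ℝ) * ((bU K).coord j (yU x) *
            Real.log (w ((fundSystem K j : 𝓞 K) : K)))
            = (bU K).coord j (yU x) * ∑ w : InfinitePlace K, (w.mult : ℝ) *
              Real.log (w ((fundSystem K j : 𝓞 K) : K)) := by
              rw [Finset.mul_sum]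
              exact Finset.sum_congr rfl fun w _ => by ring
          _ = 0 := by
              rw [h7, mul_zero]
      have h8 : ∀ w : InfinitePlace K, (w.mult : ℝ) * (Real.log (w x) -
          (∑ j, (bU K).coord j (yU x) * Real.log (w ((fundSystem K j : 𝓞 K) : K)) +
            Real.log |(Algebra.norm ℚ x : ℚ)| / Module.finrank ℚ K)) =
          (w.mult : ℝ) * Real.log (w x) - (w.mult : ℝ) * ∑ j, (bU K).coord j (yU x) *
            Real.log (w ((fundSystem K j : 𝓞 K) : K)) -
              (w.mult : ℝ) * (Real.log |(Algebra.norm ℚ x : ℚ)| / Module.finrank ℚ K) :=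
        fun w => by ring
      rw [Finset.sum_congr rfl fun w _ => h8 w, Finset.sum_sub_distrib, Finset.sum_sub_distrib, h6,
        ← Finset.sum_mul, sum_mult', ← log_norm hx]
      field_simp
      ring
    rw [Fintype.sum_eq_add_sum_subtype_ne _ (w₀ : InfinitePlace K)] at h5
    have h9 : ∑ w : {w : InfinitePlace K // w ≠ w₀}, (w.1.mult : ℝ) * (Real.log (w.1 x) -
        (∑ j, (bU K).coord j (yU x) * Real.log (w.1 ((fundSystem K j : 𝓞 K) : K)) +
          Real.log |(Algebra.norm ℚ x : ℚ)| / Module.finrank ℚ K)) = 0 :=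
      Finset.sum_eq_zero fun w _ => by rw [← h1 w, sub_self, mul_zero]
    rw [h9, add_zero] at h5
    have h10 := (mul_eq_zero.mp h5).resolve_left (hm w₀)
    linarith
  · exact h1 ⟨w, hw⟩

/-- **The coordinates are unique.** -/
theorem coord_eq_of_log {x : K} {t : Fin (rank K) → ℝ}
    (h : ∀ w : InfinitePlace K, Real.log (w x) = ∑ j, t j *
      Real.log (w ((fundSystem K j : 𝓞 K) : K)) +
        Real.log |(Algebra.norm ℚ x : ℚ)| / Module.finrank ℚ K) (j : Fin (rank K)) :
    (bU K).coord j (yU x) = t j := by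
  have h1 : yU x = ∑ j, t j • bU K j := by
    funext w
    rw [Finset.sum_apply, yU, h w.1, add_sub_cancel_right, Finset.mul_sum]
    refine Finset.sum_congr rfl fun j _ => ?_
    rw [Pi.smul_apply, bU_apply, logEmbedding_component, smul_eq_mul]
    ring
  rw [h1, Module.Basis.coord_apply, Module.Basis.repr_sum_self]

/-! ### The Groessencharaktere -/

theorem chi_κU (j : Fin (rank K)) {x : K} (hx : x ≠ 0) :
    chi (0 : InfinitePlace K → ℤ) (κU K j) x = e2 ((bU K).coord j (yU x)) := by
  rw [chi, aG_zero_left, one_mul, lK_κU j hx, eI, e2]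
  congr 1
  push_cast
  ring

theorem isTy_κU (j : Fin (rank K)) : IsTy (0 : InfinitePlace K → ℤ) (κU K j) where
  real w _ := by simp
  sum := by
    have hn := (finrank_pos' (K := K)).ne'
    unfold κU
    rw [← Finset.mul_sum]
    have h1 : ∀ w : InfinitePlace K, (w.mult : ℝ) * (cU K j w - mU K j) =
        (w.mult : ℝ) * cU K j w - (w.mult : ℝ) * mU K j := fun w => by ring
    rw [Finset.sum_congr rfl fun w _ => h1 w, Finset.sum_sub_distrib, ← Finset.sum_mul, sum_mult',
      mU, mul_div_cancel₀ _ hn, sub_self, mul_zero]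

theorem lK_sum {ι : Type*} [Fintype ι] (k : ι → ℤ) (κ : ι → InfinitePlace K → ℝ) (x : K) :
    lK (∑ i, k i • κ i) x = ∑ i, k i * lK (κ i) x := by
  unfold lK
  simp only [Finset.mul_sum, Finset.sum_apply, Finset.sum_mul]
  rw [Finset.sum_comm]
  refine Finset.sum_congr rfl fun i _ => Finset.sum_congr rfl fun w _ => ?_
  rw [Pi.smul_apply, zsmul_eq_mul, mul_assoc]

theorem isInf_κU (k : Fin (rank K) → ℤ) (hk : k ≠ 0) :
    IsInf (∑ j, k j • (0 : InfinitePlace K → ℤ)) (∑ j, k j • κU K j) := by
  left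
  intro h0
  obtain ⟨i, hi⟩ := Function.ne_iff.mp hk
  have hx : ((fundSystem K i : 𝓞 K) : K) ≠ 0 := by exact_mod_cast (fundSystem K i).ne_zero
  have h1 := lK_sum k (κU K) ((fundSystem K i : 𝓞 K) : K)
  rw [h0, lK_zero_left] at h1
  have h2 : ∀ j, (k j : ℝ) * lK (κU K j) ((fundSystem K i : 𝓞 K) : K) =
      if i = j then (k j : ℝ) * (2 * Real.pi) else 0 := by
    intro j
    rw [lK_κU j hx, coord_fund]
    split_ifs <;> ring
  rw [Finset.sum_congr rfl fun j _ => h2 j, Finset.sum_ite_eq, if_pos (Finset.mem_univ i)] at h1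
  have h3 : (k i : ℝ) ≠ 0 := by exact_mod_cast hi
  exact mul_ne_zero h3 (by positivity) h1.symm

theorem exists_gCharU (j : Fin (rank K)) :
    ∃ ψ : (Ideal (𝓞 K))⁰ →* ℂ, GChar (0 : InfinitePlace K → ℤ) (κU K j) (⊤ : Ideal (𝓞 K)) ψ := by
  refine existG K 0 (κU K j) ⊤ (by exact top_ne_bot) fun v _ => ?_
  obtain ⟨k, hk⟩ := coord_unit j v
  rw [chi_κU j (by exact_mod_cast v.ne_zero), hk, e2_int]

/-- **Hecke: in every number field the logarithmic vectors of the generators of the principal prime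
ideals are equidistributed modulo the lattice of the units.** -/
theorem tendsto_units (hN : NonVanGStmt K) {E : Set (UnitAddTorus (Fin (rank K)))}
    (hE : haarT (Fin (rank K)) (frontier E) = 0) :
    Tendsto (fun x : ℕ => (Nat.card {P : Pr K // nP P ≤ x ∧
      ∃ (π : 𝓞 K) (t : Fin (rank K) → ℝ),
        ((P.1 : (Ideal (𝓞 K))⁰) : Ideal (𝓞 K)) = Ideal.span {π} ∧
        (∀ w : InfinitePlace K, Real.log (w (π : K)) =
          ∑ j, t j * Real.log (w ((fundSystem K j : 𝓞 K) : K)) +
            Real.log |(Algebra.norm ℚ (π : K) : ℚ)| / Module.finrank ℚ K) ∧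
        (fun j => ((t j : ℝ) : UnitAddCircle)) ∈ E} : ℝ) * Real.log x / x) atTop
      (𝓝 ((haarT (Fin (rank K)) E).toReal / classNumber K)) := by
  choose ψ hψ using fun j : Fin (rank K) => exists_gCharU (K := K) j
  have key := tendsto_torus_class hN (fun j => isTy_κU j) hψ
    (fun k hk => isInf_κU k hk) (1 : ClassGroup (𝓞 K)) hE
  refine key.congr fun x => ?_
  congr 6
  funext P
  refine propext (and_congr_right fun _ => ?_)
  -- the value at a generator
  have hval : ∀ (a : 𝓞 K), ((P.1 : (Ideal (𝓞 K))⁰) : Ideal (𝓞 K)) = Ideal.span {a} →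
      (a : K) ≠ 0 ∧ ∀ j, ψ j P.1 = e2 ((bU K).coord j (yU (a : K))) := by
    intro a ha
    have ha0 : a ≠ 0 := by
      rintro rfl
      rw [Ideal.span_singleton_eq_bot.mpr rfl] at ha
      exact nonZeroDivisors.coe_ne_zero _ ha
    have ha' : (a : K) ≠ 0 := coe_ne_zeroF ha0
    refine ⟨ha', fun j => ?_⟩
    have h1 : P.1 = sp a ha0 := Subtype.ext ha
    rw [h1, (hψ j).cong a ha0 Submodule.mem_top, chi_κU j ha']
  constructor
  · rintro ⟨hP, t, ht, htE⟩
    obtain ⟨a, ha⟩ := (ClassGroup.mk0_eq_one_iff P.1.2).mp hP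
    obtain ⟨ha0, hval'⟩ := hval a ha
    refine ⟨a, fun j => (bU K).coord j (yU (a : K)), ha, log_eq_sum ha0, ?_⟩
    have h1 : (fun j => (((bU K).coord j (yU (a : K)) : ℝ) : UnitAddCircle)) =
        fun j => ((t j : ℝ) : UnitAddCircle) := by
      funext j
      obtain ⟨k, hk⟩ := e2_eq_iff.mp ((hval' j).symm.trans (ht j))
      rw [hk, AddCircle.coe_add]
      have h3 : ((k : ℝ) : UnitAddCircle) = 0 := by
        rw [AddCircle.coe_eq_zero_iff]
        exact ⟨k, by simp⟩
      rw [h3, add_zero]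
    rw [h1]
    exact htE
  · rintro ⟨π, t, hπ, ht, htE⟩
    obtain ⟨hπ0, hval'⟩ := hval π hπ
    refine ⟨(ClassGroup.mk0_eq_one_iff P.1.2).mpr ⟨⟨π, hπ⟩⟩, t, fun j => ?_, htE⟩
    rw [hval' j, coord_eq_of_log ht j]

end Fermat.Agent.Cor.RayG

end
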