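import Fermat.Agent.Corollaries.RayG.GrowG
import Fermat.Agent.Corollaries.RayG.NonVanG
import Fermat.Agent.Corollaries.ZetaK.GammaOrd

/-!
# The zeros of the `L`-functions of Groessencharaktere

`hecke_zeros`: `ψ` a primitive Groessencharakter of infinite order of type `(n, κ)`, `L(s, ψ)` its
entire `L`-function: **infinitely many zeros with `0 < Re s < 1`**, none with `Re s ≥ 1`, and the
order at `s`, `Re s ≤ 0`, is the number of the infinite places `w` with
`m_w s + |n_w| - i κ_w ∈ {0, -2, -4, …}`.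
-/

set_option autoImplicit false
set_option linter.unusedSectionVars false

noncomputable section

namespace Fermat.Agent.Cor.RayG

open NumberField NumberField.InfinitePlace NumberField.Units MeasureTheory Set Filter Topology
open Fermat.Agent.Classic.Zeta Fermat.Agent.Cor.Ray
open Fermat.Agent.Cor.RayF (DC DC_pos ofReal_cpow_ne_zero)
open Fermat.Agent.Cor.ZetaK (ord_mul ord_eq_zero)
open scoped nonZeroDivisors ComplexConjugate Classical

universe u

variable {K : Type u} [Field K] [NumberField K] {m : Ideal (𝓞 K)} {ψ : (Ideal (𝓞 K))⁰ →* ℂ}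
  {n : InfinitePlace K → ℤ} {κ : InfinitePlace K → ℝ}

/-! ### The Gamma factor -/

theorem ord_prod {ι : Type*} (T : Finset ι) {f : ι → ℂ → ℂ} {s : ℂ}
    (hf : ∀ i, AnalyticAt ℂ (f i) s) :
    analyticOrderAt (fun z => ∏ i ∈ T, f i z) s = ∑ i ∈ T, analyticOrderAt (f i) s := by
  induction T using Finset.induction_on with
  | empty =>
    simp only [Finset.prod_empty, Finset.sum_empty]
    exact ord_eq_zero analyticAt_const one_ne_zero
  | insert a T ha ih =>
    simp only [Finset.prod_insert ha, Finset.sum_insert ha]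
    rw [ord_mul (hf a) (Finset.analyticAt_fun_prod _ fun i _ => hf i), ih]

variable (n κ) in
/-- the inverse of the local factor -/
def locI (w : InfinitePlace K) (s : ℂ) : ℂ :=
  ((Real.pi * w.mult : ℝ) : ℂ) ^ (sgG n κ s w / 2) * (Complex.Gamma (sgG n κ s w / 2))⁻¹

theorem gGi_eq : gGi n κ = fun s => ∏ w : InfinitePlace K, locI n κ w s := by
  funext s
  rw [gGi, gamG, ← Finset.prod_inv_distrib]
  refine Finset.prod_congr rfl fun w _ => ?_
  rw [locI, mul_inv, Complex.cpow_neg, inv_inv]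

theorem hasDerivAt_sgG (w : InfinitePlace K) (s : ℂ) :
    HasDerivAt (fun z : ℂ => sgG n κ z w / 2) ((w.mult : ℂ) / 2) s := by
  unfold sgG
  have h := (((((hasDerivAt_id s).const_mul (w.mult : ℂ)).add_const
    ((n w).natAbs : ℂ)).sub_const ((κ w : ℂ) * Complex.I))).div_const 2
  simpa using h

theorem differentiable_sgG (w : InfinitePlace K) :
    Differentiable ℂ fun z : ℂ => sgG n κ z w / 2 := fun s =>
  (hasDerivAt_sgG w s).differentiableAt

theorem differentiable_locI (w : InfinitePlace K) : Differentiable ℂ (locI n κ w) := by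
  refine Differentiable.mul ?_ ?_
  · exact (differentiable_sgG w).const_cpow (Or.inl (pi_mult_ne_zero w))
  · exact Complex.differentiable_one_div_Gamma.comp (differentiable_sgG w)

/-- the order of the inverse of a local factor -/
theorem analyticOrderAt_locI (w : InfinitePlace K) (s : ℂ) :
    analyticOrderAt (locI n κ w) s = if ∃ k : ℕ, sgG n κ s w = -(2 * k) then 1 else 0 := by
  have hc : Differentiable ℂ fun z : ℂ => ((Real.pi * w.mult : ℝ) : ℂ) ^ (sgG n κ z w / 2) :=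
    (differentiable_sgG w).const_cpow (Or.inl (pi_mult_ne_zero w))
  have hg : Differentiable ℂ fun z : ℂ => (Complex.Gamma (sgG n κ z w / 2))⁻¹ :=
    Complex.differentiable_one_div_Gamma.comp (differentiable_sgG w)
  have h1 : analyticOrderAt (fun z : ℂ => (Complex.Gamma (sgG n κ z w / 2))⁻¹) s =
      analyticOrderAt (fun z : ℂ => (Complex.Gamma z)⁻¹) (sgG n κ s w / 2) := by
    refine analyticOrderAt_comp_of_deriv_ne_zero (f := fun z : ℂ => (Complex.Gamma z)⁻¹)
      (g := fun z : ℂ => sgG n κ z w / 2) (z₀ := s) ((differentiable_sgG w).analyticAt s) ?_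
    rw [(hasDerivAt_sgG w s).deriv]
    exact div_ne_zero (Nat.cast_ne_zero.mpr w.mult_pos.ne') two_ne_zero
  have h2 : locI n κ w = fun z : ℂ => ((Real.pi * w.mult : ℝ) : ℂ) ^ (sgG n κ z w / 2) *
      (Complex.Gamma (sgG n κ z w / 2))⁻¹ := rfl
  rw [h2, ord_mul (hc.analyticAt s) (hg.analyticAt s), ord_eq_zero (hc.analyticAt s)
    ((Complex.cpow_ne_zero_iff).mpr (Or.inl (pi_mult_ne_zero w))), zero_add, h1,
    ZetaK.analyticOrderAt_inv_Gamma]
  refine if_congr (exists_congr fun k => ⟨fun h => ?_, fun h => ?_⟩) rfl rfl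
  · linear_combination 2 * h
  · linear_combination h / 2

/-- **the order of the inverse of the Gamma factor**: the number of the places `w` with
`σ_w(s) ∈ {0, -2, -4, …}` -/
theorem analyticOrderAt_gGi (s : ℂ) : analyticOrderAt (gGi n κ) s =
    ((Finset.univ.filter fun w : InfinitePlace K =>
      ∃ k : ℕ, sgG n κ s w = -(2 * k)).card : ℕ∞) := by
  rw [gGi_eq, ord_prod _ fun w => (differentiable_locI w).analyticAt s,
    Finset.sum_congr rfl fun w _ => analyticOrderAt_locI w s, Finset.sum_boole]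

/-! ### The zeros -/

/-- **The zeros of the `L`-functions of Groessencharaktere.** -/
theorem zeros_LG (hty : IsTy n κ) (hinf : IsInf n κ) (hm : m ≠ ⊥) (h : GChar n κ m ψ)
    (hp : IsPrimG n κ m ψ) {L : ℂ → ℂ} (hL : Differentiable ℂ L)
    (hLs : ∀ s : ℂ, 1 < s.re → L s = Ray.Ls ψ s) :
    (∀ s : ℂ, 1 ≤ s.re → L s ≠ 0) ∧
      (∀ s : ℂ, s.re ≤ 0 → analyticOrderAt L s = analyticOrderAt (gGi n κ) s) ∧
      {s : ℂ | 0 < s.re ∧ s.re < 1 ∧ L s = 0}.Infinite := by
  have h0 : n ≠ 0 ∨ κ ≠ 0 := hinf.or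
  obtain ⟨τ, hτ, hG⟩ := exists_gaussG hm h hp
  have hW := norm_rootG (n := n) hm hτ
  obtain ⟨Λ, hΛ, h1', hfe⟩ := funEq_of_gaussG hty h0 hm h hG
  have h1 : ∀ s : ℂ, 1 < s.re → Λ s = (DC m : ℂ) ^ (s / 2) * gamG n κ s * Ray.Ls ψ s := h1'
  obtain ⟨L₀, hL₀, hL₀s, hL₀1⟩ := nonVanG (lFunG (entireGStmt_of (thetaGStmt K) (torusGStmt K)
    (decayGStmt_of (zeroGStmt K)) (mellinGStmt_of (unfoldGStmt K) (gammaGStmt K))))
    n κ hty hinf m hm ψ h
  have hLL : L = L₀ := eq_of_re_gtG hL hL₀ fun s hs => by rw [hLs s hs, hL₀s s hs]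
  have hL1 : ∀ s : ℂ, 1 ≤ s.re → L s ≠ 0 := by
    rw [hLL]
    exact hL₀1
  have hD0 : (DC m : ℂ) ≠ 0 := Complex.ofReal_ne_zero.mpr (DC_pos hm).ne'
  have hDs : ∀ z : ℂ, (DC m : ℂ) ^ z ≠ 0 := ofReal_cpow_ne_zero (DC_pos hm)
  have hDd : Differentiable ℂ fun s : ℂ => (DC m : ℂ) ^ (s / 2) :=
    (differentiable_id.div_const 2).const_cpow (Or.inl hD0)
  have key : (fun s => gGi n κ s * Λ s) = fun s => (DC m : ℂ) ^ (s / 2) * L s := by
    refine eq_of_re_gtG ((differentiable_gGi n κ).mul hΛ) (hDd.mul hL) fun s hs => ?_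
    have hg : gamG n κ s ≠ 0 := gamG_ne_zero (by linarith)
    change gGi n κ s * Λ s = (DC m : ℂ) ^ (s / 2) * L s
    rw [h1 s hs, hLs s hs, gGi]
    field_simp
  have key' : ∀ s, gGi n κ s * Λ s = (DC m : ℂ) ^ (s / 2) * L s := fun s => congrFun key s
  have hΛ1 : ∀ s : ℂ, 1 ≤ s.re → Λ s ≠ 0 := by
    intro s hs h0
    have h2 := key' s
    rw [h0, mul_zero] at h2
    exact mul_ne_zero (hDs _) (hL1 s hs) h2.symm
  have hΛ0 : ∀ s : ℂ, s.re ≤ 0 → Λ s ≠ 0 := by
    intro s hs h0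
    have h2 := hfe s
    rw [h0] at h2
    have h3 : Λ (1 - conj s) ≠ 0 := hΛ1 _ (by
      rw [Complex.sub_re, Complex.one_re, Complex.conj_re]
      linarith)
    have h4 : rootG n m τ ≠ 0 := by
      rw [← norm_ne_zero_iff, hW]
      exact one_ne_zero
    exact mul_ne_zero h4 ((map_ne_zero _).mpr h3) h2.symm
  refine ⟨hL1, fun s hs => ?_, ?_⟩
  · have e1 : analyticOrderAt (fun s => gGi n κ s * Λ s) s = analyticOrderAt (gGi n κ) s := by
      rw [ord_mul ((differentiable_gGi n κ).analyticAt s) (hΛ.analyticAt s),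
        ord_eq_zero (hΛ.analyticAt s) (hΛ0 s hs), add_zero]
    rw [← e1, key, ord_mul (hDd.analyticAt s) (hL.analyticAt s),
      ord_eq_zero (hDd.analyticAt s) (hDs _), zero_add]
  · have h2 : {s : ℂ | s * (1 - s) * Λ s = 0}.Infinite :=
      infinite_zeros_of_growth (by fun_prop) (hasGrowth_LG hty h0 hm h hΛ hW h1 hfe)
        (exists_lt_norm_LG hm h h1)
    refine (h2.sdiff (Set.toFinite ({0, 1} : Set ℂ))).mono fun s hs => ?_
    obtain ⟨hs1, hs2⟩ := hs
    rw [Set.mem_insert_iff, Set.mem_singleton_iff, not_or] at hs2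
    have h3 : Λ s = 0 := by
      rcases mul_eq_zero.mp (show s * (1 - s) * Λ s = 0 from hs1) with h3 | h3
      · rcases mul_eq_zero.mp h3 with h4 | h4
        · exact absurd h4 hs2.1
        · exact absurd (sub_eq_zero.mp h4).symm hs2.2
      · exact h3
    refine ⟨?_, ?_, ?_⟩
    · by_contra hcon
      exact hΛ0 s (not_lt.mp hcon) h3
    · by_contra hcon
      exact hΛ1 s (not_lt.mp hcon) h3
    · have h4 := key' s
      rw [h3, mul_zero] at h4
      exact (mul_eq_zero.mp h4.symm).resolve_left (hDs _)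

/-- **The zeros of the `L`-function of a primitive Groessencharakter `ψ` modulo `m` of infinite
order, of type `(n, κ)`.** `L` is the entire function with `L(s) = ∑ ψ(I) N(I)^{-s}` for `Re s > 1`.
It has infinitely many zeros with `0 < Re s < 1`, none with `Re s ≥ 1`, and its order at a point
with `Re s ≤ 0` is the number of the infinite places `w` for which
`m_w s + |n_w| - i κ_w` is one of the numbers `0, -2, -4, …` (`m_w = 1, 2` for `w` real, complex). -/
theorem hecke_zeros (hty : IsTy n κ) (hinf : IsInf n κ) (hm : m ≠ ⊥) (h : GChar n κ m ψ)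
    (hp : ∀ 𝔫 : Ideal (𝓞 K), m ≤ 𝔫 → 𝔫 ≠ m → ∃ (a : 𝓞 K) (ha : a ≠ 0),
      IsCoprime (Ideal.span {a}) m ∧ a - 1 ∈ 𝔫 ∧ ψ (sp a ha) ≠ chi n κ (a : K))
    {L : ℂ → ℂ} (hL : Differentiable ℂ L) (hLs : ∀ s : ℂ, 1 < s.re →
      L s = ∑' I : (Ideal (𝓞 K))⁰, ψ I * (Ideal.absNorm (I : Ideal (𝓞 K)) : ℂ) ^ (-s)) :
    {s : ℂ | 0 < s.re ∧ s.re < 1 ∧ L s = 0}.Infinite ∧ (∀ s : ℂ, 1 ≤ s.re → L s ≠ 0) ∧
      ∀ s : ℂ, s.re ≤ 0 → analyticOrderAt L s = ((Finset.univ.filter fun w : InfinitePlace K =>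
        ∃ k : ℕ, (w.mult : ℂ) * s + (n w).natAbs - κ w * Complex.I = -(2 * k)).card : ℕ∞) := by
  obtain ⟨h1, h2, h3⟩ := zeros_LG hty hinf hm h hp hL hLs
  refine ⟨h3, h1, fun s hs => ?_⟩
  rw [h2 s hs, analyticOrderAt_gGi]
  rfl

end Fermat.Agent.Cor.RayG

end
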